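import Fermat.Agent.SS.Side

/-!
`ndeg J = 2(q+1)ψ(M)` on `X₀(Mq)` and, for any two scales, a frame of that many functions whose
restrictions to the two components are independent over `k[J̄]`.
-/

set_option autoImplicit false
set_option linter.unusedSectionVars false
set_option synthInstance.maxHeartbeats 200000
set_option linter.style.haveILetI false

noncomputable section

open ModularCurve AlgebraicCurve Polynomial IsLocalRing
open FLTAgent.Reduction
open FLTAgent.RR (Bd KK)

namespace FLTAgent.SS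

theorem ndeg_algHom {F F' : Type*} [Field F] [Field F'] [Algebra Qb F] [Algebra Qb F']
    (φ : F →ₐ[Qb] F') (x : F) :
    RR.ndeg Qb (φ x) = RR.ndeg Qb x * finrankAlong Qb φ := by
  letI := algebraAlong φ
  haveI := isScalarTower_along φ
  exact HeckeJ.ndeg_algebraMap x

variable {M q : ℕ} [NeZero M] [NeZero q] {A : ValuationSubring Qb}

/-- `j(τ)` at level `Mq` -/
abbrev aFn (M q : ℕ) [NeZero M] [NeZero q] : FB (M * q) := i1 M q (ModFun.jBar M)

/-- `j(qτ)` at level `Mq` -/
abbrev bFn (M q : ℕ) [NeZero M] [NeZero q] : FB (M * q) := i2 M q (ModFun.jBar M)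

/-- `j(qτ)` has no pole where `j(τ)` has none -/
theorem isIntegralElem_bFn :
    (Polynomial.aeval (R := Qb) (aFn M q)).toRingHom.IsIntegralElem (bFn M q) := by
  obtain ⟨c, hc0, hc⟩ := ModFun.relation_bar q
  set n := ModFun.idx q
  refine ⟨Polynomial.X ^ n + ∑ m ∈ Finset.range n,
      Polynomial.C (c (m + 1)) * Polynomial.X ^ (n - (m + 1)), Polynomial.monic_X_pow_add ?_, ?_⟩
  · refine (Polynomial.degree_sum_le _ _).trans_lt ?_
    refine (Finset.sup_lt_iff (WithBot.bot_lt_coe _)).mpr fun m hm => ?_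
    refine (Polynomial.degree_C_mul_X_pow_le _ _).trans_lt ?_
    exact Nat.cast_lt.mpr (by have := Finset.mem_range.mp hm; omega)
  · simp only [eval₂_add, eval₂_pow, eval₂_X, eval₂_finsetSum, eval₂_mul, eval₂_C,
      AlgHom.toRingHom_eq_coe, RingHom.coe_coe]
    refine Subtype.ext ?_
    have ha : ((aFn M q : FB (M * q)) : LaurentSeries Qb) =
        ((ModFun.jBar q : FB q) : LaurentSeries Qb) := by
      rw [coe_heckeAlphaBar]; rfl
    have hb : ((bFn M q : FB (M * q)) : LaurentSeries Qb) =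
        ((ModFun.jNBar q : FB q) : LaurentSeries Qb) := by
      rw [coe_heckeBetaBar]
      show qExpand Qb q (coeffEmb Qb jq) = coeffEmb Qb (qExpand ℚ q jq)
      rw [coeffEmb, ← coeffMap_qExpand]
    have hp : ∀ p : Qb[X], ((Polynomial.aeval (aFn M q) p : FB (M * q)) : LaurentSeries Qb) =
        ((Polynomial.aeval (ModFun.jBar q) p : FB q) : LaurentSeries Qb) := fun p =>
      (Polynomial.aeval_algHom_apply (modularFunctionFieldBar (M * q)).val (aFn M q) p).symm.trans
        ((congrArg (fun t => Polynomial.aeval t p) ha).trans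
          (Polynomial.aeval_algHom_apply (modularFunctionFieldBar q).val (ModFun.jBar q) p))
    have h := congrArg (fun z : FB q => (z : LaurentSeries Qb)) hc
    rw [Finset.sum_range_succ', hc0, map_one, one_mul, Nat.sub_zero, add_comm] at h
    simpa only [AddMemClass.coe_add, AddSubmonoidClass.coe_finsetSum, MulMemClass.coe_mul,
      SubmonoidClass.coe_pow, ZeroMemClass.coe_zero, hp, hb] using h

theorem mem_regOn_of_aeval {F : Type*} [Field F] [Algebra Qb F] {x y : F}
    (h : (Polynomial.aeval (R := Qb) x).toRingHom.IsIntegralElem y) : y ∈ regOn Qb x :=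
  mem_regOn_of_isIntegral _ (fun _ => Algebra.adjoin_le
    (Set.singleton_subset_iff.mpr (self_mem_regOn _))
    (Polynomial.aeval_mem_adjoin_singleton Qb _)) h

theorem bFn_mem_regOn : bFn M q ∈ regOn Qb (aFn M q) := mem_regOn_of_aeval isIntegralElem_bFn

variable (C : Ctx A M q)
include C

theorem transcendental_aFn : Transcendental Qb (aFn M q) :=
  fun h => ModFun.transcendental_jBar M
    ((isAlgebraic_algHom_iff (i1 M q) (i1 M q).toRingHom.injective).mp h)

theorem atkinW_aFn : atkinW M q (aFn M q) = bFn M q := atkinW_i1 C _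

theorem atkinW_bFn : atkinW M q (bFn M q) = aFn M q := atkinW_i2 C _

theorem transcendental_bFn : Transcendental Qb (bFn M q) :=
  fun h => ModFun.transcendental_jBar M
    ((isAlgebraic_algHom_iff (i2 M q) (i2 M q).toRingHom.injective).mp h)

theorem aFn_mem_regOn : aFn M q ∈ regOn Qb (bFn M q) := by
  obtain ⟨p, hp, h⟩ := isIntegralElem_bFn (M := M) (q := q)
  refine mem_regOn_of_aeval ⟨p, hp, ?_⟩
  have h1 := congrArg (atkinW M q) h
  rw [map_zero, ← AlgHom.coe_toRingHom, Polynomial.hom_eval₂, AlgHom.coe_toRingHom,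
    atkinW_bFn C] at h1
  refine Eq.trans ?_ h1
  congr 1
  refine RingHom.ext fun r => ?_
  show Polynomial.aeval (bFn M q) r = atkinW M q (Polynomial.aeval (aFn M q) r)
  rw [← Polynomial.aeval_algHom_apply, atkinW_aFn C]

theorem aFn_ne_zero : aFn M q ≠ 0 := ne_zero_of_transc (transcendental_aFn C)

theorem bFn_ne_zero : bFn M q ≠ 0 := ne_zero_of_transc (transcendental_bFn C)

theorem Jfn_ne_zero : Jfn M q ≠ 0 := mul_ne_zero (aFn_ne_zero C) (bFn_ne_zero C)

theorem ord_aFn_neg_iff (v : Place Qb (FB (M * q))) : v.ord (aFn M q) < 0 ↔ v.ord (bFn M q) < 0 := by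
  have h1 : 0 ≤ v.ord (aFn M q) → 0 ≤ v.ord (bFn M q) := fun h => by
    have := (RR.bd_iff_ord (bFn_ne_zero C)).mp
      (bFn_mem_regOn v ((RR.bd_iff_ord (aFn_ne_zero C)).mpr (by omega)))
    omega
  have h2 : 0 ≤ v.ord (bFn M q) → 0 ≤ v.ord (aFn M q) := fun h => by
    have := (RR.bd_iff_ord (aFn_ne_zero C)).mp
      (aFn_mem_regOn C v ((RR.bd_iff_ord (bFn_ne_zero C)).mpr (by omega)))
    omega
  omega

theorem ord_Jfn_neg_iff (v : Place Qb (FB (M * q))) : v.ord (Jfn M q) < 0 ↔ v.ord (aFn M q) < 0 := by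
  have h := ord_aFn_neg_iff C v
  rw [Jfn, Place.ord_mul (v := v) (aFn_ne_zero C) (bFn_ne_zero C)]
  omega

theorem transcendental_Jfn : Transcendental Qb (Jfn M q) := by
  obtain ⟨v, hv⟩ := RR.exists_zero (RR.transcendental_inv (transcendental_aFn C))
  rw [v.ord_inv] at hv
  have := (ord_Jfn_neg_iff C v).mpr (by omega)
  exact RR.transcendental_of_ord_ne_zero (v := v) (by omega)

theorem ndeg_aFn : RR.ndeg Qb (aFn M q) = (q + 1) * dedekindPsi M := by
  rw [ndeg_algHom, ndeg_jBar_eq, finrankAlong_alpha C.prime C.not_dvd, mul_comm]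

theorem ndeg_bFn : RR.ndeg Qb (bFn M q) = (q + 1) * dedekindPsi M := by
  have h1 := ndeg_algHom (atkinW M q) (aFn M q)
  have h2 := ndeg_algHom (atkinW M q) (bFn M q)
  rw [atkinW_aFn C] at h1
  rw [atkinW_bFn C, h1, mul_assoc] at h2
  have h3 := RR.ndeg_pos (transcendental_aFn C)
  have h4 : finrankAlong Qb (atkinW M q) = 1 := Nat.eq_one_of_mul_eq_one_left
    (Nat.eq_of_mul_eq_mul_left h3 (h2.symm.trans (mul_one _).symm))
  rw [h1, h4, mul_one, ndeg_aFn C]

theorem ndeg_Jfn : RR.ndeg Qb (Jfn M q) = 2 * ((q + 1) * dedekindPsi M) := by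
  classical
  have ha := transcendental_aFn C
  set s := RR.zeros (K := Qb) (aFn M q)⁻¹
  have hs : ∀ v, v ∈ s ↔ v.ord (aFn M q) < 0 := fun v => by
    rw [RR.mem_zeros, v.ord_inv]; omega
  have h1 := RR.sum_ord_poles ha s hs
  have h2 := RR.sum_ord_poles (transcendental_bFn C) s fun v =>
    (hs v).trans (ord_aFn_neg_iff C v)
  have h3 := RR.sum_ord_poles (transcendental_Jfn C) s fun v =>
    (hs v).trans (ord_Jfn_neg_iff C v).symm
  have h4 : ∀ v : Place Qb (FB (M * q)),
      -v.ord (Jfn M q) = -v.ord (aFn M q) + -v.ord (bFn M q) := fun v => by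
    rw [Jfn, Place.ord_mul (v := v) (aFn_ne_zero C) (bFn_ne_zero C)]; ring
  simp only [h4, Finset.sum_add_distrib] at h3
  rw [h1, h2, ndeg_aFn C, ndeg_bFn C] at h3
  omega

/-! ### the coordinates `J`, `1/J` -/

omit C

variable (M q) in
/-- `J` and its inverse -/
def tJ : Bool → FB (M * q)
  | false => Jfn M q
  | true => (Jfn M q)⁻¹

variable (M q A) in
/-- their restrictions -/
def tJS : Bool → FS A M
  | false => JS M q A
  | true => (JS M q A)⁻¹

theorem JS_ne_zero : JS M q A ≠ 0 := pow_ne_zero _ (tS_ne_zero A M false)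

theorem transcendental_JS : Transcendental (kA A) (JS M q A) :=
  Transcendental.pow (transcendental_tS A M false) (Nat.succ_pos q)

theorem transcendental_tJS : ∀ s, Transcendental (kA A) (tJS M q A s)
  | false => transcendental_JS
  | true => RR.transcendental_inv transcendental_JS

include C

theorem transcendental_tJ : ∀ s, Transcendental Qb (tJ M q s)
  | false => transcendental_Jfn C
  | true => RR.transcendental_inv (transcendental_Jfn C)

theorem ndeg_tJ (s : Bool) : RR.ndeg Qb (tJ M q s) = 2 * ((q + 1) * dedekindPsi M) := by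
  cases s
  · exact ndeg_Jfn C
  · show RR.ndeg Qb (Jfn M q)⁻¹ = _
    rw [RR.ndeg_congr (RR.KK_inv _), ndeg_Jfn C]

omit C

/-! ### elements with known residues: further rules -/

namespace IsRed

variable {b : Bool} {y z : FB (M * q)} {r : FS A M}

theorem small {c : Qb} (hc : A.valuation c < 1) (h : y ∈ GS M q A b) :
    IsRed A b (algebraMap Qb (FB (M * q)) c * y) 0 := by
  have hcA : c ∈ A := (A.valuation_le_one_iff c).mp hc.le
  have hs : side M q b (algebraMap Qb (FB (M * q)) c * y) = cB (M * q) c * side M q b y := by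
    rw [map_mul, AlgHom.commutes]
  refine ⟨?_, ?_⟩
  · rw [mem_GS, hs]; exact mul_mem (cB_mem hcA) (mem_GS.mp h)
  · rw [hs, redS_mul (cB_mem hcA) (mem_GS.mp h), redS_cB ⟨c, hcA⟩,
      (res_eq_zero_iff A ⟨c, hcA⟩).mpr hc, map_zero, zero_mul]
    rfl

theorem inv_tJ (C : Ctx A M q) : IsRed A b (Jfn M q)⁻¹ (JS M q A)⁻¹ := by
  obtain ⟨h, hr⟩ := isRed_J C b
  have hJ : side M q b (Jfn M q) = Jfn M q := by
    cases b
    · rfl
    · exact atkinW_J C
  rw [hJ] at hr
  rw [mem_GS, hJ] at h
  obtain ⟨G, H, hH, hGH⟩ := h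
  have hne : (JS M q A : LaurentSeries (kA A)) ≠ 0 := fun h0 => JS_ne_zero (Subtype.ext h0)
  rw [redS_eq hH hGH] at hr
  have hG : dn A G ≠ 0 := fun h0 => hne (by rw [← hr, h0, zero_div])
  have hJ0 : (Jfn M q : FB (M * q)) ≠ 0 := Jfn_ne_zero C
  have he : (((Jfn M q)⁻¹ : FB (M * q)) : LaurentSeries Qb) * up A G = up A H := by
    rw [← hGH, IntermediateField.coe_inv, inv_mul_cancel_left₀]
    exact fun h0 => hJ0 (Subtype.ext h0)
  have hs : side M q b (Jfn M q)⁻¹ = (Jfn M q)⁻¹ := by rw [map_inv₀, hJ]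
  refine ⟨?_, ?_⟩
  · rw [mem_GS, hs]; exact ⟨H, G, hG, he⟩
  · rw [hs, redS_eq hG he, IntermediateField.coe_inv, ← hr, inv_div]

theorem tJ (C : Ctx A M q) : ∀ s, IsRed A b (SS.tJ M q s) (tJS M q A s)
  | false => isRed_J C b
  | true => inv_tJ C

theorem own (C : Ctx A M q) (h : IsRed A false y r) : IsRed A b (side M q b y) r :=
  h.transport (b' := b) C

theorem other (C : Ctx A M q) (h : y ∈ GS M q A true) : side M q b y ∈ GS M q A (!b) := by
  cases b
  · exact h
  · exact mem_GS.mp h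

end IsRed

/-! ### the frame -/

variable (M q) in
/-- the index set of a frame -/
abbrev Idx : Type := Bool × Fin (q + 1) × Fin (dedekindPsi M)

/-- functions with independent restrictions, for given scales -/
structure Frame (A : ValuationSubring Qb) (M q : ℕ) [NeZero M] [NeZero q] (a : Bool → Qb) where
  /-- the functions -/
  E : Idx M q → FB (M * q)
  /-- the restrictions -/
  r : Bool → Idx M q → FS A M
  red : ∀ b x, IsRed A b (algebraMap Qb (FB (M * q)) (a b) * E x) (r b x)
  indep : ∀ (s : Bool) (P : Idx M q → (kA A)[X]),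
    (∀ b, ∑ x, Polynomial.aeval (tJS M q A s) (P x) * r b x = 0) → ∀ x, P x = 0

theorem expand_mul_X_pow_inj {k : Type*} [CommRing k] {m : ℕ} (hm : 0 < m) (P : Fin m → k[X])
    (h : ∑ i : Fin m, Polynomial.expand k m (P i) * Polynomial.X ^ (i : ℕ) = 0) (i : Fin m) :
    P i = 0 := by
  ext n
  have h1 := congrArg (fun p => Polynomial.coeff p (n * m + (i : ℕ))) h
  simp only [finsetSum_coeff, coeff_zero, coeff_mul_X_pow'] at h1
  rw [Finset.sum_eq_single i (fun j _ hj => ?_) (by simp)] at h1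
  · rw [if_pos (Nat.le_add_left _ _), Nat.add_sub_cancel, coeff_expand_mul hm] at h1
    simpa using h1
  · split_ifs with hle
    · rw [coeff_expand hm, if_neg]
      rintro ⟨c, hc⟩
      refine hj (Fin.ext ?_)
      have e1 : n * m + (i : ℕ) = m * c + (j : ℕ) := by omega
      have e2 := congrArg (· % m) e1
      simp only [Nat.mul_add_mod, Nat.mul_add_mod'] at e2
      rwa [Nat.mod_eq_of_lt i.2, Nat.mod_eq_of_lt j.2, eq_comm] at e2
    · rfl

include C

theorem exists_pow_small {x : Qb} (hx : x ≠ 0) :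
    ∃ n₀ : ℕ, ∀ n, n₀ ≤ n → A.valuation (x * (q : Qb) ^ n) < 1 := by
  obtain ⟨m, e, hm, he⟩ := exists_valuation_pow A C.prime C.lies hx
  have hq0 : A.valuation (q : Qb) ≠ 0 :=
    (Valuation.ne_zero_iff _).mpr (Nat.cast_ne_zero.mpr C.prime.ne_zero)
  refine ⟨e.natAbs + 1, fun n hn => ?_⟩
  have h1 : A.valuation (x * (q : Qb) ^ n) ^ m = A.valuation (q : Qb) ^ (e + (n * m : ℕ)) := by
    rw [map_mul, map_pow, mul_pow, he, ← pow_mul, zpow_add₀ hq0, zpow_natCast]
  have h2 : 0 < e + (n * m : ℕ) := by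
    have : n ≤ n * m := Nat.le_mul_of_pos_right n hm
    omega
  obtain ⟨k, hk⟩ : ∃ k : ℕ, e + (n * m : ℕ) = (k + 1 : ℕ) := ⟨(e + (n * m : ℕ) - 1).toNat, by omega⟩
  rw [hk, zpow_natCast] at h1
  have h3 : A.valuation (q : Qb) ^ (k + 1) < 1 :=
    pow_lt_one₀ zero_le (valuation_ell_lt_one A C.lies) (Nat.succ_ne_zero k)
  rw [← h1] at h3
  exact (pow_lt_one_iff hm.ne').mp h3

theorem indep_basis (B : Basis0 A M) (p : Fin (dedekindPsi M) → (kA A)[X])
    (h : ∑ k, Polynomial.aeval (jS A M) (p k) * red A M (B.e k) = 0) (k : Fin (dedekindPsi M)) :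
    p k = 0 := by
  choose P hP using fun k => Polynomial.map_surjective (residue A) residue_surjective (p k)
  rw [← hP k]
  refine B.indep P ?_ k
  have h1 := congrArg (fun z : FS A M => (z : LaurentSeries (kA A))) h
  simp only [AddSubmonoidClass.coe_finsetSum, ZeroMemClass.coe_zero] at h1
  refine Eq.trans (Finset.sum_congr rfl fun i _ => ?_) h1
  rw [redS_mul (phiA_mem false _) (BT.mem_GR C (B.bt i)), redS_phiA, hP, MulMemClass.coe_mul,
    coe_red C (BT.mem_GR C (B.bt i))]
  rfl

set_option maxHeartbeats 1600000 in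
theorem nonempty_frame (a : Bool → Qb) (ha : ∀ b, a b ≠ 0) : Nonempty (Frame A M q a) := by
  classical
  obtain ⟨B⟩ := nonempty_basis0 C
  obtain ⟨h, hz, hh⟩ := exists_z1_eq C
  choose n₀ hn₀ using fun b : Bool => exists_pow_small C (div_ne_zero (ha (!b)) (ha b))
  set n := max (n₀ false) (n₀ true)
  have hn : ∀ b, A.valuation (a (!b) / a b * (q : Qb) ^ n) < 1 := fun b =>
    hn₀ b n (by cases b <;> simp [n])
  let y : Fin (q + 1) → Fin (dedekindPsi M) → FB (M * q) := fun i k =>
    i1 M q (B.e k) * aFn M q ^ (i : ℕ)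
  let ρ : Fin (q + 1) → Fin (dedekindPsi M) → FS A M := fun i k =>
    red A M (B.e k) * jS A M ^ (i : ℕ)
  have hj := jBar_red C
  have hy0 : ∀ i k, IsRed A false (y i k * z1 M q ^ n) (ρ i k * zbar M q A ^ n) := fun i k => by
    have h2 := (isRed_i1 C hj.1).1
    rw [hj.2] at h2
    exact (((isRed_i1 C (BT.mem_GR C (B.bt k))).1.mul (h2.pow i)).mul ((isRed_z1 C).pow n))
  have hy1 : ∀ i k, y i k * h ^ n ∈ GS M q A true := fun i k =>
    mul_mem (mul_mem (isRed_i1 C (BT.mem_GR C (B.bt k))).2.1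
      (pow_mem (isRed_i1 C hj.1).2.1 _)) (pow_mem hh n)
  let E : Idx M q → FB (M * q) := fun x =>
    algebraMap Qb (FB (M * q)) (a x.1)⁻¹ * side M q x.1 (y x.2.1 x.2.2 * z1 M q ^ n)
  let r : Bool → Idx M q → FS A M := fun b x =>
    if x.1 = b then ρ x.2.1 x.2.2 * zbar M q A ^ n else 0
  refine ⟨⟨E, r, fun b x => ?_, fun s P hP => ?_⟩⟩
  · obtain ⟨b', i, k⟩ := x
    have e1 : algebraMap Qb (FB (M * q)) (a b) * E (b', i, k) =
        algebraMap Qb (FB (M * q)) (a b / a b') * side M q b' (y i k * z1 M q ^ n) := by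
      simp only [E, ← mul_assoc, ← map_mul, div_eq_mul_inv]
    rw [e1]
    rcases eq_or_ne b' b with rfl | hbb
    · rw [div_self (ha b'), map_one, one_mul]
      simp only [r, if_pos]
      exact IsRed.own C (hy0 i k)
    · obtain rfl : b = !b' := by cases b <;> cases b' <;> simp_all
      simp only [r, if_neg hbb]
      have e2 : algebraMap Qb (FB (M * q)) (a (!b') / a b') * side M q b' (y i k * z1 M q ^ n) =
          algebraMap Qb (FB (M * q)) (a (!b') / a b' * (q : Qb) ^ n) *
            side M q b' (y i k * h ^ n) := by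
        rw [hz, mul_pow, ← map_pow, mul_left_comm, map_mul (side M q b'), AlgHom.commutes,
          ← mul_assoc, ← map_mul]
      rw [e2]
      exact IsRed.small (hn b') (IsRed.other C (hy1 i k))
  · have key : ∀ (b : Bool) (Q : Idx M q → (kA A)[X]),
        ∑ x, Polynomial.aeval (JS M q A) (Q x) * r b x = 0 → ∀ i k, Q (b, i, k) = 0 := by
      intro b Q hQ i k
      rw [Fintype.sum_prod_type, Finset.sum_eq_single b
        (fun b' _ hb' => Finset.sum_eq_zero fun z _ => by simp [r, hb']) (by simp)] at hQ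
      simp only [r, if_pos, ← mul_assoc, ← Finset.sum_mul, mul_eq_zero,
        or_iff_left (pow_ne_zero n (zbar_ne_zero C))] at hQ
      let p : Fin (dedekindPsi M) → (kA A)[X] := fun k =>
        ∑ i : Fin (q + 1), Polynomial.expand (kA A) (q + 1) (Q (b, i, k)) * Polynomial.X ^ (i : ℕ)
      have hp := indep_basis C B p ?_ k
      · exact expand_mul_X_pow_inj (Nat.succ_pos q) (fun i => Q (b, i, k)) hp i
      rw [Fintype.sum_prod_type, Finset.sum_comm] at hQ
      refine Eq.trans (Finset.sum_congr rfl fun k _ => ?_) hQ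
      simp only [p, ρ, map_sum, map_mul, map_pow, aeval_X, expand_aeval, Finset.sum_mul]
      exact Finset.sum_congr rfl fun i _ => by rw [JS]; ring
    rintro ⟨b, i, k⟩
    cases s
    · exact key b P (hP b) i k
    · let D : ℕ := Finset.univ.sup fun x => (P x).natDegree
      refine (Polynomial.reflect_eq_zero_iff (N := D)).mp ?_
      refine key b (fun x => Polynomial.reflect D (P x)) ?_ i k
      letI : Invertible ((JS M q A)⁻¹) := invertibleOfNonzero (inv_ne_zero JS_ne_zero)
      have hrev : ∀ x, Polynomial.aeval (JS M q A) (Polynomial.reflect D (P x)) =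
          JS M q A ^ D * Polynomial.aeval (JS M q A)⁻¹ (P x) := fun x => by
        have h1 := Polynomial.eval₂_reflect_mul_pow (algebraMap (kA A) (FS A M)) (JS M q A)⁻¹ D
          (P x) (Finset.le_sup (f := fun x => (P x).natDegree) (Finset.mem_univ x))
        rw [invOf_eq_inv, inv_inv, inv_pow, ← Polynomial.aeval_def, ← Polynomial.aeval_def] at h1
        rw [← h1, mul_comm (Polynomial.aeval (JS M q A) _),
          mul_inv_cancel_left₀ (pow_ne_zero _ JS_ne_zero)]
      simp only [hrev, mul_assoc, ← Finset.mul_sum]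
      rw [show ∑ x, Polynomial.aeval (JS M q A)⁻¹ (P x) * r b x = 0 from hP b, mul_zero]

end FLTAgent.SS
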