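import Fermat.Agent.SS.FibreCore
import Fermat.Agent.SS2.Incl
import Fermat.Agent.Genus.Places

/-!
The two charts of the fibre (`J` finite, `1/J` finite): comparison with the charts of the two
degeneracy maps, the pairs of restrictions they give, and the behaviour at the cusps.
-/

set_option autoImplicit false
set_option linter.unusedSectionVars false
set_option synthInstance.maxHeartbeats 200000
set_option linter.style.haveILetI false

noncomputable section

open ModularCurve AlgebraicCurve Polynomial IsLocalRing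
open FLTAgent.Reduction
open FLTAgent.RR (Bd KK)

namespace FLTAgent.SS

theorem aeval_mem_regOn {K F : Type*} [Field K] [Field F] [Algebra K F] {x y : F}
    (hy : y ∈ regOn K x) (p : K[X]) : Polynomial.aeval y p ∈ regOn K x :=
  Algebra.adjoin_le (Set.singleton_subset_iff.mpr hy) (Polynomial.aeval_mem_adjoin_singleton K y)

theorem bd_zero_inv_iff {K F : Type*} [Field K] [Field F] [Algebra K F] {v : Place K F} {x : F}
    (hx : x ≠ 0) : Bd v x⁻¹ 0 ↔ v.ord x ≤ 0 := by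
  rw [RR.bd_iff_ord (inv_ne_zero hx), v.ord_inv]; omega

theorem bd_zero_iff {K F : Type*} [Field K] [Field F] [Algebra K F] {v : Place K F} {x : F}
    (hx : x ≠ 0) : Bd v x 0 ↔ 0 ≤ v.ord x := by
  rw [RR.bd_iff_ord hx]; omega

variable {M q : ℕ} [NeZero M] [NeZero q] {A : ValuationSubring Qb} (C : Ctx A M q)
include C

theorem ord_Jfn (v : Place Qb (FB (M * q))) :
    v.ord (Jfn M q) = v.ord (aFn M q) + v.ord (bFn M q) := by
  rw [Jfn, Place.ord_mul (v := v) (aFn_ne_zero C) (bFn_ne_zero C)]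

theorem bd_tJS_iff (Q : PS A M) (s : Bool) : Bd Q (tJS M q A s) 0 ↔ Bd Q (tS A M s) 0 := by
  have hj := tS_ne_zero A M false
  have hJ : Q.ord (JS M q A) = ((q + 1 : ℕ) : ℤ) * Q.ord (tS A M false) := RR.ord_pow _ _ _
  have hpos : (0 : ℤ) < ((q + 1 : ℕ) : ℤ) := by exact_mod_cast Nat.succ_pos q
  cases s
  · rw [tJS, bd_zero_iff JS_ne_zero, bd_zero_iff hj, hJ]
    exact ⟨fun h => nonneg_of_mul_nonneg_right h hpos, fun h => mul_nonneg hpos.le h⟩
  · rw [tJS, bd_zero_inv_iff JS_ne_zero, show tS A M true = (tS A M false)⁻¹ from rfl,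
      bd_zero_inv_iff hj, hJ]
    exact ⟨fun h => nonpos_of_mul_nonpos_right h hpos,
      fun h => mul_nonpos_of_nonneg_of_nonpos hpos.le h⟩

theorem regOn_tJS (s : Bool) {f : FS A M} :
    f ∈ regOn (kA A) (tJS M q A s) ↔ f ∈ regOn (kA A) (tS A M s) := by
  simp only [mem_regOn, bd_tJS_iff C]

theorem bd_aFn_bFn {v : Place Qb (FB (M * q))} {s : Bool} (hv : Bd v (tJ M q s) 0) :
    Bd v (i1 M q (tB M s)) 0 ∧ Bd v (i2 M q (tB M s)) 0 := by
  have hJ := ord_Jfn C v
  have hab := ord_aFn_neg_iff C v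
  cases s
  · rw [tJ, bd_zero_iff (Jfn_ne_zero C)] at hv
    exact ⟨(bd_zero_iff (aFn_ne_zero C)).mpr (by omega),
      (bd_zero_iff (bFn_ne_zero C)).mpr (by omega)⟩
  · rw [tJ, bd_zero_inv_iff (Jfn_ne_zero C)] at hv
    simp only [tB, map_inv₀]
    exact ⟨(bd_zero_inv_iff (aFn_ne_zero C)).mpr (by omega),
      (bd_zero_inv_iff (bFn_ne_zero C)).mpr (by omega)⟩

theorem degeneracy_mem_regOn {φ : FB M →ₐ[Qb] FB (M * q)} {s : Bool}
    (hφ : φ (tB M s) ∈ regOn Qb (tJ M q s)) {b : FB M} (hb : BT A M s b) :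
    φ b ∈ regOn Qb (tJ M q s) := by
  obtain ⟨p, hp, hpb⟩ := hb
  refine mem_regOn_of_isIntegral (φ.toRingHom.comp (phiA A M s)) (fun r => ?_) ⟨p, hp, ?_⟩
  · show φ (phiA A M s r) ∈ _
    rw [phiA_apply, ← Polynomial.aeval_algHom_apply]
    exact aeval_mem_regOn hφ _
  · show Polynomial.eval₂ _ (φ.toRingHom b) p = 0
    rw [← Polynomial.hom_eval₂, hpb, map_zero]

theorem atkinW_mem_regOn {s : Bool} {x : FB (M * q)} (hx : x ∈ regOn Qb (tJ M q s)) :
    atkinW M q x ∈ regOn Qb (tJ M q s) := by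
  haveI := finite_tJ C s
  haveI := separable_tJ C s
  obtain ⟨p, hp, hpx⟩ := isIntegral_of_mem_regOn (transcendental_tJ C s) hx
  refine mem_regOn_of_aeval ⟨p, hp, ?_⟩
  have hW : atkinW M q (tJ M q s) = tJ M q s := by
    cases s
    · exact atkinW_J C
    · rw [tJ, map_inv₀, atkinW_J C]
  have h1 := congrArg (atkinW M q) hpx
  rw [map_zero, ← AlgHom.coe_toRingHom, Polynomial.hom_eval₂, AlgHom.coe_toRingHom] at h1
  refine Eq.trans ?_ h1
  congr 1
  refine RingHom.ext fun r => ?_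
  show Polynomial.aeval (tJ M q s) r = atkinW M q (Polynomial.aeval (tJ M q s) r)
  rw [← Polynomial.aeval_algHom_apply, hW]

/-! ### the chart of the special fibre and `Fr` -/

theorem Fr_tS (s : Bool) : Fr C (tS A M s) = tS A M s ^ q := by
  cases s
  · exact Fr_jS C
  · show Fr C (jS A M)⁻¹ = ((jS A M)⁻¹) ^ q
    rw [map_inv₀, Fr_jS C, inv_pow]

theorem exists_Fr_eq_pow (f : FS A M) : ∃ g : FS A M, Fr C f = g ^ q := by
  haveI := expChar_kA C
  haveI := perfectRing_kA C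
  refine ⟨⟨_, coeffMap_mem_fullC (frobeniusEquiv (kA A) q).symm M f.2⟩, Subtype.ext ?_⟩
  rw [coe_Fr, SubmonoidClass.coe_pow, pow_char_eq q, coeffMap_coeffMap,
    coeffMap_congr (g := RingHom.id (kA A))
      (RingHom.ext fun a => frobenius_apply_frobeniusEquiv_symm (kA A) q a), coeffMap_id]

theorem Fr_mem_regOn {s : Bool} {f : FS A M} (hf : f ∈ regOn (kA A) (tS A M s)) :
    Fr C f ∈ regOn (kA A) (tS A M s) := by
  haveI := finite_tS C s
  haveI := separable_tS C s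
  obtain ⟨p, hp, hpf⟩ := isIntegral_of_mem_regOn (transcendental_tS A M s) hf
  refine mem_regOn_of_isIntegral
    ((Fr C).toRingHom.comp (Polynomial.aeval (R := kA A) (tS A M s)).toRingHom) (fun r => ?_)
    ⟨p, hp, ?_⟩
  · show Fr C (Polynomial.aeval (tS A M s) r) ∈ _
    rw [← Polynomial.aeval_algHom_apply, Fr_tS C]
    exact aeval_mem_regOn (pow_mem (self_mem_regOn _) q) r
  · show Polynomial.eval₂ _ ((Fr C).toRingHom f) p = 0
    rw [← Polynomial.hom_eval₂, hpf, map_zero]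

/-! ### pairs of restrictions -/

omit C in
variable (M q A) in
/-- the pairs of restrictions of the functions of a chart -/
def InR (s : Bool) (f g : FS A M) : Prop :=
  ∃ x : FB (M * q), x ∈ regOn Qb (tJ M q s) ∧ IsRed A false x f ∧ IsRed A true x g

omit C in
theorem InR.add {s : Bool} {f g f' g' : FS A M} (h : InR M q A s f g) (h' : InR M q A s f' g') :
    InR M q A s (f + f') (g + g') := by
  obtain ⟨x, hx, hf, hg⟩ := h
  obtain ⟨x', hx', hf', hg'⟩ := h'
  exact ⟨x + x', add_mem hx hx', hf.add hf', hg.add hg'⟩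

omit C in
theorem InR.mul {s : Bool} {f g f' g' : FS A M} (h : InR M q A s f g) (h' : InR M q A s f' g') :
    InR M q A s (f * f') (g * g') := by
  obtain ⟨x, hx, hf, hg⟩ := h
  obtain ⟨x', hx', hf', hg'⟩ := h'
  exact ⟨x * x', mul_mem hx hx', hf.mul hf', hg.mul hg'⟩

omit C in
theorem InR.sub {s : Bool} {f g f' g' : FS A M} (h : InR M q A s f g) (h' : InR M q A s f' g') :
    InR M q A s (f - f') (g - g') := by
  obtain ⟨x, hx, hf, hg⟩ := h
  obtain ⟨x', hx', hf', hg'⟩ := h'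
  exact ⟨x - x', sub_mem hx hx', hf.sub hf', hg.sub hg'⟩

omit C in
theorem InR.zero {s : Bool} : InR M q A s 0 0 := ⟨0, zero_mem _, IsRed.zero, IsRed.zero⟩

theorem InR.swap {s : Bool} {f g : FS A M} (h : InR M q A s f g) : InR M q A s g f := by
  obtain ⟨x, hx, hf, hg⟩ := h
  exact ⟨atkinW M q x, atkinW_mem_regOn C hx, hg.transport (b' := false) C,
    hf.transport (b' := true) C⟩

theorem InR.regular {s : Bool} {f g : FS A M} (h : InR M q A s f g) :
    f ∈ regOn (kA A) (tS A M s) ∧ g ∈ regOn (kA A) (tS A M s) := by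
  obtain ⟨x, hx, hf, hg⟩ := h
  have hG : ∀ b, x ∈ GS M q A b := fun b => by cases b; exacts [hf.1, hg.1]
  refine ⟨(regOn_tJS C s).mp ?_, (regOn_tJS C s).mp ?_⟩
  · rw [← hf.eq]; exact regular_of_integral C s hx hG false
  · rw [← hg.eq]; exact regular_of_integral C s hx hG true

theorem inR_pair {s : Bool} {f g : FS A M} (hf : f ∈ regOn (kA A) (tS A M s))
    (hg : g ∈ regOn (kA A) (tS A M s)) : InR M q A s (f * Fr C g) (Fr C f * g) := by
  obtain ⟨a, ha, har⟩ := exists_lift C ((BS_iff C).mpr hf)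
  obtain ⟨b, hb, hbr⟩ := exists_lift C ((BS_iff C).mpr hg)
  have h1 := isRed_i1 C (BT.mem_GR C ha)
  have h2 := isRed_i2 C (BT.mem_GR C hb)
  rw [har] at h1
  rw [hbr] at h2
  exact ⟨i1 M q a * i2 M q b, mul_mem
    (degeneracy_mem_regOn C (fun v hv => (bd_aFn_bFn C hv).1) ha)
    (degeneracy_mem_regOn C (fun v hv => (bd_aFn_bFn C hv).2) hb), h1.1.mul h2.1, h1.2.mul h2.2⟩

theorem inR_Fr {s : Bool} {f : FS A M} (hf : f ∈ regOn (kA A) (tS A M s)) :
    InR M q A s f (Fr C f) := by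
  simpa using inR_pair C hf (one_mem (regOn (kA A) (tS A M s)))

theorem inR_sub_Fr_Fr {s : Bool} {f : FS A M} (hf : f ∈ regOn (kA A) (tS A M s)) :
    InR M q A s (f - Fr C (Fr C f)) 0 := by
  simpa using (inR_Fr C hf).sub (InR.swap C (inR_Fr C (Fr_mem_regOn C hf)))

/-! ### at the cusps -/

omit C in
theorem two_le_cuspCount (hq : q.Prime) : 2 ≤ cuspCount q := by
  rw [cuspCount, hq.sum_divisors]
  simp [Nat.div_self hq.pos]

theorem bFn_div_mem_level_one :
    bFn 1 q * ((aFn 1 q)⁻¹) ^ q ∈ regOn Qb (aFn 1 q)⁻¹ := by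
  have C₁ : Ctx A 1 q := ⟨C.prime, C.prime.not_dvd_one, C.lies⟩
  have ha := aFn_ne_zero C₁
  have hb := bFn_ne_zero C₁
  obtain ⟨s, hs, hcard, -⟩ := Genus.fibre_infty (1 * q)
  have haj : aFn 1 q = ModFun.jBar (1 * q) := Subtype.ext (by rw [coe_heckeAlphaBar]; rfl)
  rw [← haj] at hs
  have hs2 : 2 ≤ s.card := by rw [hcard, one_mul]; exact two_le_cuspCount C.prime
  have hψ : dedekindPsi 1 = 1 := ModularCurve.dedekindPsi_one
  classical
  have hsum : ∑ v ∈ s, -v.ord (bFn 1 q) = ((q + 1 : ℕ) : ℤ) := by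
    rw [RR.sum_ord_poles (transcendental_bFn C₁) s fun v => (hs v).trans (ord_aFn_neg_iff C₁ v),
      ndeg_bFn C₁, hψ, mul_one]
  intro v hv
  rw [bd_zero_inv_iff ha] at hv
  refine RR.bd_iff.mpr (Or.inr ?_)
  rw [v.ord_mul hb (pow_ne_zero _ (inv_ne_zero ha)), RR.ord_pow, v.ord_inv]
  have hab := ord_aFn_neg_iff C₁ v
  rcases eq_or_lt_of_le hv with h0 | hneg
  · rw [h0]
    simp only [neg_zero, mul_zero, add_zero]
    omega
  · have hvs := (hs v).mpr hneg
    obtain ⟨w, hw, hwv⟩ := Finset.exists_mem_ne (by omega : 1 < s.card) v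
    have h1 : -v.ord (bFn 1 q) + -w.ord (bFn 1 q) ≤ ∑ u ∈ s, -u.ord (bFn 1 q) := by
      rw [← Finset.sum_pair (f := fun u : Place Qb (FB (1 * q)) => -u.ord (bFn 1 q)) hwv.symm]
      refine Finset.sum_le_sum_of_subset_of_nonneg (by simp [Finset.insert_subset_iff, hvs, hw])
        fun u hu _ => ?_
      have := (ord_aFn_neg_iff C₁ u).mp ((hs u).mp hu)
      omega
    have h2 := (ord_aFn_neg_iff C₁ w).mp ((hs w).mp hw)
    rw [hsum, Nat.cast_add, Nat.cast_one] at h1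
    have h3 : (q : ℤ) * v.ord (aFn 1 q) ≤ -(q : ℤ) := by
      have := Int.natCast_nonneg q
      nlinarith
    linarith

/-- at the cusps the pole of `j(qτ)` is at most `q` times that of `j(τ)` -/
theorem ord_bFn_ge {v : Place Qb (FB (M * q))} (hv : v.ord (aFn M q) ≤ 0) :
    (q : ℤ) * v.ord (aFn M q) ≤ v.ord (bFn M q) := by
  have C₁ : Ctx A 1 q := ⟨C.prime, C.prime.not_dvd_one, C.lies⟩
  have hd : 1 * q ∣ M * q := mul_dvd_mul_right (one_dvd M) q
  let φ : FB (1 * q) →ₐ[Qb] FB (M * q) := SS2.incl hd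
  have hφa : φ (aFn 1 q) = aFn M q := Subtype.ext (by
    rw [SS2.coe_incl, coe_heckeAlphaBar, coe_heckeAlphaBar]; rfl)
  have hφb : φ (bFn 1 q) = bFn M q := Subtype.ext (by
    rw [SS2.coe_incl, coe_heckeBetaBar, coe_heckeBetaBar]; rfl)
  haveI := RR.finiteDimensional_KK (K := Qb) (RR.transcendental_inv (transcendental_aFn C₁))
  haveI : CharZero (KK Qb (aFn 1 q)⁻¹) :=
    charZero_of_injective_algebraMap (algebraMap Qb (KK Qb (aFn 1 q)⁻¹)).injective
  obtain ⟨p, hp, hpy⟩ := isIntegral_of_mem_regOn (RR.transcendental_inv (transcendental_aFn C₁))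
    (bFn_div_mem_level_one C)
  have h : bFn M q * ((aFn M q)⁻¹) ^ q ∈ regOn Qb (aFn M q)⁻¹ := by
    refine mem_regOn_of_isIntegral
      (φ.toRingHom.comp (Polynomial.aeval (R := Qb) (aFn 1 q)⁻¹).toRingHom) (fun r => ?_)
      ⟨p, hp, ?_⟩
    · show φ (Polynomial.aeval (aFn 1 q)⁻¹ r) ∈ _
      rw [← Polynomial.aeval_algHom_apply, map_inv₀, hφa]
      exact aeval_mem_regOn (self_mem_regOn _) r
    · have e : bFn M q * ((aFn M q)⁻¹) ^ q = φ (bFn 1 q * ((aFn 1 q)⁻¹) ^ q) := by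
        rw [map_mul, map_pow, map_inv₀, hφa, hφb]
      rw [e]
      show Polynomial.eval₂ _ (φ.toRingHom _) p = 0
      rw [← Polynomial.hom_eval₂, hpy, map_zero]
  have h1 := h v ((bd_zero_inv_iff (aFn_ne_zero C)).mpr hv)
  rw [RR.bd_iff_ord (mul_ne_zero (bFn_ne_zero C) (pow_ne_zero _ (inv_ne_zero (aFn_ne_zero C)))),
    v.ord_mul (bFn_ne_zero C) (pow_ne_zero _ (inv_ne_zero (aFn_ne_zero C))), RR.ord_pow,
    v.ord_inv] at h1
  linarith

/-- the function separating the cusps of the two components -/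
theorem inR_cusp :
    InR M q A true (zbar M q A ^ (q + 1) * ((JS M q A)⁻¹) ^ (q * q)) 0 := by
  have hs : IsRed A true (z1 M q) 0 := by
    obtain ⟨h, hz, hh⟩ := exists_z1_eq C
    rw [hz]
    exact IsRed.small (valuation_ell_lt_one A C.lies) hh
  refine ⟨z1 M q ^ (q + 1) * ((Jfn M q)⁻¹) ^ (q * q), fun v hv => ?_,
    ((isRed_z1 C).pow (q + 1)).mul ((IsRed.inv_tJ C).pow (q * q)), ?_⟩
  · rw [tJ, bd_zero_inv_iff (Jfn_ne_zero C)] at hv
    have hJ := ord_Jfn C v
    have hab := ord_aFn_neg_iff C v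
    have hb : (q : ℤ) * v.ord (aFn M q) ≤ v.ord (bFn M q) := ord_bFn_ge C (by omega)
    refine RR.bd_iff.mpr ((eq_or_ne (z1 M q) 0).imp (fun h => by simp [h]) fun hz => ?_)
    rw [v.ord_mul (pow_ne_zero _ hz) (pow_ne_zero _ (inv_ne_zero (Jfn_ne_zero C))), RR.ord_pow,
      RR.ord_pow, v.ord_inv, hJ]
    have hmin : min (v.ord (aFn M q)) ((q : ℤ) * v.ord (bFn M q)) ≤ v.ord (z1 M q) := by
      have h1 : Bd v (aFn M q) (-min (v.ord (aFn M q)) ((q : ℤ) * v.ord (bFn M q))) :=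
        RR.bd_iff.mpr (Or.inr (by rw [neg_neg]; exact min_le_left _ _))
      have h2 : Bd v (bFn M q ^ q) (-min (v.ord (aFn M q)) ((q : ℤ) * v.ord (bFn M q))) :=
        RR.bd_iff.mpr (Or.inr (by rw [neg_neg, RR.ord_pow]; exact min_le_right _ _))
      have h3 := (RR.bd_iff_ord hz).mp (h1.sub h2)
      rwa [neg_neg] at h3
    have hq2 : (2 : ℤ) ≤ (q : ℤ) := by exact_mod_cast C.prime.two_le
    have hA : v.ord (aFn M q) ≤ 0 := by omega
    have hB : v.ord (bFn M q) ≤ 0 := by omega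
    push_cast
    rcases le_total (v.ord (aFn M q)) ((q : ℤ) * v.ord (bFn M q)) with hle | hle
    · rw [min_eq_left hle] at hmin
      nlinarith [mul_le_mul_of_nonneg_left hmin (by omega : (0 : ℤ) ≤ (q : ℤ) + 1),
        mul_nonpos_of_nonneg_of_nonpos (by nlinarith : (0 : ℤ) ≤ (q : ℤ) * q) hB,
        mul_nonpos_of_nonneg_of_nonpos (by nlinarith : (0 : ℤ) ≤ (q : ℤ) * q - q - 1) hA]
    · rw [min_eq_right hle] at hmin
      nlinarith [mul_le_mul_of_nonneg_left hmin (by omega : (0 : ℤ) ≤ (q : ℤ) + 1),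
        mul_le_mul_of_nonneg_left hb (by omega : (0 : ℤ) ≤ (q : ℤ)),
        mul_nonpos_of_nonneg_of_nonpos (by nlinarith : (0 : ℤ) ≤ (q : ℤ)) hB]
  · simpa using (hs.pow (q + 1)).mul ((IsRed.inv_tJ C (b := true)).pow (q * q))

end FLTAgent.SS
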