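import Fermat.Agent.Reduction.Val
import Fermat.Agent.RR.API
import Fermat.Prelude.Def_AlgebraicCurve_BaseChangeGalois

/-!
A curve over a valued field with semistable reduction: two copies of a smooth curve glued at
finitely many points. Everything is expressed by function fields, two residue maps and one
coordinate `J`.
-/

set_option autoImplicit false
set_option linter.unusedSectionVars false
set_option linter.unusedVariables false

noncomputable section

open AlgebraicCurve IsLocalRing
open FLTAgent.RR (Bd)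
open FLTAgent.Reduction (Val)

namespace FLTAgent.SS

/-- functions with poles at most `m` times those of `Jb` -/
def target {k Fs : Type*} [Field k] [Field Fs] [Algebra k Fs] (Jb : Fs) (m : ℕ) : Submodule k Fs :=
  RR.boundedOn (fun _ => True) (fun Q : Place k Fs => (m : ℤ) * max (-Q.ord Jb) 0)

theorem mem_target {k Fs : Type*} [Field k] [Field Fs] [Algebra k Fs] {Jb a : Fs} {m : ℕ} :
    a ∈ target (k := k) Jb m ↔ ∀ Q : Place k Fs, Bd Q a ((m : ℤ) * max (-Q.ord Jb) 0) :=
  ⟨fun h Q => h Q trivial, fun h Q _ => h Q⟩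

/-- Residue maps on the two components. -/
structure Core (K : Type*) [Field K] [IsAlgClosed K] [CharZero K] (A : ValuationSubring K)
    (F : Type*) [Field F] [Algebra K F] [RR.FnField K F]
    (Fs : Type*) [Field Fs] [Algebra (ResidueField A) Fs] where
  /-- functions integral on a component -/
  G : Bool → Subring F
  /-- restriction to a component, meaningful on `G` -/
  red : Bool → F → Fs
  red_add : ∀ b, ∀ x ∈ G b, ∀ y ∈ G b, red b (x + y) = red b x + red b y
  red_mul : ∀ b, ∀ x ∈ G b, ∀ y ∈ G b, red b (x * y) = red b x * red b y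
  red_one : ∀ b, red b 1 = 1
  const_mem : ∀ b (a : A), algebraMap K F (a : K) ∈ G b
  red_const : ∀ b (a : A), red b (algebraMap K F (a : K))
    = algebraMap (ResidueField A) Fs (residue A a)
  exists_scale : ∀ b (x : F), x ≠ 0 → ∃ c : K, c ≠ 0 ∧ algebraMap K F c * x ∈ G b ∧
    red b (algebraMap K F c * x) ≠ 0
  /-- orthogonal bases of finite dimensional spaces, for any pair of scales -/
  exists_basis : ∀ (a : Bool → K), (∀ b, a b ≠ 0) → ∀ V : Submodule K F, FiniteDimensional K V →
    ∃ (d : ℕ) (v : Fin d → F), Submodule.span K (Set.range v) = V ∧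
      (∀ b i, algebraMap K F (a b) * v i ∈ G b) ∧
      LinearIndependent (ResidueField A) (fun i b => red b (algebraMap K F (a b) * v i))
  /-- the coordinate -/
  J : F
  /-- its restriction to either component -/
  Jbar : Fs
  transc_J : Transcendental K J
  transc_Jbar : Transcendental (ResidueField A) Jbar
  J_mem : ∀ b, J ∈ G b
  red_J : ∀ b, red b J = Jbar
  hasRes : ∀ Q : Place (ResidueField A) Fs, RR.HasRes Q
  target_bound : ∃ C : ℕ, ∀ m, FiniteDimensional (ResidueField A)
      (target (k := ResidueField A) Jbar m) ∧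
    Module.finrank (ResidueField A) (target (k := ResidueField A) Jbar m) ≤ C * (m + 1)
  pole_bound : ∀ (m : ℕ) (x : F), x ∈ riemannRochSpace (m • RR.Pol (K := K) J) →
    (∀ b, x ∈ G b) → ∀ b, red b x ∈ target (k := ResidueField A) Jbar m

/-- The glued fibre. -/
structure Data (K : Type*) [Field K] [IsAlgClosed K] [CharZero K] (A : ValuationSubring K)
    (F : Type*) [Field F] [Algebra K F] [RR.FnField K F]
    (Fs : Type*) [Field Fs] [Algebra (ResidueField A) Fs] extends Core K A F Fs where
  /-- the double points -/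
  ι : Type
  fintype : Fintype ι
  /-- the two branches of a double point -/
  pt : Bool → ι → Place (ResidueField A) Fs
  pt_inj : ∀ b, Function.Injective (pt b)
  pt_fin : ∀ b s, Bd (pt b s) Jbar 0
  interp : ∀ b (c : ι → ResidueField A), ∃ m, ∃ a ∈ target (k := ResidueField A) Jbar m,
    ∀ s, Val (pt b s) a (c s)
  glue : ∀ (m : ℕ) (x : F), x ∈ riemannRochSpace (m • RR.Pol (K := K) J) → (∀ b, x ∈ G b) →
    ∀ s, ∃ c, ∀ b, Val (pt b s) (red b x) c
  lift_fin : ∀ a : Bool → Fs,
    (∀ b (Q : Place (ResidueField A) Fs), 0 ≤ Q.ord Jbar → Bd Q (a b) 0) →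
    (∀ s, ∃ c, ∀ b, Val (pt b s) (a b) c) →
    ∃ x : F, (∀ b, x ∈ G b ∧ red b x = a b) ∧ ∀ P : Place K F, 0 ≤ P.ord J → Bd P x 0
  lift_inf : ∀ a : Bool → Fs,
    (∀ b (Q : Place (ResidueField A) Fs), Q.ord Jbar ≤ 0 → Bd Q (a b) 0) →
    (∀ s, (∀ b, (pt b s).ord Jbar ≤ 0) → ∃ c, ∀ b, Val (pt b s) (a b) c) →
    ∃ x : F, (∀ b, x ∈ G b ∧ red b x = a b) ∧ ∀ P : Place K F, P.ord J ≤ 0 → Bd P x 0

/-- A semilinear automorphism of the generic curve acting on both components. -/
structure Compat {K : Type*} [Field K] [IsAlgClosed K] [CharZero K] {A : ValuationSubring K}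
    {F : Type*} [Field F] [Algebra K F] [RR.FnField K F]
    {Fs : Type*} [Field Fs] [Algebra (ResidueField A) Fs]
    (C : Core K A F Fs) (g : SemilinearAut K F) (gs : Fs ≃+* Fs) : Prop where
  base_mem : ∀ a : K, a ∈ A → SemilinearAut.baseAut g a ∈ A
  mem : ∀ b, ∀ x ∈ C.G b, g • x ∈ C.G b
  red : ∀ b, ∀ x ∈ C.G b, C.red b (g • x) = gs (C.red b x)
  J_eq : g • C.J = C.J

/-- A divisor of order `n` up to principal ones, with a choice of the restrictions of the
trivialisation to the two components. -/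
structure Rep {K : Type*} [Field K] [IsAlgClosed K] [CharZero K] {A : ValuationSubring K}
    {F : Type*} [Field F] [Algebra K F] [RR.FnField K F]
    {Fs : Type*} [Field Fs] [Algebra (ResidueField A) Fs]
    (C : Core K A F Fs) (n : ℕ) where
  E : Divisor K F
  f : F
  α : Bool → K
  h : Bool → Fs
  degree_E : Divisor.degree E = 0
  f_ne : f ≠ 0
  ord_f : ∀ P : Place K F, (n : ℤ) * E P = P.ord f
  α_ne : ∀ b, α b ≠ 0
  h_ne : ∀ b, h b ≠ 0
  mem : ∀ b, (algebraMap K F (α b ^ n))⁻¹ * f ∈ C.G b
  red_eq : ∀ b, C.red b ((algebraMap K F (α b ^ n))⁻¹ * f) = h b ^ n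

namespace Data

variable {K : Type*} [Field K] [IsAlgClosed K] [CharZero K] {A : ValuationSubring K}
  {F : Type*} [Field F] [Algebra K F] [RR.FnField K F]
  {Fs : Type*} [Field Fs] [Algebra (ResidueField A) Fs] (D : Data K A F Fs)

/-- pairs with bounded poles agreeing at the double points -/
def W (m : ℕ) : Submodule (ResidueField A) (Bool → Fs) where
  carrier := {a | (∀ b, a b ∈ target (k := ResidueField A) D.Jbar m) ∧
    ∀ s, ∃ c, ∀ b, Val (D.pt b s) (a b) c}
  zero_mem' := ⟨fun _ => zero_mem _, fun _ => ⟨0, fun _ => Val.zero⟩⟩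
  add_mem' := by
    rintro a a' ⟨h1, h2⟩ ⟨h1', h2'⟩
    refine ⟨fun b => add_mem (h1 b) (h1' b), fun s => ?_⟩
    obtain ⟨c, hc⟩ := h2 s
    obtain ⟨c', hc'⟩ := h2' s
    exact ⟨c + c', fun b => (hc b).add (hc' b)⟩
  smul_mem' := by
    rintro r a ⟨h1, h2⟩
    refine ⟨fun b => Submodule.smul_mem _ r (h1 b), fun s => ?_⟩
    obtain ⟨c, hc⟩ := h2 s
    exact ⟨r * c, fun b => by rw [Pi.smul_apply, Algebra.smul_def]; exact (Val.const r).mul (hc b)⟩

end Data

end FLTAgent.SS
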