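import Fermat.Agent.SS.Frame
import Fermat.Agent.SS.Defs

/-!
Coordinates in a frame: the scales on the two sides, orthogonal bases, and the regularity of
restrictions of functions with bounded poles.
-/

set_option autoImplicit false
set_option linter.unusedSectionVars false
set_option synthInstance.maxHeartbeats 200000
set_option linter.style.haveILetI false

noncomputable section

open ModularCurve AlgebraicCurve Polynomial IsLocalRing
open FLTAgent.Reduction
open FLTAgent.RR (Bd KK)

namespace FLTAgent.SS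

variable {M q : ℕ} [NeZero M] [NeZero q] {A : ValuationSubring Qb}

/-! ### division -/

namespace IsRed

variable {b : Bool} {y z H G : FB (M * q)} {r h g : FS A M}

theorem congr_val (e : y = z) (hy : IsRed A b y r) : IsRed A b z r := e ▸ hy

theorem eq_zero (hy : IsRed A b y r) (h0 : y = 0) : r = 0 :=
  (hy.congr_val h0).unique IsRed.zero

theorem ne_zero (hy : IsRed A b y r) (hr : r ≠ 0) : y ≠ 0 := fun h0 => hr (hy.eq_zero h0)

theorem div (hH : IsRed A b H h) (hh : h ≠ 0) (hG : IsRed A b G g) (e : y * H = G) :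
    IsRed A b y (g / h) := by
  obtain ⟨hHm, hr₁⟩ := hH
  obtain ⟨hGm, hr₂⟩ := hG
  obtain ⟨G₁, H₁, hH₁, e₁⟩ := mem_GS.mp hHm
  obtain ⟨G₂, H₂, hH₂, e₂⟩ := mem_GS.mp hGm
  rw [redS_eq hH₁ e₁] at hr₁
  rw [redS_eq hH₂ e₂] at hr₂
  have hG1 : dn A G₁ ≠ 0 := fun h0 => hh (Subtype.ext (by rw [← hr₁, h0, zero_div]; rfl))
  have e' : ((side M q b y : FB (M * q)) : LaurentSeries Qb) * up A (G₁ * H₂) =
      up A (G₂ * H₁) := by
    rw [map_mul (up A), map_mul (up A), ← e₁, ← e₂, ← e]
    simp only [map_mul, MulMemClass.coe_mul]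
    ring
  have hne : dn A (G₁ * H₂) ≠ 0 := by rw [map_mul]; exact mul_ne_zero hG1 hH₂
  refine ⟨⟨_, _, hne, e'⟩, ?_⟩
  rw [redS_eq hne e', map_mul, map_mul, IntermediateField.coe_div, ← hr₁, ← hr₂, div_div_div_eq]
  ring

theorem mem_A {c : Qb} (hy : IsRed A b y r) (hr : r ≠ 0)
    (h : algebraMap Qb (FB (M * q)) c * y ∈ GS M q A b) : c ∈ A := by
  by_contra hc
  have hc0 : c ≠ 0 := fun h0 => hc (h0 ▸ A.zero_mem)
  have hinv : A.valuation c⁻¹ < 1 := by
    rw [map_inv₀, inv_lt_one_iff₀]
    exact Or.inr (lt_of_not_ge fun h => hc ((A.valuation_le_one_iff c).mp h))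
  have h1 := IsRed.small hinv h
  rw [← mul_assoc, ← map_mul, inv_mul_cancel₀ hc0, map_one, one_mul] at h1
  exact hr (hy.unique h1)

end IsRed

/-! ### coordinates in a frame -/

variable (A M q) in
/-- `A[X] → F`, `X ↦` the coordinate -/
def phiJ (s : Bool) : A[X] →+* FB (M * q) :=
  Polynomial.eval₂RingHom ((algebraMap Qb (FB (M * q))).comp A.subtype) (tJ M q s)

theorem phiJ_apply (s : Bool) (P : A[X]) :
    phiJ M q A s P = Polynomial.aeval (tJ M q s) (P.map A.subtype) := by
  rw [Polynomial.aeval_def, Polynomial.eval₂_map]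
  rfl

namespace Frame

variable {a : Bool → Qb} (F : Frame A M q a)

/-- `∑ Pₓ(t) Eₓ` -/
def comb (s : Bool) (P : Idx M q → A[X]) : FB (M * q) := ∑ x, phiJ M q A s (P x) * F.E x

/-- the restriction of `comb` -/
def combS (b s : Bool) (P : Idx M q → A[X]) : FS A M :=
  ∑ x, Polynomial.aeval (tJS M q A s) ((P x).map (residue A)) * F.r b x

theorem exists_combS_ne_zero (s : Bool) {P : Idx M q → A[X]}
    (hP : ∃ x, (P x).map (residue A) ≠ 0) : ∃ b, F.combS b s P ≠ 0 := by
  by_contra hc
  push Not at hc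
  obtain ⟨x, hx⟩ := hP
  exact hx (F.indep s (fun x => (P x).map (residue A)) hc x)

end Frame

variable (C : Ctx A M q)
include C

theorem isRed_phiJ (b s : Bool) (P : A[X]) :
    IsRed A b (phiJ M q A s P) (Polynomial.aeval (tJS M q A s) (P.map (residue A))) := by
  induction P using Polynomial.induction_on' with
  | add P R hP hR =>
    rw [map_add, Polynomial.map_add, map_add]
    exact hP.add hR
  | monomial n a =>
    have h1 : phiJ M q A s (Polynomial.monomial n a) =
        algebraMap Qb (FB (M * q)) (a : Qb) * tJ M q s ^ n := by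
      simp [phiJ, Polynomial.eval₂_monomial]
    rw [h1, Polynomial.map_monomial, Polynomial.aeval_monomial]
    exact (IsRed.const a).mul ((IsRed.tJ C s).pow n)

theorem finite_tJ (s : Bool) : FiniteDimensional (KK Qb (tJ M q s)) (FB (M * q)) :=
  RR.finiteDimensional_KK (transcendental_tJ C s)

theorem separable_tJ (s : Bool) : Algebra.IsSeparable (KK Qb (tJ M q s)) (FB (M * q)) :=
  haveI := finite_tJ C s
  haveI : CharZero (KK Qb (tJ M q s)) :=
    charZero_of_injective_algebraMap (algebraMap Qb (KK Qb (tJ M q s))).injective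
  inferInstance

namespace Frame

variable {a : Bool → Qb} (F : Frame A M q a)

theorem isRed_comb (b s : Bool) (P : Idx M q → A[X]) :
    IsRed A b (algebraMap Qb (FB (M * q)) (a b) * F.comb s P) (F.combS b s P) := by
  rw [comb, Finset.mul_sum]
  refine IsRed.sum _ _ _ fun x _ => ?_
  rw [mul_left_comm]
  exact (isRed_phiJ C b s _).mul (F.red b x)

theorem indep_gen (s : Bool) (p : Idx M q → Qb[X])
    (h : ∑ x, Polynomial.aeval (tJ M q s) (p x) * F.E x = 0) (x : Idx M q) : p x = 0 := by
  by_contra hx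
  obtain ⟨γ, P, hγ, hP, hne⟩ := exists_normalize (A := A) p ⟨x, hx⟩
  obtain ⟨b, hb⟩ := F.exists_combS_ne_zero s hne
  refine (F.isRed_comb C b s P).ne_zero hb (mul_eq_zero_of_right _ ?_)
  have h1 : algebraMap Qb (FB (M * q)) γ * F.comb s P = 0 := by
    rw [comb, Finset.mul_sum]
    refine Eq.trans (Finset.sum_congr rfl fun y _ => ?_) h
    rw [← hP y, map_mul, aeval_C, phiJ_apply, mul_assoc]
  exact (mul_eq_zero.mp h1).resolve_left ((_root_.map_ne_zero _).mpr hγ)

/-- every element is a quotient of normalised combinations, up to a constant -/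
theorem exists_repr (s : Bool) {y : FB (M * q)} (hy : y ≠ 0) :
    ∃ (c : Qb) (Q : A[X]) (P : Idx M q → A[X]), c ≠ 0 ∧ Q.map (residue A) ≠ 0 ∧
      (∃ x, (P x).map (residue A) ≠ 0) ∧
      y * phiJ M q A s Q = algebraMap Qb (FB (M * q)) c * F.comb s P := by
  classical
  obtain ⟨d, p, hne, hrel⟩ : ∃ (d : Qb[X]) (p : Idx M q → Qb[X]),
      (d ≠ 0 ∨ ∃ x, p x ≠ 0) ∧ Polynomial.aeval (tJ M q s) d * y
        = ∑ x, Polynomial.aeval (tJ M q s) (p x) * F.E x := by
    haveI := finite_tJ C s
    haveI := separable_tJ C s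
    refine with_sepChart (transcendental_tJ C s) ?_
    intro _ _ _ _ _ _ hp hxv hn
    rw [ndeg_tJ C s] at hn
    have hnot : ¬ LinearIndependent Qb[X] (fun i : Option (Idx M q) => i.elim y F.E) := by
      intro hli
      have := ((LinearIndependent.iff_fractionRing Qb[X] (RatFunc Qb)).mp hli).fintype_card_le_finrank
      rw [hn] at this
      simp [Fintype.card_prod] at this
    rw [Fintype.linearIndependent_iff] at hnot
    push Not at hnot
    obtain ⟨g, hg, o, ho⟩ := hnot
    refine ⟨-g none, fun i => g (some i), ?_, ?_⟩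
    · cases o with
      | none => exact Or.inl (neg_ne_zero.mpr ho)
      | some i => exact Or.inr ⟨i, ho⟩
    · rw [Fintype.sum_option] at hg
      simp only [Option.elim_none, Option.elim_some, Algebra.smul_def, hp] at hg
      rw [map_neg, neg_mul]
      linear_combination -hg
  have hd0 : d ≠ 0 := by
    intro h0
    subst h0
    obtain ⟨x, hx⟩ := hne.resolve_left (fun h => h rfl)
    exact hx (F.indep_gen C s p (hrel.symm.trans (by simp)) x)
  have hp0 : ∃ x, p x ≠ 0 := by
    by_contra hc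
    push Not at hc
    simp only [hc, map_zero, zero_mul, Finset.sum_const_zero, mul_eq_zero] at hrel
    exact hd0 ((transcendental_iff.mp (transcendental_tJ C s)) d (hrel.resolve_right hy))
  obtain ⟨γ, P, hγ, hP, hPx⟩ := exists_normalize (A := A) p hp0
  obtain ⟨δ, Q, hδ, hQ, _, hQi⟩ := exists_normalize (A := A) (fun _ : Unit => d) ⟨(), hd0⟩
  refine ⟨γ / δ, Q (), P, div_ne_zero hγ hδ, hQi, hPx, ?_⟩
  refine mul_left_cancel₀ ((_root_.map_ne_zero (algebraMap Qb (FB (M * q)))).mpr hδ) ?_
  rw [← mul_assoc _ (algebraMap Qb (FB (M * q)) (γ / δ)), ← map_mul, mul_div_cancel₀ _ hδ,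
    mul_left_comm, phiJ_apply, ← aeval_C (x := tJ M q s) δ, ← map_mul, hQ (), mul_comm y, hrel, comb,
    Finset.mul_sum]
  refine Finset.sum_congr rfl fun x _ => ?_
  rw [← hP x, map_mul, aeval_C, phiJ_apply, mul_assoc]

end Frame

/-! ### scales -/

omit C in
variable (A) in
/-- `x` is a constant times a unit of the side `b` -/
def Scaled (b : Bool) (x : FB (M * q)) : Prop :=
  ∃ (c : Qb) (u : FB (M * q)) (r : FS A M),
    c ≠ 0 ∧ r ≠ 0 ∧ IsRed A b u r ∧ x = algebraMap Qb (FB (M * q)) c * u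

omit C in
theorem Scaled.inv {b : Bool} {x : FB (M * q)} (h : Scaled A b x) : Scaled A b x⁻¹ := by
  obtain ⟨c, u, r, hc, hr, hu, rfl⟩ := h
  refine ⟨c⁻¹, u⁻¹, 1 / r, inv_ne_zero hc, one_div_ne_zero hr,
    hu.div hr IsRed.one (inv_mul_cancel₀ (hu.ne_zero hr)), ?_⟩
  rw [mul_inv, map_inv₀]

theorem isRed_phiJ_ne_zero (b s : Bool) {Q : A[X]} (hQ : Q.map (residue A) ≠ 0) :
    IsRed A b (phiJ M q A s Q) (Polynomial.aeval (tJS M q A s) (Q.map (residue A))) ∧
      Polynomial.aeval (tJS M q A s) (Q.map (residue A)) ≠ 0 :=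
  ⟨isRed_phiJ C b s Q,
    fun h => hQ (transcendental_iff.mp (transcendental_tJS s) _ h)⟩

set_option maxHeartbeats 1600000 in
theorem scaled (b : Bool) {x : FB (M * q)} (hx : x ≠ 0) : Scaled A b x := by
  classical
  let a : Bool → Qb := fun b' => if b' = b then 1 else (q : Qb)
  have hq : (q : Qb) ≠ 0 := Nat.cast_ne_zero.mpr C.prime.ne_zero
  obtain ⟨F⟩ := nonempty_frame C a fun b' => by dsimp only [a]; split_ifs <;> simp [hq]
  have key : ∀ y : FB (M * q), y ≠ 0 → Scaled A b y ∨
      ∃ (c : Qb) (Q : A[X]) (Φ : FB (M * q)) (r : FS A M), Q.map (residue A) ≠ 0 ∧ r ≠ 0 ∧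
        IsRed A b Φ 0 ∧ IsRed A (!b) (algebraMap Qb (FB (M * q)) (q : Qb) * Φ) r ∧
        y * phiJ M q A false Q = algebraMap Qb (FB (M * q)) c * Φ := by
    intro y hy
    obtain ⟨c, Q, P, hc, hQ, hP, he⟩ := F.exists_repr C false hy
    have hb := F.isRed_comb C b false P
    simp only [a, if_pos, map_one, one_mul] at hb
    have hb' := F.isRed_comb C (!b) false P
    simp only [a, if_neg (Bool.not_ne_self b)] at hb'
    obtain ⟨b₀, hb₀⟩ := F.exists_combS_ne_zero false hP
    by_cases h0 : F.combS b false P = 0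
    · refine Or.inr ⟨c, Q, F.comb false P, F.combS (!b) false P, hQ, ?_, h0 ▸ hb, hb', he⟩
      rcases eq_or_ne b₀ b with rfl | hne
      · exact absurd h0 hb₀
      · obtain rfl : b₀ = !b := by cases b <;> cases b₀ <;> simp_all
        exact hb₀
    · obtain ⟨hH, hH0⟩ := isRed_phiJ_ne_zero C b false hQ
      have hne := hH.ne_zero hH0
      refine Or.inl ⟨c, F.comb false P / phiJ M q A false Q, _, hc, div_ne_zero h0 hH0,
        hH.div hH0 hb (div_mul_cancel₀ _ hne), ?_⟩
      rw [← mul_div_assoc, ← he, mul_div_assoc, div_self hne, mul_one]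
  rcases key x hx with h | ⟨c, Q, Φ, r, hQ, hr, hΦ, hΦ', he⟩
  · exact h
  rcases key x⁻¹ (inv_ne_zero hx) with h | ⟨c', Q', Φ', r', hQ', hr', hΨ, hΨ', he'⟩
  · simpa using h.inv
  exfalso
  obtain ⟨hH, hH0⟩ := isRed_phiJ_ne_zero C b false hQ
  obtain ⟨hK, hK0⟩ := isRed_phiJ_ne_zero C b false hQ'
  have hprod : phiJ M q A false Q * phiJ M q A false Q' =
      algebraMap Qb (FB (M * q)) (c * c') * (Φ * Φ') := by
    calc phiJ M q A false Q * phiJ M q A false Q'
        = (x * phiJ M q A false Q) * (x⁻¹ * phiJ M q A false Q') := by field_simp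
      _ = _ := by rw [he, he', map_mul]; ring
  have hnot : c * c' ∉ A := by
    intro hcA
    have h1 := (IsRed.const (M := M) (q := q) (b := b) ⟨c * c', hcA⟩).mul (hΦ.mul hΨ)
    rw [← hprod] at h1
    refine mul_ne_zero hH0 hK0 ?_
    rw [(hH.mul hK).unique h1, mul_zero, mul_zero]
  refine hnot ((hΦ'.mul hΨ').mem_A (mul_ne_zero hr hr') ?_)
  rw [show algebraMap Qb (FB (M * q)) (c * c') * (algebraMap Qb (FB (M * q)) (q : Qb) * Φ *
      (algebraMap Qb (FB (M * q)) (q : Qb) * Φ')) = algebraMap Qb (FB (M * q)) ((q : Qb) * q) *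
      (phiJ M q A false Q * phiJ M q A false Q') by rw [hprod, map_mul, map_mul]; ring]
  refine mul_mem ?_ (mul_mem (isRed_phiJ C _ _ Q).1 (isRed_phiJ C _ _ Q').1)
  exact (IsRed.const (M := M) (q := q) (⟨(q : Qb) * q, mul_mem (natCast_mem A q) (natCast_mem A q)⟩ : A)).1

theorem isRed_redM {b : Bool} {y : FB (M * q)} (h : y ∈ GS M q A b) :
    IsRed A b y (redM M q A b y) := by
  obtain ⟨r, hr⟩ : ∃ r, IsRed A b y r := by
    rcases eq_or_ne y 0 with rfl | hy
    · exact ⟨0, IsRed.zero⟩
    obtain ⟨c, u, r, hc, hr, hu, rfl⟩ := scaled C b hy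
    exact ⟨_, (IsRed.const (⟨c, hu.mem_A hr h⟩ : A)).mul hu⟩
  rwa [hr.eq]

theorem exists_scale (b : Bool) {x : FB (M * q)} (hx : x ≠ 0) :
    ∃ c : Qb, c ≠ 0 ∧ algebraMap Qb (FB (M * q)) c * x ∈ GS M q A b ∧
      redM M q A b (algebraMap Qb (FB (M * q)) c * x) ≠ 0 := by
  obtain ⟨c, u, r, hc, hr, hu, rfl⟩ := scaled C b hx
  refine ⟨c⁻¹, inv_ne_zero hc, ?_⟩
  rw [← mul_assoc, ← map_mul, inv_mul_cancel₀ hc, map_one, one_mul, hu.eq]
  exact ⟨hu.1, hr⟩

omit C

/-! ### orthogonal bases -/

/-- a subspace of `ℚ̄^m` has a basis of integral vectors with independent reductions -/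
theorem exists_integral_basis {m : Type*} [Fintype m] :
    ∀ (n : ℕ) (U : Submodule Qb (m → Qb)), Module.finrank Qb U = n →
      ∃ (d : ℕ) (u : Fin d → m → A),
        Submodule.span Qb (Set.range fun i j => (u i j : Qb)) = U ∧
        LinearIndependent (kA A) (fun i j => residue A (u i j)) := by
  classical
  intro n
  induction n using Nat.strong_induction_on with
  | _ n ih =>
    intro U hU
    rcases eq_or_ne U ⊥ with rfl | hne
    · exact ⟨0, finZeroElim, by simp [Set.range_eq_empty], linearIndependent_empty_type⟩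
    obtain ⟨w, hw, hw0⟩ := Submodule.exists_mem_ne_zero_of_ne_bot hne
    obtain ⟨p, -, hp0, hmax⟩ := exists_max A Finset.univ w
      (by obtain ⟨j, hj⟩ := Function.ne_iff.mp hw0; exact ⟨j, Finset.mem_univ _, hj⟩)
    let u₀ : m → A := fun j => ⟨w j / w p, hmax j (Finset.mem_univ _)⟩
    have hu₀ : (fun j => (u₀ j : Qb)) = (w p)⁻¹ • w := funext fun j => by
      simp [u₀, div_eq_inv_mul]
    have hu₀p : u₀ p = 1 := Subtype.ext (div_self hp0)
    have hu₀U : (fun j => (u₀ j : Qb)) ∈ U := hu₀ ▸ U.smul_mem _ hw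
    set U' : Submodule Qb (m → Qb) :=
      U ⊓ LinearMap.ker (LinearMap.proj (R := Qb) (φ := fun _ : m => Qb) p) with hU'
    have hlt : U' < U := lt_of_le_of_ne inf_le_left fun h => hp0 (by
      have : w ∈ U' := h.symm ▸ hw
      exact LinearMap.mem_ker.mp this.2)
    obtain ⟨d, u, hspan, hind⟩ :=
      ih _ (hU ▸ Submodule.finrank_lt_finrank_of_lt hlt) U' rfl
    have huU : ∀ i, (fun j => (u i j : Qb)) ∈ U' := fun i =>
      hspan ▸ Submodule.subset_span ⟨i, rfl⟩
    have hup : ∀ i, u i p = 0 := fun i => Subtype.ext (LinearMap.mem_ker.mp (huU i).2)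
    refine ⟨d + 1, Fin.cons u₀ u, le_antisymm (Submodule.span_le.mpr ?_) fun v hv => ?_,
      Fintype.linearIndependent_iff.mpr fun g hg => ?_⟩
    · rintro _ ⟨i, rfl⟩
      induction i using Fin.cases with
      | zero => simpa using hu₀U
      | succ i => simpa using (huU i).1
    · have h1 : v - v p • (fun j => (u₀ j : Qb)) ∈ U' := by
        refine ⟨U.sub_mem hv (U.smul_mem _ hu₀U), LinearMap.mem_ker.mpr ?_⟩
        simp [hu₀p]
      rw [← sub_add_cancel v (v p • fun j => (u₀ j : Qb))]
      refine Submodule.add_mem _ ?_ (Submodule.smul_mem _ _ (Submodule.subset_span ⟨0, by simp⟩))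
      rw [← hspan] at h1
      refine Submodule.span_mono ?_ h1
      rintro _ ⟨i, rfl⟩
      exact ⟨i.succ, by simp⟩
    · rw [Fin.sum_univ_succ] at hg
      simp only [Fin.cons_zero, Fin.cons_succ] at hg
      have h0 : g 0 = 0 := by
        have := congrFun hg p
        simpa [hu₀p, hup] using this
      rw [h0, zero_smul, zero_add] at hg
      intro i
      induction i using Fin.cases with
      | zero => exact h0
      | succ i => exact Fintype.linearIndependent_iff.mp hind _ hg i

include C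

set_option maxHeartbeats 1600000 in
theorem exists_orth_basis (a : Bool → Qb) (ha : ∀ b, a b ≠ 0)
    (V : Submodule Qb (FB (M * q))) [FiniteDimensional Qb V] :
    ∃ (d : ℕ) (v : Fin d → FB (M * q)), Submodule.span Qb (Set.range v) = V ∧
      (∀ b i, algebraMap Qb (FB (M * q)) (a b) * v i ∈ GS M q A b) ∧
      LinearIndependent (kA A)
        (fun i b => redM M q A b (algebraMap Qb (FB (M * q)) (a b) * v i)) := by
  classical
  obtain ⟨F⟩ := nonempty_frame C a ha
  let w := Module.finBasis Qb V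
  choose c Q P hc hQ hP he using fun j =>
    F.exists_repr C false (y := (w j : FB (M * q))) (fun h => w.ne_zero j (Subtype.ext h))
  obtain ⟨Q₀, hQ₀, p, hp⟩ : ∃ Q₀ : A[X], Q₀.map (residue A) ≠ 0 ∧
      ∃ p : Fin (Module.finrank Qb V) → Idx M q → Qb[X], ∀ j,
        (w j : FB (M * q)) * phiJ M q A false Q₀ =
          ∑ x, Polynomial.aeval (tJ M q false) (p j x) * F.E x := by
    refine ⟨∏ j, Q j, ?_, fun j x => Polynomial.C (c j) *
      ((∏ i ∈ Finset.univ.erase j, Q i) * P j x).map A.subtype, fun j => ?_⟩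
    · rw [Polynomial.map_prod]; exact Finset.prod_ne_zero_iff.mpr fun j _ => hQ j
    · simp only [map_mul, aeval_C, ← phiJ_apply, mul_assoc, ← Finset.mul_sum]
      rw [show (∑ x, phiJ M q A false (P j x) * F.E x) = F.comb false (P j) from rfl,
        mul_left_comm _ (phiJ M q A false (∏ i ∈ Finset.univ.erase j, Q i)) (F.comb false (P j)),
        ← he j, ← Finset.prod_erase_mul _ _ (Finset.mem_univ j), map_mul]
      ring
  obtain ⟨D, hD⟩ : ∃ D : ℕ, ∀ j x, (p j x).natDegree < D :=
    ⟨_, fun j x => Nat.lt_succ_of_le (Finset.le_sup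
      (f := fun z : Fin (Module.finrank Qb V) × Idx M q => (p z.1 z.2).natDegree)
      (Finset.mem_univ (j, x)))⟩
  set J := tJ M q false with hJ
  have hQne : phiJ M q A false Q₀ ≠ 0 :=
    (isRed_phiJ_ne_zero C false false hQ₀).1.ne_zero (isRed_phiJ_ne_zero C false false hQ₀).2
  let L : (Idx M q × Fin D → Qb) →ₗ[Qb] FB (M * q) :=
    Fintype.linearCombination Qb fun z => J ^ (z.2 : ℕ) * F.E z.1 / phiJ M q A false Q₀
  let poly : (Idx M q × Fin D → Qb) → Idx M q → Qb[X] := fun u x =>
    ∑ n : Fin D, Polynomial.C (u (x, n)) * Polynomial.X ^ (n : ℕ)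
  have hL : ∀ u, L u * phiJ M q A false Q₀ = ∑ x, Polynomial.aeval J (poly u x) * F.E x := by
    intro u
    simp only [L, Fintype.linearCombination_apply, Finset.sum_mul, Fintype.sum_prod_type, poly,
      map_sum, map_mul, map_pow, aeval_C, aeval_X, Algebra.smul_def]
    refine Finset.sum_congr rfl fun x _ => Finset.sum_congr rfl fun n _ => ?_
    field_simp
  have hcoeff : ∀ u x (n : Fin D), (poly u x).coeff n = u (x, n) := by
    intro u x n
    simp [poly, Polynomial.coeff_X_pow, Fin.val_inj]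
  have hinj : Function.Injective L := by
    refine (injective_iff_map_eq_zero L).mpr fun u hu => funext fun z => ?_
    have h1 := F.indep_gen C false (poly u) (by rw [← hJ, ← hL, hu, zero_mul]) z.1
    simpa [hcoeff] using congrArg (fun P => Polynomial.coeff P (z.2 : ℕ)) h1
  have hVL : V ≤ LinearMap.range L := by
    have : ∀ j, (w j : FB (M * q)) ∈ LinearMap.range L := by
      intro j
      refine ⟨fun z => (p j z.1).coeff z.2, mul_right_cancel₀ hQne ?_⟩
      rw [hL]
      have hpoly : ∀ x, poly (fun z => (p j z.1).coeff z.2) x = p j x := fun x => by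
        conv_rhs => rw [(p j x).as_sum_range' D (hD j x)]
        simp only [poly, ← Polynomial.C_mul_X_pow_eq_monomial, Finset.sum_range]
      simp only [hpoly]
      exact (hp j).symm
    intro v hv
    obtain ⟨v', rfl⟩ : ∃ v' : V, (v' : FB (M * q)) = v := ⟨⟨v, hv⟩, rfl⟩
    rw [← w.sum_repr v', AddSubmonoidClass.coe_finsetSum]
    exact sum_mem fun j _ => Submodule.smul_mem _ _ (this j)
  obtain ⟨d, u, hspan, hind⟩ := exists_integral_basis (A := A) _ (V.comap L) rfl
  let v : Fin d → FB (M * q) := fun i => L fun z => (u i z : Qb)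
  let U : Fin d → Idx M q → A[X] := fun i x =>
    ∑ n : Fin D, Polynomial.C (u i (x, n)) * Polynomial.X ^ (n : ℕ)
  have hred : ∀ b i, IsRed A b (algebraMap Qb (FB (M * q)) (a b) * v i)
      (F.combS b false (U i) / Polynomial.aeval (tJS M q A false) (Q₀.map (residue A))) := by
    intro b i
    obtain ⟨hH, hH0⟩ := isRed_phiJ_ne_zero C b false hQ₀
    refine hH.div hH0 (F.isRed_comb C b false (U i)) ?_
    rw [mul_assoc, hL, Frame.comb]
    congr 1
    refine Finset.sum_congr rfl fun x _ => ?_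
    simp only [poly, U, phiJ_apply, Polynomial.map_sum, Polynomial.map_mul, Polynomial.map_C,
      Polynomial.map_pow, Polynomial.map_X, hJ]
    rfl
  refine ⟨d, v, ?_, fun b i => (hred b i).1, Fintype.linearIndependent_iff.mpr fun g hg i => ?_⟩
  · rw [show Set.range v = L '' Set.range fun i z => (u i z : Qb) from Set.range_comp L _,
      ← Submodule.map_span, hspan, Submodule.map_comap_eq, inf_eq_right.mpr hVL]
  refine Fintype.linearIndependent_iff.mp hind g (funext fun z => ?_) i
  have h1 : ∀ b, ∑ i, g i • F.combS b false (U i) = 0 := by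
    intro b
    have h2 := congrFun hg b
    rw [Finset.sum_apply] at h2
    simp only [Pi.smul_apply, Pi.zero_apply] at h2
    simp only [(hred b _).eq, Algebra.smul_def, ← mul_div_assoc, ← Finset.sum_div, div_eq_zero_iff,
      (isRed_phiJ_ne_zero C b false hQ₀).2, or_false] at h2
    simpa only [Algebra.smul_def] using h2
  have h3 := F.indep false
    (fun x => ∑ i, Polynomial.C (g i) * (U i x).map (residue A)) (fun b => by
      rw [← h1 b]
      simp only [Frame.combS, map_sum, map_mul, aeval_C, Finset.sum_mul, Finset.mul_sum,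
        Algebra.smul_def, mul_assoc]
      exact Finset.sum_comm) z.1
  have h4 := congrArg (fun R => Polynomial.coeff R (z.2 : ℕ)) h3
  simpa [U, Polynomial.map_sum, Polynomial.coeff_X_pow, Fin.val_inj, Finset.sum_apply] using h4

/-! ### regularity of restrictions -/

set_option maxHeartbeats 1600000 in
theorem regular_of_integral (s : Bool) {y : FB (M * q)} (hreg : y ∈ regOn Qb (tJ M q s))
    (hy : ∀ b, y ∈ GS M q A b) (b : Bool) :
    redM M q A b y ∈ regOn (kA A) (tJS M q A s) := by
  classical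
  obtain ⟨F⟩ := nonempty_frame C (fun _ => (1 : Qb)) fun _ => one_ne_zero
  haveI := finite_tJ C s
  haveI := separable_tJ C s
  obtain ⟨m, hm, hmy⟩ := isIntegral_of_mem_regOn (transcendental_tJ C s) hreg
  set N := m.natDegree
  have hsmall : ∀ i : Fin N, ∃ (Q : A[X]) (p : Idx M q → Qb[X]), Q.map (residue A) ≠ 0 ∧
      y ^ (i : ℕ) * phiJ M q A s Q = ∑ x, Polynomial.aeval (tJ M q s) (p x) * F.E x := by
    intro i
    rcases eq_or_ne (y ^ (i : ℕ)) 0 with h | h
    · exact ⟨1, 0, by simp, by simp [h]⟩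
    obtain ⟨c, Q, P, -, hQ, -, he⟩ := F.exists_repr C s h
    refine ⟨Q, fun x => Polynomial.C c * (P x).map A.subtype, hQ, ?_⟩
    rw [he, Frame.comb, Finset.mul_sum]
    refine Finset.sum_congr rfl fun x _ => ?_
    rw [map_mul, aeval_C, phiJ_apply, mul_assoc]
  choose Q p hQ hp using hsmall
  set Q₀ : A[X] := ∏ i, Q i
  have hQ₀ : Q₀.map (residue A) ≠ 0 := by
    rw [Polynomial.map_prod]; exact Finset.prod_ne_zero_iff.mpr fun j _ => hQ j
  have hall : ∀ n : ℕ, ∃ p : Idx M q → Qb[X],
      y ^ n * phiJ M q A s Q₀ = ∑ x, Polynomial.aeval (tJ M q s) (p x) * F.E x := by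
    intro n
    induction n using Nat.strong_induction_on with
    | _ n ih =>
      rcases lt_or_ge n N with hn | hn
      · refine ⟨fun x => (∏ i ∈ Finset.univ.erase (⟨n, hn⟩ : Fin N), Q i).map A.subtype *
          p ⟨n, hn⟩ x, ?_⟩
        simp only [map_mul, ← phiJ_apply, mul_assoc, ← Finset.mul_sum, ← hp ⟨n, hn⟩]
        rw [mul_left_comm, ← map_mul, Finset.prod_erase_mul _ _ (Finset.mem_univ _)]
      · choose R hR using fun i : Fin N => ih (n - N + i) (by omega)
        refine ⟨fun x => -∑ i : Fin N, m.coeff i * R i x, ?_⟩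
        have h1 := hmy
        rw [Polynomial.eval₂_eq_sum_range, Finset.sum_range_succ, hm.coeff_natDegree, map_one,
          one_mul] at h1
        have h2 : y ^ n = -∑ i : Fin N,
            (Polynomial.aeval (tJ M q s)) (m.coeff i) * y ^ (n - N + i) := by
          obtain ⟨k, rfl⟩ := Nat.exists_eq_add_of_le hn
          rw [pow_add, show y ^ N = -∑ i ∈ Finset.range N,
            Polynomial.aeval (tJ M q s) (m.coeff i) * y ^ i from eq_neg_of_add_eq_zero_right h1,
            Finset.sum_range, neg_mul, Finset.sum_mul, Nat.add_sub_cancel_left]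
          refine congrArg Neg.neg (Finset.sum_congr rfl fun i _ => ?_)
          rw [pow_add]; ring
        simp only [h2, neg_mul, Finset.sum_mul, mul_assoc, hR, map_neg, map_sum, map_mul,
          Finset.mul_sum, Finset.sum_neg_distrib]
        rw [Finset.sum_comm]
  set r := redM M q A b y
  set t := tJS M q A s
  set qb : FS A M := Polynomial.aeval t (Q₀.map (residue A))
  have hqb : qb ≠ 0 := (isRed_phiJ_ne_zero C b s hQ₀).2
  intro v hv
  have haev : ∀ P : (kA A)[X], Bd v (Polynomial.aeval t P) 0 := fun P =>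
    Algebra.adjoin_le (S := regOn (kA A) t) (Set.singleton_subset_iff.mpr (self_mem_regOn _))
      (Polynomial.aeval_mem_adjoin_singleton (kA A) _) v hv
  rcases eq_or_ne r 0 with hr | hr
  · rw [hr]; exact RR.Bd.zero
  let B : ℕ := Finset.univ.sup fun x => (-v.ord (F.r b x)).toNat
  have hB : ∀ n : ℕ, Bd v (r ^ n * qb) B := by
    intro n
    obtain ⟨p, hp⟩ := hall n
    have hyn : y ^ n * phiJ M q A s Q₀ ≠ 0 → ∃ P : Idx M q → A[X],
        y ^ n * phiJ M q A s Q₀ = F.comb s P := by
      intro hne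
      obtain ⟨γ, P, hγ, hP, hPx⟩ := exists_normalize (A := A) p (by
        by_contra hc
        push Not at hc
        exact hne (by rw [hp]; simp [hc]))
      have hcomb : y ^ n * phiJ M q A s Q₀ = algebraMap Qb (FB (M * q)) γ * F.comb s P := by
        rw [hp, Frame.comb, Finset.mul_sum]
        refine Finset.sum_congr rfl fun x _ => ?_
        rw [← hP x, map_mul, aeval_C, phiJ_apply, mul_assoc]
      obtain ⟨b', hb'⟩ := F.exists_combS_ne_zero s hPx
      have hred := F.isRed_comb C b' s P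
      simp only [map_one, one_mul] at hred
      have hγA : γ ∈ A := hred.mem_A hb' (hcomb ▸ mul_mem (pow_mem (hy b') n) (isRed_phiJ C b' s Q₀).1)
      refine ⟨fun x => Polynomial.C ⟨γ, hγA⟩ * P x, ?_⟩
      rw [hcomb, Frame.comb, Frame.comb, Finset.mul_sum]
      refine Finset.sum_congr rfl fun x _ => ?_
      simp [phiJ, mul_assoc]
    have hl := ((isRed_redM C (hy b)).pow n).mul (isRed_phiJ C b s Q₀)
    rcases eq_or_ne (y ^ n * phiJ M q A s Q₀) 0 with h0 | h0
    · rw [hl.eq_zero h0]; exact RR.Bd.zero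
    obtain ⟨P, hP⟩ := hyn h0
    have hred := F.isRed_comb C b s P
    simp only [map_one, one_mul] at hred
    rw [show r ^ n * qb = F.combS b s P from hl.unique (hred.congr_val hP.symm)]
    refine RR.Bd.sum _ _ fun x _ => ?_
    have h2 : Bd v (F.r b x) B := (RR.bd_self).mono (le_trans (Int.self_le_toNat _)
      (Int.ofNat_le.mpr (Finset.le_sup (f := fun x => (-v.ord (F.r b x)).toNat) (Finset.mem_univ x))))
    simpa using (haev ((P x).map (residue A))).mul h2
  rw [RR.bd_iff_ord hr]
  by_contra hneg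
  have h1 := (RR.bd_iff_ord (mul_ne_zero (pow_ne_zero (B + (v.ord qb).natAbs + 1) hr) hqb)).mp
    (hB (B + (v.ord qb).natAbs + 1))
  rw [v.ord_mul (pow_ne_zero _ hr) hqb, RR.ord_pow] at h1
  have h2 : ((B + (v.ord qb).natAbs + 1 : ℕ) : ℤ) * v.ord r ≤
      -((B + (v.ord qb).natAbs + 1 : ℕ) : ℤ) := by
    have : v.ord r ≤ -1 := by omega
    nlinarith
  omega

set_option maxHeartbeats 1600000 in
theorem pole_bound (m : ℕ) {x : FB (M * q)}
    (hx : x ∈ riemannRochSpace (m • RR.Pol (K := Qb) (Jfn M q))) (hG : ∀ b, x ∈ GS M q A b)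
    (b : Bool) : redM M q A b x ∈ target (k := kA A) (JS M q A) m := by
  have hJ0 := Jfn_ne_zero C
  have hord : ∀ P : Place Qb (FB (M * q)), x = 0 ∨ -((m : ℤ) * max (-P.ord (Jfn M q)) 0) ≤ P.ord x := by
    intro P
    rw [RR.riemannRochSpace_eq_boundedOn] at hx
    have := RR.mem_boundedOn.mp hx P trivial
    rw [RR.bd_iff] at this
    simpa [RR.Pol_apply] using this
  have hfin : x ∈ regOn Qb (tJ M q false) := by
    intro P hP
    have hP' : Bd P (Jfn M q) 0 := hP
    rw [RR.bd_iff_ord hJ0] at hP'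
    rcases hord P with h | h
    · rw [h]; exact RR.Bd.zero
    · rw [max_eq_right (by omega), mul_zero, neg_zero] at h
      exact RR.bd_iff.mpr (Or.inr (by omega))
  have hinf : x * tJ M q true ^ m ∈ regOn Qb (tJ M q true) := by
    intro P hP
    have hP' : Bd P (Jfn M q)⁻¹ 0 := hP
    rw [RR.bd_iff_ord (inv_ne_zero hJ0), P.ord_inv] at hP'
    rcases hord P with h | h
    · rw [h, zero_mul]; exact RR.Bd.zero
    · refine RR.bd_iff.mpr ?_
      rcases eq_or_ne x 0 with h0 | h0
      · exact Or.inl (by rw [h0, zero_mul])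
      refine Or.inr ?_
      rw [show tJ M q true = (Jfn M q)⁻¹ from rfl, P.ord_mul h0 (pow_ne_zero _ (inv_ne_zero hJ0)),
        RR.ord_pow, P.ord_inv]
      rw [max_eq_left (by omega)] at h
      linarith
  have hr := isRed_redM C (hG b)
  have hs := hr.mul ((IsRed.tJ C (b := b) true).pow m)
  have h2 := regular_of_integral C true hinf
    (fun b' => mul_mem (hG b') (pow_mem (IsRed.tJ C (b := b') true).1 m)) b
  rw [hs.eq] at h2
  have h1 := regular_of_integral C false hfin hG b
  refine mem_target.mpr fun Q => ?_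
  have hJS := JS_ne_zero (M := M) (q := q) (A := A)
  by_cases h : Bd Q (JS M q A) 0
  · refine (h1 Q h).mono ?_
    positivity
  · have h' := (not_congr (RR.bd_iff_ord hJS)).mp h
    have h3 := h2 Q (RR.bd_iff.mpr (Or.inr (by
      show -0 ≤ Q.ord (JS M q A)⁻¹
      rw [Q.ord_inv]; omega)))
    rw [show tJS M q A true ^ m = (JS M q A ^ m)⁻¹ from inv_pow _ _,
      ← div_eq_mul_inv, RR.bd_div_iff (pow_ne_zero _ hJS), RR.ord_pow] at h3
    exact h3.mono (by rw [max_eq_left (by omega)]; linarith)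

end FLTAgent.SS
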