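import Fermat.Agent.SS.Glue

/-!
The fibre of `X₀(Mq)` at `q ∤ M` as a `SS.Data`: two copies of `X₀(M)` glued at the double points,
and the rule for the square of Frobenius at these points.
-/

set_option autoImplicit false
set_option linter.unusedSectionVars false
set_option linter.unusedVariables false
set_option synthInstance.maxHeartbeats 200000
set_option linter.style.haveILetI false
set_option maxHeartbeats 800000

noncomputable section

open ModularCurve AlgebraicCurve Polynomial IsLocalRing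
open FLTAgent.Reduction
open FLTAgent.RR (Bd KK)

namespace FLTAgent.SS

theorem val_finset_sum {K F : Type*} [Field K] [Field F] [Algebra K F] {v : Place K F} {ι : Type*}
    (S : Finset ι) (f : ι → F) (c : ι → K) (h : ∀ i ∈ S, Val v (f i) (c i)) :
    Val v (∑ i ∈ S, f i) (∑ i ∈ S, c i) := by
  classical
  induction S using Finset.induction_on with
  | empty => simpa using Val.zero (v := v)
  | insert a S ha ih =>
    rw [Finset.sum_insert ha, Finset.sum_insert ha]
    exact (h a (Finset.mem_insert_self a S)).add (ih fun i hi => h i (Finset.mem_insert_of_mem hi))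

variable {M q : ℕ} [NeZero M] [NeZero q] {A : ValuationSubring Qb} (C : Ctx A M q)
include C

theorem exists_delta {ι : Type} [Fintype ι] (v : ι → PS A M)
    (hfin : ∀ s, Bd (v s) (tS A M false) 0) (hinj : Function.Injective v) (s₀ : ι) :
    ∃ a ∈ regOn (kA A) (tS A M false),
      Val (v s₀) a 1 ∧ ∀ s, s ≠ s₀ → Val (v s) a 0 := by
  classical
  haveI := finite_tS C false
  haveI := separable_tS C false
  choose g hg hgv hg0 hgw using fun s : {s // s ≠ s₀} =>
    exists_separate (transcendental_tS A M false) (hfin s.1) (hfin s₀) (hinj.ne s.2)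
  have hh : ∏ s, g s ∈ regOn (kA A) (tS A M false) := prod_mem fun s _ => hg s
  obtain ⟨d, hd⟩ := exists_val_of_regOn C (hfin s₀) hh
  have hd0 : d ≠ 0 := by
    rintro rfl
    have h1 := hd.ord_pos (Finset.prod_ne_zero_iff.mpr fun s _ => hg0 s)
    rw [RR.ord_prod _ _ _ fun s _ => hg0 s] at h1
    simp only [hgw, Finset.sum_const_zero] at h1
    omega
  refine ⟨algebraMap (kA A) (FS A M) d⁻¹ * ∏ s, g s, mul_mem (algebraMap_mem _ _) hh, ?_, ?_⟩
  · simpa [hd0] using (Val.const (v := v s₀) d⁻¹).mul hd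
  · intro s hs
    have h1 : Val (v s) (g ⟨s, hs⟩) 0 := by rw [Val, map_zero, sub_zero]; exact hgv ⟨s, hs⟩
    obtain ⟨e, he⟩ := exists_val_of_regOn C (hfin s)
      (prod_mem fun w _ => hg w : ∏ w ∈ Finset.univ.erase (⟨s, hs⟩ : {s // s ≠ s₀}), g w ∈ _)
    rw [← Finset.prod_erase_mul _ _ (Finset.mem_univ (⟨s, hs⟩ : {s // s ≠ s₀}))]
    simpa using (Val.const (v := v s) d⁻¹).mul (he.mul h1)

theorem exists_interp {ι : Type} [Fintype ι] (v : ι → PS A M)
    (hfin : ∀ s, Bd (v s) (tS A M false) 0) (hinj : Function.Injective v) (c : ι → kA A) :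
    ∃ m, ∃ a ∈ target (k := kA A) (JS M q A) m, ∀ s, Val (v s) a (c s) := by
  classical
  choose δ hδ hδ1 hδ0 using exists_delta C v hfin hinj
  set a : FS A M := ∑ s, algebraMap (kA A) (FS A M) (c s) * δ s with ha
  have hreg : a ∈ regOn (kA A) (tS A M false) :=
    sum_mem fun s _ => mul_mem (algebraMap_mem _ _) (hδ s)
  obtain ⟨m, hm⟩ := exists_pow_mul_mem (K := kA A) (t := tS A M true) (y := a)
    (tS_ne_zero A M true) (fun h0 => finite_ord_S C true h0)
    (show a ∈ regOn (kA A) (tS A M false)⁻¹⁻¹ by rw [inv_inv]; exact hreg)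
  refine ⟨m, a, mem_target.mpr fun Q => ?_, fun s => ?_⟩
  · have hj : jS A M ≠ 0 := tS_ne_zero A M false
    rcases le_or_gt 0 (Q.ord (jS A M)) with h | h
    · exact (hreg Q ((bd_zero_iff hj).mpr h)).mono (by positivity)
    · have h1 := hm Q ((bd_zero_inv_iff hj).mpr h.le)
      rcases eq_or_ne a 0 with h0 | h0
      · rw [h0]; exact RR.Bd.zero
      rw [show tS A M true = (jS A M)⁻¹ from rfl, mul_comm,
        RR.bd_mul_iff (pow_ne_zero _ (inv_ne_zero hj)), RR.ord_pow, Q.ord_inv] at h1
      refine h1.mono ?_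
      rw [JS, RR.ord_pow]
      have h2 : (m : ℤ) * -Q.ord (jS A M) ≤
          (m : ℤ) * max (-(((q + 1 : ℕ) : ℤ) * Q.ord (jS A M))) 0 := by
        refine mul_le_mul_of_nonneg_left (le_trans ?_ (le_max_left _ _)) (Int.natCast_nonneg m)
        push_cast
        nlinarith
      linarith
  · have h1 := val_finset_sum (v := v s) Finset.univ
      (fun s' => algebraMap (kA A) (FS A M) (c s') * δ s')
      (fun s' => if s' = s then c s else 0) fun s' _ => by
        split_ifs with h
        · subst h; simpa using (Val.const (v := v s') (c s')).mul (hδ1 s')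
        · simpa using (Val.const (v := v s) (c s')).mul (hδ0 s' s (Ne.symm h))
    rw [ha]
    simpa using h1

/-- a branch of a double point -/
def pointMap : Bool → ↥(Vset M q A false) → PS A M
  | false => fun s => branch C ⟨s.1, s.2.1⟩
  | true => fun s => s.1

theorem pointMap_fin (b : Bool) (s : ↥(Vset M q A false)) :
    Bd (pointMap C b s) (tS A M false) 0 := by
  cases b
  · exact branch_fin C _
  · exact s.2.1

theorem pointMap_injective : ∀ b, Function.Injective (pointMap C b)
  | false => fun s s' h => by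
      have e := branch_injective C ⟨s.1, s.2.1⟩ ⟨s'.1, s'.2.1⟩ s.2 s'.2 h
      exact Subtype.ext (Subtype.ext_iff.mp e :)
  | true => Subtype.val_injective

theorem mem_regOn_of_rr (m : ℕ) {x : FB (M * q)}
    (hx : x ∈ riemannRochSpace (m • RR.Pol (K := Qb) (Jfn M q))) :
    x ∈ regOn Qb (tJ M q false) := by
  intro P hP
  have hP' := (bd_zero_iff (Jfn_ne_zero C)).mp hP
  rw [RR.riemannRochSpace_eq_boundedOn] at hx
  have h := RR.mem_boundedOn.mp hx P trivial
  simp only [Finsupp.smul_apply, RR.Pol_apply] at h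
  rw [max_eq_right (by omega), smul_zero] at h
  exact h

theorem glue_points (m : ℕ) (x : FB (M * q))
    (hx : x ∈ riemannRochSpace (m • RR.Pol (K := Qb) (Jfn M q))) (hG : ∀ b, x ∈ GS M q A b)
    (s : ↥(Vset M q A false)) : ∃ c, ∀ b, Val (pointMap C b s) (redM M q A b x) c := by
  have hR : InR M q A false (redM M q A false x) (redM M q A true x) :=
    ⟨x, mem_regOn_of_rr C m hx, isRed_redM C (hG false), isRed_redM C (hG true)⟩
  have hr := (InR.regular C hR).1
  obtain ⟨c, hc⟩ := exists_val_of_regOn C s.2.1 (Fr_mem_regOn C hr)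
  refine ⟨c, fun b => ?_⟩
  cases b
  · exact val_branch C ⟨s.1, s.2.1⟩ hr hc
  · have h0 : Val (s : PS A M) (redM M q A true x - Fr C (redM M q A false x)) 0 := by
      rw [Val, map_zero, sub_zero]; exact vanish_of_inR C hR _ s.2
    have h1 := h0.add hc
    rwa [sub_add_cancel, zero_add] at h1

theorem lift_of_pairs (s : Bool) (a : Bool → FS A M)
    (ha : ∀ b, a b ∈ regOn (kA A) (tS A M s))
    (hg : ∀ t ∈ Vset M q A s, Bd t (a true - Fr C (a false)) (-1)) :
    ∃ x : FB (M * q), (∀ b, x ∈ GS M q A b ∧ redM M q A b x = a b) ∧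
      x ∈ regOn Qb (tJ M q s) := by
  obtain ⟨x, hx, hf, ht⟩ := inR_of_vanish_sub C (ha false) (ha true) hg
  refine ⟨x, fun b => ?_, hx⟩
  cases b
  · exact ⟨hf.1, hf.eq⟩
  · exact ⟨ht.1, ht.eq⟩

theorem lift_fin_points (a : Bool → FS A M)
    (ha : ∀ b (Q : PS A M), 0 ≤ Q.ord (JS M q A) → Bd Q (a b) 0)
    (hg : ∀ s : ↥(Vset M q A false), ∃ c, ∀ b, Val (pointMap C b s) (a b) c) :
    ∃ x : FB (M * q), (∀ b, x ∈ GS M q A b ∧ redM M q A b x = a b) ∧
      ∀ P : Place Qb (FB (M * q)), 0 ≤ P.ord (Jfn M q) → Bd P x 0 := by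
  have hreg : ∀ b, a b ∈ regOn (kA A) (tS A M false) := fun b => (regOn_tJS C false).mp
    fun Q hQ => ha b Q ((bd_zero_iff JS_ne_zero).mp hQ)
  obtain ⟨x, hx, hxr⟩ := lift_of_pairs C false a hreg fun t ht => by
    obtain ⟨c, hc⟩ := hg ⟨t, ht⟩
    obtain ⟨d, hd⟩ := exists_val_of_regOn C ht.1 (Fr_mem_regOn C (hreg false))
    obtain rfl := (val_branch C ⟨t, ht.1⟩ (hreg false) hd).unique (hc false)
    have h1 := (hc true).sub hd
    rw [sub_self] at h1
    simpa [Val, pointMap] using h1
  exact ⟨x, hx, fun P hP => hxr P ((bd_zero_iff (Jfn_ne_zero C)).mpr hP)⟩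

theorem lift_inf_points (a : Bool → FS A M)
    (ha : ∀ b (Q : PS A M), Q.ord (JS M q A) ≤ 0 → Bd Q (a b) 0)
    (hg : ∀ s : ↥(Vset M q A false), (∀ b, (pointMap C b s).ord (JS M q A) ≤ 0) →
      ∃ c, ∀ b, Val (pointMap C b s) (a b) c) :
    ∃ x : FB (M * q), (∀ b, x ∈ GS M q A b ∧ redM M q A b x = a b) ∧
      ∀ P : Place Qb (FB (M * q)), P.ord (Jfn M q) ≤ 0 → Bd P x 0 := by
  have hreg : ∀ b, a b ∈ regOn (kA A) (tS A M true) := fun b => (regOn_tJS C true).mp
    fun Q hQ => ha b Q ((bd_zero_inv_iff JS_ne_zero).mp hQ)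
  obtain ⟨x, hx, hxr⟩ := lift_of_pairs C true a hreg fun t ht => by
    obtain ⟨htV, hj⟩ := Vset_true_subset C ht
    have hord : ∀ b, (pointMap C b ⟨t, htV⟩).ord (JS M q A) ≤ 0 := fun b => by
      rw [JS, RR.ord_pow]
      cases b
      · rw [show pointMap C false ⟨t, htV⟩ = branch C ⟨t, htV.1⟩ from rfl,
          ord_jS_branch C ⟨t, htV.1⟩ hj, mul_zero]
      · rw [show pointMap C true ⟨t, htV⟩ = t from rfl, hj, mul_zero]
    obtain ⟨c, hc⟩ := hg ⟨t, htV⟩ hord
    obtain ⟨d, hd⟩ := exists_val_of_regOn C ht.1 (Fr_mem_regOn C (hreg false))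
    obtain rfl := (val_branch_true C ⟨t, htV.1⟩ hj (hreg false) hd).unique (hc false)
    have h1 := (hc true).sub hd
    rw [sub_self] at h1
    simpa [Val, pointMap] using h1
  exact ⟨x, hx, fun P hP => hxr P ((bd_zero_inv_iff (Jfn_ne_zero C)).mpr hP)⟩

/-- the fibre at `q` -/
def fibreData : Data Qb A (FB (M * q)) (FS A M) :=
  { fibreCore C with
    ι := ↥(Vset M q A false)
    fintype := (finite_Vset C false).fintype
    pt := pointMap C
    pt_inj := pointMap_injective C
    pt_fin := fun b s => (bd_tJS_iff C _ false).mpr (pointMap_fin C b s)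
    interp := fun b c =>
      haveI := (finite_Vset C false).fintype
      exists_interp C (pointMap C b) (pointMap_fin C b) (pointMap_injective C b) c
    glue := glue_points C
    lift_fin := lift_fin_points C
    lift_inf := lift_inf_points C }

theorem fibreData_toCore : (fibreData C).toCore = fibreCore C := rfl

/-- at both branches of a double point `Fr ∘ Fr` fixes values -/
theorem val_Fr_Fr_point (b : Bool) (s : ↥(Vset M q A false)) {f : FS A M}
    (hf : f ∈ regOn (kA A) (tS A M false)) {c : kA A} (hc : Val (pointMap C b s) f c) :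
    Val (pointMap C b s) (Fr C (Fr C f)) c := by
  cases b
  · exact val_Fr_Fr_branch C ⟨s.1, s.2.1⟩ s.2 hf hc
  · exact val_Fr_Fr C s.2 hf hc

theorem gs_mem_regOn {gs : FS A M ≃+* FS A M} (hgs : ∀ z, Fr C (gs z) = z ^ q) {z : FS A M}
    (hz : z ∈ regOn (kA A) (tS A M false)) : gs z ∈ regOn (kA A) (tS A M false) := by
  haveI := finite_tS C false
  haveI := separable_tS C false
  have hconst : ∀ c, gs (algebraMap (kA A) (FS A M) c) = algebraMap (kA A) (FS A M) (c ^ q) :=
    fun c => (Fr C).toRingHom.injective (by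
      show Fr C (gs (algebraMap _ _ c)) = Fr C (algebraMap _ _ (c ^ q))
      rw [hgs, AlgHom.commutes, map_pow])
  have hj : gs (tS A M false) = tS A M false :=
    (Fr C).toRingHom.injective (show Fr C (gs _) = Fr C _ by rw [hgs, Fr_tS C])
  obtain ⟨p, hp, hpz⟩ := isIntegral_of_mem_regOn (transcendental_tS A M false) hz
  refine mem_regOn_of_isIntegral
    (gs.toRingHom.comp (Polynomial.aeval (R := kA A) (tS A M false)).toRingHom) (fun r => ?_)
    ⟨p, hp, ?_⟩
  · show gs (Polynomial.aeval (tS A M false) r) ∈ _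
    induction r using Polynomial.induction_on' with
    | add r r' h h' => rw [map_add, map_add]; exact add_mem h h'
    | monomial n c =>
      rw [Polynomial.aeval_monomial, map_mul, map_pow, hconst, hj]
      exact mul_mem (algebraMap_mem _ _) (pow_mem (self_mem_regOn _) n)
  · show Polynomial.eval₂ _ (gs.toRingHom z) p = 0
    rw [← Polynomial.hom_eval₂, hpz, map_zero]

/-- the square of a Frobenius maps values at the double points to their `q²`-th powers -/
theorem val_gs_gs {gs : FS A M ≃+* FS A M} (hgs : ∀ z, Fr C (gs z) = z ^ q) (b : Bool)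
    (s : ↥(Vset M q A false)) (z : FS A M) (c : kA A) (hc : Val (pointMap C b s) z c) :
    Val (pointMap C b s) (gs (gs z)) (c ^ (q ^ 2)) := by
  have hreg : ∀ {w : FS A M}, w ∈ regOn (kA A) (tS A M false) → ∀ {e : kA A},
      Val (pointMap C b s) w e → Val (pointMap C b s) (gs (gs w)) (e ^ (q ^ 2)) := by
    intro w hw e he
    obtain ⟨d, hd⟩ := exists_val_of_regOn C (pointMap_fin C b s)
      (gs_mem_regOn C hgs (gs_mem_regOn C hgs hw))
    have h1 := val_Fr_Fr_point C b s (gs_mem_regOn C hgs (gs_mem_regOn C hgs hw)) hd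
    rw [hgs, map_pow, hgs, ← pow_mul, ← pow_two] at h1
    rwa [(he.pow (q ^ 2)).unique h1]
  obtain ⟨r, hr, hrv, hrz⟩ := exists_denom C (pointMap_fin C b s) hc.bd
  obtain ⟨e, he⟩ := exists_val_of_regOn C (pointMap_fin C b s) hr
  have he0 : e ≠ 0 := by
    rintro rfl
    rw [Val, map_zero, sub_zero] at he
    exact hrv he
  have h1 := ((hreg hr he).inv (pow_ne_zero _ he0)).mul (hreg hrz (he.mul hc))
  have hr0 : gs (gs r) ≠ 0 := ((hreg hr he).ord_eq_zero (pow_ne_zero _ he0)).1
  rwa [map_mul, map_mul, inv_mul_cancel_left₀ hr0, mul_pow,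
    inv_mul_cancel_left₀ (pow_ne_zero _ he0)] at h1

end FLTAgent.SS
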