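import Fermat.Agent.Reduction.Norm

/-!
The two components of the fibre of `X₀(Mq)` at `q ∤ M`: Gauss integrality of the expansion at `∞`
(side `false`) and of its Atkin–Lehner image (side `true`).
-/

set_option autoImplicit false
set_option linter.unusedSectionVars false
set_option synthInstance.maxHeartbeats 200000
set_option linter.style.haveILetI false

noncomputable section

open ModularCurve AlgebraicCurve Polynomial IsLocalRing
open FLTAgent.Reduction
open FLTAgent.RR (Bd KK)

namespace FLTAgent.SS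

variable (M q : ℕ) [NeZero M] [NeZero q]

/-- the first degeneracy map -/
abbrev i1 : FB M →ₐ[Qb] FB (M * q) := heckeAlphaBar Qb M q

/-- the second degeneracy map -/
abbrev i2 : FB M →ₐ[Qb] FB (M * q) := heckeBetaBar Qb M q

open Classical in
/-- the Atkin–Lehner automorphism at `q` (the identity outside the range of interest) -/
def atkinW : FB (M * q) →ₐ[Qb] FB (M * q) :=
  if h : q.Prime ∧ ¬ q ∣ M then (exists_atkin h.1 h.2).choose else AlgHom.id Qb _

/-- the map onto a side -/
def side : Bool → (FB (M * q) →ₐ[Qb] FB (M * q))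
  | false => AlgHom.id Qb _
  | true => atkinW M q

/-- the coordinate `j(τ) j(qτ)` -/
def Jfn : FB (M * q) := i1 M q (ModFun.jBar M) * i2 M q (ModFun.jBar M)

/-- `j(τ) - j(qτ)^q`, small on the second side -/
def z1 : FB (M * q) := i1 M q (ModFun.jBar M) - i2 M q (ModFun.jBar M) ^ q

variable (A : ValuationSubring Qb)

/-- functions integral on a side -/
def GS (b : Bool) : Subring (FB (M * q)) := (GR A (M * q)).comap (side M q b).toRingHom

open Classical in
/-- the restriction to a side, as an element of the special fibre of level `M` -/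
def redM (b : Bool) (y : FB (M * q)) : FS A M :=
  if h : redS A (M * q) (side M q b y) ∈ modularFunctionFieldFullC (kA A) M then ⟨_, h⟩ else 0

/-- the coordinate on either component -/
def JS : FS A M := jS A M ^ (q + 1)

/-- the restriction of `z1` to the first side -/
def zbar : FS A M := jS A M - jS A M ^ (q * q)

variable {M q A}

theorem qExpand_mem_fullC {k : Type*} [Field k] {N : ℕ} (ℓ : ℕ) [NeZero ℓ] [ExpChar k ℓ] [PerfectRing k ℓ]
    {x : LaurentSeries k} (hx : x ∈ modularFunctionFieldFullC k N) :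
    qExpand k ℓ x ∈ modularFunctionFieldFullC k N := by
  have h := pow_mem (coeffMap_mem_fullC (frobeniusEquiv k ℓ).symm N hx) ℓ
  rw [pow_char_eq ℓ, coeffMap_coeffMap, coeffMap_congr (g := RingHom.id k)
    (RingHom.ext fun a => frobenius_apply_frobeniusEquiv_symm k ℓ a) x, coeffMap_id] at h
  exact h

variable (C : Ctx A M q)
include C

theorem expChar_kA : ExpChar (kA A) q :=
  haveI := charP_residue A C.prime C.lies
  ExpChar.prime C.prime

theorem perfectRing_kA : haveI := expChar_kA C; PerfectRing (kA A) q := by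
  haveI := expChar_kA C
  exact PerfectRing.ofSurjective (kA A) q fun y => IsAlgClosed.exists_pow_nat_eq y C.prime.pos

/-- `x ↦ x(q^q)` on the special fibre -/
def Fr : FS A M →ₐ[kA A] FS A M where
  toFun x := ⟨qExpand (kA A) q (x : LaurentSeries (kA A)),
    haveI := expChar_kA C
    haveI := perfectRing_kA C
    qExpand_mem_fullC q x.2⟩
  map_one' := Subtype.ext (map_one _)
  map_mul' _ _ := Subtype.ext (map_mul _ _ _)
  map_zero' := Subtype.ext (map_zero _)
  map_add' _ _ := Subtype.ext (map_add _ _ _)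
  commutes' a := Subtype.ext <| by
    show qExpand (kA A) q (algebraMap (kA A) (LaurentSeries (kA A)) a) =
      algebraMap (kA A) (LaurentSeries (kA A)) a
    rw [algebraMap_laurentSeries_eq_single, qExpand_single, mul_zero]

theorem coe_Fr (x : FS A M) :
    ((Fr C x : FS A M) : LaurentSeries (kA A)) = qExpand (kA A) q (x : LaurentSeries (kA A)) := rfl

theorem atkinW_i1 (f : FB M) : atkinW M q (i1 M q f) = i2 M q f := by
  rw [atkinW, dif_pos ⟨C.prime, C.not_dvd⟩]
  exact (exists_atkin (N := M) C.prime C.not_dvd).choose_spec.1 f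

theorem atkinW_i2 (f : FB M) : atkinW M q (i2 M q f) = i1 M q f := by
  rw [atkinW, dif_pos ⟨C.prime, C.not_dvd⟩]
  exact (exists_atkin (N := M) C.prime C.not_dvd).choose_spec.2 f

theorem exists_preimage_gen (d : (M * q).divisors) :
    ∃ f : FB M, i1 M q f = Genus.gen (M * q) d ∨ i2 M q f = Genus.gen (M * q) d := by
  have hd := Nat.dvd_of_mem_divisors d.2
  rcases swap_cases C.prime C.not_dvd hd with ⟨h, -⟩ | ⟨e, he, hde, -⟩
  · refine ⟨Genus.gen M ⟨d, Nat.mem_divisors.mpr ⟨h, NeZero.ne M⟩⟩, Or.inl (Subtype.ext ?_)⟩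
    rw [coe_heckeAlphaBar]
    rfl
  · haveI : NeZero e := ⟨fun h0 => NeZero.ne (d : ℕ) (by rw [hde, h0, zero_mul])⟩
    refine ⟨Genus.gen M ⟨e, Nat.mem_divisors.mpr ⟨he, NeZero.ne M⟩⟩, Or.inr (Subtype.ext ?_)⟩
    rw [coe_heckeBetaBar]
    show qExpand Qb q (Genus.jgen M ⟨e, _⟩) = Genus.jgen (M * q) d
    simp only [Genus.jgen]
    rw [coeffEmb, ← ModularCurve.coeffMap_qExpand, qExpand_qExpand,
      qExpand_congr (show q * e = (d : ℕ) by rw [hde, mul_comm])]

theorem atkinW_atkinW (x : FB (M * q)) : atkinW M q (atkinW M q x) = x := by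
  have h : (atkinW M q).comp (atkinW M q) = AlgHom.id Qb _ := Genus.algHom_ext fun d => by
    obtain ⟨f, hf | hf⟩ := exists_preimage_gen C d <;> rw [← hf, AlgHom.comp_apply]
    · rw [atkinW_i1 C, atkinW_i2 C]; rfl
    · rw [atkinW_i2 C, atkinW_i1 C]; rfl
  exact DFunLike.congr_fun h x

theorem side_side (b : Bool) (x : FB (M * q)) : side M q b (side M q b x) = x := by
  cases b
  · rfl
  · exact atkinW_atkinW C x

theorem side_not_side (b : Bool) (x : FB (M * q)) :
    side M q (!b) (side M q b x) = atkinW M q x := by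
  cases b <;> rfl

theorem atkinW_J : atkinW M q (Jfn M q) = Jfn M q := by
  rw [Jfn, map_mul, atkinW_i1 C, atkinW_i2 C]
  exact mul_comm _ _

theorem atkinW_z1 : atkinW M q (z1 M q) =
    i2 M q (ModFun.jBar M) - i1 M q (ModFun.jBar M) ^ q := by
  rw [z1, map_sub, map_pow, atkinW_i1 C, atkinW_i2 C]

omit C

theorem mem_GS {b : Bool} {y : FB (M * q)} : y ∈ GS M q A b ↔ side M q b y ∈ GR A (M * q) :=
  Iff.rfl

theorem redS_i1 {f : FB M} (hf : f ∈ GR A M) :
    i1 M q f ∈ GR A (M * q) ∧ redS A (M * q) (i1 M q f) = redS A M f := by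
  obtain ⟨G, H, hH, h⟩ := hf
  have h' : ((i1 M q f : FB (M * q)) : LaurentSeries Qb) * up A H = up A G := by
    rw [coe_heckeAlphaBar]; exact h
  exact ⟨⟨G, H, hH, h'⟩, by rw [redS_eq hH h', redS_eq hH h]⟩

theorem redS_i2 {f : FB M} (hf : f ∈ GR A M) :
    i2 M q f ∈ GR A (M * q) ∧
      redS A (M * q) (i2 M q f) = qExpand (kA A) q (redS A M f) := by
  obtain ⟨G, H, hH, h⟩ := hf
  have hH' : dn A (qExpand A q H) ≠ 0 := by
    rw [coeffMap_qExpand]
    exact fun h0 => hH (qExpand_injective (R := kA A) (N := q) (h0.trans (map_zero _).symm))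
  have h' : ((i2 M q f : FB (M * q)) : LaurentSeries Qb) * up A (qExpand A q H) =
      up A (qExpand A q G) := by
    rw [coe_heckeBetaBar, coeffMap_qExpand, coeffMap_qExpand, ← h, map_mul]
  refine ⟨⟨_, _, hH', h'⟩, ?_⟩
  rw [redS_eq hH' h', redS_eq hH h, coeffMap_qExpand, coeffMap_qExpand, map_div₀]

theorem redM_eq {b : Bool} {y : FB (M * q)} {r : FS A M}
    (h : redS A (M * q) (side M q b y) = (r : LaurentSeries (kA A))) : redM M q A b y = r := by
  rw [redM, dif_pos (by rw [h]; exact r.2)]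
  exact Subtype.ext h

/-- elements with known residue on a side -/
def IsRed (A : ValuationSubring Qb) (b : Bool) (y : FB (M * q)) (r : FS A M) : Prop :=
  y ∈ GS M q A b ∧ redS A (M * q) (side M q b y) = (r : LaurentSeries (kA A))

namespace IsRed

variable {b : Bool} {y z : FB (M * q)} {r s : FS A M}

theorem mem (h : IsRed A b y r) : y ∈ GS M q A b := h.1

theorem eq (h : IsRed A b y r) : redM M q A b y = r := redM_eq h.2

theorem unique (h : IsRed A b y r) (h' : IsRed A b y s) : r = s := h.eq.symm.trans h'.eq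

theorem add (h : IsRed A b y r) (h' : IsRed A b z s) : IsRed A b (y + z) (r + s) :=
  ⟨add_mem h.1 h'.1, by rw [map_add, redS_add (mem_GS.mp h.1) (mem_GS.mp h'.1), h.2, h'.2]; rfl⟩

theorem mul (h : IsRed A b y r) (h' : IsRed A b z s) : IsRed A b (y * z) (r * s) :=
  ⟨mul_mem h.1 h'.1, by rw [map_mul, redS_mul (mem_GS.mp h.1) (mem_GS.mp h'.1), h.2, h'.2]; rfl⟩

theorem one : IsRed A (M := M) (q := q) b 1 1 :=
  ⟨one_mem _, by rw [map_one, redS_one]; rfl⟩

theorem zero : IsRed A (M := M) (q := q) b 0 0 :=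
  ⟨zero_mem _, by rw [map_zero, redS_zero]; rfl⟩

theorem const (a : A) :
    IsRed A (M := M) b (algebraMap Qb (FB (M * q)) (a : Qb))
      (algebraMap (kA A) (FS A M) (residue A a)) := by
  have h : side M q b (algebraMap Qb (FB (M * q)) (a : Qb)) = cB (M * q) (a : Qb) :=
    (side M q b).commutes _
  refine ⟨?_, ?_⟩
  · rw [mem_GS, h]; exact cB_mem a.2
  · rw [h, redS_cB]; rfl

theorem neg (h : IsRed A b y r) : IsRed A b (-y) (-r) := by
  have := (const (M := M) (q := q) (b := b) (-1 : A)).mul h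
  simpa using this

theorem sub (h : IsRed A b y r) (h' : IsRed A b z s) : IsRed A b (y - z) (r - s) := by
  rw [sub_eq_add_neg, sub_eq_add_neg]; exact h.add h'.neg

theorem pow (h : IsRed A b y r) : ∀ n : ℕ, IsRed A b (y ^ n) (r ^ n)
  | 0 => by simpa using one (A := A) (M := M) (q := q) (b := b)
  | n + 1 => by rw [pow_succ, pow_succ]; exact (h.pow n).mul h

theorem sum {ι : Type*} (S : Finset ι) (f : ι → FB (M * q)) (g : ι → FS A M)
    (h : ∀ i ∈ S, IsRed A b (f i) (g i)) : IsRed A b (∑ i ∈ S, f i) (∑ i ∈ S, g i) := by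
  classical
  induction S using Finset.induction with
  | empty => simpa using zero (A := A) (M := M) (q := q) (b := b)
  | insert a S ha ih =>
    rw [Finset.sum_insert ha, Finset.sum_insert ha]
    exact (h a (by simp)).add (ih fun i hi => h i (by simp [hi]))

end IsRed

include C

theorem isRed_i1 {f : FB M} (hf : f ∈ GR A M) :
    IsRed A false (i1 M q f) (red A M f) ∧ IsRed A true (i1 M q f) (Fr C (red A M f)) := by
  refine ⟨⟨(redS_i1 hf).1, (redS_i1 hf).2.trans (coe_red C hf).symm⟩, ?_, ?_⟩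
  · show atkinW M q (i1 M q f) ∈ GR A (M * q)
    rw [atkinW_i1 C]; exact (redS_i2 hf).1
  · show redS A (M * q) (atkinW M q (i1 M q f)) = _
    rw [atkinW_i1 C, (redS_i2 hf).2, coe_Fr, coe_red C hf]

theorem isRed_i2 {f : FB M} (hf : f ∈ GR A M) :
    IsRed A false (i2 M q f) (Fr C (red A M f)) ∧ IsRed A true (i2 M q f) (red A M f) := by
  refine ⟨⟨(redS_i2 hf).1, by rw [coe_Fr, coe_red C hf]; exact (redS_i2 hf).2⟩, ?_, ?_⟩
  · show atkinW M q (i2 M q f) ∈ GR A (M * q)
    rw [atkinW_i2 C]; exact (redS_i1 hf).1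
  · show redS A (M * q) (atkinW M q (i2 M q f)) = _
    rw [atkinW_i2 C, (redS_i1 hf).2, coe_red C hf]

theorem IsRed.transport {b b' : Bool} {y : FB (M * q)} {r : FS A M} (h : IsRed A b y r) :
    IsRed A b' (side M q b' (side M q b y)) r := by
  refine ⟨?_, ?_⟩
  · rw [mem_GS, side_side C]; exact h.1
  · rw [side_side C]; exact h.2

theorem jBar_red : ModFun.jBar M ∈ GR A M ∧ red A M (ModFun.jBar M) = jS A M :=
  ⟨tB_mem false, red_tB C false⟩

theorem Fr_jS : Fr C (jS A M) = jS A M ^ q := by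
  haveI := expChar_kA C
  refine Subtype.ext ?_
  rw [coe_Fr, SubmonoidClass.coe_pow, pow_char_eq q]
  show qExpand (kA A) q (jqModC (kA A)) = qExpand (kA A) q (coeffMap _ (jqModC (kA A)))
  rw [coeffMap_jqModC]

theorem isRed_J (b : Bool) : IsRed A b (Jfn M q) (JS M q A) := by
  obtain ⟨hj, hjr⟩ := jBar_red C
  have h1 := isRed_i1 C hj
  have h2 := isRed_i2 C hj
  rw [hjr, Fr_jS C] at h1 h2
  cases b
  · have h := h1.1.mul h2.1
    rwa [← pow_succ'] at h
  · have h := h1.2.mul h2.2
    rwa [← pow_succ] at h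

theorem isRed_z1 : IsRed A false (z1 M q) (zbar M q A) := by
  obtain ⟨hj, hjr⟩ := jBar_red C
  have h1 := isRed_i1 C hj
  have h2 := isRed_i2 C hj
  rw [hjr, Fr_jS C] at h1 h2
  have h := h1.1.sub (h2.1.pow q)
  rwa [← pow_mul] at h

theorem zbar_ne_zero : zbar M q A ≠ 0 := by
  intro h
  have h1 : Polynomial.aeval (tS A M false) (Polynomial.X - Polynomial.X ^ (q * q) : (kA A)[X]) = 0 := by
    rw [map_sub, map_pow, aeval_X]; exact h
  have h2 := transcendental_iff.mp (transcendental_tS A M false) _ h1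
  have h3 := congrArg (fun p : (kA A)[X] => p.coeff 1) h2
  simp only [coeff_sub, coeff_X_one, coeff_X_pow, coeff_zero] at h3
  rw [if_neg (by have := C.prime.two_le; nlinarith)] at h3
  simp at h3

/-- `z1` is `q` times an integral function on the second side -/
theorem exists_z1_eq : ∃ h : FB (M * q),
    z1 M q = algebraMap Qb (FB (M * q)) (q : Qb) * h ∧ h ∈ GS M q A true := by
  classical
  haveI := Fact.mk C.prime
  set Z : LaurentSeries ℤ := qExpand ℤ q (jqModC ℤ) - jqModC ℤ ^ q with hZ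
  have hZ0 : coeffMap (Int.castRingHom (ZMod q)) Z = 0 := by
    rw [hZ, map_sub, map_pow, coeffMap_qExpand, coeffMap_jqModC, pow_char_eq q, coeffMap_jqModC,
      sub_self]
  have hdvd : ∀ k, (q : ℤ) ∣ Z.coeff k := fun k => by
    have h1 : (coeffMap (Int.castRingHom (ZMod q)) Z).coeff k = 0 := by rw [hZ0]; rfl
    rw [coeffMap_coeff] at h1
    exact (ZMod.intCast_zmod_eq_zero_iff_dvd _ _).mp h1
  set Hs : LaurentSeries ℤ := ⟨fun k => Z.coeff k / q, Z.isPWO_support.mono fun k hk h0 => hk (by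
    show Z.coeff k / (q : ℤ) = 0
    rw [h0, Int.zero_ediv])⟩ with hHs
  have hqK : (q : Qb) ≠ 0 := Nat.cast_ne_zero.mpr C.prime.ne_zero
  refine ⟨algebraMap Qb (FB (M * q)) (q : Qb)⁻¹ * z1 M q, ?_, ?_⟩
  · rw [← mul_assoc, ← map_mul, mul_inv_cancel₀ hqK, map_one, one_mul]
  rw [mem_GS]
  show atkinW M q _ ∈ GR A (M * q)
  rw [map_mul, AlgHom.commutes, atkinW_z1 C]
  refine mem_GR_of_series (G := coeffMap (Int.castRingHom A) Hs) ?_
  rw [MulMemClass.coe_mul, AddSubgroupClass.coe_sub, SubmonoidClass.coe_pow, coe_heckeBetaBar,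
    coe_heckeAlphaBar, coe_cB]
  have hj : ((ModFun.jBar M : FB M) : LaurentSeries Qb) = jqModC Qb := by
    rw [jqModC_eq_coeffEmb]; rfl
  have hZb : qExpand Qb q (jqModC Qb) - jqModC Qb ^ q = coeffMap (Int.castRingHom Qb) Z := by
    rw [hZ, map_sub, map_pow, coeffMap_qExpand, coeffMap_jqModC]
  rw [hj, hZb, coeffMap_coeffMap]
  ext k
  rw [HahnSeries.coeff_single_zero_mul]
  simp only [coeffMap_coeff, eq_intCast]
  obtain ⟨c, hc⟩ := hdvd k
  show ((Z.coeff k / (q : ℤ) : ℤ) : Qb) = _
  rw [hc, Int.mul_ediv_cancel_left _ (Int.natCast_ne_zero.mpr C.prime.ne_zero), Int.cast_mul,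
    Int.cast_natCast, inv_mul_cancel_left₀ hqK]

end FLTAgent.SS
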