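import Fermat.Agent.SS.Saturate

/-!
Every large glued pair is a restriction, and the resulting count of the double points.
-/

set_option autoImplicit false
set_option linter.unusedSectionVars false
set_option linter.style.haveILetI false

noncomputable section

open AlgebraicCurve IsLocalRing
open FLTAgent.RR (Bd Pol)
open FLTAgent.Reduction (Val)

namespace FLTAgent.SS

/-- a nondecreasing linearly bounded increment is eventually constant -/
theorem eventually_linear {d : ℕ → ℕ} {C : ℕ} (hmono : ∀ n, d n ≤ d (n + 1))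
    (hconvex : ∀ n, 2 * d (n + 1) ≤ d n + d (n + 2)) (hbound : ∀ n, d n ≤ C * (n + 1)) :
    ∃ n0, ∀ n, n0 ≤ n → d n + d (n + 2) = 2 * d (n + 1) := by
  set Δ : ℕ → ℕ := fun n => d (n + 1) - d n with hΔ
  have hstep : ∀ n, d (n + 1) = d n + Δ n := fun n => by have := hmono n; simp only [hΔ]; omega
  have hΔmono : Monotone Δ := monotone_nat_of_le_succ fun n => by
    have h1 := hstep n
    have h2 : d (n + 2) = d (n + 1) + Δ (n + 1) := hstep (n + 1)
    have := hconvex n
    omega
  have hle : ∀ n, Δ n ≤ C := by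
    intro n
    by_contra h
    have hgrow : ∀ k, d n + k * (C + 1) ≤ d (n + k) := by
      intro k
      induction k with
      | zero => simp
      | succ k ih =>
        rw [← add_assoc, hstep, add_mul, one_mul]
        have := hΔmono (Nat.le_add_right n k)
        omega
    have h1 := hgrow (C * (n + 1) + 1)
    have h2 := hbound (n + (C * (n + 1) + 1))
    nlinarith
  obtain ⟨n0, hn0⟩ := Nat.sSup_mem (Set.range_nonempty Δ)
    ⟨C, by rintro _ ⟨n, rfl⟩; exact hle n⟩
  refine ⟨n0, fun n hn => ?_⟩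
  have hmax : ∀ n, Δ n ≤ Δ n0 := fun n => by
    rw [hn0]
    exact le_csSup ⟨C, by rintro _ ⟨n, rfl⟩; exact hle n⟩ ⟨n, rfl⟩
  have h2 : d (n + 2) = d (n + 1) + Δ (n + 1) := hstep (n + 1)
  rw [h2, hstep n, le_antisymm (hmax n) (hΔmono hn),
    le_antisymm (hmax (n + 1)) (hΔmono (hn.trans n.le_succ))]
  omega

variable {K : Type*} [Field K] [IsAlgClosed K] [CharZero K] {A : ValuationSubring K}
  {F : Type*} [Field F] [Algebra K F] [RR.FnField K F]
  {Fs : Type*} [Field Fs] [Algebra (ResidueField A) Fs]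

local notation "𝕜" => ResidueField A
local notation "ι'" => algebraMap K F

namespace Core

variable (C : Core K A F Fs)

theorem trivialRep_integ {n : ℕ} {x : F} :
    (C.trivialRep n).Integ x ↔ ∀ b, x ∈ C.G b := by
  simp [Rep.Integ, trivialRep]

theorem trivialRep_res {n : ℕ} (x : F) : (C.trivialRep n).res x = fun b => C.red b x :=
  funext fun b => by simp [Rep.res, trivialRep]

theorem trivialRep_L {n : ℕ} (m : ℕ) :
    (C.trivialRep n).L m = riemannRochSpace (m • Pol (K := K) C.J) := by
  simp [Rep.L, trivialRep]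

theorem trivialRep_E {n : ℕ} (P : Place K F) : (C.trivialRep n).E P = 0 := rfl

end Core

namespace Data

variable (D : Data K A F Fs)

/-- the coordinate takes the same value on the two branches -/
theorem exists_value_J (s : D.ι) : ∃ c, ∀ b, Val (D.pt b s) D.Jbar c := by
  have hx : D.J ∈ riemannRochSpace (1 • Pol (K := K) D.J) := fun P => by
    show Bd P D.J _
    rw [RR.bd_iff, Finsupp.smul_apply, RR.Pol_apply, one_smul]
    right
    omega
  obtain ⟨c, hc⟩ := D.glue 1 D.J hx D.J_mem s
  exact ⟨c, fun b => by simpa [D.red_J] using hc b⟩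

/-- the chart images cut out exactly the glued pairs -/
theorem trivial_pair_T (m : ℕ) : (D.toCore.trivialRep 1).pair.T m = D.W m := by
  set R := D.toCore.trivialRep 1
  have hJ0 := D.toCore.Jbar_ne_zero
  refine le_antisymm ?_ fun a ha => ?_
  · rintro a ⟨⟨x, hxI, hx0, hxa⟩, y, hyI, hy0, hya⟩
    replace hxa : R.res x = a := hxa
    replace hya : R.res y = (R.pair.Jb ^ m).symm a := hya
    obtain ⟨m1, hm1⟩ := R.exists_L_of_onFin hx0
    obtain ⟨m2, hm2⟩ := R.exists_L_of_onInf hy0
    have hI2 : R.Integ (D.J ^ m2 * y) := by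
      rw [← R.pair_pow_apply m2 y]
      exact (R.pair.pow_mem m2 y).mpr hyI
    have hres2 : ∀ b, R.res (D.J ^ m2 * y) b = D.Jbar ^ m2 * R.res y b := fun b => by
      have h := R.pair.r_pow m2 hyI
      rw [R.pair_pow_apply, R.pairb_pow_apply] at h
      exact congrFun h b
    have hya' : ∀ b, D.Jbar ^ m * R.res y b = a b := fun b => by
      have h : (R.pair.Jb ^ m) (R.res y) = a := by rw [hya, LinearEquiv.apply_symm_apply]
      rw [R.pairb_pow_apply] at h
      exact congrFun h b
    refine ⟨fun b => mem_target.mpr fun Q => ?_, fun s => ?_⟩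
    · have h1 := mem_target.mp (R.res_target one_ne_zero hm1 hxI b) Q
      rw [hxa] at h1
      rcases le_or_gt 0 (Q.ord D.Jbar) with hQ | hQ
      · rw [max_eq_right (by omega), mul_zero] at h1 ⊢
        exact h1
      · have h2 := mem_target.mp (R.res_target one_ne_zero hm2 hI2 b) Q
        rw [hres2] at h2
        rw [max_eq_left (by omega)] at h2 ⊢
        rw [← hya' b]
        rcases eq_or_ne (R.res y b) 0 with h0 | h0
        · rw [h0, mul_zero]; exact RR.Bd.zero
        rw [RR.bd_iff_ord (mul_ne_zero (pow_ne_zero _ hJ0) h0),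
          Q.ord_mul (pow_ne_zero _ hJ0) h0, RR.ord_pow] at h2 ⊢
        rw [mul_neg] at h2 ⊢
        omega
    · rw [D.toCore.trivialRep_L] at hm1
      obtain ⟨c, hc⟩ := D.glue m1 x hm1 (D.toCore.trivialRep_integ.mp hxI) s
      refine ⟨c, fun b => ?_⟩
      rw [← hxa, D.toCore.trivialRep_res]
      exact hc b
  · obtain ⟨hP, hg⟩ := ha
    refine ⟨?_, ?_⟩
    · obtain ⟨x, hx, hx0⟩ := D.lift_fin a (fun b Q hQ => (mem_target.mp (hP b) Q).mono (by
        rw [max_eq_right (by omega), mul_zero])) hg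
      refine ⟨x, D.toCore.trivialRep_integ.mpr fun b => (hx b).1, fun P hP => ?_, ?_⟩
      · rw [D.toCore.trivialRep_E]
        exact hx0 P hP
      · show R.res x = a
        rw [D.toCore.trivialRep_res]
        exact funext fun b => (hx b).2
    · show (R.pair.Jb ^ m).symm a ∈ R.pair.Minf
      set a' : Bool → Fs := fun b => (D.Jbar ^ m)⁻¹ * a b with ha'
      have e : (R.pair.Jb ^ m).symm a = a' := by
        rw [LinearEquiv.symm_apply_eq, R.pairb_pow_apply]
        funext b
        rw [ha']
        exact (mul_inv_cancel_left₀ (pow_ne_zero _ hJ0) (a b)).symm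
      obtain ⟨y, hy, hy0⟩ := D.lift_inf a' (fun b Q hQ => by
          have h := mem_target.mp (hP b) Q
          rw [max_eq_left (by omega)] at h
          rcases eq_or_ne (a b) 0 with h0 | h0
          · rw [ha']; simp only [h0, mul_zero]; exact RR.Bd.zero
          rw [RR.bd_iff_ord h0] at h
          simp only [ha']
          rw [RR.bd_iff_ord (mul_ne_zero (inv_ne_zero (pow_ne_zero _ hJ0)) h0),
            Q.ord_mul (inv_ne_zero (pow_ne_zero _ hJ0)) h0, Q.ord_inv, RR.ord_pow]
          rw [mul_neg] at h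
          omega) (fun s hs => by
          obtain ⟨c, hc⟩ := D.exists_value_J s
          obtain ⟨d, hd⟩ := hg s
          have hc0 : c ≠ 0 := by
            rintro rfl
            have h1 := (hc false).ord_pos hJ0
            have := hs false
            omega
          exact ⟨(c ^ m)⁻¹ * d, fun b =>
            (((hc b).pow m).inv (pow_ne_zero _ hc0)).mul (hd b)⟩)
      refine ⟨y, D.toCore.trivialRep_integ.mpr fun b => (hy b).1, fun P hP => ?_, ?_⟩
      · rw [D.toCore.trivialRep_E]
        exact hy0 P hP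
      · show R.res y = _
        rw [e, D.toCore.trivialRep_res]
        exact funext fun b => (hy b).2

theorem finiteDimensional_W (m : ℕ) : FiniteDimensional 𝕜 (D.W m) :=
  haveI := D.toCore.finiteDimensional_P m
  Submodule.finiteDimensional_of_le (D.W_le_P m)

theorem finrank_P (m : ℕ) : Module.finrank 𝕜 (D.toCore.P m) =
    2 * Module.finrank 𝕜 (target (k := 𝕜) D.Jbar m) := by
  obtain ⟨C, hC⟩ := D.target_bound
  haveI := (hC m).1
  let e : D.toCore.P m ≃ₗ[𝕜] (Bool → target (k := 𝕜) D.Jbar m) :=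
    { toFun := fun a b => ⟨(a : Bool → Fs) b, D.toCore.mem_P.mp a.2 b⟩
      invFun := fun a => ⟨fun b => (a b : Fs), D.toCore.mem_P.mpr fun b => (a b).2⟩
      map_add' := fun _ _ => rfl
      map_smul' := fun _ _ => rfl
      left_inv := fun _ => rfl
      right_inv := fun _ => rfl }
  rw [e.finrank_eq, Module.finrank_pi_fintype]
  simp [two_mul]

theorem exists_surj : D.Surj := by
  set R := D.toCore.trivialRep 1
  haveI hfd := D.finiteDimensional_W
  have hT := D.trivial_pair_T
  obtain ⟨C, hC⟩ := D.target_bound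
  haveI hfdT : ∀ n, FiniteDimensional 𝕜 (R.pair.T n) := fun n => by rw [hT]; exact hfd n
  obtain ⟨m, hm⟩ := eventually_linear (d := fun n => Module.finrank 𝕜 (R.pair.T n)) (C := 2 * C)
    (fun n => Submodule.finrank_mono (R.pair.T_le_succ n)) (fun n => by
      set P := (R.pair.T (n + 1)).map (R.pair.Jb : (Bool → Fs) →ₗ[𝕜] (Bool → Fs))
      have hPle : P ≤ R.pair.T (n + 2) := by
        rintro _ ⟨y, hy, rfl⟩
        exact R.pair.Jb_T hy
      have hinf : R.pair.T (n + 1) ⊓ P ≤
          (R.pair.T n).map (R.pair.Jb : (Bool → Fs) →ₗ[𝕜] (Bool → Fs)) := by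
        rintro _ ⟨h1, y, hy, rfl⟩
        refine ⟨y, ⟨hy.1, ?_⟩, rfl⟩
        have h2 : (R.pair.Jb ^ (n + 1)).symm (R.pair.Jb y) ∈ R.pair.Minf := h1.2
        have h3 := ChartPair.symm_pow_add R.pair.Jb 1 n y
        rw [pow_one] at h3
        rw [add_comm n 1, h3] at h2
        exact h2
      have h4 := Submodule.finrank_sup_add_finrank_inf_eq (R.pair.T (n + 1)) P
      have h5 := Submodule.finrank_mono hinf
      rw [LinearEquiv.finrank_map_eq] at h5
      have h6 : Module.finrank 𝕜 P = Module.finrank 𝕜 (R.pair.T (n + 1)) :=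
        LinearEquiv.finrank_map_eq _ _
      have h7 := Submodule.finrank_mono
        (sup_le (R.pair.T_le_succ (n + 1)) hPle : R.pair.T (n + 1) ⊔ P ≤ R.pair.T (n + 2))
      omega)
    (fun n => by
      show Module.finrank 𝕜 (R.pair.T n) ≤ _
      rw [hT]
      haveI := D.toCore.finiteDimensional_P n
      have h := (Submodule.finrank_mono (D.W_le_P n)).trans_eq (D.finrank_P n)
      have := (hC n).2
      rw [mul_assoc]
      omega)
  obtain ⟨n0, hn0⟩ := R.pair.exists_RL_eq_T m (fun n _ => hfdT n) hm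
    (fun x _ hx => by
      obtain ⟨e, he⟩ := R.exists_L_of_onFin hx
      exact ⟨e, by rw [R.pair_symm_pow_apply]; exact (R.mem_L_iff.mp he).2⟩)
    (fun x _ hx => by
      obtain ⟨e, he⟩ := R.exists_L_of_onInf hx
      exact ⟨e, by rw [R.pair_pow_apply]; exact (R.mem_L_iff.mp he).1⟩)
  refine ⟨n0, fun k hk a ha => ?_⟩
  rw [← hT, ← hn0 k hk] at ha
  obtain ⟨x, hx, hxa⟩ := ha
  obtain ⟨hxI, hxL⟩ := R.mem_pair_L.mp hx
  rw [D.toCore.trivialRep_L] at hxL
  refine ⟨x, hxL, D.toCore.trivialRep_integ.mp hxI, fun b => ?_⟩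
  rw [← hxa]
  show _ = R.res x b
  rw [D.toCore.trivialRep_res]

/-- the pairs vanishing at the double points -/
theorem finrank_I {m : ℕ} (hm : ∀ b (c : D.ι → 𝕜),
    ∃ a ∈ target (k := 𝕜) D.Jbar m, ∀ s, Val (D.pt b s) a (c s)) :
    Module.finrank 𝕜 (D.I m) + 2 * Nat.card D.ι =
      2 * Module.finrank 𝕜 (target (k := 𝕜) D.Jbar m) := by
  haveI := D.fintype
  haveI := D.toCore.finiteDimensional_P m
  let φ : D.toCore.P m →ₗ[𝕜] (Bool → D.ι → 𝕜) := LinearMap.pi fun b => D.value m b
  have hsurj : LinearMap.range φ = ⊤ := LinearMap.range_eq_top.mpr fun c => by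
    choose a ha hv using fun b => hm b (c b)
    exact ⟨⟨a, D.toCore.mem_P.mpr ha⟩, funext fun b => funext fun s =>
      (D.value_spec m b ⟨a, D.toCore.mem_P.mpr ha⟩ s).unique (hv b s)⟩
  have hker : (LinearMap.ker φ).map (D.toCore.P m).subtype = D.I m := by
    refine le_antisymm ?_ fun a ha => ?_
    · rintro _ ⟨a, ha, rfl⟩
      refine ⟨a.2, fun b s => ?_⟩
      have h := D.value_spec m b a s
      rwa [show D.value m b a s = 0 from congrFun (congrFun (LinearMap.mem_ker.mp ha) b) s] at h
    · exact ⟨⟨a, ha.1⟩, LinearMap.mem_ker.mpr (funext fun b => funext fun s =>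
        (D.value_spec m b ⟨a, ha.1⟩ s).unique (ha.2 b s)), rfl⟩
  have h := LinearMap.finrank_range_add_finrank_ker φ
  rw [hsurj, finrank_top, ← Submodule.finrank_map_subtype_eq (D.toCore.P m) (LinearMap.ker φ),
    hker, D.finrank_P, Module.finrank_pi_fintype] at h
  simp only [Module.finrank_pi, Finset.sum_const, Finset.card_univ, Fintype.card_bool,
    smul_eq_mul] at h
  rw [Nat.card_eq_fintype_card]
  omega

/-- dimension of the glued pairs, on both sides -/
theorem exists_count : ∃ m0 : ℕ, ∀ m, m0 ≤ m →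
    FiniteDimensional 𝕜 (D.W m) ∧
    Module.finrank 𝕜 (D.W m) = Nat.card D.ι + Module.finrank 𝕜 (D.I m) ∧
    Module.finrank 𝕜 (D.W m) + Nat.card D.ι =
      2 * Module.finrank 𝕜 (target (k := 𝕜) D.Jbar m) ∧
    Module.finrank 𝕜 (D.W m) = Module.finrank K (riemannRochSpace (m • Pol (K := K) D.J)) ∧
    (Module.finrank 𝕜 (D.W m) : ℤ) = m * RR.ndeg K D.J + 1 - genusFF K F := by
  haveI := D.fintype
  obtain ⟨m1, h1⟩ := D.exists_surj
  obtain ⟨m2, h2⟩ := D.exists_interp
  refine ⟨max (max m1 m2) (2 * RR.genusX D.transc_J), fun m hm => ?_⟩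
  have e1 : Module.finrank 𝕜 (D.W m) = Nat.card D.ι + Module.finrank 𝕜 (D.I m) := by
    rw [finrank_W (h2 m (by omega)), Module.finrank_pi, Nat.card_eq_fintype_card]
  have e2 := D.finrank_I (h2 m (by omega))
  have e3 : Module.finrank 𝕜 (D.W m) =
      Module.finrank K (riemannRochSpace (m • Pol (K := K) D.J)) := by
    rw [← trivialRep_T (n := 1) one_ne_zero (h1 m (by omega)), (Rep.finrank_T _ m).2,
      D.toCore.trivialRep_L]
  refine ⟨D.finiteDimensional_W m, e1, by omega, e3, ?_⟩
  have hpos := RR.ndeg_pos D.transc_J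
  have hdeg : Divisor.degree (m • Pol (K := K) D.J) = (m : ℤ) * RR.ndeg K D.J := by
    rw [map_nsmul, RR.degree_Pol D.transc_J, nsmul_eq_mul]
  have h := RR.rr D.transc_J (m • Pol (K := K) D.J)
  have hneg : Divisor.degree (RR.Kd D.transc_J - m • Pol (K := K) D.J) < 0 := by
    rw [map_sub, RR.degree_Kd, hdeg]
    have : (m : ℤ) ≤ (m : ℤ) * RR.ndeg K D.J := le_mul_of_one_le_right (by positivity) (by omega)
    omega
  rw [RR.ell_of_degree_neg hneg, hdeg] at h
  rw [e3, RR.genusFF_eq D.transc_J]
  simpa [RR.ell] using h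

end Data

end FLTAgent.SS
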