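import Fermat.Agent.SS.Toric
import Fermat.Agent.SS.Surj
import Fermat.Agent.SS.Side

/-!
What the semistable fibre of `X₀(Mq)` at `q` says about Galois acting on the torsion prime to `q`:
inertia is unipotent of level two, and `φ² = q²` on the classes killed by both pushforwards, up to
the trivial factor `φ² - 1`.
-/

set_option autoImplicit false
set_option linter.unusedSectionVars false
set_option synthInstance.maxHeartbeats 200000
set_option linter.style.haveILetI false

noncomputable section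

open ModularCurve AlgebraicCurve IsLocalRing
open FLTAgent.Reduction (Qb kA FB FS Ctx Val)

namespace FLTAgent.SS

local notation "GalQ" => AlgebraicClosure ℚ ≃ₐ[ℚ] AlgebraicClosure ℚ

theorem arch {A : ValuationSubring Qb} {ℓ : ℕ} (hℓ : ℓ.Prime) (hA : A.LiesOverPrime ℓ) :
    Arch A := by
  intro c e hc he
  have he' : A.valuation (e : Qb) < 1 := (A.valuation_lt_one_iff e).mp he
  obtain ⟨j, hj⟩ := Reduction.exists_pow_le (A := A) (hℓ := hℓ) (hA := hA) he'
    (a := (c : Qb)) (fun h => hc (Subtype.ext h))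
  rw [← map_pow] at hj
  obtain ⟨d, hd⟩ : ∃ d : A, (e : Qb) ^ j = (d : Qb) * (c : Qb) := by
    refine ⟨⟨(e : Qb) ^ j / (c : Qb), (A.valuation_le_one_iff _).mp ?_⟩, ?_⟩
    · rw [map_div₀]; exact div_le_one_of_le₀ hj zero_le
    · rw [div_mul_cancel₀]; exact fun h => hc (Subtype.ext h)
  exact ⟨j, d, Subtype.ext (by rw [SubmonoidClass.coe_pow, MulMemClass.coe_mul, hd, mul_comm])⟩

variable (M q : ℕ) [NeZero M] [NeZero q]

/-- the automorphism of `ℚ̄(X₀(Mq))` attached to `σ` -/
abbrev galAut (σ : GalQ) : SemilinearAut Qb (FB (M * q)) :=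
  arithmeticGalois (modularFunctionFieldFull (M * q)) σ

/-- both pushforwards of the class to level `M` vanish -/
def KilledByPush (y : JZero (M * q)) : Prop :=
  ∀ (hα : HeckeAlphaBarIntegral Qb M q) (hβ : HeckeBetaBarIntegral Qb M q)
    (D : Divisor.degZero (K := Qb) (F := FB (M * q))), Pic0.mk D = y →
    (Divisor.pushforwardAlong (heckeAlphaBar Qb M q) hα (D : Divisor Qb (FB (M * q)))).IsPrincipal ∧
    (Divisor.pushforwardAlong (heckeBetaBar Qb M q) hβ (D : Divisor Qb (FB (M * q)))).IsPrincipal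

/-- what is used of the fibre at `q` -/
def FibreInputs (A : ValuationSubring Qb) : Prop :=
  ∃ D : Data Qb A (FB (M * q)) (FS A M),
    (∀ σ ∈ A.inertiaSubgroupIn ℚ, Compat D.toCore (galAut M q σ) (RingEquiv.refl (FS A M))) ∧
    ∀ σ : GalQ, A.IsFrobeniusAt σ q → ∃ gs : FS A M ≃+* FS A M,
      Compat D.toCore (galAut M q σ) gs ∧
      (∀ b s z c, Val (D.pt b s) z c → Val (D.pt b s) (gs (gs z)) (c ^ (q ^ 2))) ∧
      ∀ (n : ℕ) (E : Divisor.degZero (K := Qb) (F := FB (M * q))) (f : FB (M * q)),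
        n ≠ 0 → KilledByPush M q (Pic0.mk E) → f ≠ 0 →
        (∀ P : Place Qb (FB (M * q)), (n : ℤ) * (E : Divisor Qb (FB (M * q))) P = P.ord f) →
        ∀ (b : Bool) (c : Qb), c ≠ 0 → algebraMap Qb (FB (M * q)) c * f ∈ D.G b →
          D.red b (algebraMap Qb (FB (M * q)) c * f) ≠ 0 →
          ∃ h : FS A M, h ≠ 0 ∧ gs (gs (D.red b (algebraMap Qb (FB (M * q)) c * f)))
            = D.red b (algebraMap Qb (FB (M * q)) c * f) * h ^ n

variable {M q}

theorem Compat.comp {K : Type*} [Field K] [IsAlgClosed K] [CharZero K] {A : ValuationSubring K}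
    {F : Type*} [Field F] [Algebra K F] [RR.FnField K F]
    {Fs : Type*} [Field Fs] [Algebra (ResidueField A) Fs] {D : Core K A F Fs}
    {g g' : SemilinearAut K F} {gs gs' : Fs ≃+* Fs} (h : Compat D g gs) (h' : Compat D g' gs') :
    Compat D (g * g') (gs'.trans gs) where
  base_mem a ha := by
    rw [SemilinearAut.baseAut_mul]; exact h.base_mem _ (h'.base_mem a ha)
  mem b x hx := by rw [mul_smul]; exact h.mem b _ (h'.mem b x hx)
  red b x hx := by
    rw [mul_smul, h.red b _ (h'.mem b x hx), h'.red b x hx]; rfl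
  J_eq := by rw [mul_smul, h'.J_eq, h.J_eq]

theorem natCast_ne_zero_kA {A : ValuationSubring Qb} (hq : q.Prime) (hA : A.LiesOverPrime q)
    {n : ℕ} (hn : ¬ q ∣ n) : (n : kA A) ≠ 0 := by
  haveI := Reduction.charP_residue A hq hA
  rwa [Ne, CharP.cast_eq_zero_iff (kA A) q]

variable {A : ValuationSubring Qb}

/-- inertia satisfies `σ + σ⁻¹ = 2` on the torsion prime to `q` -/
theorem inertia_quadratic (hq : q.Prime) (hA : A.LiesOverPrime q) (hF : FibreInputs M q A)
    {σ : GalQ} (hσ : σ ∈ A.inertiaSubgroupIn ℚ) {n : ℕ} (hn : ¬ q ∣ n) (x : JZero (M * q))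
    (hx : n • x = 0) : σ • x + σ⁻¹ • x = 2 • x := by
  obtain ⟨D, hin, -⟩ := hF
  have hn0 : n ≠ 0 := fun h => hn (h ▸ dvd_zero q)
  set y := σ⁻¹ • x with hy
  have hy0 : n • y = 0 := by rw [hy, smul_comm, hx]; exact smul_zero (A := JZero (M * q)) σ⁻¹
  have hc := hin σ hσ
  have ht : D.Toric n (galAut M q σ • y - y) :=
    Data.toric_smul_sub D.exists_surj hn0 hy0 hc fun E f _ _ _ b c _ _ _ =>
      ⟨1, one_ne_zero, by simp⟩
  have h := ht.smul_eq D.exists_surj (arch hq hA) (natCast_ne_zero_kA hq hA hn) hc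
    (χ := RingHom.id _) (fun _ _ _ _ h => h) 1 (fun ζ _ => (pow_one ζ).symm)
  rw [one_nsmul] at h
  change σ • (σ • y - y) = σ • y - y at h
  have hxy : σ • y = x := by rw [hy, smul_inv_smul]
  rw [hxy, smul_sub, hxy] at h
  rw [two_nsmul]
  rw [sub_eq_sub_iff_add_eq_add] at h
  exact h

/-- `(φ² - q²)(φ² - 1)` kills the torsion prime to `q` whose pushforwards vanish -/
theorem frobenius_quartic (hq : q.Prime) (hA : A.LiesOverPrime q) (hF : FibreInputs M q A)
    {σ : GalQ} (hσ : A.IsFrobeniusAt σ q) {n : ℕ} (hn : ¬ q ∣ n) (y : JZero (M * q))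
    (hy : n • y = 0) (hpush : KilledByPush M q y) :
    σ • σ • (σ • σ • y - y) = q ^ 2 • (σ • σ • y - y) := by
  obtain ⟨D, -, hfr⟩ := hF
  obtain ⟨gs, hg, hpt, hnorm⟩ := hfr σ hσ
  have hn0 : n ≠ 0 := fun h => hn (h ▸ dvd_zero q)
  have hg2 : Compat D.toCore (galAut M q (σ * σ)) (gs.trans gs) := by
    rw [galAut, map_mul]; exact hg.comp hg
  haveI := Reduction.charP_residue A hq hA
  haveI : ExpChar (kA A) q := ExpChar.prime hq
  have ht : D.Toric n (galAut M q (σ * σ) • y - y) :=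
    Data.toric_smul_sub D.exists_surj hn0 hy hg2 fun E f hE hf hord b c hc hu hur =>
      hnorm n E f hn0 (hE ▸ hpush) hf hord b c hc hu hur
  have h := ht.smul_eq D.exists_surj (arch hq hA) (natCast_ne_zero_kA hq hA hn) hg2
    (χ := iterateFrobenius (kA A) q 2)
    (fun b s z c hv => by rw [iterateFrobenius_def]; exact hpt b s z c hv) (q ^ 2)
    (fun ζ _ => iterateFrobenius_def q 2 ζ)
  change (σ * σ) • ((σ * σ) • y - y) = q ^ 2 • ((σ * σ) • y - y) at h
  simpa only [mul_smul] using h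

end FLTAgent.SS
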