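import Fermat.Agent.SS.FibreCore
import Fermat.Agent.SS.Galois

/-!
Galois acts on the two components through the coefficients.
-/

set_option autoImplicit false
set_option linter.unusedSectionVars false
set_option synthInstance.maxHeartbeats 200000
set_option linter.style.haveILetI false
set_option maxHeartbeats 800000

noncomputable section

open ModularCurve AlgebraicCurve Polynomial IsLocalRing
open FLTAgent.Reduction

namespace FLTAgent.SS

variable {M q : ℕ} [NeZero M] [NeZero q]

theorem coeffMap_jgen (σ : Qb ≃ₐ[ℚ] Qb) (d : (M * q).divisors) :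
    coeffMap (σ : Qb →+* Qb) ((Genus.gen (M * q) d : FB (M * q)) : LaurentSeries Qb) =
      ((Genus.gen (M * q) d : FB (M * q)) : LaurentSeries Qb) := by
  show coeffMap (σ : Qb →+* Qb) (Genus.jgen (M * q) d) = Genus.jgen (M * q) d
  simp only [Genus.jgen, coeffEmb, coeffMap_coeffMap]
  exact coeffMap_congr (RingHom.ext fun x => σ.commutes x) _

variable {A : ValuationSubring Qb} (C : Ctx A M q)
include C

theorem atkinW_galAut (σ : Qb ≃ₐ[ℚ] Qb) (x : FB (M * q)) :
    atkinW M q (galAut M q σ • x) = galAut M q σ • atkinW M q x := by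
  set g := galAut M q σ with hg
  let W' : FB (M * q) →ₐ[Qb] FB (M * q) :=
    { (SemilinearAut.toRingAut g).symm.toRingHom.comp
        ((atkinW M q).toRingHom.comp (SemilinearAut.toRingAut g).toRingHom) with
      commutes' := fun a => by
        show (SemilinearAut.toRingAut g).symm (atkinW M q (SemilinearAut.toRingAut g
          (algebraMap Qb (FB (M * q)) a))) = algebraMap Qb (FB (M * q)) a
        rw [RingEquiv.symm_apply_eq, SemilinearAut.commutes, AlgHom.commutes] }
  have hW : W' = atkinW M q := Genus.algHom_ext fun d => by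
    show (SemilinearAut.toRingAut g).symm (atkinW M q (g • Genus.gen (M * q) d)) =
      atkinW M q (Genus.gen (M * q) d)
    rw [RingEquiv.symm_apply_eq]
    show atkinW M q (g • Genus.gen (M * q) d) = g • atkinW M q (Genus.gen (M * q) d)
    have hd : g • Genus.gen (M * q) d = Genus.gen (M * q) d := Subtype.ext (coeffMap_jgen σ d)
    rw [hd]
    refine Subtype.ext ?_
    show _ = coeffMap (σ : Qb →+* Qb) (atkinW M q (Genus.gen (M * q) d) : LaurentSeries Qb)
    obtain ⟨f, hf | hf⟩ := exists_preimage_gen C d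
    · have h1 : coeffMap (σ : Qb →+* Qb) (f : LaurentSeries Qb) = f := by
        have := coeffMap_jgen σ d
        rwa [← hf, coe_heckeAlphaBar] at this
      rw [← hf, atkinW_i1 C, coe_heckeBetaBar, coeffMap_qExpand, h1]
    · have h1 : coeffMap (σ : Qb →+* Qb) (f : LaurentSeries Qb) = f := by
        have := coeffMap_jgen σ d
        rw [← hf, coe_heckeBetaBar, coeffMap_qExpand] at this
        exact qExpand_injective (R := Qb) (N := q) this
      rw [← hf, atkinW_i2 C, coe_heckeAlphaBar, h1]
  have h := DFunLike.congr_fun hW x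
  have h2 : (SemilinearAut.toRingAut g).symm (atkinW M q (g • x)) = atkinW M q x := h
  exact (RingEquiv.symm_apply_eq _).mp h2

theorem compat_of_induces {σ : Qb ≃ₐ[ℚ] Qb} {τ : kA A ≃+* kA A} (hσ : Induces A σ τ)
    (gs : FS A M ≃+* FS A M)
    (hgs : ∀ z : FS A M, ((gs z : FS A M) : LaurentSeries (kA A)) =
      coeffMap (τ : kA A →+* kA A) (z : LaurentSeries (kA A))) :
    Compat (fibreCore C) (galAut M q σ) gs := by
  let σA : A →+* A :=
    { toFun := fun a => ⟨σ (a : Qb), (hσ a).1⟩
      map_one' := Subtype.ext (map_one σ)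
      map_mul' := fun a b => Subtype.ext (map_mul σ _ _)
      map_zero' := Subtype.ext (map_zero σ)
      map_add' := fun a b => Subtype.ext (map_add σ _ _) }
  have hup : ∀ S : LaurentSeries A,
      coeffMap (σ : Qb →+* Qb) (up A S) = up A (coeffMap σA S) := fun S => by
    rw [coeffMap_coeffMap, coeffMap_coeffMap]
    exact coeffMap_congr (RingHom.ext fun _ => rfl) S
  have hdn : ∀ S : LaurentSeries A,
      dn A (coeffMap σA S) = coeffMap (τ : kA A →+* kA A) (dn A S) := fun S => by
    rw [coeffMap_coeffMap, coeffMap_coeffMap]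
    exact coeffMap_congr (RingHom.ext fun a => (hσ a).2) S
  have hside : ∀ b x, side M q b (galAut M q σ • x) = galAut M q σ • side M q b x := by
    intro b x
    cases b
    · rfl
    · exact atkinW_galAut C σ x
  have key : ∀ b x, x ∈ GS M q A b →
      IsRed A b (galAut M q σ • x) (gs (redM M q A b x)) := by
    intro b x hx
    obtain ⟨G, H, hH, hGH⟩ := mem_GS.mp hx
    have hr := (isRed_redM C hx).2
    rw [redS_eq hH hGH] at hr
    have hH' : dn A (coeffMap σA H) ≠ 0 := by
      rw [hdn]
      exact fun h0 => hH (HahnSeries.ext (funext fun n => by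
        simpa using congrArg (fun S : LaurentSeries (kA A) => S.coeff n) h0))
    have hGH' : ((side M q b (galAut M q σ • x) : FB (M * q)) : LaurentSeries Qb) *
        up A (coeffMap σA H) = up A (coeffMap σA G) := by
      rw [hside, ← hup, ← hup, ← hGH, map_mul]
      rfl
    refine ⟨⟨_, _, hH', hGH'⟩, ?_⟩
    rw [redS_eq hH' hGH', hdn, hdn, hgs, ← hr, map_div₀]
  refine ⟨fun a ha => ?_, fun b x hx => (key b x hx).1, fun b x hx => (key b x hx).eq, ?_⟩
  · rw [galAut, baseAut_arithmeticGalois]
    exact (hσ ⟨a, ha⟩).1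
  · refine Subtype.ext ?_
    show coeffMap (σ : Qb →+* Qb) ((Jfn M q : FB (M * q)) : LaurentSeries Qb) = _
    have hj : coeffMap (σ : Qb →+* Qb) ((ModFun.jBar M : FB M) : LaurentSeries Qb) =
        ((ModFun.jBar M : FB M) : LaurentSeries Qb) := by
      show coeffMap (σ : Qb →+* Qb) (coeffEmb Qb jq) = coeffEmb Qb jq
      simp only [coeffEmb, coeffMap_coeffMap]
      exact coeffMap_congr (RingHom.ext fun x => σ.commutes x) _
    show _ = ((Jfn M q : FB (M * q)) : LaurentSeries Qb)
    rw [Jfn, MulMemClass.coe_mul, coe_heckeAlphaBar, coe_heckeBetaBar, map_mul, coeffMap_qExpand, hj]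

theorem compat_inertia (σ : Qb ≃ₐ[ℚ] Qb) (hσ : σ ∈ A.inertiaSubgroupIn ℚ) :
    Compat (fibreCore C) (galAut M q σ) (RingEquiv.refl (FS A M)) :=
  compat_of_induces C (induces_inertia C hσ) _ fun z =>
    ((coeffMap_congr (g := RingHom.id (kA A)) (RingHom.ext fun _ => rfl) _).trans
      (coeffMap_id _)).symm

theorem compat_frobenius {σ : Qb ≃ₐ[ℚ] Qb} (hσ : A.IsFrobeniusAt σ q) :
    ∃ gs : FS A M ≃+* FS A M, Compat (fibreCore C) (galAut M q σ) gs ∧
      ∀ z : FS A M, Fr C (gs z) = z ^ q := by
  haveI := expChar_kA C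
  refine ⟨fullRingAut (frobK C) M, compat_of_induces C (induces_frobenius C hσ) _ fun z => rfl,
    fun z => Subtype.ext ?_⟩
  rw [coe_Fr, SubmonoidClass.coe_pow, pow_char_eq q]
  exact congrArg _ (coeffMap_congr (RingHom.ext fun _ => rfl) _)

end FLTAgent.SS
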