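import Fermat.Agent.SS.Galois
import Fermat.Agent.Attach.Unramified
import Fermat.Agent.Attach.Tate
import Fermat.Prelude.Def_GaloisRep_LocalConditions

/-!
A Hecke–Galois datum is unipotent on inertia at a prime dividing the level exactly once.
-/

set_option autoImplicit false
set_option linter.unusedSectionVars false
set_option linter.style.haveILetI false

noncomputable section

namespace FLTAgent.SS

open IsLocalRing ModularCurve Polynomial
open FLTAgent.Attach (GaloisInputs HeckeLattice cyc powerTrace)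

local notation "GalQ" => AlgebraicClosure ℚ ≃ₐ[ℚ] AlgebraicClosure ℚ

/-- determinants of maps congruent modulo `I` are congruent -/
theorem det_sub_mem {R : Type*} [CommRing R] {V : Type*} [AddCommGroup V] [Module R V]
    {κ : Type*} [Fintype κ] (b : Module.Basis κ R V) (I : Ideal R) (f g : Module.End R V)
    (h : ∀ v, (f - g) v ∈ I • (⊤ : Submodule R V)) : LinearMap.det f - LinearMap.det g ∈ I := by
  classical
  rw [← LinearMap.det_toMatrix b f, ← LinearMap.det_toMatrix b g, ← Ideal.Quotient.eq_zero_iff_mem,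
    map_sub, sub_eq_zero, RingHom.map_det, RingHom.map_det]
  congr 1
  ext i j
  simp only [RingHom.mapMatrix_apply, Matrix.map_apply, LinearMap.toMatrix_apply]
  rw [← sub_eq_zero, ← map_sub, Ideal.Quotient.eq_zero_iff_mem, ← Finsupp.sub_apply, ← map_sub,
    ← LinearMap.sub_apply]
  refine Submodule.smul_induction_on (h (b j)) (fun a ha w _ => ?_) fun u v hu hv => ?_
  · rw [map_smul, Finsupp.smul_apply, smul_eq_mul]
    exact I.mul_mem_right _ ha
  · rw [map_add, Finsupp.add_apply]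
    exact add_mem hu hv

theorem det_of_charpoly {R : Type*} [CommRing R] [Nontrivial R] {V : Type*} [AddCommGroup V] [Module R V]
    [Module.Free R V] [Module.Finite R V] (hrk : Module.finrank R V = 2) {f : Module.End R V}
    {a c : R} (h : LinearMap.charpoly f = X ^ 2 - C a * X + C c) : LinearMap.det f = c := by
  rw [LinearMap.det_eq_sign_charpoly_coeff, hrk, h]
  simp [coeff_X_pow]

theorem charpoly_fin_two' {R : Type*} [CommRing R] [Nontrivial R] {V : Type*} [AddCommGroup V]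
    [Module R V] [Module.Free R V] [Module.Finite R V] (hrk : Module.finrank R V = 2)
    (f : Module.End R V) :
    LinearMap.charpoly f = X ^ 2 - C (LinearMap.trace R V f) * X + C (LinearMap.det f) := by
  let b := Module.finBasisOfFinrankEq R V hrk
  rw [← LinearMap.charpoly_toMatrix f b, Matrix.charpoly_fin_two,
    LinearMap.trace_eq_matrix_trace R b, LinearMap.det_toMatrix b]

variable {p N : ℕ} [NeZero N] {S : Finset ℕ}
  {O : Type} [CommRing O] [IsDomain O] [IsDiscreteValuationRing O]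
  [IsAdicComplete (maximalIdeal O) O]
  {θ : CuspForm.heckeAlgebra N 2 (↑S : Set ℕ) →+* ResidueField O}
  {T : Type} [CommRing T] [IsLocalRing T] [IsNoetherianRing T]
  [IsAdicComplete (maximalIdeal T) T] [Algebra O T] [IsLocalHom (algebraMap O T)]
  [Module.Finite O T] [Module.Free O T]

/-- trace and determinant of a datum, modulo any power of the maximal ideal, seen on the torsion -/
theorem exists_model (D : HeckeLattice N) (G : GaloisInputs N) (hp : p.Prime) (hpS : p ∈ S)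
    (hNS : ∀ q : ℕ, q.Prime → q ∣ N → q ∈ S) (hpT : (p : T) ∈ maximalIdeal T)
    (H : CuspForm.HeckeGaloisRepDatum N (↑S : Set ℕ) O θ T) (M : ℕ) {n : ℕ} [NeZero n]
    {j : ℕ} (hnj : n = p ^ j) (hj : M ≤ j) (σ₁ : GalQ) :
    ∃ (t : CuspForm.heckeAlgebra N 2 (↑S : Set ℕ)),
      (∀ v, D.twist n σ₁ v = D.tors n (D.actS _ t v)) ∧
      LinearMap.trace T H.ρ.V (H.ρ.ρ σ₁) - H.π t ∈ maximalIdeal T ^ M ∧
      LinearMap.det (H.ρ.ρ σ₁) - ((cyc n σ₁).val : T) ∈ maximalIdeal T ^ M := by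
  classical
  have hn : 0 < n := Nat.pos_of_ne_zero (NeZero.ne n)
  obtain ⟨L1, hL1, h1⟩ := D.exists_tors_level G hn
  obtain ⟨L2, hL2, h2⟩ := Attach.exists_cyc_level n
  obtain ⟨L3, hL3, h3⟩ := H.ρ.isAdicContinuous M
  haveI := hL1; haveI := hL2; haveI := hL3
  obtain ⟨ℓ, A, τ, k, hℓ, hℓS', hA, hτ, hagree⟩ :=
    FLTAgent.Chebotarev.exists_frobenius_pow (L1 ⊔ L2 ⊔ L3) σ₁ S
  have hℓN : ¬ ℓ ∣ N := fun h => hℓS' (hNS ℓ hℓ h)
  have hℓn : ¬ ℓ ∣ n := fun h => hℓS' ((Nat.prime_dvd_prime_iff_eq hℓ hp).1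
    (hℓ.dvd_of_dvd_pow (hnj ▸ h)) ▸ hpS)
  set g' : GalQ := σ₁⁻¹ * τ ^ k with hg'
  have hτk : τ ^ k = σ₁ * g' := by rw [hg', mul_inv_cancel_left]
  have hfix : ∀ y ∈ L1 ⊔ L2 ⊔ L3, g' y = y := fun y hy => by
    rw [hg', AlgEquiv.mul_apply, hagree y hy]
    exact σ₁.symm_apply_apply y
  have hg1 := h1 g' fun y hy => hfix y (le_sup_left (a := L1 ⊔ L2) (le_sup_left (a := L1) hy))
  have hg2 := h2 g' fun y hy => hfix y (le_sup_left (a := L1 ⊔ L2) (le_sup_right (a := L1) hy))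
  have hclose : ∀ v, (H.ρ.ρ σ₁ - H.ρ.ρ (τ ^ k)) v ∈ maximalIdeal T ^ M • (⊤ : Submodule T H.ρ.V) := by
    intro v
    have h4 := h3 g' (fun y hy => hfix y (le_sup_right (a := L1 ⊔ L2) hy)) v
    have h5 : (H.ρ.ρ σ₁ - H.ρ.ρ (τ ^ k)) v = -(H.ρ.ρ σ₁ (H.ρ.ρ g' v - v)) := by
      rw [map_sub, ← Module.End.mul_apply, ← map_mul, ← hτk, neg_sub, LinearMap.sub_apply]
    rw [h5]
    refine neg_mem ?_
    refine Submodule.smul_induction_on h4 ?_ ?_
    · intro a ha w _
      rw [map_smul]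
      exact Submodule.smul_mem_smul ha trivial
    · intro x y hx hy
      rw [map_add]
      exact add_mem hx hy
  have hch := H.charpoly_frob ℓ hℓ hℓN hℓS' A hA τ hτ
  refine ⟨powerTrace (CuspForm.heckeAlgebra.T hℓ hℓN hℓS')
    (ℓ : CuspForm.heckeAlgebra N 2 (↑S : Set ℕ)) k, fun v => ?_, ?_, ?_⟩
  · rw [← D.twist_pow G _ hℓ hℓN hℓS' hℓn hA hτ k v, hτk, HeckeLattice.twist, HeckeLattice.twist,
      mul_smul, hg1, Attach.cyc_mul, hg2, mul_one, mul_inv_rev, mul_smul]
    congr 2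
    obtain ⟨w, hw⟩ := D.exists_tors_eq_smul hn σ₁⁻¹ v
    rw [← hw]
    exact eq_inv_smul_iff.2 (hg1 w)
  · have htr := Attach.trace_pow_eq H.ρ.finrank_eq hch k
    rw [Attach.map_powerTrace, map_natCast, ← htr, ← map_pow, ← map_sub]
    exact Attach.trace_mem_of_forall_mem _ _ hclose
  · have hd : LinearMap.det (H.ρ.ρ (τ ^ k)) = ((ℓ ^ k : ℕ) : T) := by
      rw [map_pow, map_pow, det_of_charpoly H.ρ.finrank_eq hch, Nat.cast_pow]
    have hc : cyc n σ₁ = ((ℓ ^ k : ℕ) : ZMod n) := by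
      have h6 : cyc n (τ ^ k) = ((ℓ ^ k : ℕ) : ZMod n) := by
        clear_value g'
        clear hτk hclose hagree hg' hd
        induction k with
        | zero => simp [Attach.cyc_one]
        | succ k ih =>
          rw [pow_succ τ k, Attach.cyc_mul, ih, Attach.cyc_frobenius hℓ hℓn hA hτ, pow_succ ℓ k,
            Nat.cast_mul]
      rw [← h6, hτk, Attach.cyc_mul, hg2, mul_one]
    have h7 : LinearMap.det (H.ρ.ρ σ₁) - ((ℓ ^ k : ℕ) : T) ∈ maximalIdeal T ^ M :=
      hd ▸ det_sub_mem (Module.finBasisOfFinrankEq T H.ρ.V H.ρ.finrank_eq) _ _ _ hclose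
    have h8 : ((ℓ ^ k : ℕ) : T) - ((cyc n σ₁).val : T) ∈ maximalIdeal T ^ M := by
      rw [hc, ZMod.val_natCast]
      obtain ⟨d, hd'⟩ : ∃ d, ℓ ^ k = ℓ ^ k % n + n * d := ⟨_, (Nat.mod_add_div _ _).symm⟩
      rw [show ((ℓ ^ k : ℕ) : T) - ((ℓ ^ k % n : ℕ) : T) = ((n * d : ℕ) : T) by
        conv_lhs => arg 1; rw [hd']
        rw [Nat.cast_add, add_sub_cancel_left]]
      rw [Nat.cast_mul, hnj, Nat.cast_pow]
      exact Ideal.mul_mem_right _ _
        (Ideal.pow_le_pow_right hj (Ideal.pow_mem_pow hpT j))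
    simpa using add_mem h7 h8

theorem isUnipotent_datum {M q : ℕ} [NeZero M] [NeZero q] (hN : N = M * q) (hq : q.Prime)
    (hqM : ¬ q ∣ M)
    (hF : ∀ A : ValuationSubring (AlgebraicClosure ℚ), A.LiesOverPrime q → FibreInputs M q A)
    (D : HeckeLattice N) (G : GaloisInputs N) (hp : p.Prime) (hpO : (p : O) ∈ maximalIdeal O)
    (hpS : p ∈ S) (hNS : ∀ q : ℕ, q.Prime → q ∣ N → q ∈ S)
    (H : CuspForm.HeckeGaloisRepDatum N (↑S : Set ℕ) O θ T) (hqp : q ≠ p) :
    H.ρ.IsUnipotentOnInertiaAt q := by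
  classical
  subst hN
  intro P hP g hg
  obtain ⟨e, c, hpc, hsat⟩ := D.exists_saturation (↑S : Set ℕ) hp
  have hpT : (p : T) ∈ maximalIdeal T := by
    rw [← map_natCast (algebraMap O T)]
    exact map_nonunit (algebraMap O T) _ hpO
  have hcT : IsUnit (c : T) := by
    by_contra hcu
    obtain ⟨a, b, hab⟩ := (hp.coprime_iff_not_dvd.2 hpc).isCoprime
    apply (maximalIdeal.isMaximal T).ne_top
    rw [Ideal.eq_top_iff_one]
    have h1 : (a : T) * p + (b : T) * c = 1 := by exact_mod_cast congrArg (fun z : ℤ => (z : T)) hab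
    rw [← h1]
    exact add_mem (Ideal.mul_mem_left _ _ hpT) (Ideal.mul_mem_left _ _ hcu)
  have main : ∀ k : ℕ, LinearMap.trace T H.ρ.V (H.ρ.ρ g) - 2 ∈ maximalIdeal T ^ k ∧
      LinearMap.det (H.ρ.ρ g) - 1 ∈ maximalIdeal T ^ k := by
    intro k
    have hn : 0 < p ^ (k + 1 + e) := pow_pos hp.pos _
    haveI : NeZero (p ^ (k + 1 + e)) := ⟨hn.ne'⟩
    have hqn : ¬ q ∣ p ^ (k + 1 + e) := fun h =>
      hqp ((Nat.prime_dvd_prime_iff_eq hq hp).1 (hq.dvd_of_dvd_pow h))
    obtain ⟨t, ht, htr, hdet⟩ := exists_model D G hp hpS hNS hpT H (k + 1)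
      (n := p ^ (k + 1 + e)) rfl (by omega) g
    have hle : maximalIdeal T ^ (k + 1) ≤ maximalIdeal T ^ k := Ideal.pow_le_pow_right (by omega)
    have hcyc : cyc (p ^ (k + 1 + e)) g = 1 := Attach.cyc_inertia hq hqn hP hg
    have hone : ((1 : ZMod (p ^ (k + 1 + e))).val : T) = 1 := by
      haveI : Fact (1 < p ^ (k + 1 + e)) := ⟨Nat.one_lt_pow (by omega) hp.one_lt⟩
      rw [ZMod.val_one, Nat.cast_one]
    rw [hcyc, hone] at hdet
    refine ⟨?_, hle hdet⟩
    have htw : ∀ v, D.twist (p ^ (k + 1 + e)) g v = D.tors (p ^ (k + 1 + e)) (D.actS (↑S : Set ℕ) 2 v) := by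
      intro v
      have h2 : D.actS (↑S : Set ℕ) 2 v = v + v := by
        rw [show (2 : CuspForm.heckeAlgebra (M * q) 2 (↑S : Set ℕ)) = 1 + 1 by
          rw [one_add_one_eq_two], map_add, map_one, LinearMap.add_apply, Module.End.one_apply]
      rw [HeckeLattice.twist, hcyc, h2, map_add]
      haveI : Fact (1 < p ^ (k + 1 + e)) := ⟨Nat.one_lt_pow (by omega) hp.one_lt⟩
      rw [ZMod.val_one, one_nsmul,
        inertia_quadratic hq hP (hF P hP) hg hqn _ (D.nsmul_tors hn v), two_nsmul]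
    obtain ⟨s, hs⟩ := hsat (k + 1) (t - 2) (fun v => by
      rw [map_sub, LinearMap.sub_apply, map_sub, ← ht, htw, sub_self])
    have hπ : H.π (t - 2) ∈ maximalIdeal T ^ (k + 1) := by
      have h := congrArg H.π hs
      rw [map_zsmul, map_zsmul, zsmul_eq_mul, zsmul_eq_mul, Int.cast_natCast, Int.cast_natCast,
        Nat.cast_pow] at h
      refine ((maximalIdeal T ^ (k + 1)).unit_mul_mem_iff_mem hcT).1 ?_
      rw [h]
      exact Ideal.mul_mem_right _ _ (Ideal.pow_mem_pow hpT _)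
    rw [map_sub, map_ofNat] at hπ
    refine hle ?_
    convert add_mem htr hπ using 1
    ring
  have h1 : LinearMap.trace T H.ρ.V (H.ρ.ρ g) = 2 :=
    Attach.eq_of_forall_sub_mem_pow fun k => (main k).1
  have h2 : LinearMap.det (H.ρ.ρ g) = 1 :=
    Attach.eq_of_forall_sub_mem_pow fun k => (main k).2
  rw [charpoly_fin_two' H.ρ.finrank_eq, h1, h2]
  simp only [map_ofNat, map_one]
  ring

end FLTAgent.SS
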