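import Fermat.Agent.SS.FibreCore
import Fermat.Agent.SS.Galois
import Fermat.Agent.SS2.Rational

/-!
The norms to level `M` on the two components: `red N_α(f) = r₀ · φ(r₁)` up to constants, where `φ` is
the coefficientwise Frobenius, and the consequence for classes killed by both pushforwards.
-/

set_option autoImplicit false
set_option linter.unusedSectionVars false
set_option synthInstance.maxHeartbeats 200000
set_option linter.style.haveILetI false
set_option maxHeartbeats 800000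

noncomputable section

open ModularCurve AlgebraicCurve Polynomial IsLocalRing
open FLTAgent.Reduction
open FLTAgent.RR (Bd KK)

namespace FLTAgent.SS

variable (M q : ℕ) [NeZero M] [NeZero q]

/-- the norm along the first degeneracy map -/
def normA (x : FB (M * q)) : FB M :=
  letI := algebraAlong (i1 M q)
  Algebra.norm (FB M) x

/-- the norm along the second degeneracy map -/
def normB (x : FB (M * q)) : FB M :=
  letI := algebraAlong (i2 M q)
  Algebra.norm (FB M) x

variable {M q} {A : ValuationSubring Qb} (C : Ctx A M q)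
include C

theorem qExpand_normA {u : Qbˣ} (hu : IsPrimitiveRoot u q) (x : FB (M * q)) :
    qExpand Qb q ((normA M q x : FB M) : LaurentSeries Qb) =
      qExpand Qb q (x : LaurentSeries Qb) *
        ∏ i : Fin q, twist (u ^ (i : ℕ)) ((atkinW M q x : FB (M * q)) : LaurentSeries Qb) := by
  classical
  letI := algebraAlong (i1 M q)
  haveI := isScalarTower_along (i1 M q)
  haveI hfin : Module.Finite (FB M) (FB (M * q)) := HeckeJ.finiteAlong (i1 M q)
  haveI : CharZero (FB M) := charZero_of_injective_algebraMap (algebraMap Qb (FB M)).injective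
  haveI : Algebra.IsIntegral (FB M) (FB (M * q)) := Algebra.IsIntegral.of_finite _ _
  haveI : Algebra.IsSeparable (FB M) (FB (M * q)) := Algebra.IsSeparable.of_integral _ _
  let vN : FB M →+* LaurentSeries Qb := (modularFunctionFieldBar M).val.toRingHom
  let vM : FB (M * q) →+* LaurentSeries Qb := (modularFunctionFieldBar (M * q)).val.toRingHom
  have hvN : ∀ g, vN g = (g : LaurentSeries Qb) := fun g => rfl
  have hvM : ∀ g, vM g = (g : LaurentSeries Qb) := fun g => rfl
  have hα : ∀ g : FB M, algebraMap (FB M) (FB (M * q)) g = i1 M q g := fun g => rfl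
  let e : Option (Fin q) → (FB (M * q) →+* LaurentSeries Qb) := fun o =>
    o.elim ((qExpand Qb q).comp vM) fun i =>
      (twist (u ^ (i : ℕ))).comp (vM.comp (atkinW M q).toRingHom)
  have he₀ : ∀ y, e none y = qExpand Qb q (y : LaurentSeries Qb) := fun y => rfl
  have he₁ : ∀ i y, e (some i) y =
      twist (u ^ (i : ℕ)) ((atkinW M q y : FB (M * q)) : LaurentSeries Qb) := fun i y => rfl
  have he : ∀ o g, e o (algebraMap (FB M) (FB (M * q)) g) = ((qExpand Qb q).comp vN) g := by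
    rintro (_ | i) g
    · rw [he₀, hα, coe_heckeAlphaBar, RingHom.comp_apply, hvN]
    · rw [he₁, hα, atkinW_i1 C, coe_heckeBetaBar, RingHom.comp_apply, hvN,
        twist_qExpand _ _ (by rw [← pow_mul, mul_comm, pow_mul, hu.pow_eq_one, one_pow])]
  have hj : ((ModFun.jBar M : FB M) : LaurentSeries Qb) = jqModC Qb := by
    rw [jqModC_eq_coeffEmb]; rfl
  have hE0 : e none (i2 M q (ModFun.jBar M)) = qExpand Qb q (qExpand Qb q (jqModC Qb)) := by
    rw [he₀, coe_heckeBetaBar, hj]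
  have hE1 : ∀ i, e (some i) (i2 M q (ModFun.jBar M)) = twist (u ^ (i : ℕ)) (jqModC Qb) :=
    fun i => by rw [he₁, atkinW_i2 C, coe_heckeAlphaBar, hj]
  have hnd : ¬ (q : ℤ) ∣ -1 := fun h => C.prime.one_lt.ne' (Nat.eq_one_of_dvd_one
    (by exact_mod_cast (dvd_neg.mp h)))
  have hinj : Function.Injective e := by
    have hne : ∀ i, e none ≠ e (some i) := fun i h => by
      have h1 := congrArg (fun s : LaurentSeries Qb => s.coeff (-1))
        ((hE0.symm.trans (DFunLike.congr_fun h _)).trans (hE1 i))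
      simp only [coe_jqModC_neg_one, qExpand_coeff_of_not_dvd q _ hnd] at h1
      exact ((u ^ (i : ℕ)) ^ (-1 : ℤ)).ne_zero h1.symm
    rintro (_ | i) (_ | j) h
    · rfl
    · exact absurd h (hne j)
    · exact absurd h.symm (hne i)
    · have h1 := congrArg (fun s : LaurentSeries Qb => s.coeff (-1))
        (((hE1 i).symm.trans (DFunLike.congr_fun h _)).trans (hE1 j))
      simp only [coe_jqModC_neg_one] at h1
      have h2 : u ^ (i : ℕ) = u ^ (j : ℕ) := by simpa using Units.ext h1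
      rw [Fin.ext (hu.pow_inj i.2 j.2 h2)]
  have hcard : Fintype.card (Option (Fin q)) = Module.finrank (FB M) (FB (M * q)) := by
    rw [Fintype.card_option, Fintype.card_fin]
    exact (finrankAlong_alpha C.prime C.not_dvd).symm
  have hn := norm_eq_prod_homs ((qExpand Qb q).comp vN) e he hinj hcard x
  rw [RingHom.comp_apply, hvN] at hn
  refine hn.trans ?_
  rw [Fintype.prod_option]
  exact congrArg₂ (· * ·) (he₀ x) (Finset.prod_congr rfl fun i _ => he₁ i x)

theorem normB_eq (x : FB (M * q)) : normB M q x = normA M q (atkinW M q x) := by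
  let e : FB (M * q) ≃+* FB (M * q) :=
    { (atkinW M q).toRingHom with
      invFun := atkinW M q
      left_inv := atkinW_atkinW C
      right_inv := atkinW_atkinW C }
  exact @Algebra.norm_eq_of_equiv_equiv (FB M) (FB (M * q)) (FB M) (FB (M * q)) _ _ _ _
    (algebraAlong (i2 M q)) (algebraAlong (i1 M q)) (RingEquiv.refl _) e
    (RingHom.ext fun g => (atkinW_i2 C g).symm) x

/-- the restriction of the norm: `r₀ · φ(r₁)` -/
theorem norm_residue {gs : FS A M ≃+* FS A M} (hgs : ∀ z, Fr C (gs z) = z ^ q)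
    {x u₀ u₁ : FB (M * q)} {c₀ c₁ : Qb} {r₀ r₁ : FS A M}
    (h₀ : IsRed A false u₀ r₀) (h₁ : IsRed A true u₁ r₁) (hc₀ : c₀ ≠ 0) (hc₁ : c₁ ≠ 0)
    (hx₀ : x = algebraMap Qb (FB (M * q)) c₀ * u₀)
    (hx₁ : x = algebraMap Qb (FB (M * q)) c₁ * u₁) :
    ∃ w : FB M, w ∈ GR A M ∧ normA M q x = cB M (c₀ * c₁ ^ q) * w ∧
      red A M w = r₀ * gs r₁ := by
  classical
  haveI := Fact.mk C.prime
  haveI := charP_residue A C.prime C.lies
  haveI : NeZero (q : Qb) := ⟨Nat.cast_ne_zero.mpr C.prime.ne_zero⟩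
  obtain ⟨ζ, hζ⟩ := HasEnoughRootsOfUnity.exists_primitiveRoot Qb q
  have hζA : ζ ∈ A := mem_A_of_isIntegral A ⟨Polynomial.X ^ q - 1,
    Polynomial.monic_X_pow_sub_C 1 C.prime.ne_zero, by simp [hζ.pow_eq_one]⟩
  have hζ' : (⟨ζ, hζA⟩ : A) ^ q = 1 := Subtype.ext hζ.pow_eq_one
  set uA : Aˣ := Units.ofPowEqOne ⟨ζ, hζA⟩ q hζ' C.prime.ne_zero with huA
  have hu : IsPrimitiveRoot (Units.map (A.subtype : A →* Qb) uA) q :=
    IsPrimitiveRoot.coe_units_iff.mp (by simpa [huA] using hζ)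
  have hu1 : Units.map (residue A : A →* kA A) uA = 1 := by
    refine Units.ext ?_
    have h1 : (residue A ⟨ζ, hζA⟩ - 1) ^ q = 0 := by
      rw [sub_pow_char, ← map_pow, hζ', map_one, one_pow, sub_self]
    simpa [huA, sub_eq_zero] using eq_zero_of_pow_eq_zero h1
  set uQ : Qbˣ := Units.map (A.subtype : A →* Qb) uA with huQ
  obtain ⟨G, H, hH, hGH⟩ := mem_GS.mp h₀.1
  obtain ⟨G', H', hH', hGH'⟩ := mem_GS.mp h₁.1
  have hr₀ : dn A G / dn A H = (r₀ : LaurentSeries (kA A)) := by rw [← h₀.2, redS_eq hH hGH]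
  have hr₁ : dn A G' / dn A H' = (r₁ : LaurentSeries (kA A)) := by rw [← h₁.2, redS_eq hH' hGH']
  -- the product over the conjugates of an integral series
  have htwist : ∀ S : LaurentSeries A, ∃ P : LaurentSeries A,
      qExpand Qb q (up A P) = ∏ i : Fin q, twist (uQ ^ (i : ℕ)) (up A S) ∧
      qExpand (kA A) q (dn A P) = dn A S ^ q := by
    intro S
    set T : LaurentSeries A := ∏ i : Fin q, twist (uA ^ (i : ℕ)) S with hT
    have hupT : up A T = ∏ i : Fin q, twist (uQ ^ (i : ℕ)) (up A S) := by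
      rw [hT, map_prod]
      refine Finset.prod_congr rfl fun i _ => ?_
      rw [coeffMap_twist, map_pow, huQ]
    have hdnT : dn A T = dn A S ^ q := by
      rw [hT, map_prod, Finset.prod_congr rfl (g := fun _ : Fin q => dn A S) fun i _ => by
        rw [coeffMap_twist, map_pow, hu1, one_pow, twist_one_apply], Finset.prod_const,
        Finset.card_univ, Fintype.card_fin]
    have hrot : ∀ k : ℤ, ¬ (q : ℤ) ∣ k → T.coeff k = 0 := by
      intro k hk
      have h1 : twist uA T = T := by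
        rw [hT, map_prod]
        refine Fintype.prod_equiv (finRotate q) _ _ fun i => ?_
        ext n
        rw [twist_coeff, twist_coeff, twist_coeff, ← mul_assoc, ← Units.val_mul]
        congr 2
        rw [← mul_zpow]
        congr 1
        rw [← pow_succ']
        obtain ⟨p, hp⟩ : ∃ p, q = p + 1 := ⟨q - 1, by have := C.prime.pos; omega⟩
        subst hp
        rw [coe_finRotate]
        split_ifs with hl
        · rw [hl, Fin.val_last, pow_zero, huA, Units.pow_ofPowEqOne]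
        · rfl
      have h2 := congrArg (fun s : LaurentSeries A => s.coeff k) h1
      simp only [twist_coeff] at h2
      have h3 : ((uA ^ k : Aˣ) : A) ≠ 1 := by
        intro h
        apply hk
        have h4 : Units.map (A.subtype : A →* Qb) (uA ^ k) = 1 :=
          Units.ext (by
            show A.subtype ((uA ^ k : Aˣ) : A) = 1
            rw [h, map_one])
        rw [map_zpow] at h4
        exact (hu.zpow_eq_one_iff_dvd k).mp h4
      exact (mul_left_eq_self₀.mp h2).resolve_left h3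
    refine ⟨deflate q T, ?_, ?_⟩
    · rw [← coeffMap_qExpand, qExpand_deflate q T hrot, hupT]
    · rw [← coeffMap_qExpand, qExpand_deflate q T hrot, hdnT]
  obtain ⟨PG, hPG, hPG'⟩ := htwist G'
  obtain ⟨PH, hPH, hPH'⟩ := htwist H'
  have hkey : ((normA M q x : FB M) : LaurentSeries Qb) * up A (H * PH) =
      HahnSeries.single 0 (c₀ * c₁ ^ q) * up A (G * PG) := by
    refine qExpand_injective (R := Qb) (N := q) ?_
    have e0 : (x : LaurentSeries Qb) * up A H = HahnSeries.single 0 c₀ * up A G := by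
      rw [hx₀, MulMemClass.coe_mul, coe_cB, mul_assoc]
      exact congrArg _ hGH
    have e1 : ((atkinW M q x : FB (M * q)) : LaurentSeries Qb) * up A H' =
        HahnSeries.single 0 c₁ * up A G' := by
      rw [hx₁, map_mul, AlgHom.commutes, MulMemClass.coe_mul, coe_cB, mul_assoc]
      exact congrArg _ hGH'
    simp only [map_mul, qExpand_normA C hu, hPH, hPG]
    calc _ = qExpand Qb q ((x : LaurentSeries Qb) * up A H) *
          ∏ i : Fin q, twist (uQ ^ (i : ℕ))
            (((atkinW M q x : FB (M * q)) : LaurentSeries Qb) * up A H') := by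
          simp only [map_mul, Finset.prod_mul_distrib]; ring
      _ = _ := by
          rw [e0, e1]
          simp only [map_mul, Finset.prod_mul_distrib, twist_single_zero, qExpand_single, mul_zero,
            Finset.prod_const, Finset.card_univ, Fintype.card_fin]
          rw [← HahnSeries.C_apply, ← HahnSeries.C_apply, ← HahnSeries.C_apply, map_mul, map_pow]
          ring
  have hne : dn A (H * PH) ≠ 0 := by
    rw [map_mul]
    refine mul_ne_zero hH fun h0 => ?_
    rw [h0, map_zero] at hPH'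
    exact pow_ne_zero _ hH' hPH'.symm
  have hcne : c₀ * c₁ ^ q ≠ 0 := mul_ne_zero hc₀ (pow_ne_zero _ hc₁)
  set w : FB M := cB M (c₀ * c₁ ^ q)⁻¹ * normA M q x with hw
  have hwe : ((w : FB M) : LaurentSeries Qb) * up A (H * PH) = up A (G * PG) := by
    rw [hw, MulMemClass.coe_mul, coe_cB, mul_assoc, hkey, ← mul_assoc,
      HahnSeries.single_mul_single, add_zero, inv_mul_cancel₀ hcne, HahnSeries.single_zero_one,
      one_mul]
  refine ⟨w, ⟨_, _, hne, hwe⟩, ?_, Subtype.ext ?_⟩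
  · rw [hw, ← mul_assoc, ← map_mul, mul_inv_cancel₀ hcne, map_one, one_mul]
  · have C' : Ctx A M q := C
    rw [coe_red C' ⟨_, _, hne, hwe⟩, redS_eq hne hwe, MulMemClass.coe_mul]
    refine qExpand_injective (R := kA A) (N := q) ?_
    have hF : qExpand (kA A) q ((gs r₁ : FS A M) : LaurentSeries (kA A)) =
        (r₁ : LaurentSeries (kA A)) ^ q := by
      rw [← coe_Fr C, hgs, SubmonoidClass.coe_pow]
    rw [map_div₀, map_mul (dn A), map_mul (dn A), map_mul, map_mul, hPG', hPH', map_mul, hF,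
      ← hr₀, ← hr₁, map_div₀, div_pow, mul_div_mul_comm]

/-- a norm which is a constant times an `n`th power restricts to an `n`th power -/
theorem exists_root_of_norm {n : ℕ} (hn : n ≠ 0) {y w g : FB M} {c d : Qb} (hc : c ≠ 0)
    (hw : w ∈ GR A M) (hy : y = cB M c * w) (hg : g ≠ 0)
    (hyg : y = algebraMap Qb (FB M) d * g ^ n) : ∃ a : FS A M, red A M w = a ^ n := by
  obtain ⟨e, g₀, he, hg₀, rfl⟩ := exists_scale_UG C hg
  have h1 : w = cB M (c⁻¹ * d * e ^ n) * g₀ ^ n := by
    have : w = cB M c⁻¹ * y := by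
      rw [hy, ← mul_assoc, ← map_mul, inv_mul_cancel₀ hc, map_one, one_mul]
    rw [this, hyg, mul_pow]
    simp only [map_mul, map_pow]
    ring
  have hpn : UG A M (g₀ ^ n) := ⟨pow_mem hg₀.1 n, by
    rw [red_pow C hg₀.1]; exact pow_ne_zero _ hg₀.2⟩
  have hl : c⁻¹ * d * e ^ n ∈ A := mem_A_of_UG_mul C hpn (h1 ▸ hw)
  obtain ⟨μ, hμ⟩ := IsAlgClosed.exists_pow_nat_eq (residue A ⟨_, hl⟩) (Nat.pos_of_ne_zero hn)
  refine ⟨algebraMap (kA A) (FS A M) μ * red A M g₀, ?_⟩
  rw [h1, red_mul C (cB_mem hl) hpn.1, red_pow C hg₀.1, red_cB C ⟨_, hl⟩, mul_pow, ← map_pow, hμ]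

/-- classes killed by both pushforwards: `φ²(r) = r · hⁿ` -/
theorem norm_clause {gs : FS A M ≃+* FS A M} (hgs : ∀ z, Fr C (gs z) = z ^ q)
    (n : ℕ) (E : Divisor.degZero (K := Qb) (F := FB (M * q))) (f : FB (M * q)) (hn : n ≠ 0)
    (hE : KilledByPush M q (Pic0.mk E)) (hf : f ≠ 0)
    (hord : ∀ P : Place Qb (FB (M * q)),
      (n : ℤ) * (E : Divisor Qb (FB (M * q))) P = P.ord f)
    (b : Bool) (c : Qb) (hc : c ≠ 0)
    (hmem : algebraMap Qb (FB (M * q)) c * f ∈ GS M q A b)
    (hne : redM M q A b (algebraMap Qb (FB (M * q)) c * f) ≠ 0) :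
    ∃ h : FS A M, h ≠ 0 ∧ gs (gs (redM M q A b (algebraMap Qb (FB (M * q)) c * f)))
      = redM M q A b (algebraMap Qb (FB (M * q)) c * f) * h ^ n := by
  -- the two norms are constants times `n`th powers
  have hnorm : ∀ (φ : FB M →ₐ[Qb] FB (M * q)) (hφ : φ.toRingHom.IsIntegral),
      (Divisor.pushforwardAlong φ hφ (E : Divisor Qb (FB (M * q)))).IsPrincipal →
      ∃ (g : FB M) (d : Qb), g ≠ 0 ∧
        (letI := algebraAlong φ; Algebra.norm (FB M) f) = algebraMap Qb (FB M) d * g ^ n := by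
    intro φ hφ hp
    obtain ⟨g, hg, hgE⟩ := hp
    letI := algebraAlong φ
    haveI := isScalarTower_along φ
    haveI : Module.Finite (FB M) (FB (M * q)) := HeckeJ.finiteAlong φ
    have hN0 : Algebra.norm (FB M) f ≠ 0 := Algebra.norm_ne_zero_iff.mpr hf
    have h1 := HeckeJ.normFormulaAlong φ (HeckeJ.finiteAlong φ) f hf
      (n • (E : Divisor Qb (FB (M * q)))) (fun w => by
        rw [← hord w, Finsupp.smul_apply, nsmul_eq_mul])
    obtain ⟨d, hd⟩ := SS2.exists_const_of_ord (N := M) (h := Algebra.norm (FB M) f * (g ^ n)⁻¹)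
      fun v => by
        rw [v.ord_mul hN0 (inv_ne_zero (pow_ne_zero _ hg)), v.ord_inv, RR.ord_pow, ← h1 v, ← hgE v]
        show Divisor.pushforwardAlong φ hφ (n • (E : Divisor Qb (FB (M * q)))) v + _ = 0
        rw [map_nsmul, Finsupp.smul_apply, nsmul_eq_mul, add_neg_cancel]
    exact ⟨g, d, hg, by rw [← hd, inv_mul_cancel_right₀ (pow_ne_zero _ hg)]⟩
  obtain ⟨hpa, hpb⟩ := hE (HeckeJ.isIntegralAlong _) (HeckeJ.isIntegralAlong _) E rfl
  obtain ⟨g, d, hg, hga⟩ := hnorm _ _ hpa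
  obtain ⟨g', d', hg', hgb⟩ := hnorm _ _ hpb
  change normA M q f = _ at hga
  change normB M q f = _ at hgb
  -- units on the two sides
  obtain ⟨c₂, u₂, r₂, hc₂, hr₂, hu₂, hf₂⟩ := scaled C (!b) hf
  have hf₁ : f = algebraMap Qb (FB (M * q)) c⁻¹ * (algebraMap Qb (FB (M * q)) c * f) := by
    rw [← mul_assoc, ← map_mul, inv_mul_cancel₀ hc, map_one, one_mul]
  have hu₁ := isRed_redM C hmem
  set r := redM M q A b (algebraMap Qb (FB (M * q)) c * f) with hr
  have key : ∀ (d₀ d₁ : Qb) (u₀ u₁ : FB (M * q)) (s₀ s₁ : FS A M), d₀ ≠ 0 → d₁ ≠ 0 →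
      s₀ ≠ 0 → s₁ ≠ 0 → IsRed A false u₀ s₀ → IsRed A true u₁ s₁ →
      f = algebraMap Qb (FB (M * q)) d₀ * u₀ → f = algebraMap Qb (FB (M * q)) d₁ * u₁ →
      ∃ a₀ a₁ : FS A M, s₀ * gs s₁ = a₀ ^ n ∧ s₁ * gs s₀ = a₁ ^ n := by
    intro d₀ d₁ u₀ u₁ s₀ s₁ hd₀ hd₁ hs₀ hs₁ h₀ h₁ he₀ he₁
    obtain ⟨w, hw, hwn, hwr⟩ := norm_residue C hgs h₀ h₁ hd₀ hd₁ he₀ he₁
    obtain ⟨a₀, ha₀⟩ := exists_root_of_norm C hn (mul_ne_zero hd₀ (pow_ne_zero _ hd₁)) hw
      hwn hg hga
    obtain ⟨w', hw', hwn', hwr'⟩ := norm_residue C hgs (x := atkinW M q f)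
      (u₀ := atkinW M q u₁) (u₁ := atkinW M q u₀) (h₁.transport (b' := false) C)
      (h₀.transport (b' := true) C) hd₁ hd₀ (by rw [he₁, map_mul, AlgHom.commutes])
      (by rw [he₀, map_mul, AlgHom.commutes])
    rw [← normB_eq C] at hwn'
    obtain ⟨a₁, ha₁⟩ := exists_root_of_norm C hn (mul_ne_zero hd₁ (pow_ne_zero _ hd₀)) hw'
      hwn' hg' hgb
    exact ⟨a₀, a₁, hwr.symm.trans ha₀, hwr'.symm.trans ha₁⟩
  have fin : ∀ (x y a a' : FS A M), x ≠ 0 → y ≠ 0 → x * gs y = a ^ n → y * gs x = a' ^ n →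
      ∃ h : FS A M, h ≠ 0 ∧ gs (gs x) = x * h ^ n := by
    intro x y a a' hx hy ha ha'
    have hgy : gs y ≠ 0 := fun h0 => hy (gs.injective (h0.trans (map_zero gs).symm))
    have hgx : gs x ≠ 0 := fun h0 => hx (gs.injective (h0.trans (map_zero gs).symm))
    have hane : a ≠ 0 := fun h0 => mul_ne_zero hx hgy (by rw [ha, h0, zero_pow hn])
    have ha'ne : a' ≠ 0 := fun h0 => mul_ne_zero hy hgx (by rw [ha', h0, zero_pow hn])
    refine ⟨gs a' / a, div_ne_zero (fun h0 => ha'ne (gs.injective (h0.trans (map_zero gs).symm))) hane,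
      mul_left_cancel₀ hgy ?_⟩
    rw [← map_mul, ha', map_pow, div_pow, mul_left_comm, ← mul_assoc, ha,
      mul_div_cancel₀ _ (pow_ne_zero _ hane)]
  cases b
  · obtain ⟨a₀, a₁, e₀, e₁⟩ := key _ _ _ _ r r₂ (inv_ne_zero hc) hc₂ hne hr₂ hu₁ hu₂ hf₁ hf₂
    exact fin r r₂ a₀ a₁ hne hr₂ e₀ e₁
  · obtain ⟨a₀, a₁, e₀, e₁⟩ := key _ _ _ _ r₂ r hc₂ (inv_ne_zero hc) hr₂ hne hu₂ hu₁ hf₂ hf₁
    exact fin r r₂ a₁ a₀ hne hr₂ e₁ e₀

end FLTAgent.SS
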