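import Fermat.Agent.SS.FibreData
import Fermat.Agent.SS.FibreNorm
import Fermat.Agent.SS.FibreGalois

/-!
What is used of the semistable fibre of `X₀(Mq)` at `q ∤ M`.
-/

set_option autoImplicit false
set_option linter.unusedSectionVars false
set_option synthInstance.maxHeartbeats 200000
set_option linter.style.haveILetI false

noncomputable section

open ModularCurve AlgebraicCurve IsLocalRing
open FLTAgent.Reduction

namespace FLTAgent.SS

theorem fibreInputs {M q : ℕ} [NeZero M] [NeZero q] {A : ValuationSubring Qb} (C : Ctx A M q) :
    FibreInputs M q A := by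
  refine ⟨fibreData C, fun σ hσ => compat_inertia C σ hσ, fun σ hσ => ?_⟩
  obtain ⟨gs, hg, hgs⟩ := compat_frobenius C hσ
  exact ⟨gs, hg, fun b s z c hc => val_gs_gs C hgs b s z c hc, norm_clause C hgs⟩

end FLTAgent.SS
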