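import Fermat.Agent.Attach.Dichotomy

/-!
The dichotomy of Area Attach, also exporting the characteristic polynomial at elements which satisfy
the quartic relation of a toric torus on the eigen part.
-/

set_option autoImplicit false
set_option linter.style.haveILetI false
set_option linter.unusedSectionVars false

noncomputable section

namespace FLTAgent.SS

open IsLocalRing Polynomial
open scoped Matrix
open FLTAgent.Attach

local notation "GalQ" => AlgebraicClosure ℚ ≃ₐ[ℚ] AlgebraicClosure ℚ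

/-- `(x - q²)(x - 1)` -/
def quartic {R : Type} [CommRing R] {ι : Type} [Fintype ι] [DecidableEq ι] (q : ℕ)
    (x : Matrix ι ι R) : Matrix ι ι R :=
  x * x - ((q : R) ^ 2 + 1) • x + ((q : R) ^ 2) • 1

variable {O : Type} [CommRing O] [IsDomain O]

theorem trace_of_roots {q : ℕ} {a b : O} (hab : a * b = 1)
    (h : (a * a - (q : O) ^ 2) * (a * a - 1) = 0) :
    a + q * b = (q : O) + 1 ∨ a + q * b = -1 + -(q : O) := by
  have ha : a ≠ 0 := left_ne_zero_of_mul_eq_one hab
  rcases mul_eq_zero.1 h with h1 | h1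
  · rcases mul_eq_zero.1 (show (a - q) * (a + q) = 0 by linear_combination h1) with h2 | h2
    · left; rw [sub_eq_zero] at h2; subst h2; linear_combination hab
    · right; rw [add_eq_zero_iff_eq_neg] at h2; subst h2; linear_combination -hab
  · rcases mul_eq_zero.1 (show (a - 1) * (a + 1) = 0 by linear_combination h1) with h2 | h2
    · left; rw [sub_eq_zero] at h2; subst h2; rw [one_mul] at hab; rw [hab]; ring
    · right; rw [add_eq_zero_iff_eq_neg] at h2; subst h2; linear_combination (-(q : O)) * hab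

theorem trace_of_quartic {q : ℕ} {A : Deform.Mt O} (h0 : (q : O) ≠ 0) (h : quartic q (A * A) = 0)
    (hd : A.det = (q : O)) : A.trace = (q : O) + 1 ∨ A.trace = -((q : O) + 1) := by
  have hprod : (A - (q : O) • 1) * (A + (q : O) • 1) * ((A - 1) * (A + 1)) = 0 := by
    rw [← h, quartic]
    simp only [sub_mul, mul_add, add_mul, mul_sub, smul_mul_assoc, mul_smul_comm, mul_one, one_mul,
      smul_sub, smul_add, smul_smul, add_smul, one_smul, sq, ← mul_assoc]
    abel
  have hdet := congrArg Matrix.det hprod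
  simp only [Matrix.det_mul, Matrix.det_zero, mul_eq_zero] at hdet
  have key : ∀ a : O, (A + a • 1).det = a * a + A.trace * a + (q : O) := fun a => by
    rw [← hd]
    simp [Matrix.det_fin_two, Matrix.trace, Fin.sum_univ_two]
    ring
  rcases hdet with (h1 | h1) | (h1 | h1)
  · rw [sub_eq_add_neg, ← neg_smul, key] at h1
    left; exact mul_left_cancel₀ h0 (by linear_combination -h1)
  · rw [key] at h1
    right; exact mul_left_cancel₀ h0 (by linear_combination h1)
  · rw [show A - 1 = A + (-1 : O) • 1 by rw [neg_smul, one_smul, sub_eq_add_neg], key] at h1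
    left; linear_combination -h1
  · rw [show A + 1 = A + (1 : O) • 1 by rw [one_smul], key] at h1
    right; linear_combination h1

variable [IsDiscreteValuationRing O] [IsAdicComplete (maximalIdeal O) O] [CharZero O]
  {p : ℕ} (hp : p.Prime) (hpO : (p : O) ∈ maximalIdeal O) {N : ℕ} [NeZero N]

open scoped Classical in
include hp hpO in
theorem exists_eigenRep_special (D : HeckeLattice N) (G : GaloisInputs N) (f : TFull N →+* O) :
    ∃ r : GalQ → Deform.Mt O, r 1 = 1 ∧ (∀ σ τ, r (σ * τ) = r σ * r τ) ∧ Deform.MatCont r ∧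
      (∀ (ℓ : ℕ) (hℓ : ℓ.Prime) (hℓN : ¬ ℓ ∣ N), ℓ ≠ p →
        ∀ A : ValuationSubring (AlgebraicClosure ℚ), A.LiesOverPrime ℓ →
          ∀ σ : GalQ, A.IsFrobeniusAt σ ℓ →
            r σ * r σ + (ℓ : Deform.Mt O) =
              f (CuspForm.heckeAlgebra.T hℓ hℓN (Set.notMem_empty _)) • r σ) ∧
      (∀ q : ℕ, q.Prime → ¬ q ∣ N → q ≠ p →
        ∀ A : ValuationSubring (AlgebraicClosure ℚ), A.LiesOverPrime q →
          ∀ σ ∈ A.inertiaSubgroupIn ℚ, r σ = 1) ∧
      (∀ (σ : GalQ) (qq : ℕ),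
        (∃ t : TFull N, f t ≠ 0 ∧ quartic qq (D.galMat hp hpO (σ * σ)) * D.mat (D.act t) = 0) →
          quartic qq (r σ * r σ) = 0) := by
  obtain ⟨W, P, hPW, hE⟩ :
      ∃ (W : Matrix D.Idx (Fin 2) O) (P : Matrix (Fin 2) D.Idx O),
        P * W = 1 ∧ ∀ x, x ∈ D.eigSub f ↔ W *ᵥ (P *ᵥ x) = x := by
    have h := exists_frame (D.eigSub f) (D.eigSub_saturated f)
    rwa [D.finrank_eigSub f] at h
  have hW : ∀ y, W *ᵥ y ∈ D.eigSub f := fun y => (hE _).2 (by
    rw [Matrix.mulVec_mulVec y P W, hPW, Matrix.one_mulVec])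
  have hTW : ∀ t : TFull N, (D.mat (D.act t) : Matrix D.Idx D.Idx O) * W = f t • W := fun t =>
    Matrix.ext_of_mulVec_single fun j => by
      rw [← Matrix.mulVec_mulVec, hW (Pi.single j 1) t, Matrix.smul_mulVec]
  set M := D.galMat hp hpO with hM
  have hMW : ∀ σ, W * (P * (M σ * W)) = M σ * W := by
    intro σ
    refine Matrix.ext_of_mulVec_single fun j => ?_
    rw [← Matrix.mulVec_mulVec, ← Matrix.mulVec_mulVec (Pi.single j 1) P, (hE _).1]
    · intro t
      rw [Matrix.mulVec_mulVec, ← Matrix.mul_assoc, ← D.galMat_comm hp hpO G σ (D.act_mem t),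
        Matrix.mul_assoc, hTW, Matrix.mul_smul, Matrix.smul_mulVec]
  refine ⟨fun σ => P * (M σ * W), ?_, fun σ τ => ?_, fun n => ?_, ?_, ?_, ?_⟩
  · dsimp only
    rw [hM, D.galMat_one, Matrix.one_mul, hPW]
  · dsimp only
    rw [hM, D.galMat_mul, Matrix.mul_assoc (D.galMat hp hpO σ)]
    nth_rw 1 [← hMW τ]
    simp only [Matrix.mul_assoc]
    rfl
  · obtain ⟨L, hL, hlev⟩ := D.galMat_level hp hpO G n
    refine ⟨L, hL, fun σ hσ i j => ?_⟩
    have h : P * (M σ * W) - 1 = P * ((M σ - 1) * W) := by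
      rw [Matrix.sub_mul, Matrix.one_mul, Matrix.mul_sub, hPW]
    rw [← Matrix.sub_apply, h]
    simp only [Matrix.mul_apply]
    exact Ideal.sum_mem _ fun a _ => Ideal.mul_mem_left _ _
      (Ideal.sum_mem _ fun c _ => Ideal.mul_mem_right _ _ (hlev σ hσ a c))
  · intro ℓ hℓ hℓN hℓp A hA σ hσ
    have hfr := D.galMat_frobenius hp hpO G hℓ hℓN hℓp hA hσ
    rw [← D.act_T hℓ hℓN] at hfr
    rw [Matrix.mul_assoc P (M σ * W), Matrix.mul_assoc (M σ) W, hMW σ, ← Matrix.mul_assoc (M σ)]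
    have h : (M σ * M σ + (ℓ : Matrix D.Idx D.Idx O)) * W =
        f (CuspForm.heckeAlgebra.T hℓ hℓN (Set.notMem_empty _)) • (M σ * W) := by
      rw [hM, hfr, ← D.galMat_comm hp hpO G σ (D.act_mem _), Matrix.mul_assoc, hTW, Matrix.mul_smul]
    rw [← Matrix.mul_smul, ← h, Matrix.add_mul, Matrix.mul_add]
    congr 1
    rw [← nsmul_one ℓ, ← nsmul_one ℓ, Matrix.smul_mul, Matrix.one_mul, Matrix.mul_smul, hPW]
  · intro q hq hqN hqp A hA σ hσ
    dsimp only
    rw [hM, D.galMat_inertia hp hpO G hq hqN hqp hA hσ, Matrix.one_mul, hPW]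
  · rintro σ qq ⟨t, ht, he⟩
    dsimp only
    set E2 := M (σ * σ) with hE2
    have hr2 : P * (M σ * W) * (P * (M σ * W)) = P * (E2 * W) := by
      rw [hE2, hM, D.galMat_mul, Matrix.mul_assoc (D.galMat hp hpO σ)]
      nth_rw 3 [← hMW σ]
      simp only [Matrix.mul_assoc]
      rfl
    have hr4 : P * (E2 * W) * (P * (E2 * W)) = P * (E2 * E2 * W) := by
      rw [Matrix.mul_assoc E2 E2 W]
      nth_rw 3 [← hMW (σ * σ)]
      simp only [Matrix.mul_assoc]
      rfl
    have hkill : quartic qq E2 * W = 0 := by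
      have h := congrArg (· * W) he
      simp only [Matrix.mul_assoc, hTW, Matrix.mul_smul, Matrix.zero_mul] at h
      exact (smul_eq_zero.1 h).resolve_left ht
    rw [hr2]
    have h := congrArg (P * ·) hkill
    simp only [quartic, Matrix.add_mul, Matrix.sub_mul, Matrix.smul_mul, Matrix.one_mul,
      Matrix.mul_add, Matrix.mul_sub, Matrix.mul_smul, Matrix.mul_zero, hPW] at h
    simp only [quartic, hr4]
    exact h


include hp hpO in
/-- The representation attached to a character of the full Hecke algebra, with its special elements. -/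
theorem exists_galoisRepAdic_special (D : HeckeLattice N) (G : GaloisInputs N) (f : TFull N →+* O) :
    ∃ ρ : GaloisRepAdic O,
      (∀ (ℓ : ℕ) (hℓ : ℓ.Prime) (hℓN : ¬ ℓ ∣ N), ℓ ≠ p →
        ∀ A : ValuationSubring (AlgebraicClosure ℚ), A.LiesOverPrime ℓ →
          ∀ σ : GalQ, A.IsFrobeniusAt σ ℓ →
            LinearMap.charpoly (ρ.ρ σ) =
              X ^ 2 - C (f (CuspForm.heckeAlgebra.T hℓ hℓN (Set.notMem_empty _))) * X + C (ℓ : O)) ∧
      (∀ q : ℕ, q.Prime → ¬ q ∣ N → q ≠ p → ρ.IsUnramifiedAt q) ∧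
      (∀ (σ : GalQ) (qq : ℕ), cycR hp hpO σ = (qq : O) →
        (∃ t : TFull N, f t ≠ 0 ∧ quartic qq (D.galMat hp hpO (σ * σ)) * D.mat (D.act t) = 0) →
        LinearMap.charpoly (ρ.ρ σ) = X ^ 2 - C ((qq : O) + 1) * X + C (qq : O) ∨
        LinearMap.charpoly (ρ.ρ σ) = X ^ 2 + C ((qq : O) + 1) * X + C (qq : O)) := by
  classical
  obtain ⟨r, h1, hmul, hcont, hfr, hin, hsp⟩ := exists_eigenRep_special hp hpO D G f
  have hnat : ∀ ℓ : ℕ, (ℓ : Deform.Mt O) = (ℓ : O) • 1 := fun ℓ => by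
    rw [← nsmul_one ℓ, Nat.cast_smul_eq_nsmul]
  suffices H : ∃ r' : GalQ → Deform.Mt O, r' 1 = 1 ∧ (∀ σ τ, r' (σ * τ) = r' σ * r' τ) ∧
      Deform.MatCont r' ∧
      (∀ (ℓ : ℕ) (hℓ : ℓ.Prime) (hℓN : ¬ ℓ ∣ N), ℓ ≠ p →
        ∀ A : ValuationSubring (AlgebraicClosure ℚ), A.LiesOverPrime ℓ →
          ∀ σ : GalQ, A.IsFrobeniusAt σ ℓ →
            (r' σ).trace = f (CuspForm.heckeAlgebra.T hℓ hℓN (Set.notMem_empty _)) ∧
              (r' σ).det = (ℓ : O)) ∧
      (∀ q : ℕ, q.Prime → ¬ q ∣ N → q ≠ p →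
        ∀ A : ValuationSubring (AlgebraicClosure ℚ), A.LiesOverPrime q →
          ∀ σ ∈ A.inertiaSubgroupIn ℚ, r' σ = 1) ∧
      (∀ (σ : GalQ) (qq : ℕ), cycR hp hpO σ = (qq : O) →
        (∃ t : TFull N, f t ≠ 0 ∧ quartic qq (D.galMat hp hpO (σ * σ)) * D.mat (D.act t) = 0) →
        ((r' σ).trace = (qq : O) + 1 ∨ (r' σ).trace = -((qq : O) + 1)) ∧ (r' σ).det = (qq : O)) by
    obtain ⟨r', e1, e2, e3, e4, e5, e6⟩ := H
    refine ⟨Deform.ofMat r' e1 e2 e3, fun ℓ hℓ hℓN hℓp A hA σ hσ => ?_,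
      fun q hq hqN hqp A hA σ hσ => ?_, fun σ qq hcyc hsig => ?_⟩
    · obtain ⟨b, hb⟩ := Deform.repMat_ofMat r' e1 e2 e3
      rw [← LinearMap.charpoly_toMatrix (f := (Deform.ofMat r' e1 e2 e3).ρ σ) b, hb,
        Matrix.charpoly_fin_two, (e4 ℓ hℓ hℓN hℓp A hA σ hσ).1, (e4 ℓ hℓ hℓN hℓp A hA σ hσ).2]
    · obtain ⟨b, hb⟩ := Deform.repMat_ofMat r' e1 e2 e3
      refine (LinearMap.toMatrix b b).injective ?_
      rw [hb, e5 q hq hqN hqp A hA σ hσ, LinearMap.toMatrix_one]
    · obtain ⟨b, hb⟩ := Deform.repMat_ofMat r' e1 e2 e3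
      rw [← LinearMap.charpoly_toMatrix (f := (Deform.ofMat r' e1 e2 e3).ρ σ) b, hb,
        Matrix.charpoly_fin_two]
      obtain ⟨ht | ht, hd⟩ := e6 σ qq hcyc hsig
      · left; rw [ht, hd]
      · right; rw [ht, hd, map_neg]; ring
  by_cases hdet : ∀ σ, (r σ).det = cycR hp hpO σ
  · refine ⟨r, h1, hmul, hcont, fun ℓ hℓ hℓN hℓp A hA σ hσ => ?_, hin, fun σ qq hcyc hsig => ?_⟩
    swap
    · have hd : (r σ).det = (qq : O) := by rw [hdet, hcyc]
      exact ⟨trace_of_quartic (hcyc ▸ (isUnit_cycR hp hpO σ).ne_zero) (hsp σ qq hsig) hd, hd⟩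
    have hd : (r σ).det = (ℓ : O) := by rw [hdet, cycR_frobenius hp hpO hℓ hℓp hA hσ]
    refine ⟨?_, hd⟩
    have h := hfr ℓ hℓ hℓN hℓp A hA σ hσ
    rw [hnat, sq_fin_two, hd, sub_add_cancel] at h
    by_contra hne
    have h0 : r σ = 0 := smul_right_injective _ (sub_ne_zero.2 hne)
      (show _ • r σ = _ • (0 : Deform.Mt O) by rw [smul_zero, sub_smul, h, sub_self])
    rw [h0, Matrix.det_zero] at hd
    exact hℓ.ne_zero (Nat.cast_eq_zero.1 hd.symm)
  · push Not at hdet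
    obtain ⟨g₀, hg₀⟩ := hdet
    have hkey := det_sub_mul_disc hp hpO (insert p N.primeFactors) r h1 hmul hcont
      (Finset.mem_insert_self _ _) (fun ℓ hℓ hℓS A hA σ hσ => by
        rw [Finset.mem_insert, not_or] at hℓS
        have hℓN : ¬ ℓ ∣ N := fun h => hℓS.2 (Nat.mem_primeFactors.2 ⟨hℓ, h, NeZero.ne N⟩)
        exact ⟨_, hnat ℓ ▸ hfr ℓ hℓ hℓN hℓS.1 A hA σ hσ⟩)
    obtain ⟨v, hv, hvσ⟩ := exists_common_eigenvector hp hpO r h1 hmul hkey g₀ hg₀
    obtain ⟨w, i, hwi, hw⟩ := exists_eigen_character r hv hvσ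
    let ψ : GalQ → O := fun σ => (r σ *ᵥ w) i
    have hψ1 : ψ 1 = 1 := by simp only [ψ, h1, Matrix.one_mulVec, hwi]
    have hψmul : ∀ σ τ, ψ (σ * τ) = ψ σ * ψ τ := fun σ τ => by
      change (r (σ * τ) *ᵥ w) i = (r σ *ᵥ w) i * (r τ *ᵥ w) i
      rw [hmul, ← Matrix.mulVec_mulVec]
      conv_lhs => rw [hw τ]
      rw [Matrix.mulVec_smul, Pi.smul_apply, smul_eq_mul, mul_comm]
    have hψinv : ∀ σ, ψ σ * ψ σ⁻¹ = 1 := fun σ => by rw [← hψmul, mul_inv_cancel, hψ1]
    have hψcont : ∀ n (σ : GalQ), (modPow n).mapMatrix (r σ) = 1 → modPow n (ψ σ) = 1 := by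
      intro n σ h
      have e := RingHom.map_mulVec (modPow (O := O) n) (r σ) w i
      rw [show (r σ).map (modPow (O := O) n) = 1 from h, Matrix.one_mulVec] at e
      rw [e, Function.comp_apply, hwi, map_one]
    refine ⟨fun σ => Matrix.diagonal ![ψ σ, cycR hp hpO σ * ψ σ⁻¹], ?_, fun σ τ => ?_, fun n => ?_,
      fun ℓ hℓ hℓN hℓp A hA σ hσ => ?_, fun q hq hqN hqp A hA σ hσ => ?_,
      fun σ qq hcyc hsig => ?_⟩
    · dsimp only
      rw [← Matrix.diagonal_one]
      congr 1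
      funext j
      fin_cases j <;> simp [hψ1, cycR_one]
    · dsimp only
      rw [Matrix.diagonal_mul_diagonal]
      congr 1
      funext j
      fin_cases j <;> simp [hψmul, cycR_mul]
      ring
    · obtain ⟨L1, hL1, hr⟩ := hcont n
      obtain ⟨L2, hL2, hcy⟩ := cycR_level hp hpO n
      haveI := hL1; haveI := hL2
      refine ⟨L1 ⊔ L2, inferInstance, fun σ hσ a b => ?_⟩
      have hq1 := hψcont n σ (map_eq_one_of_cont (hr σ fun y hy => hσ y (le_sup_left (a := L1) hy)))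
      have hq2 := hψcont n σ⁻¹ (map_eq_one_of_cont (hr σ⁻¹ fun y hy => by
        conv_lhs => rw [← hσ y (le_sup_left (a := L1) hy)]
        exact σ.symm_apply_apply y))
      have hq3 : modPow n (cycR hp hpO σ) = 1 := by
        rw [← map_one (modPow (O := O) n)]
        exact (Ideal.Quotient.mk_eq_mk_iff_sub_mem _ _).2
          (hcy σ fun y hy => hσ y (le_sup_right (a := L1) hy))
      rw [← Ideal.Quotient.eq_zero_iff_mem, map_sub]
      fin_cases a <;> fin_cases b <;> simp [hq1, hq2, hq3]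
    · have h := congrArg (· *ᵥ w) (hfr ℓ hℓ hℓN hℓp A hA σ hσ)
      have hψσ : r σ *ᵥ w = ψ σ • w := hw σ
      simp only [hnat, Matrix.add_mulVec, ← Matrix.mulVec_mulVec, hψσ, Matrix.mulVec_smul,
        Matrix.smul_mulVec, Matrix.one_mulVec, smul_smul] at h
      have hi := congrFun h i
      simp only [Pi.add_apply, Pi.smul_apply, smul_eq_mul, hwi, mul_one] at hi
      constructor
      · simp [Matrix.trace, Fin.sum_univ_two, cycR_frobenius hp hpO hℓ hℓp hA hσ]
        linear_combination ψ σ⁻¹ * hi + (f (CuspForm.heckeAlgebra.T hℓ hℓN (Set.notMem_empty _)) - ψ σ) * hψinv σ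
      · simp [Matrix.det_fin_two, cycR_frobenius hp hpO hℓ hℓp hA hσ]
        linear_combination (ℓ : O) * hψinv σ
    · dsimp only
      have hr1 := hin q hq hqN hqp A hA σ hσ
      have hψσ : ψ σ = 1 := by simp only [ψ, hr1, Matrix.one_mulVec, hwi]
      have hψσ' : ψ σ⁻¹ = 1 := by
        have h := hψinv σ
        rwa [hψσ, one_mul] at h
      rw [← Matrix.diagonal_one]
      congr 1
      funext j
      fin_cases j <;> simp [hψσ, hψσ', cycR_inertia hp hpO hq hqp hA hσ]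
    · have hψσ : r σ *ᵥ w = ψ σ • w := hw σ
      have h4 := congrArg (fun m => (m *ᵥ w) i) (hsp σ qq hsig)
      simp only [quartic, Matrix.sub_mulVec, Matrix.add_mulVec, Matrix.smul_mulVec,
        ← Matrix.mulVec_mulVec, hψσ, Matrix.mulVec_smul, Matrix.one_mulVec, Matrix.zero_mulVec,
        Pi.add_apply, Pi.sub_apply, Pi.smul_apply, smul_eq_mul, hwi, Pi.zero_apply, mul_one,
        smul_smul] at h4
      refine ⟨?_, ?_⟩
      · simp [Matrix.trace, Fin.sum_univ_two, hcyc]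
        exact trace_of_roots (hψinv σ) (by linear_combination h4)
      · simp [Matrix.det_fin_two, hcyc]
        linear_combination (qq : O) * hψinv σ

end FLTAgent.SS

end
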