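import Fermat.Agent.SS.Lower
import Fermat.Agent.SS.Special
import Fermat.Agent.Attach.Core

/-!
The representation of a newform at a prime dividing the level exactly once: Frobenius elements have
characteristic polynomial `(X ∓ 1)(X ∓ q)`.
-/

set_option autoImplicit false
set_option linter.unusedSectionVars false
set_option linter.style.haveILetI false

noncomputable section

open IsLocalRing Polynomial ModularCurve
open ModularFormClass
open FLTAgent.Attach (GaloisInputs HeckeLattice TFull S2)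

namespace FLTAgent.SS

local notation "GalQ" => AlgebraicClosure ℚ ≃ₐ[ℚ] AlgebraicClosure ℚ

/-- the quartic relation on the Tate module -/
theorem quartic_galMat {M q : ℕ} [NeZero M] [NeZero q] (hq : q.Prime) {p : ℕ} (hp : p.Prime)
    (hqp : q ≠ p) {O : Type} [CommRing O] [IsLocalRing O] [IsAdicComplete (maximalIdeal O) O]
    (hpO : (p : O) ∈ maximalIdeal O) {A : ValuationSubring (AlgebraicClosure ℚ)}
    (hA : A.LiesOverPrime q) (hF : FibreInputs M q A) (D : HeckeLattice (M * q))
    (D0 : HeckeLattice M) (G : GaloisInputs (M * q)) (G0 : GaloisInputs M)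
    {P : MvPolynomial (GoodPrime M q p) ℤ} (hP : evalT M q p M (dvd_mul_right M q) P = 0)
    {σ : GalQ} (hσ : A.IsFrobeniusAt σ q) :
    quartic q (D.galMat hp hpO (σ * σ)) * D.mat (D.act (evalT M q p (M * q) dvd_rfl P)) = 0 := by
  classical
  set t := D.act (evalT M q p (M * q) dvd_rfl P) with ht
  refine HeckeLattice.eq_of_congrMod fun k => ?_
  set F := D.liftP hp k (σ * σ) with hF'
  have h0 : D.CongrMod k (D.galMat hp hpO (σ * σ)) (D.mat F) :=
    fun i j => D.galMat_spec hp hpO (σ * σ) k i j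
  have hconst : ∀ X : Matrix D.Idx D.Idx O, D.CongrMod k X X := fun X i j => by simp
  have hq2 : ∀ a : ℕ, ∀ X : Matrix D.Idx D.Idx O, (a : O) • X = (a : Matrix D.Idx D.Idx O) * X :=
    fun a X => by rw [Nat.cast_smul_eq_nsmul, nsmul_eq_mul]
  have hquart : ∀ X : Matrix D.Idx D.Idx O, quartic q X =
      X * X + (-((q ^ 2 + 1 : ℕ) : Matrix D.Idx D.Idx O)) * X + ((q ^ 2 : ℕ) : Matrix D.Idx D.Idx O) := by
    intro X
    rw [quartic, show ((q : O) ^ 2 + 1) = ((q ^ 2 + 1 : ℕ) : O) by push_cast; ring,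
      show ((q : O) ^ 2) = ((q ^ 2 : ℕ) : O) by push_cast; ring, hq2, hq2, mul_one, neg_mul,
      ← sub_eq_add_neg]
  rw [hquart]
  have h1 := (((h0.mul h0).add ((hconst (-((q ^ 2 + 1 : ℕ) : Matrix D.Idx D.Idx O))).mul h0)).add
    (hconst ((q ^ 2 : ℕ) : Matrix D.Idx D.Idx O))).mul (hconst (D.mat t))
  set U : Module.End ℤ D.Lam :=
    (F * F + (-((q ^ 2 + 1 : ℕ) : Module.End ℤ D.Lam)) * F + ((q ^ 2 : ℕ) : Module.End ℤ D.Lam)) * t
    with hU
  have h2 : (D.mat F * D.mat F + (-((q ^ 2 + 1 : ℕ) : Matrix D.Idx D.Idx O)) * D.mat F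
      + ((q ^ 2 : ℕ) : Matrix D.Idx D.Idx O)) * D.mat t = D.mat U := by
    simp only [hU, map_mul, map_add, map_neg, map_natCast]
  rw [h2] at h1
  have hn : 0 < p ^ k := pow_pos hp.pos k
  have hqn : ¬ q ∣ p ^ k := fun h => hqp ((Nat.prime_dvd_prime_iff_eq hq hp).1 (hq.dvd_of_dvd_pow h))
  have hzero : ∀ v, D.tors (p ^ k) (U v) = D.tors (p ^ k) ((0 : Module.End ℤ D.Lam) v) := by
    intro v
    have hy := frobenius_quartic hq hA hF hσ hqn (D.tors (p ^ k) (t v)) (D.nsmul_tors hn _)
      (killedByPush_act hp D D0 G G0 P hP k v)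
    set y := D.tors (p ^ k) (t v)
    rw [LinearMap.zero_apply, map_zero, hU]
    simp only [Module.End.mul_apply, LinearMap.add_apply, LinearMap.neg_apply,
      Module.End.natCast_apply, map_add, map_neg, map_nsmul, hF', D.tors_liftP hp]
    rw [← mul_smul, ← mul_smul, smul_sub (A := JZero (M * q)), nsmul_sub] at hy
    rw [add_smul, one_smul]
    rw [← sub_eq_zero] at hy
    rw [← hy]
    abel
  intro i j
  have h3 := D.mat_sub_mem (R := O) hpO hn (u := U) (w := 0) hzero i j
  rw [map_zero] at h3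
  convert add_mem (h1 i j) h3 using 1
  simp

/-- a character of the full Hecke algebra extending `ι`, injective on the values of `χ` -/
theorem exists_full_point {M : ℕ} [NeZero M] (S : Set ℕ) (χ : TFull M →+* ℂ)
    (chig : CuspForm.heckeAlgebra M 2 S →+* ℂ)
    (hchig : ∀ t, chig t =
      χ (Subalgebra.inclusion (CuspForm.heckeAlgebra_mono (Set.empty_subset S)) t))
    (O : Type) [CommRing O] [IsDomain O] [IsDiscreteValuationRing O]
    [IsAdicComplete (maximalIdeal O) O] [Finite (ResidueField O)] [CharZero O]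
    (iota : chig.range →+* O) :
    ∃ (O' : Type) (_ : CommRing O') (_ : IsDomain O') (_ : IsDiscreteValuationRing O')
      (_ : IsAdicComplete (maximalIdeal O') O')
      (_ : Finite (ResidueField O')) (_ : CharZero O')
      (_ : Algebra O O') (_ : Module.Finite O O') (_ : IsLocalHom (algebraMap O O')),
    Function.Injective (algebraMap O O') ∧
    ∃ f : TFull M →+* O', (∀ t, f t = 0 → χ t = 0) ∧
      ∀ t : CuspForm.heckeAlgebra M 2 S,
        f (Subalgebra.inclusion (CuspForm.heckeAlgebra_mono (Set.empty_subset S)) t)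
          = algebraMap O O' (iota (chig.rangeRestrict t)) := by
  classical
  haveI := Attach.finite_TFull M
  let K := FractionRing O
  let Ω := AlgebraicClosure K
  haveI : Module.Finite ℤ χ.range :=
    Module.Finite.of_surjective χ.rangeRestrict.toAddMonoidHom.toIntLinearMap
      χ.rangeRestrict_surjective
  have hle : chig.range ≤ χ.range := by
    rintro _ ⟨t, rfl⟩
    exact ⟨_, (hchig t).symm⟩
  obtain ⟨e, he⟩ := Attach.exists_extension (Subring.inclusion hle) (Subring.inclusion_injective hle)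
    ((algebraMap O Ω).comp iota)
  haveI : CharZero Ω := charZero_of_injective_algebraMap (R := O) (by
    rw [IsScalarTower.algebraMap_eq O K Ω]
    exact (algebraMap K Ω).injective.comp (IsFractionRing.injective O K))
  have hinj : Function.Injective e := by
    rw [injective_iff_map_eq_zero]
    intro x hx
    by_contra hx0
    haveI : (RingHom.ker e).IsPrime := RingHom.ker_isPrime e
    have hne : RingHom.ker e ≠ ⊥ := fun hb => hx0 (by
      rw [← Ideal.mem_bot, ← hb]; exact RingHom.mem_ker.mpr hx)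
    refine hne (Ideal.eq_bot_of_comap_eq_bot (R := ℤ) ?_)
    rw [eq_bot_iff]
    intro z hz
    rw [Ideal.mem_comap, RingHom.mem_ker, algebraMap_int_eq, eq_intCast, map_intCast] at hz
    exact Ideal.mem_bot.mpr (Int.cast_eq_zero.mp hz)
  let g : TFull M →+* Ω := e.comp χ.rangeRestrict
  have hg : ∀ t, g t = 0 → χ t = 0 := fun t ht => congrArg Subtype.val
    ((injective_iff_map_eq_zero e).mp hinj (χ.rangeRestrict t) ht)
  obtain ⟨k, gen, hgen⟩ := Module.Finite.exists_fin (R := ℤ) (M := TFull M)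
  let L : IntermediateField K Ω := IntermediateField.adjoin K (Set.range fun i => g (gen i))
  haveI : FiniteDimensional K L :=
    IntermediateField.finiteDimensional_adjoin fun x _ => Algebra.IsIntegral.isIntegral x
  have hmem : ∀ t : TFull M, g t ∈ L := by
    intro t
    have ht : t ∈ Submodule.span ℤ (Set.range gen) := by rw [hgen]; trivial
    induction ht using Submodule.span_induction with
    | mem x hx =>
      obtain ⟨i, rfl⟩ := hx
      exact IntermediateField.subset_adjoin K _ ⟨i, rfl⟩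
    | zero => rw [map_zero]; exact L.zero_mem
    | add x y _ _ hx hy => rw [map_add]; exact L.add_mem hx hy
    | smul z x _ hx => rw [map_zsmul]; exact zsmul_mem hx z
  let O' := integralClosure O L
  haveI := Attach.closure_finite O L
  haveI : CharZero O' := Attach.closure_charZero O L
  haveI := Attach.closure_isLocalRing O L
  haveI := Attach.closure_isLocalHom O L
  haveI := Attach.closure_isDVR O L
  haveI : IsAdicComplete (maximalIdeal O') O' :=
    IsLocalRing.isAdicComplete_of_module_finite (𝒪 := O)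
  haveI : Finite (ResidueField O') := IsLocalRing.ResidueField.finite_of_finite (R := O) inferInstance
  have hmem' : ∀ t : TFull M, g.codRestrict L hmem t ∈ integralClosure O L := fun t =>
    (map_isIntegral_int (g.codRestrict L hmem) (Algebra.IsIntegral.isIntegral t)).tower_top
  refine ⟨O', inferInstance, inferInstance, inferInstance, inferInstance, inferInstance,
    inferInstance, inferInstance, inferInstance, inferInstance, Attach.closure_injective O L,
    (g.codRestrict L hmem).codRestrict (integralClosure O L) hmem', fun t ht => hg t ?_, fun t => ?_⟩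
  · exact congrArg (fun x : O' => ((x : L) : Ω)) ht
  · apply Subtype.ext
    apply Subtype.ext
    change e (χ.rangeRestrict _) = ((algebraMap O L (iota (chig.rangeRestrict t)) : L) : Ω)
    rw [show χ.rangeRestrict (Subalgebra.inclusion (CuspForm.heckeAlgebra_mono (Set.empty_subset S)) t)
      = Subring.inclusion hle (chig.rangeRestrict t) from Subtype.ext (hchig t).symm]
    rw [← RingHom.comp_apply e, he]
    rfl

/-- S35 -/
theorem exists_galoisRepAdic_newform
    (hFib : ∀ (M q : ℕ) [NeZero M] [NeZero q] (A : ValuationSubring (AlgebraicClosure ℚ)),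
      q.Prime → ¬ q ∣ M → A.LiesOverPrime q → FibreInputs M q A)
    {M : ℕ} [NeZero M] {g : CuspForm (CongruenceSubgroup.Gamma0 M) 2} (hg : g.IsNewform)
    (lam : ℕ) [Fact lam.Prime] (S : Finset ℕ)
    (O' : Type) [CommRing O'] [IsDomain O'] [IsDiscreteValuationRing O']
    [IsAdicComplete (maximalIdeal O') O'] [Finite (ResidueField O')]
    [CharZero O'] (hlamO' : (lam : O') ∈ maximalIdeal O')
    (chig : CuspForm.heckeAlgebra M 2 (↑S : Set ℕ) →+* ℂ)
    (hchig : ∀ (ℓ : ℕ) (hℓ : ℓ.Prime) (hℓM : ¬ ℓ ∣ M) (hℓS : ℓ ∉ (↑S : Set ℕ)),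
      chig (CuspForm.heckeAlgebra.T hℓ hℓM hℓS) = qCoeff g ℓ)
    (iota : chig.range →+* O') (hlamS : lam ∈ S) (hMS : ∀ q : ℕ, q.Prime → q ∣ M → q ∈ S) :
    ∃ (O'' : Type) (_ : CommRing O'') (_ : IsDomain O'') (_ : IsDiscreteValuationRing O'')
      (_ : IsAdicComplete (maximalIdeal O'') O'') (_ : Finite (ResidueField O''))
      (_ : CharZero O'') (_ : Algebra O' O'') (_ : Module.Finite O' O'')
      (_ : IsLocalHom (algebraMap O' O'')),
      Function.Injective (algebraMap O' O'') ∧
      ∃ ρ : GaloisRepAdic O'',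
        (∀ (ℓ : ℕ) (hℓ : ℓ.Prime) (hℓM : ¬ ℓ ∣ M) (hℓS : ℓ ∉ (↑S : Set ℕ)),
          ∀ A : ValuationSubring (AlgebraicClosure ℚ), A.LiesOverPrime ℓ →
            ∀ σ : GalQ, A.IsFrobeniusAt σ ℓ →
              LinearMap.charpoly (ρ.ρ σ) =
                X ^ 2 - C (algebraMap O' O'' ((iota.comp chig.rangeRestrict)
                  (CuspForm.heckeAlgebra.T hℓ hℓM hℓS))) * X + C ((ℓ : O''))) ∧
        (∀ q : ℕ, q.Prime → q ≠ lam → q ∣ M → ¬ q ^ 2 ∣ M →
          ∀ A : ValuationSubring (AlgebraicClosure ℚ), A.LiesOverPrime q →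
            ∀ σ : GalQ, A.IsFrobeniusAt σ q →
              LinearMap.charpoly (ρ.ρ σ) = X ^ 2 - C ((q : O'') + 1) * X + C ((q : O'')) ∨
              LinearMap.charpoly (ρ.ρ σ) = X ^ 2 + C ((q : O'') + 1) * X + C ((q : O''))) := by
  classical
  have hp : lam.Prime := Fact.out
  obtain ⟨χ, hχ⟩ := Attach.exists_eigenCharacter hg.1
  let χC : TFull M →+* ℂ := (integralClosure ℤ ℂ).val.toRingHom.comp χ
  have hcomp : ∀ t, chig t =
      χC (Subalgebra.inclusion (CuspForm.heckeAlgebra_mono (Set.empty_subset (↑S : Set ℕ))) t) := by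
    rintro ⟨t, ht⟩
    refine Algebra.adjoin_induction (p := fun t ht => chig ⟨t, ht⟩ = χC (Subalgebra.inclusion
      (CuspForm.heckeAlgebra_mono (Set.empty_subset (↑S : Set ℕ))) ⟨t, ht⟩)) ?_ ?_ ?_ ?_ ht
    · rintro t (⟨ℓ, hℓ, hℓM, hℓS, rfl⟩ | ⟨r, hrM, hr, hrS, rfl⟩)
      · exact (hchig ℓ hℓ hℓM hℓS).trans (hχ ℓ hℓ hℓM).symm
      · exact absurd (hMS r hr hrM) hrS
    · intro m
      exact (map_intCast chig m).trans (map_intCast (χC.comp (Subalgebra.inclusion
        (CuspForm.heckeAlgebra_mono (Set.empty_subset (↑S : Set ℕ)))).toRingHom) m).symm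
    · intro x y hx hy h1 h2
      have e1 := map_add chig ⟨x, hx⟩ ⟨y, hy⟩
      rw [h1, h2, ← map_add, ← map_add] at e1
      exact e1
    · intro x y hx hy h1 h2
      have e1 := map_mul chig ⟨x, hx⟩ ⟨y, hy⟩
      rw [h1, h2, ← map_mul, ← map_mul] at e1
      exact e1
  obtain ⟨O'', _, _, _, _, _, _, _, _, _, hinj, f, hker, hf⟩ :=
    exists_full_point (↑S : Set ℕ) χC chig hcomp O' iota
  have hlam : (lam : O'') ∈ maximalIdeal O'' := by
    rw [← map_natCast (algebraMap O' O'')]
    exact map_nonunit (algebraMap O' O'') _ hlamO'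
  obtain ⟨D⟩ := Attach.exists_heckeLattice M
  obtain ⟨ρ, hρ, -, hsp⟩ :=
    exists_galoisRepAdic_special hp hlam D (Attach.galoisInputs M) f
  refine ⟨O'', inferInstance, inferInstance, inferInstance, inferInstance, inferInstance,
    inferInstance, inferInstance, inferInstance, inferInstance, hinj, ρ,
    fun ℓ hℓ hℓM hℓS A hA σ hσ => ?_, fun q hq hqp hqM hq2 A hA σ hσ => ?_⟩
  · rw [RingHom.comp_apply, ← hf]
    exact hρ ℓ hℓ hℓM (fun h => hℓS (by rw [h]; exact hlamS)) A hA σ hσ
  · refine hsp σ q (Attach.cycR_frobenius hp hlam hq hqp hA hσ) ?_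
    clear hρ hsp hcomp hinj hf
    haveI : NeZero q := ⟨hq.ne_zero⟩
    obtain ⟨M0, rfl⟩ : ∃ M0, M = M0 * q := ⟨M / q, (Nat.div_mul_cancel hqM).symm⟩
    haveI : NeZero M0 := ⟨fun h => NeZero.ne (M0 * q) (by rw [h, zero_mul])⟩
    have hqM0 : ¬ q ∣ M0 := fun h => hq2 (by
      rw [sq]; exact mul_dvd_mul h dvd_rfl)
    obtain ⟨P, hP0, hPN⟩ := exists_separating hq hg χ hχ lam
    obtain ⟨D0⟩ := Attach.exists_heckeLattice M0
    exact ⟨evalT M0 q lam (M0 * q) dvd_rfl P, fun h0 => hPN (Subtype.ext (hker _ h0)),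
      quartic_galMat hq hp hqp hlam hA (hFib M0 q A hq hqM0 hA) D D0
        (Attach.galoisInputs _) (Attach.galoisInputs _) hP0 hσ⟩

end FLTAgent.SS
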