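import Fermat.Agent.SS.Push
import Fermat.Agent.Attach.Residual
import Fermat.Agent.Attach.TraceTools
import Fermat.Agent.Attach.EigenCharacter
import Fermat.Agent.Attach.Interface
import Fermat.Prelude.Def_CuspForm_Newforms

/-!
A newform of level `Mq` is not seen at level `M`: some polynomial in the good Hecke operators kills
level `M` and not the form.
-/

set_option autoImplicit false
set_option linter.unusedSectionVars false
set_option linter.style.haveILetI false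

noncomputable section

open IsLocalRing Polynomial
open ModularFormClass
open FLTAgent.Attach (GaloisInputs HeckeLattice TFull S2)

namespace FLTAgent.SS

local notation "GalQ" => AlgebraicClosure ℚ ≃ₐ[ℚ] AlgebraicClosure ℚ

/-- a character of the full Hecke algebra comes from a normalised eigenform -/
theorem exists_eigenform {N : ℕ} [NeZero N] (χ : TFull N →+* ℂ) :
    ∃ g : S2 N, g.IsNormalizedEigenform ∧ ∀ (ℓ : ℕ) (hℓ : ℓ.Prime) (hℓN : ¬ ℓ ∣ N),
      qCoeff g ℓ = χ (CuspForm.heckeAlgebra.T hℓ hℓN (Set.notMem_empty _)) := by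
  obtain ⟨v, hv0, hv, -⟩ := Attach.exists_eigenline χ
  set c : ℕ → ℂ := Alg.coeffSeq N v with hcdef
  have hT : ∀ (ℓ : ℕ) (hℓ : ℓ.Prime) (hℓN : ¬ ℓ ∣ N) (n : ℕ),
      c (n * ℓ) + (if ℓ ∣ n then (ℓ : ℂ) * c (n / ℓ) else 0) =
        χ (CuspForm.heckeAlgebra.T hℓ hℓN (Set.notMem_empty _)) * c n := by
    intro ℓ hℓ hℓN n
    rw [hcdef, ← Alg.coeff_heckeT hℓ hℓN]
    have := congrArg (fun w => Alg.coeffSeq N w n)
      (hv (CuspForm.heckeAlgebra.T hℓ hℓN (Set.notMem_empty _)))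
    simp only [map_smul, Pi.smul_apply, smul_eq_mul] at this
    exact this
  have hU : ∀ (q : ℕ) (hq : q.Prime) (hqN : q ∣ N) (n : ℕ),
      c (n * q) = χ (CuspForm.heckeAlgebra.U hq hqN (Set.notMem_empty _)) * c n := by
    intro q hq hqN n
    rw [hcdef, ← Alg.coeff_heckeU hq hqN]
    have := congrArg (fun w => Alg.coeffSeq N w n)
      (hv (CuspForm.heckeAlgebra.U hq hqN (Set.notMem_empty _)))
    simp only [map_smul, Pi.smul_apply, smul_eq_mul] at this
    exact this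
  obtain ⟨L, e, hrel, he0⟩ : ∃ L e : ℕ → ℂ, (∀ ℓ, ℓ.Prime → ∀ n,
      c (n * ℓ) + (if ℓ ∣ n then e ℓ * c (n / ℓ) else 0) = L ℓ * c n) ∧
      (∀ ℓ, e ℓ = if ℓ ∣ N then 0 else (ℓ : ℂ)) := by
    refine ⟨fun ℓ => if hℓ : ℓ.Prime then (if hℓN : ℓ ∣ N
        then χ (CuspForm.heckeAlgebra.U hℓ hℓN (Set.notMem_empty _))
        else χ (CuspForm.heckeAlgebra.T hℓ hℓN (Set.notMem_empty _))) else 0,
      fun ℓ => if ℓ ∣ N then 0 else (ℓ : ℂ), ?_, fun _ => rfl⟩
    intro ℓ hℓ n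
    by_cases hℓN : ℓ ∣ N
    · simp only [hℓ, hℓN, dite_true, if_true, zero_mul, ite_self, add_zero]
      exact hU ℓ hℓ hℓN n
    · simp only [hℓ, hℓN, dite_true, dite_false, if_false]
      exact hT ℓ hℓ hℓN n
  have hc1 : c 1 ≠ 0 := fun h1 => hv0 (Attach.eq_zero_of_coeff_one χ hv h1)
  set d : ℕ → ℂ := fun n => (c 1)⁻¹ * c n with hddef
  have hd1 : d 1 = 1 := inv_mul_cancel₀ hc1
  have hdrel : ∀ ℓ, ℓ.Prime → ∀ n,
      d (n * ℓ) + (if ℓ ∣ n then e ℓ * d (n / ℓ) else 0) = L ℓ * d n := by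
    intro ℓ hℓ n
    have := hrel ℓ hℓ n
    simp only [hddef]
    split_ifs at this ⊢ <;> linear_combination (c 1)⁻¹ * this
  have hdp : ∀ ℓ, ℓ.Prime → d ℓ = L ℓ := by
    intro ℓ hℓ
    have := hdrel ℓ hℓ 1
    rwa [one_mul, if_neg (fun hd => hℓ.ne_one (Nat.dvd_one.1 hd)), add_zero, hd1, mul_one] at this
  have hmul : ∀ m n : ℕ, m.Coprime n → d (m * n) = d m * d n := by
    intro m
    induction m using Nat.strong_induction_on with
    | _ m ih =>
      intro n hco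
      rcases lt_or_ge m 2 with hm | hm
      · interval_cases m
        · rw [Nat.coprime_zero_left] at hco
          subst hco
          rw [mul_one, hd1, mul_one]
        · rw [one_mul, hd1, one_mul]
      · obtain ⟨ℓ, hℓ, m', rfl⟩ : ∃ ℓ, ℓ.Prime ∧ ∃ m', m = m' * ℓ := by
          obtain ⟨ℓ, hℓ, hd⟩ := Nat.exists_prime_and_dvd (show m ≠ 1 by omega)
          exact ⟨ℓ, hℓ, m / ℓ, (Nat.div_mul_cancel hd).symm⟩
        have hm' : m' ≠ 0 := by rintro rfl; simp at hm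
        have hlt : m' < m' * ℓ := lt_mul_of_one_lt_right (Nat.pos_of_ne_zero hm') hℓ.one_lt
        have hco' : m'.Coprime n := hco.coprime_dvd_left (dvd_mul_right _ _)
        have hℓn : ℓ.Coprime n := hco.coprime_dvd_left (dvd_mul_left _ _)
        have hr1 := hdrel ℓ hℓ (m' * n)
        have hr2 := hdrel ℓ hℓ m'
        rw [show m' * n * ℓ = m' * ℓ * n by ring, ih m' hlt n hco'] at hr1
        by_cases hd : ℓ ∣ m'
        · rw [if_pos (dvd_mul_of_dvd_left hd n),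
            show m' * n / ℓ = m' / ℓ * n from Nat.mul_div_right_comm hd n,
            ih (m' / ℓ) (lt_of_le_of_lt (Nat.div_le_self _ _) hlt) n
              (hco'.coprime_dvd_left (Nat.div_dvd_of_dvd hd))] at hr1
          rw [if_pos hd] at hr2
          linear_combination hr1 - (d n) * hr2
        · rw [if_neg (fun hx => (hℓ.dvd_mul.1 hx).elim hd
            (fun hh => hℓ.ne_one (Nat.eq_one_of_dvd_coprimes hℓn dvd_rfl hh)))] at hr1
          rw [if_neg hd] at hr2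
          linear_combination hr1 - (d n) * hr2
  have hpow : ∀ ℓ r, ℓ.Prime →
      d (ℓ ^ (r + 2)) = d ℓ * d (ℓ ^ (r + 1)) - e ℓ * d (ℓ ^ r) := by
    intro ℓ r hℓ
    have hr := hdrel ℓ hℓ (ℓ ^ (r + 1))
    rw [← pow_succ, if_pos (dvd_pow_self ℓ (Nat.succ_ne_zero r)), ← hdp ℓ hℓ,
      show ℓ ^ (r + 1) / ℓ = ℓ ^ r by rw [pow_succ, Nat.mul_div_cancel _ hℓ.pos]] at hr
    linear_combination hr
  have hco : ∀ n, qCoeff (⇑((c 1)⁻¹ • v)) n = d n := fun n => Alg.qCoeff_form_smul _ v n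
  refine ⟨(c 1)⁻¹ • v, ⟨?_, ?_, ?_, ?_⟩, ?_⟩
  · rw [hco, hd1]
  · intro m n hmn
    rw [hco, hco, hco, hmul m n hmn]
  · intro p r hp hpN
    rw [hco, hco, hco, hco, hpow p r hp, he0, if_neg hpN]
  · intro p r hp hpN
    rw [hco, hco, hco, hpow p r hp, he0, if_pos hpN, zero_mul, sub_zero]
  · intro ℓ hℓ hℓN
    rw [hco]
    have hr := hT ℓ hℓ hℓN 1
    rw [one_mul, if_neg (fun hd => hℓ.ne_one (Nat.dvd_one.1 hd)), add_zero] at hr
    simp only [hddef]
    rw [hr, mul_left_comm, inv_mul_cancel₀ hc1, mul_one]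

/-- two representations with the same traces at almost all Frobenius elements have the same traces -/
theorem trace_eq_of_frobenius {T : Type} [CommRing T] [IsLocalRing T] [IsDomain T]
    [IsAdicComplete (maximalIdeal T) T] (ρ₁ ρ₂ : GaloisRepAdic T) (S : Finset ℕ)
    (h : ∀ ℓ : ℕ, ℓ.Prime → ℓ ∉ S → ∀ A : ValuationSubring (AlgebraicClosure ℚ), A.LiesOverPrime ℓ →
      ∀ τ : GalQ, A.IsFrobeniusAt τ ℓ → ∃ a c : T,
        LinearMap.charpoly (ρ₁.ρ τ) = X ^ 2 - C a * X + C c ∧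
        LinearMap.charpoly (ρ₂.ρ τ) = X ^ 2 - C a * X + C c) (σ : GalQ) :
    LinearMap.trace T ρ₁.V (ρ₁.ρ σ) = LinearMap.trace T ρ₂.V (ρ₂.ρ σ) := by
  refine Attach.eq_of_forall_sub_mem_pow fun M => ?_
  obtain ⟨L1, hL1, h1⟩ := ρ₁.isAdicContinuous M
  obtain ⟨L2, hL2, h2⟩ := ρ₂.isAdicContinuous M
  haveI := hL1; haveI := hL2
  obtain ⟨ℓ, A, τ, k, hℓ, hℓS, hA, hτ, hagree⟩ :=
    FLTAgent.Chebotarev.exists_frobenius_pow (L1 ⊔ L2) σ S
  set g' : GalQ := σ⁻¹ * τ ^ k with hg'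
  have hτk : τ ^ k = σ * g' := by rw [hg', mul_inv_cancel_left]
  have hfix : ∀ y ∈ L1 ⊔ L2, g' y = y := fun y hy => by
    rw [hg', AlgEquiv.mul_apply, hagree y hy]
    exact σ.symm_apply_apply y
  have close : ∀ (ρ : GaloisRepAdic T),
      (∀ v, ρ.ρ g' v - v ∈ maximalIdeal T ^ M • (⊤ : Submodule T ρ.V)) →
      LinearMap.trace T ρ.V (ρ.ρ σ) - LinearMap.trace T ρ.V (ρ.ρ (τ ^ k)) ∈ maximalIdeal T ^ M := by
    intro ρ hρ
    rw [← map_sub]
    refine Attach.trace_mem_of_forall_mem _ _ fun v => ?_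
    have h5 : (ρ.ρ σ - ρ.ρ (τ ^ k)) v = -(ρ.ρ σ (ρ.ρ g' v - v)) := by
      rw [map_sub, ← Module.End.mul_apply, ← map_mul, ← hτk, neg_sub, LinearMap.sub_apply]
    rw [h5]
    refine neg_mem ?_
    refine Submodule.smul_induction_on (hρ v) ?_ ?_
    · intro a ha w _
      rw [map_smul]
      exact Submodule.smul_mem_smul ha trivial
    · intro x y hx hy
      rw [map_add]
      exact add_mem hx hy
  have e1 := close ρ₁ (h1 g' fun y hy => hfix y (le_sup_left (a := L1) hy))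
  have e2 := close ρ₂ (h2 g' fun y hy => hfix y (le_sup_right (a := L1) hy))
  obtain ⟨a, c, hc1, hc2⟩ := h ℓ hℓ hℓS A hA τ hτ
  rw [map_pow, Attach.trace_pow_eq ρ₁.finrank_eq hc1] at e1
  rw [map_pow, Attach.trace_pow_eq ρ₂.finrank_eq hc2] at e2
  simpa using sub_mem e1 e2

theorem trace_of_charpoly {T : Type} [CommRing T] [Nontrivial T] {V : Type} [AddCommGroup V]
    [Module T V] [Module.Free T V] [Module.Finite T V] (hrk : Module.finrank T V = 2)
    {f : Module.End T V} {a c : T} (h : LinearMap.charpoly f = X ^ 2 - C a * X + C c) :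
    LinearMap.trace T V f = a := by
  have := Attach.trace_pow_eq hrk h 1
  simpa [Attach.powerTrace] using this

/-- eigensystems agreeing outside a finite set agree at every prime not dividing the levels -/
theorem eigenvalue_eq {N N' : ℕ} [NeZero N] [NeZero N']
    (χ : TFull N →+* integralClosure ℤ ℂ) (χ' : TFull N' →+* integralClosure ℤ ℂ) (S : Finset ℕ)
    (h : ∀ (ℓ : ℕ) (hℓ : ℓ.Prime) (hℓN : ¬ ℓ ∣ N) (hℓN' : ¬ ℓ ∣ N'), ℓ ∉ S →
      χ (CuspForm.heckeAlgebra.T hℓ hℓN (Set.notMem_empty _)) =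
        χ' (CuspForm.heckeAlgebra.T hℓ hℓN' (Set.notMem_empty _)))
    (l : ℕ) (hl : l.Prime) (hlN : ¬ l ∣ N) (hlN' : ¬ l ∣ N') :
    χ (CuspForm.heckeAlgebra.T hl hlN (Set.notMem_empty _)) =
      χ' (CuspForm.heckeAlgebra.T hl hlN' (Set.notMem_empty _)) := by
  classical
  haveI := Attach.finite_TFull N
  haveI := Attach.finite_TFull N'
  obtain ⟨p, hp, hpl⟩ : ∃ p : ℕ, p.Prime ∧ l ≠ p := by
    rcases eq_or_ne l 2 with h2 | h2
    · exact ⟨3, Nat.prime_three, by omega⟩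
    · exact ⟨2, Nat.prime_two, h2⟩
  haveI : Fact p.Prime := ⟨hp⟩
  -- the ring generated by both systems
  let Φ : TensorProduct ℤ (TFull N) (TFull N') →ₐ[ℤ] integralClosure ℤ ℂ :=
    Algebra.TensorProduct.lift χ.toIntAlgHom χ'.toIntAlgHom (fun _ _ => mul_comm _ _)
  let R := Φ.range
  haveI : Module.Finite ℤ R :=
    Module.Finite.of_surjective Φ.rangeRestrict.toLinearMap Φ.rangeRestrict_surjective
  obtain ⟨m, hm, hmp⟩ : ∃ m : Ideal R, m.IsMaximal ∧ (p : R) ∈ m := by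
    obtain ⟨m, hm, hle⟩ := Ideal.exists_le_maximal (Ideal.span {(p : R)}) (fun htop => by
      rw [Ideal.span_singleton_eq_top] at htop
      obtain ⟨u, hu⟩ := htop.exists_left_inv
      have h1 : (((u : integralClosure ℤ ℂ) : ℂ)) * (p : ℂ) = 1 := by
        simpa using congrArg (fun x : R => ((x : integralClosure ℤ ℂ) : ℂ)) hu
      have h2 : IsIntegral ℤ ((p : ℚ)⁻¹) := by
        refine (isIntegral_algHom_iff ((algebraMap ℚ ℂ).toIntAlgHom) (algebraMap ℚ ℂ).injective).mp ?_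
        rw [show (algebraMap ℚ ℂ).toIntAlgHom (p : ℚ)⁻¹ = ((u : integralClosure ℤ ℂ) : ℂ) by
          simp [eq_inv_of_mul_eq_one_left h1]]
        exact (u : integralClosure ℤ ℂ).2
      obtain ⟨z, hz⟩ := IsIntegrallyClosed.isIntegral_iff.mp h2
      have h3 : ((z * p : ℤ) : ℚ) = 1 := by
        push_cast
        rw [show ((z : ℚ)) = (p : ℚ)⁻¹ from hz, inv_mul_cancel₀ (Nat.cast_ne_zero.mpr hp.ne_zero)]
      have h4 : z * (p : ℤ) = 1 := by exact_mod_cast h3
      exact hp.ne_one (Nat.dvd_one.mp (Int.natCast_dvd_natCast.mp ⟨z, by rw [mul_comm]; exact_mod_cast h4.symm⟩)))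
    exact ⟨m, hm, hle (Ideal.mem_span_singleton_self _)⟩
  letI : Field (R ⧸ m) := Ideal.Quotient.field m
  haveI : CharP (R ⧸ m) p := by
    refine (CharP.charP_iff_prime_eq_zero hp).mpr ?_
    rw [← map_natCast (Ideal.Quotient.mk m)]
    exact Ideal.Quotient.eq_zero_iff_mem.mpr hmp
  obtain ⟨O, _, _, _, _, _, _, hpO, f, -, -⟩ :=
    Attach.exists_adic_lift (T := R) (p := p) (Ideal.Quotient.mk m)
  have hf : Function.Injective f := by
    rw [injective_iff_map_eq_zero]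
    intro x hx
    by_contra hx0
    haveI : (RingHom.ker f).IsPrime := RingHom.ker_isPrime f
    have hne : RingHom.ker f ≠ ⊥ := fun hb => hx0 (by
      rw [← Ideal.mem_bot, ← hb]; exact RingHom.mem_ker.mpr hx)
    refine hne (Ideal.eq_bot_of_comap_eq_bot (R := ℤ) ?_)
    rw [eq_bot_iff]
    intro z hz
    rw [Ideal.mem_comap, RingHom.mem_ker, algebraMap_int_eq, eq_intCast, map_intCast] at hz
    exact Ideal.mem_bot.mpr (Int.cast_eq_zero.mp hz)
  let χR : TFull N →+* R := χ.codRestrict R fun t => ⟨t ⊗ₜ 1, by simp [Φ]⟩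
  let χR' : TFull N' →+* R := χ'.codRestrict R fun t => ⟨1 ⊗ₜ t, by simp [Φ]⟩
  obtain ⟨D⟩ := Attach.exists_heckeLattice N
  obtain ⟨D'⟩ := Attach.exists_heckeLattice N'
  obtain ⟨ρ, hρ, -⟩ := Attach.exists_galoisRepAdic hp hpO D (Attach.galoisInputs N) (f.comp χR)
  obtain ⟨ρ', hρ', -⟩ := Attach.exists_galoisRepAdic hp hpO D' (Attach.galoisInputs N') (f.comp χR')
  have htr := trace_eq_of_frobenius ρ ρ'
    (insert p (S ∪ N.primeFactors ∪ N'.primeFactors)) (fun ℓ hℓ hℓS A hA τ hτ => by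
      simp only [Finset.mem_insert, Finset.mem_union, Nat.mem_primeFactors] at hℓS
      push Not at hℓS
      obtain ⟨hℓp, ⟨hℓS, hℓN⟩, hℓN'⟩ := hℓS
      have h1 : ¬ ℓ ∣ N := fun hd => NeZero.ne N (hℓN hℓ hd)
      have h2 : ¬ ℓ ∣ N' := fun hd => NeZero.ne N' (hℓN' hℓ hd)
      refine ⟨_, _, hρ ℓ hℓ h1 hℓp A hA τ hτ, ?_⟩
      have he : χR (CuspForm.heckeAlgebra.T hℓ h1 (Set.notMem_empty _))
          = χR' (CuspForm.heckeAlgebra.T hℓ h2 (Set.notMem_empty _)) :=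
        Subtype.ext (h ℓ hℓ h1 h2 hℓS)
      rw [RingHom.comp_apply, he]
      exact hρ' ℓ hℓ h2 hℓp A hA τ hτ)
  obtain ⟨A, τ, hA, hτ⟩ := Alg.exists_place_frobenius l hl
  have e := htr τ
  rw [trace_of_charpoly ρ.finrank_eq (hρ l hl hlN hpl A hA τ hτ),
    trace_of_charpoly ρ'.finrank_eq (hρ' l hl hlN' hpl A hA τ hτ)] at e
  exact congrArg Subtype.val (hf e)

variable {M q : ℕ} [NeZero M] [NeZero q]

/-- a polynomial killing level `M` but not the newform -/
theorem exists_separating (hq : q.Prime) {g : S2 (M * q)} (hg : g.IsNewform)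
    (χ : TFull (M * q) →+* integralClosure ℤ ℂ)
    (hχ : ∀ (ℓ : ℕ) (hℓ : ℓ.Prime) (hℓN : ¬ ℓ ∣ M * q),
      (χ (CuspForm.heckeAlgebra.T hℓ hℓN (Set.notMem_empty _)) : ℂ) = qCoeff g ℓ) (p : ℕ) :
    ∃ P : MvPolynomial (GoodPrime M q p) ℤ,
      evalT M q p M (dvd_mul_right M q) P = 0 ∧ χ (evalT M q p (M * q) dvd_rfl P) ≠ 0 := by
  classical
  by_contra hcon
  push Not at hcon
  set e0 := evalT M q p M (dvd_mul_right M q) with he0
  set eN := evalT M q p (M * q) dvd_rfl with heN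
  let G := ((integralClosure ℤ ℂ).val.toRingHom.comp (χ.comp eN))
  have hker : RingHom.ker e0.rangeRestrict ≤ RingHom.ker G := fun P hP => by
    rw [RingHom.mem_ker] at hP ⊢
    have h0 : e0 P = 0 := congrArg Subtype.val hP
    simp [G, hcon P h0]
  let lam : e0.range →+* ℂ :=
    RingHom.liftOfSurjective e0.rangeRestrict e0.rangeRestrict_surjective ⟨G, hker⟩
  have hlam : ∀ P, lam (e0.rangeRestrict P) = G P := fun P =>
    RingHom.liftOfRightInverse_comp_apply _ _ _ ⟨G, hker⟩ P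
  haveI := Attach.finite_TFull M
  obtain ⟨χ0, hχ0⟩ := Attach.exists_extension e0.range.subtype Subtype.val_injective lam
  obtain ⟨g0, hg0, hg0c⟩ := exists_eigenform χ0
  obtain ⟨χ0', hχ0'⟩ := Attach.exists_eigenCharacter hg0
  have hne : M ≠ M * q := fun h => hq.ne_one (by
    have h0 : 0 < M := Nat.pos_of_ne_zero (NeZero.ne M)
    nlinarith [hq.two_le])
  refine hg.2 M (dvd_mul_right M q) hne ⟨g0, hg0, fun ℓ hℓ hℓN => ?_⟩
  have hℓM : ¬ ℓ ∣ M := fun h => hℓN (h.trans (dvd_mul_right M q))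
  rw [← hχ0' ℓ hℓ hℓM, ← hχ ℓ hℓ hℓN]
  refine congrArg Subtype.val (eigenvalue_eq χ0' χ ({p} : Finset ℕ) (fun r hr hrM hrN hrp => ?_)
    ℓ hℓ hℓM hℓN)
  rw [Finset.mem_singleton] at hrp
  apply Subtype.ext
  rw [hχ0' r hr hrM, hg0c r hr hrM]
  let x : GoodPrime M q p := ⟨⟨r, hr⟩, hrN, hrp⟩
  have h1 : e0 (MvPolynomial.X x) = CuspForm.heckeAlgebra.T hr hrM (Set.notMem_empty _) := by
    simp [he0, evalT, x]
  have h2 : eN (MvPolynomial.X x) = CuspForm.heckeAlgebra.T hr hrN (Set.notMem_empty _) := by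
    simp [heN, evalT, x]
  rw [← h1, ← h2]
  exact (RingHom.congr_fun hχ0 (e0.rangeRestrict (MvPolynomial.X x))).trans (hlam _)

end FLTAgent.SS
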