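import Mathlib

/-!
A polynomial system without zeros over the algebraically closed fraction field has no approximate
zeros over the ring.
-/

set_option autoImplicit false

noncomputable section

namespace FLTAgent.SS

/-- (c): if the system `P` has no zero in `K` then for some `c ≠ 0` it has no zero modulo `c` in `A`. -/
theorem exists_no_approx_zero {A K : Type*} [CommRing A] [IsDomain A] [Field K] [Algebra A K]
    [IsFractionRing A K] [IsAlgClosed K] (hA : ¬ IsField A) {σ : Type*} [Finite σ] {ι : Type*}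
    (P : ι → MvPolynomial σ A) (hnz : ∀ x : σ → K, ∃ i, MvPolynomial.aeval x (P i) ≠ 0) :
    ∃ c : A, c ≠ 0 ∧ ∀ a : σ → A, ∃ i, ¬ c ∣ MvPolynomial.eval a (P i) := by
  classical
  set Q : ι → MvPolynomial σ K := fun i => MvPolynomial.map (algebraMap A K) (P i) with hQ
  have htop : Ideal.span (Set.range Q) = ⊤ := by
    rw [← Ideal.radical_eq_top,
      ← MvPolynomial.vanishingIdeal_zeroLocus_eq_radical (k := K) (K := K), Ideal.eq_top_iff_one,
      MvPolynomial.mem_vanishingIdeal_iff]
    intro x hx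
    exfalso
    obtain ⟨i, hi⟩ := hnz x
    rw [MvPolynomial.zeroLocus_span] at hx
    refine hi ?_
    have h := hx (Q i) ⟨i, rfl⟩
    rwa [hQ, MvPolynomial.aeval_map_algebraMap] at h
  letI := MvPolynomial.algebraMvPolynomial (R := A) (S := K) (σ := σ)
  haveI : IsLocalization ((nonZeroDivisors A).map (MvPolynomial.C (σ := σ))) (MvPolynomial σ K) :=
    MvPolynomial.isLocalization _ _
  have hmap : (Ideal.span (Set.range P)).map
      (algebraMap (MvPolynomial σ A) (MvPolynomial σ K)) = ⊤ := by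
    rw [Ideal.map_span, ← htop, ← Set.range_comp]
    rfl
  obtain ⟨q, hq1, hq2⟩ := Set.not_disjoint_iff.mp fun hd =>
    (IsLocalization.map_algebraMap_ne_top_iff_disjoint
      ((nonZeroDivisors A).map (MvPolynomial.C (σ := σ))) (MvPolynomial σ K) _).mpr hd hmap
  obtain ⟨d, hd, rfl⟩ := hq1
  have hd0 : d ≠ 0 := nonZeroDivisors.ne_zero hd
  obtain ⟨t, ht0, htu⟩ : ∃ t : A, t ≠ 0 ∧ ¬ IsUnit t := by
    obtain ⟨I, hI0, hI1⟩ := Ring.not_isField_iff_exists_ideal_bot_lt_and_lt_top.mp hA
    obtain ⟨t, htI, ht⟩ := SetLike.exists_of_lt hI0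
    exact ⟨t, fun h => ht (by simp [h]), fun hu => hI1.ne (Ideal.eq_top_of_isUnit_mem _ htI hu)⟩
  refine ⟨d * t, mul_ne_zero hd0 ht0, fun a => ?_⟩
  by_contra hall
  push Not at hall
  have h : MvPolynomial.eval a (MvPolynomial.C d) ∈ Ideal.span {d * t} := by
    have h1 := Ideal.mem_map_of_mem (MvPolynomial.eval a) hq2
    rw [Ideal.map_span, ← Set.range_comp] at h1
    refine Ideal.span_le.mpr ?_ h1
    rintro _ ⟨i, rfl⟩
    exact Ideal.mem_span_singleton.mpr (hall i)
  rw [MvPolynomial.eval_C, Ideal.mem_span_singleton] at h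
  obtain ⟨s, hs⟩ := h
  refine htu (IsUnit.of_mul_eq_one s ?_)
  refine mul_left_cancel₀ hd0 ?_
  rw [mul_one, ← mul_assoc, ← hs]

end FLTAgent.SS
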