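import Fermat.Agent.SS.Newton
import Fermat.Agent.SS.DegenerationNull

/-! A twist with trivial jump is trivial. -/

set_option autoImplicit false
set_option linter.unusedSectionVars false

noncomputable section

open AlgebraicCurve IsLocalRing
open FLTAgent.RR (Bd Pol)
open FLTAgent.Reduction (Val)

namespace FLTAgent.SS

variable {K : Type*} [Field K] [IsAlgClosed K] [CharZero K] {A : ValuationSubring K}
  {F : Type*} [Field F] [Algebra K F] [RR.FnField K F]
  {Fs : Type*} [Field Fs] [Algebra (ResidueField A) Fs]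

local notation "𝕜" => ResidueField A
local notation "ι'" => algebraMap K F

/-- powers of a nonunit tend to zero -/
def Arch (A : ValuationSubring K) : Prop :=
  ∀ c e : A, c ≠ 0 → e ∈ maximalIdeal A → ∃ j : ℕ, c ∣ e ^ j

namespace Data

variable {D : Data K A F Fs} {n : ℕ}

/-- approximate solutions to all orders give a solution -/
theorem exists_root (hn : n ≠ 0) (R : Rep D.toCore n) {m : ℕ} {e : A} (he : e ∈ maximalIdeal A)
    (he0 : e ≠ 0) (happ : ∀ c : A, c ≠ 0 → ∃ v ∈ R.L m, ∃ e', c ∣ e' ∧ R.Near e' v) :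
    ∃ x ∈ R.L m, x ^ n * R.f = 1 := by
  classical
  obtain ⟨d, v, hspan, hint, hli⟩ := D.exists_basis R.α R.α_ne (R.L m) (R.finiteDimensional_L m)
  obtain ⟨d2, w, hspan2, hint2, hli2⟩ := D.exists_basis 1 (fun _ => one_ne_zero)
    (riemannRochSpace ((n * m) • Pol (K := K) D.J)) (RR.finiteDimensional_rr _)
  have hvL : ∀ i, v i ∈ R.L m := fun i => hspan ▸ Submodule.subset_span ⟨i, rfl⟩
  have hwK := D.toCore.linearIndependent_of_red hint2 hli2
  have hrep : ∀ y ∈ riemannRochSpace ((n * m) • Pol (K := K) D.J), (∀ b, y ∈ D.G b) →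
      ∃ c : Fin d2 → A, y = ∑ j, ι' (c j : K) * w j := by
    intro y hy hy'
    rw [← hspan2, Submodule.mem_span_range_iff_exists_fun] at hy
    obtain ⟨c, rfl⟩ := hy
    simp only [Algebra.smul_def] at hy' ⊢
    exact ⟨fun j => ⟨c j, D.toCore.coeff_mem hint2 hli2 (fun b => by simpa using hy' b) j⟩, rfl⟩
  have h1mem : (1 : F) ∈ riemannRochSpace ((n * m) • Pol (K := K) D.J) := fun P => by
    have h := (RR.Bd.of_algebraMap (v := P) (1 : K)).mono
      (show (0 : ℤ) ≤ ((n * m) • Pol (K := K) D.J) P by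
        rw [Finsupp.smul_apply, RR.Pol_apply, nsmul_eq_mul]
        exact mul_nonneg (Nat.cast_nonneg _) (le_max_right _ _))
    rwa [map_one] at h
  choose cf hcf using fun t : Fin n → Fin d => hrep _
    (R.prod_spec (fun i => v (t i)) (fun i => hvL _) fun i b => hint b _).1
    (fun b => ((R.prod_spec (fun i => v (t i)) (fun i => hvL _) fun i b => hint b _).2 b).1)
  obtain ⟨c1, hc1⟩ := hrep 1 h1mem fun b => one_mem _
  set P : Fin d2 → MvPolynomial (Fin d) A := fun j =>
    ∑ t : Fin n → Fin d, MvPolynomial.C (cf t j) * ∏ i, MvPolynomial.X (t i)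
      - MvPolynomial.C (c1 j) with hP
  have key : ∀ a : Fin d → K, (∑ i, ι' (a i) * v i) ^ n * R.f - 1
      = ∑ j, ι' (MvPolynomial.aeval a (P j)) * w j := by
    intro a
    have e1 : ∀ j, MvPolynomial.aeval a (P j)
        = ∑ t : Fin n → Fin d, (cf t j : K) * ∏ i, a (t i) - (c1 j : K) := fun j => by
      simp [hP]
    simp only [e1, map_sub, map_sum, map_mul, map_prod, sub_mul, Finset.sum_sub_distrib,
      Finset.sum_mul]
    rw [← hc1, Finset.sum_comm, Fintype.sum_pow, Finset.sum_mul]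
    congr 1
    refine Finset.sum_congr rfl fun t _ => ?_
    rw [Finset.prod_mul_distrib, mul_assoc, hcf t, Finset.mul_sum]
    exact Finset.sum_congr rfl fun j _ => by ring
  have hroot : ∃ a : Fin d → K, ∀ j, MvPolynomial.aeval a (P j) = 0 := by
    by_contra hno
    push Not at hno
    have hA : ¬ IsField A := fun h => by
      have := (IsLocalRing.isField_iff_maximalIdeal_eq.mp h)
      rw [this, Ideal.mem_bot] at he
      exact he0 he
    obtain ⟨c, hc0, hc⟩ := exists_no_approx_zero hA P hno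
    obtain ⟨x, hxL, e', hdvd, hxI, -, z, hz, hze⟩ := happ c hc0
    obtain ⟨a, rfl⟩ : ∃ a : Fin d → K, ∑ i, ι' (a i) * v i = x := by
      rw [← hspan, Submodule.mem_span_range_iff_exists_fun] at hxL
      obtain ⟨a, rfl⟩ := hxL
      exact ⟨a, Finset.sum_congr rfl fun i _ => (Algebra.smul_def _ _).symm⟩
    have hmem := D.toCore.coeff_mem hint hli hxI
    set a' : Fin d → A := fun i => ⟨a i, hmem i⟩
    obtain ⟨j, hj⟩ := hc a'
    refine hj (hdvd.trans ?_)
    rcases eq_or_ne e' 0 with rfl | he'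
    · rw [zero_dvd_iff]
      have h0 := key a
      rw [hze, ZeroMemClass.coe_zero, map_zero, zero_mul, add_zero, sub_self] at h0
      have h1 := Fintype.linearIndependent_iff.mp hwK (fun j => MvPolynomial.aeval a (P j))
        (by simp only [Algebra.smul_def]; exact h0.symm) j
      refine Subtype.ext ?_
      rw [ZeroMemClass.coe_zero, ← h1]
      exact (MvPolynomial.aeval_algebraMap_apply (B := K) (x := a') (p := P j)).symm
    have he'K : ι' (e' : K) ≠ 0 := (_root_.map_ne_zero _).mpr fun h => he' (Subtype.ext h)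
    have hzrr : z ∈ riemannRochSpace ((n * m) • Pol (K := K) D.J) := by
      have hx' : (∑ i, ι' (a i) * v i) ∈ R.L m := sum_mem fun i _ => by
        rw [← Algebra.smul_def]; exact (R.L m).smul_mem _ (hvL i)
      have hp := (R.prod_spec (fun _ => ∑ i, ι' (a i) * v i) (fun _ => hx') fun _ => hxI).1
      rw [Finset.prod_const, Finset.card_univ, Fintype.card_fin, hze] at hp
      have := sub_mem hp h1mem
      rw [add_sub_cancel_left, ← Algebra.smul_def] at this
      have h2 := (riemannRochSpace ((n * m) • Pol (K := K) D.J)).smul_mem ((e' : K))⁻¹ this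
      rwa [inv_smul_smul₀ fun h => he' (Subtype.ext h)] at h2
    obtain ⟨cz, hcz⟩ := hrep z hzrr hz
    have h0 := key a
    rw [hze, add_sub_cancel_left, hcz, Finset.mul_sum, ← sub_eq_zero, ← Finset.sum_sub_distrib] at h0
    have h1 := Fintype.linearIndependent_iff.mp hwK
      (fun j => (e' : K) * (cz j : K) - MvPolynomial.aeval a (P j))
      (by rw [← h0]; exact Finset.sum_congr rfl fun j _ => by
            rw [Algebra.smul_def, map_sub, map_mul]; ring) j
    refine ⟨cz j, Subtype.ext ?_⟩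
    rw [sub_eq_zero] at h1
    rw [MulMemClass.coe_mul, h1]
    exact (MvPolynomial.aeval_algebraMap_apply (B := K) (x := a') (p := P j)).symm
  obtain ⟨a, ha⟩ := hroot
  refine ⟨∑ i, ι' (a i) * v i, sum_mem fun i _ => by
    rw [← Algebra.smul_def]; exact (R.L m).smul_mem _ (hvL i), ?_⟩
  rw [← sub_eq_zero, key a]
  simp [ha]

/-- a twist with jump one is principal -/
theorem principal_of_jump_one (hS : D.Surj) (hA : Arch A) (hn : (n : 𝕜) ≠ 0) {E : Divisor K F}
    (h : D.HasJump n E 1) : ∃ x : F, x ≠ 0 ∧ ∀ P : Place K F, E P = P.ord x := by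
  classical
  have hn0 : n ≠ 0 := fun h => hn (by simp [h])
  obtain ⟨R, rfl, hR⟩ := h
  suffices ∃ (m : ℕ) (x : F), x ∈ R.L m ∧ x ^ n * R.f = 1 by
    obtain ⟨m, x, -, hx⟩ := this
    have hx0 : x ≠ 0 := by rintro rfl; rw [zero_pow hn0, zero_mul] at hx; exact zero_ne_one hx
    refine ⟨x⁻¹, inv_ne_zero hx0, fun P => ?_⟩
    have h1 := congrArg P.ord hx
    rw [P.ord_mul (pow_ne_zero _ hx0) R.f_ne, RR.ord_pow, ← R.ord_f,
      show P.ord (1 : F) = 0 by simpa using RR.ord_algebraMap P (1 : K)] at h1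
    rw [P.ord_inv]
    have hn' : (n : ℤ) ≠ 0 := by exact_mod_cast hn0
    have : (n : ℤ) * (P.ord x + R.E P) = 0 := by rw [mul_add]; exact h1
    rcases mul_eq_zero.mp this with h2 | h2
    · exact absurd h2 hn'
    · omega
  obtain ⟨m0, hm0⟩ := exists_jump hn0 hS
  obtain ⟨ζ, -, hζ, hm⟩ := hm0 R
  obtain rfl := isJump_unique hn0 hS hζ hR
  have hmm := hm m0 le_rfl
  -- the two approximate solutions to first order
  have hJ0 := D.toCore.Jbar_ne_zero
  obtain ⟨x0, hx0L, hx0I, hx0r⟩ := hmm (fun _ => 1) (D.toCore.mem_P.mpr fun b => mem_target.mpr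
    fun Q => by
      have := (RR.Bd.of_algebraMap (v := Q) (1 : 𝕜)).mono
        (mul_nonneg (Int.natCast_nonneg m0) (le_max_right (-Q.ord D.Jbar) 0))
      rwa [map_one] at this)
    (fun s c hc => by
      rw [hc.unique Val.one, Pi.one_apply, mul_one]; exact Val.one)
  have hJglue : ∀ s, ∃ c, ∀ b, Val (D.pt b s) (D.Jbar ^ m0) c := fun s => by
    obtain ⟨c, hc⟩ := D.glue m0 (D.J ^ m0) (fun P => by
      show Bd P (D.J ^ m0) _
      rw [RR.bd_iff_ord (pow_ne_zero _ D.toCore.J_ne_zero), RR.ord_pow, Finsupp.smul_apply,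
        RR.Pol_apply, nsmul_eq_mul, ← mul_neg]
      exact mul_le_mul_of_nonneg_left (neg_le.mp (le_max_left _ _)) (Int.natCast_nonneg _))
      (fun b => pow_mem (D.J_mem b) m0) s
    exact ⟨c, fun b => by rw [← D.red_J b, ← D.toCore.red_pow b (D.J_mem b)]; exact hc b⟩
  obtain ⟨y1, hy1L, hy1I, hy1r⟩ := hmm (fun _ => D.Jbar ^ m0) (D.toCore.mem_P.mpr fun b =>
    mem_target.mpr fun Q => by
      rw [RR.bd_iff_ord (pow_ne_zero _ hJ0), RR.ord_pow, ← mul_neg]
      exact mul_le_mul_of_nonneg_left (neg_le.mp (le_max_left _ _)) (Int.natCast_nonneg _))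
    (fun s c hc => by
      obtain ⟨e, he⟩ := hJglue s
      rw [hc.unique (he false), Pi.one_apply, one_mul]; exact he true)
  set y0 := (D.J ^ m0)⁻¹ * y1 with hy0d
  have hy0inf : R.OnInf y0 := (R.mem_L_iff.mp hy1L).2
  have hy0I : R.Integ y0 := by
    rw [hy0d, ← R.pair_symm_pow_apply m0 y1]
    exact (R.pair.symm_pow_mem m0 y1).mpr hy1I
  have hy0r : R.res y0 = 1 := by
    have h1 := R.pair.r_pow m0 (x := y0) hy0I
    rw [R.pair_pow_apply, R.pairb_pow_apply, hy0d, ← mul_assoc,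
      mul_inv_cancel₀ (pow_ne_zero _ D.toCore.J_ne_zero), one_mul] at h1
    funext b
    have h2 := congrFun h1 b
    change R.res y1 b = D.Jbar ^ m0 * R.res y0 b at h2
    rw [hy1r] at h2
    exact (mul_left_cancel₀ (pow_ne_zero m0 hJ0) (h2.symm.trans (mul_one _).symm))
  have hsmall : ∀ x, R.Integ x → R.res x = 1 → ∀ b, ∃ c : A, c ∈ maximalIdeal A ∧
      ∃ y ∈ D.G b, x ^ n * R.f - 1 = ι' (c : K) * y := fun x hx hr b => by
    have hmem : x ^ n * R.f ∈ D.G b := by
      rw [R.pow_mul_eq b x]; exact mul_mem (pow_mem (hx b) n) (R.mem b)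
    refine D.toCore.exists_small b (sub_mem hmem (one_mem _)) ?_
    rw [D.toCore.red_sub b hmem (one_mem _), R.pow_mul_eq b x,
      D.red_mul b _ (pow_mem (hx b) n) _ (R.mem b), D.toCore.red_pow b (hx b), R.red_eq, ← mul_pow,
      show D.red b (ι' (R.α b) * x) * R.h b = 1 from congrFun hr b, one_pow, D.red_one, sub_self]
  choose cx hcx zx hzx hzxe using hsmall x0 hx0I hx0r
  choose cy hcy zy hzy hzye using hsmall y0 hy0I hy0r
  obtain ⟨e, he, hedvd⟩ : ∃ e : A, e ∈ maximalIdeal A ∧ ∀ b, e ∣ cx b ∧ e ∣ cy b := by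
    have two : ∀ c c' : A, c ∈ maximalIdeal A → c' ∈ maximalIdeal A →
        ∃ e ∈ maximalIdeal A, e ∣ c ∧ e ∣ c' := fun c c' hc hc' => by
      rcases ValuationRing.dvd_total c c' with h | h
      exacts [⟨c, hc, dvd_rfl, h⟩, ⟨c', hc', h, dvd_rfl⟩]
    obtain ⟨e1, he1, h1, h2⟩ := two _ _ (hcx false) (hcx true)
    obtain ⟨e2, he2, h3, h4⟩ := two _ _ (hcy false) (hcy true)
    obtain ⟨e, he, h5, h6⟩ := two _ _ he1 he2
    refine ⟨e, he, fun b => ?_⟩
    cases b
    exacts [⟨h5.trans h1, h6.trans h3⟩, ⟨h5.trans h2, h6.trans h4⟩]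
  rcases eq_or_ne e 0 with rfl | he0
  · refine ⟨m0, x0, hx0L, sub_eq_zero.mp ?_⟩
    rw [hzxe false, zero_dvd_iff.mp (hedvd false).1, ZeroMemClass.coe_zero, map_zero, zero_mul]
  have heK : ι' (e : K) ≠ 0 := (_root_.map_ne_zero _).mpr fun h => he0 (Subtype.ext h)
  have mkNear : ∀ x, R.Integ x → R.res x = 1 → ∀ c : Bool → A, (∀ b, e ∣ c b) →
      ∀ z : Bool → F, (∀ b, z b ∈ D.G b) → (∀ b, x ^ n * R.f - 1 = ι' (c b : K) * z b) →
      R.Near e x := fun x hxI hxr c hdvd z hz heq => by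
    refine ⟨hxI, hxr, (ι' (e : K))⁻¹ * (x ^ n * R.f - 1), fun b => ?_,
      by rw [← mul_assoc, mul_inv_cancel₀ heK, one_mul, add_sub_cancel]⟩
    obtain ⟨t, ht⟩ := hdvd b
    rw [heq b, ht, MulMemClass.coe_mul, map_mul, mul_assoc, ← mul_assoc, inv_mul_cancel₀ heK,
      one_mul]
    exact D.toCore.const_mul_mem b t.2 (hz b)
  have iter : ∀ j : ℕ, ∃ x y, x ∈ R.L m0 ∧ R.Near (e ^ 2 ^ j) x ∧ R.OnInf y ∧
      R.Near (e ^ 2 ^ j) y := by
    intro j
    induction j with
    | zero =>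
      rw [pow_zero, pow_one]
      exact ⟨x0, y0, hx0L, mkNear x0 hx0I hx0r cx (fun b => (hedvd b).1) zx hzx hzxe, hy0inf,
        mkNear y0 hy0I hy0r cy (fun b => (hedvd b).2) zy hzy hzye⟩
    | succ j ih =>
      obtain ⟨x, y, h1, h2, h3, h4⟩ := ih
      rw [pow_succ, pow_mul]
      exact newton hn hR hmm (Ideal.pow_mem_of_mem _ he _ (by positivity)) (pow_ne_zero _ he0)
        h1 h2 h3 h4
  obtain ⟨x, hxL, hx⟩ := exists_root hn0 R he he0 fun c hc => by
    obtain ⟨j, hj⟩ := hA c e hc he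
    obtain ⟨x, -, h1, h2, -, -⟩ := iter j
    exact ⟨x, h1, _, hj.trans (pow_dvd_pow e (Nat.lt_two_pow_self).le), h2⟩
  exact ⟨m0, x, hxL, hx⟩

end Data

end FLTAgent.SS
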