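import Fermat.Agent.SS.Defs

/-! First consequences of the interface. -/

set_option autoImplicit false
set_option linter.unusedSectionVars false

noncomputable section

open AlgebraicCurve IsLocalRing
open FLTAgent.RR (Bd Pol)
open FLTAgent.Reduction (Val)

namespace FLTAgent.SS

variable {K : Type*} [Field K] [IsAlgClosed K] [CharZero K] {A : ValuationSubring K}
  {F : Type*} [Field F] [Algebra K F] [RR.FnField K F]
  {Fs : Type*} [Field Fs] [Algebra (ResidueField A) Fs]

local notation "𝕜" => ResidueField A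
local notation "ι'" => algebraMap K F

namespace Core

variable (C : Core K A F Fs)

theorem red_zero (b : Bool) : C.red b 0 = 0 := by
  have h := C.red_const b 0
  simpa using h

theorem red_neg (b : Bool) {x : F} (hx : x ∈ C.G b) : C.red b (-x) = -C.red b x := by
  have h := C.red_add b x hx (-x) (neg_mem hx)
  rw [add_neg_cancel, C.red_zero] at h
  exact eq_neg_of_add_eq_zero_right h.symm

theorem red_sub (b : Bool) {x y : F} (hx : x ∈ C.G b) (hy : y ∈ C.G b) :
    C.red b (x - y) = C.red b x - C.red b y := by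
  rw [sub_eq_add_neg, C.red_add b x hx _ (neg_mem hy), C.red_neg b hy, sub_eq_add_neg]

theorem red_sum (b : Bool) {ι : Type*} (s : Finset ι) (f : ι → F) (h : ∀ i ∈ s, f i ∈ C.G b) :
    C.red b (∑ i ∈ s, f i) = ∑ i ∈ s, C.red b (f i) := by
  classical
  induction s using Finset.induction with
  | empty => simp [C.red_zero]
  | insert a s ha ih =>
    rw [Finset.sum_insert ha, Finset.sum_insert ha, C.red_add b _ (h a (by simp)) _
      (sum_mem fun i hi => h i (by simp [hi])), ih fun i hi => h i (by simp [hi])]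

theorem red_prod (b : Bool) {ι : Type*} (s : Finset ι) (f : ι → F) (h : ∀ i ∈ s, f i ∈ C.G b) :
    C.red b (∏ i ∈ s, f i) = ∏ i ∈ s, C.red b (f i) := by
  classical
  induction s using Finset.induction with
  | empty => simp [C.red_one]
  | insert a s ha ih =>
    rw [Finset.prod_insert ha, Finset.prod_insert ha, C.red_mul b _ (h a (by simp)) _
      (prod_mem fun i hi => h i (by simp [hi])), ih fun i hi => h i (by simp [hi])]

theorem red_pow (b : Bool) {x : F} (hx : x ∈ C.G b) : ∀ n : ℕ, C.red b (x ^ n) = C.red b x ^ n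
  | 0 => by simp [C.red_one]
  | n + 1 => by rw [pow_succ, pow_succ, C.red_mul b _ (pow_mem hx n) _ hx, red_pow b hx n]

theorem const_mul_mem (b : Bool) {a : K} (ha : a ∈ A) {x : F} (hx : x ∈ C.G b) :
    ι' a * x ∈ C.G b :=
  mul_mem (C.const_mem b ⟨a, ha⟩) hx

theorem red_const_mul (b : Bool) (a : A) {x : F} (hx : x ∈ C.G b) :
    C.red b (ι' (a : K) * x) = residue A a • C.red b x := by
  rw [C.red_mul b _ (C.const_mem b a) _ hx, C.red_const, Algebra.smul_def]

theorem residue_eq_zero {a : A} (h : a ∈ maximalIdeal A) : residue A a = 0 :=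
  (IsLocalRing.residue_eq_zero_iff a).mpr h

/-- the inverse of a nonintegral constant -/
theorem inv_mem_maximal {c : K} (hc : c ∉ A) :
    ∃ h : c⁻¹ ∈ A, (⟨c⁻¹, h⟩ : A) ∈ maximalIdeal A := by
  refine ⟨(A.mem_or_inv_mem c).resolve_left hc, fun hu => hc ?_⟩
  obtain ⟨u, hu⟩ := hu
  have h1 : ((u⁻¹ : Aˣ) : A) * (u : A) = 1 := u.inv_mul
  rw [hu] at h1
  have h2 := congrArg (Subtype.val) h1
  simp only [MulMemClass.coe_mul, OneMemClass.coe_one] at h2
  have hc0 : c ≠ 0 := by rintro rfl; exact hc A.zero_mem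
  rw [show c = (((u⁻¹ : Aˣ) : A) : K) by field_simp at h2; exact h2.symm]
  exact SetLike.coe_mem _

/-- a unit on a component only has integral multiples by integral constants -/
theorem mem_of_unit_mul (b : Bool) {c : K} {u : F} (hu : u ∈ C.G b) (hr : C.red b u ≠ 0)
    (hcu : ι' c * u ∈ C.G b) : c ∈ A := by
  by_contra hc
  obtain ⟨h, hm⟩ := inv_mem_maximal hc
  have hc0 : c ≠ 0 := by rintro rfl; exact hc A.zero_mem
  have := C.red_const_mul b ⟨c⁻¹, h⟩ hcu
  rw [show (ι' c⁻¹) * (ι' c * u) = u by rw [← mul_assoc, ← map_mul, inv_mul_cancel₀ hc0, map_one,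
    one_mul], residue_eq_zero hm, zero_smul] at this
  exact hr this

theorem inv_mem (b : Bool) {u : F} (hu : u ∈ C.G b) (hr : C.red b u ≠ 0) :
    u⁻¹ ∈ C.G b ∧ C.red b u⁻¹ = (C.red b u)⁻¹ := by
  have hu0 : u ≠ 0 := by rintro rfl; exact hr (C.red_zero b)
  obtain ⟨c, hc, hw, hwr⟩ := C.exists_scale b u⁻¹ (inv_ne_zero hu0)
  have hcA : c ∈ A := by
    refine C.mem_of_unit_mul b (one_mem _) (by rw [C.red_one]; exact one_ne_zero) ?_
    have := mul_mem hw hu
    rwa [mul_assoc, inv_mul_cancel₀ hu0, ← mul_one (ι' c * 1), mul_one] at this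
  have e : C.red b (ι' c * u⁻¹) * C.red b u = algebraMap 𝕜 Fs (residue A ⟨c, hcA⟩) := by
    rw [← C.red_mul b _ hw _ hu, mul_assoc, inv_mul_cancel₀ hu0, mul_one, C.red_const b ⟨c, hcA⟩]
  have hcr : residue A ⟨c, hcA⟩ ≠ 0 := fun h => by
    rw [h, map_zero] at e; exact mul_ne_zero hwr hr e
  have hcu : IsUnit (⟨c, hcA⟩ : A) := by
    by_contra h; exact hcr (residue_eq_zero h)
  obtain ⟨d, hd⟩ := hcu.exists_left_inv
  have hd' : (d : K) * c = 1 := congrArg Subtype.val hd
  have hmem : u⁻¹ ∈ C.G b := by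
    have := C.const_mul_mem b d.2 hw
    rwa [← mul_assoc, ← map_mul, hd', map_one, one_mul] at this
  refine ⟨hmem, ?_⟩
  have h1 := C.red_mul b _ hmem _ hu
  rw [inv_mul_cancel₀ hu0, C.red_one] at h1
  exact eq_inv_of_mul_eq_one_left h1.symm

/-- a nonintegral element is a scalar multiple of an integral one with residue zero -/
theorem exists_small (b : Bool) {x : F} (hx : x ∈ C.G b) (hr : C.red b x = 0) :
    ∃ c : A, c ∈ maximalIdeal A ∧ ∃ y ∈ C.G b, x = ι' (c : K) * y := by
  rcases eq_or_ne x 0 with rfl | hx0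
  · exact ⟨0, zero_mem _, 0, zero_mem _, by simp⟩
  obtain ⟨c, hc, hu, hur⟩ := C.exists_scale b x hx0
  have hcx : ι' c⁻¹ * (ι' c * x) = x := by
    rw [← mul_assoc, ← map_mul, inv_mul_cancel₀ hc, map_one, one_mul]
  have hA : c⁻¹ ∈ A := C.mem_of_unit_mul b hu hur (by rw [hcx]; exact hx)
  refine ⟨⟨c⁻¹, hA⟩, fun hu' => hur ?_, _, hu, hcx.symm⟩
  have h := C.red_const_mul b ⟨c⁻¹, hA⟩ hu
  rw [hcx, hr] at h
  exact (smul_eq_zero.mp h.symm).resolve_left fun h0 =>
    (IsLocalRing.residue_ne_zero_iff_isUnit _).mpr hu' h0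

/-- coordinates in an orthogonal family are integral -/
theorem coeff_mem {d : ℕ} {v : Fin d → F} {a : Bool → K}
    (hv : ∀ b i, ι' (a b) * v i ∈ C.G b)
    (hli : LinearIndependent 𝕜 (fun i b => C.red b (ι' (a b) * v i))) {c : Fin d → K}
    (hx : ∀ b, ι' (a b) * (∑ i, ι' (c i) * v i) ∈ C.G b) : ∀ i, c i ∈ A := by
  classical
  intro i1
  by_contra hi1
  obtain ⟨i, -, hmax⟩ := Finset.exists_max_image Finset.univ
    (fun i : Fin d => A.valuation (c i)) ⟨i1, Finset.mem_univ _⟩
  have hiA : c i ∉ A := fun hA => hi1 ((A.valuation_le_one_iff _).mp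
    ((hmax i1 (Finset.mem_univ _)).trans ((A.valuation_le_one_iff _).mpr hA)))
  have hi0 : c i ≠ 0 := fun h0 => hiA (h0 ▸ A.zero_mem)
  have hmin : ∀ j, c j * (c i)⁻¹ ∈ A := fun j => (A.valuation_le_one_iff _).mp (by
    rw [map_mul, map_inv₀]
    exact mul_inv_le_one_of_le₀ (hmax j (Finset.mem_univ _)) zero_le)
  obtain ⟨hA', hm⟩ := inv_mem_maximal hiA
  set c' : Fin d → A := fun j => ⟨c j * (c i)⁻¹, hmin j⟩ with hc'
  have hsum : ∀ b, ∑ j, residue A (c' j) • C.red b (ι' (a b) * v j) = 0 := by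
    intro b
    have h1 := C.red_const_mul b ⟨(c i)⁻¹, hA'⟩ (hx b)
    rw [residue_eq_zero hm, zero_smul] at h1
    rw [← h1]
    have e1 : ι' (((⟨(c i)⁻¹, hA'⟩ : A) : K)) * (ι' (a b) * ∑ j, ι' (c j) * v j)
        = ∑ j, ι' ((c' j : A) : K) * (ι' (a b) * v j) := by
      rw [Finset.mul_sum, Finset.mul_sum]
      refine Finset.sum_congr rfl fun j _ => ?_
      simp only [hc', map_mul]
      ring
    rw [e1, C.red_sum b _ _ fun j _ => C.const_mul_mem b (c' j).2 (hv b j)]
    exact Finset.sum_congr rfl fun j _ => (C.red_const_mul b _ (hv b j)).symm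
  have hz := Fintype.linearIndependent_iff.mp hli (fun j => residue A (c' j))
    (funext fun b => by
      simpa only [Finset.sum_apply, Pi.smul_apply, Pi.zero_apply] using hsum b) i
  rw [show c' i = 1 from Subtype.ext (mul_inv_cancel₀ hi0), map_one] at hz
  exact one_ne_zero hz

/-- an orthogonal family is independent -/
theorem linearIndependent_of_red {d : ℕ} {v : Fin d → F} {a : Bool → K}
    (hv : ∀ b i, ι' (a b) * v i ∈ C.G b)
    (hli : LinearIndependent 𝕜 (fun i b => C.red b (ι' (a b) * v i))) :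
    LinearIndependent K v := by
  classical
  rw [Fintype.linearIndependent_iff]
  intro c hc i
  by_contra hci
  by_cases hA : ∀ K' : K, K' * c i ∈ A
  · have h0 := hA (c i)⁻¹
    have hall : ∀ t : K, t ∈ A := fun t => by
      have := hA (t * (c i)⁻¹)
      rwa [mul_assoc, inv_mul_cancel₀ hci, mul_one] at this
    have h1 : ∀ j, c j ∈ A := fun j => hall _
    have hu : IsUnit (⟨c i, h1 i⟩ : A) := IsUnit.of_mul_eq_one (⟨(c i)⁻¹, hall _⟩ : A)
      (Subtype.ext (mul_inv_cancel₀ hci))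
    have hsum : ∀ b, ∑ j, residue A ⟨c j, h1 j⟩ • C.red b (ι' (a b) * v j) = 0 := by
      intro b
      rw [Finset.sum_congr rfl fun j _ => (C.red_const_mul b ⟨c j, h1 j⟩ (hv b j)).symm,
        ← C.red_sum b _ _ fun j _ => C.const_mul_mem b (h1 j) (hv b j)]
      rw [show (∑ j, ι' (c j) * (ι' (a b) * v j)) = ι' (a b) * ∑ j, c j • v j by
        rw [Finset.mul_sum]
        exact Finset.sum_congr rfl fun j _ => by rw [Algebra.smul_def]; ring, hc, mul_zero,
        C.red_zero]
    exact (IsLocalRing.residue_ne_zero_iff_isUnit _).mpr hu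
      (Fintype.linearIndependent_iff.mp hli _ (funext fun b => by
        simpa only [Finset.sum_apply, Pi.smul_apply, Pi.zero_apply] using hsum b) i)
  · push Not at hA
    obtain ⟨t, ht⟩ := hA
    refine ht (C.coeff_mem hv hli (c := fun j => t * c j) (fun b => ?_) i)
    rw [show (∑ j, ι' (t * c j) * v j) = ι' t * ∑ j, c j • v j by
      rw [Finset.mul_sum]
      exact Finset.sum_congr rfl fun j _ => by rw [Algebra.smul_def, map_mul]; ring, hc, mul_zero,
      mul_zero]
    exact zero_mem _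

theorem J_ne_zero : C.J ≠ 0 := fun h => C.transc_J (h ▸ isAlgebraic_zero)

theorem Jbar_ne_zero : C.Jbar ≠ 0 := fun h => C.transc_Jbar (h ▸ isAlgebraic_zero)

theorem J_inv_mem (b : Bool) : C.J⁻¹ ∈ C.G b ∧ C.red b C.J⁻¹ = C.Jbar⁻¹ := by
  have h := C.inv_mem b (C.J_mem b) (by rw [C.red_J]; exact C.Jbar_ne_zero)
  rwa [C.red_J] at h

theorem J_zpow_mem (b : Bool) (m : ℕ) :
    (C.J ^ m)⁻¹ ∈ C.G b ∧ C.red b (C.J ^ m)⁻¹ = (C.Jbar ^ m)⁻¹ := by
  rw [← inv_pow, ← inv_pow]
  exact ⟨pow_mem (C.J_inv_mem b).1 m, by rw [C.red_pow b (C.J_inv_mem b).1, (C.J_inv_mem b).2]⟩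

theorem linearIndependent_residue_mul {d : ℕ} {w : Fin d → Bool → Fs} {h : Bool → Fs}
    (hh : ∀ b, h b ≠ 0) (hw : LinearIndependent 𝕜 w) :
    LinearIndependent 𝕜 (fun i b => w i b * h b) := by
  refine (hw.map' (LinearMap.pi fun b => (LinearMap.mulRight 𝕜 (h b)).comp (LinearMap.proj b)) ?_)
  rw [LinearMap.ker_eq_bot]
  intro x y hxy
  funext b
  exact mul_right_cancel₀ (hh b) (congrFun hxy b)

theorem bd_pow_iff {v : Place 𝕜 Fs} {x : Fs} {n : ℕ} (hn : n ≠ 0) {e : ℤ}
    (h : Bd v (x ^ n) (n * e)) : Bd v x e := by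
  rcases eq_or_ne x 0 with rfl | hx
  · exact RR.Bd.zero
  rw [RR.bd_iff_ord (pow_ne_zero n hx), RR.ord_pow] at h
  rw [RR.bd_iff_ord hx]
  have hn1 : (1 : ℤ) ≤ (n : ℤ) := by exact_mod_cast Nat.one_le_iff_ne_zero.mpr hn
  rw [← mul_neg] at h
  exact le_of_mul_le_mul_left h (by omega)

end Core

theorem val_smul {v : Place 𝕜 Fs} {a : Fs} {c r : 𝕜} (h : Val v a c) : Val v (r • a) (r * c) := by
  rw [Algebra.smul_def]; exact (Val.const r).mul h

theorem val_sum {ι : Type*} (s : Finset ι) {v : Place 𝕜 Fs} {a : ι → Fs} {c : ι → 𝕜}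
    (h : ∀ i ∈ s, Val v (a i) (c i)) : Val v (∑ i ∈ s, a i) (∑ i ∈ s, c i) := by
  classical
  induction s using Finset.induction with
  | empty => simpa using Val.zero
  | insert a s ha ih =>
    rw [Finset.sum_insert ha, Finset.sum_insert ha]
    exact (h a (by simp)).add (ih fun i hi => h i (by simp [hi]))

theorem val_prod {ι : Type*} (s : Finset ι) {v : Place 𝕜 Fs} {a : ι → Fs} {c : ι → 𝕜}
    (h : ∀ i ∈ s, Val v (a i) (c i)) : Val v (∏ i ∈ s, a i) (∏ i ∈ s, c i) := by
  classical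
  induction s using Finset.induction with
  | empty => simpa using Val.one
  | insert a s ha ih =>
    rw [Finset.prod_insert ha, Finset.prod_insert ha]
    exact (h a (by simp)).mul (ih fun i hi => h i (by simp [hi]))

end FLTAgent.SS
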