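import Fermat.Agent.SS.Galois
import Fermat.Agent.Attach.Tate
import Fermat.Agent.Attach.Eigen
import Fermat.Agent.Alg.Frobenius
import Fermat.Agent.HeckeJ.Galois

/-!
Pushforward from level `Mq` to level `M` commutes with the Hecke operators on the torsion where
they are given by Frobenius; hence elements vanishing at level `M` give classes killed by both
pushforwards.
-/

set_option autoImplicit false
set_option linter.unusedSectionVars false
set_option synthInstance.maxHeartbeats 200000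
set_option linter.style.haveILetI false

noncomputable section

open ModularCurve AlgebraicCurve
open FLTAgent.Reduction (Qb FB)
open FLTAgent.Attach (GaloisInputs HeckeLattice TFull)

namespace FLTAgent.SS

local notation "GalQ" => AlgebraicClosure ℚ ≃ₐ[ℚ] AlgebraicClosure ℚ

variable (M q : ℕ) [NeZero M] [NeZero q]

/-- pushforward of classes along an embedding of function fields -/
def pushJ (φ : FB M →ₐ[Qb] FB (M * q)) : JZero (M * q) →+ JZero M :=
  QuotientAddGroup.map _ _
    (((Divisor.pushforwardAlong φ (HeckeJ.isIntegralAlong φ)).domRestrict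
      (Divisor.degZero (K := Qb) (F := FB (M * q)))).codRestrict _
        fun D => Divisor.pushforwardAlong_mem_degZero φ (HeckeJ.isIntegralAlong φ) D.2)
    (by
      rintro ⟨D, hD0⟩ hD
      simp only [AddSubgroup.mem_addSubgroupOf] at hD ⊢
      haveI := HeckeJ.hasPrincipalDivisors_bar (M * q)
      exact Divisor.isPrincipal_pushforwardAlong φ (HeckeJ.isIntegralAlong φ) (HeckeJ.finiteAlong φ)
        (HeckeJ.normFormulaAlong φ _) hD)

theorem pushJ_mk (φ : FB M →ₐ[Qb] FB (M * q)) (D : Divisor.degZero (K := Qb) (F := FB (M * q))) :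
    pushJ M q φ (Pic0.mk D) =
      Pic0.mk ⟨Divisor.pushforwardAlong φ (HeckeJ.isIntegralAlong φ) (D : Divisor Qb (FB (M * q))),
        Divisor.pushforwardAlong_mem_degZero φ _ D.2⟩ := rfl

theorem pushJ_smul (φ : FB M →ₐ[Qb] FB (M * q))
    (hφ : ∀ σ : GalQ, SemilinearAut.IntertwinesAlong φ.toRingHom
      (arithmeticGalois (modularFunctionFieldFull M) σ)
      (arithmeticGalois (modularFunctionFieldFull (M * q)) σ))
    (σ : GalQ) (x : JZero (M * q)) : pushJ M q φ (σ • x) = σ • pushJ M q φ x := by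
  obtain ⟨D, rfl⟩ := Pic0.mk_surjective x
  rw [galois_smul_pic0_def, galois_smul_pic0_def, SemilinearAut.pic0_smul_mk, pushJ_mk, pushJ_mk,
    SemilinearAut.pic0_smul_mk]
  refine congrArg Pic0.mk (Subtype.ext ?_)
  simp only [SemilinearAut.coe_degZeroSMulHom]
  exact HeckeJ.pushforwardAlong_smul φ _ (hφ σ) _

theorem killedByPush_of_pushJ {y : JZero (M * q)}
    (hα : pushJ M q (heckeAlphaBar Qb M q) y = 0) (hβ : pushJ M q (heckeBetaBar Qb M q) y = 0) :
    KilledByPush M q y := by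
  intro h1 h2 D hD
  subst hD
  rw [pushJ_mk] at hα hβ
  refine ⟨?_, ?_⟩
  · have := (QuotientAddGroup.eq_zero_iff _).mp hα
    rw [AddSubgroup.mem_addSubgroupOf] at this
    exact this
  · have := (QuotientAddGroup.eq_zero_iff _).mp hβ
    rw [AddSubgroup.mem_addSubgroupOf] at this
    exact this

/-- the primes whose Hecke operators commute with the pushforwards on `p`-power torsion -/
abbrev GoodPrime (p : ℕ) : Type := {ℓ : Nat.Primes // ¬ (ℓ : ℕ) ∣ M * q ∧ (ℓ : ℕ) ≠ p}

/-- the polynomial ring in those operators acting at level `N` -/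
def evalT (p N : ℕ) [NeZero N] (hN : N ∣ M * q) :
    MvPolynomial (GoodPrime M q p) ℤ →+* TFull N :=
  (MvPolynomial.aeval fun ℓ : GoodPrime M q p =>
    CuspForm.heckeAlgebra.T (N := N) (k := 2) ℓ.1.2 (fun h => ℓ.2.1 (h.trans hN))
      (Set.notMem_empty _)).toRingHom

variable {M q}

/-- `T_ℓ = σ + ℓ σ⁻¹` for a Frobenius `σ` -/
theorem hecke_eq_frobenius {N : ℕ} [NeZero N] (G : GaloisInputs N) {ℓ : ℕ} (hℓ : ℓ.Prime)
    (hℓN : ¬ ℓ ∣ N) {A : ValuationSubring (AlgebraicClosure ℚ)} (hA : A.LiesOverPrime ℓ)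
    {σ : GalQ} (hσ : A.IsFrobeniusAt σ ℓ) {n : ℕ} (hn : 0 < n) (hℓn : ¬ ℓ ∣ n) {x : JZero N}
    (hx : n • x = 0) : heckeOperatorBar N ⟨ℓ, hℓ⟩ x = σ • x + ℓ • (σ⁻¹ • x) := by
  have hx' : n • (σ⁻¹ • x) = 0 := by
    rw [smul_comm, hx]; exact smul_zero (A := JZero N) σ⁻¹
  have h := G.frobenius_quadratic ℓ hℓ hℓN A hA σ hσ (σ⁻¹ • x) ⟨n, hn, hℓn, hx'⟩
  rw [smul_inv_smul] at h
  rw [← sub_eq_zero, ← neg_eq_zero, ← h]
  abel

/-- pushforward carries the action of a polynomial in the good operators to the lower level -/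
theorem pushJ_act {p : ℕ} (hp : p.Prime) (D : HeckeLattice (M * q)) (D0 : HeckeLattice M)
    (G : GaloisInputs (M * q)) (G0 : GaloisInputs M) (φ : FB M →ₐ[Qb] FB (M * q))
    (hφ : ∀ σ : GalQ, SemilinearAut.IntertwinesAlong φ.toRingHom
      (arithmeticGalois (modularFunctionFieldFull M) σ)
      (arithmeticGalois (modularFunctionFieldFull (M * q)) σ))
    (P : MvPolynomial (GoodPrime M q p) ℤ) (k : ℕ) : ∀ (v : D.Lam) (w : D0.Lam),
    pushJ M q φ (D.tors (p ^ k) v) = D0.tors (p ^ k) w →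
    pushJ M q φ (D.tors (p ^ k) (D.act (evalT M q p (M * q) dvd_rfl P) v)) =
      D0.tors (p ^ k) (D0.act (evalT M q p M (dvd_mul_right M q) P) w) := by
  induction P using MvPolynomial.induction_on with
  | C a =>
    intro v w h
    simp only [evalT, AlgHom.toRingHom_eq_coe, RingHom.coe_coe, MvPolynomial.algHom_C, map_intCast,
      algebraMap_int_eq, eq_intCast, Module.End.intCast_apply, map_zsmul, h]
  | add P Q hP hQ =>
    intro v w h
    rw [map_add, map_add, map_add, map_add, LinearMap.add_apply, LinearMap.add_apply, map_add,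
      map_add, map_add, hP v w h, hQ v w h]
  | mul_X P ℓ ih =>
    intro v w h
    have hn : 0 < p ^ k := pow_pos hp.pos k
    have hℓn : ¬ (ℓ.1 : ℕ) ∣ p ^ k := fun hd =>
      ℓ.2.2 ((Nat.prime_dvd_prime_iff_eq ℓ.1.2 hp).1 (ℓ.1.2.dvd_of_dvd_pow hd))
    obtain ⟨A, σ, hA, hσ⟩ := Alg.exists_place_frobenius (ℓ.1 : ℕ) ℓ.1.2
    have e : evalT M q p (M * q) dvd_rfl (MvPolynomial.X ℓ) =
        CuspForm.heckeAlgebra.T (k := 2) ℓ.1.2 ℓ.2.1 (Set.notMem_empty _) := by
      simp [evalT]
    have e0 : evalT M q p M (dvd_mul_right M q) (MvPolynomial.X ℓ) =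
        CuspForm.heckeAlgebra.T (k := 2) ℓ.1.2 (fun h => ℓ.2.1 (h.trans (dvd_mul_right M q)))
          (Set.notMem_empty _) := by
      simp [evalT]
    rw [map_mul, map_mul, map_mul, map_mul, Module.End.mul_apply, Module.End.mul_apply, e, e0,
      D.act_T, D0.act_T]
    refine ih _ _ ?_
    rw [D.tors_T _ hn, D0.tors_T _ hn]
    rw [hecke_eq_frobenius G ℓ.1.2 ℓ.2.1 hA hσ hn hℓn (D.nsmul_tors hn v),
      hecke_eq_frobenius G0 ℓ.1.2 (fun hd => ℓ.2.1 (hd.trans (dvd_mul_right M q))) hA hσ hn hℓn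
        (D0.nsmul_tors hn w),
      map_add, map_nsmul, pushJ_smul M q φ hφ, pushJ_smul M q φ hφ, h]

/-- polynomials vanishing at level `M` produce classes killed by both pushforwards -/
theorem killedByPush_act {p : ℕ} (hp : p.Prime) (D : HeckeLattice (M * q)) (D0 : HeckeLattice M)
    (G : GaloisInputs (M * q)) (G0 : GaloisInputs M) (P : MvPolynomial (GoodPrime M q p) ℤ)
    (hP : evalT M q p M (dvd_mul_right M q) P = 0) (k : ℕ) (v : D.Lam) :
    KilledByPush M q (D.tors (p ^ k) (D.act (evalT M q p (M * q) dvd_rfl P) v)) := by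
  have key : ∀ φ : FB M →ₐ[Qb] FB (M * q), (∀ σ : GalQ, SemilinearAut.IntertwinesAlong φ.toRingHom
      (arithmeticGalois (modularFunctionFieldFull M) σ)
      (arithmeticGalois (modularFunctionFieldFull (M * q)) σ)) →
      pushJ M q φ (D.tors (p ^ k) (D.act (evalT M q p (M * q) dvd_rfl P) v)) = 0 := by
    intro φ hφ
    have hn : 0 < p ^ k := pow_pos hp.pos k
    obtain ⟨w, hw⟩ := (D0.nsmul_eq_zero_iff _ hn (pushJ M q φ (D.tors (p ^ k) v))).1 (by
      rw [← map_nsmul, D.nsmul_tors hn, map_zero])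
    rw [pushJ_act hp D D0 G G0 φ hφ P k v w hw.symm, hP, map_zero, LinearMap.zero_apply, map_zero]
  exact killedByPush_of_pushJ M q (key _ (HeckeJ.intertwines_heckeAlphaBar M q))
    (key _ (HeckeJ.intertwines_heckeBetaBar M q))

end FLTAgent.SS
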