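import Fermat.Agent.SS.Twist

/-!
The jump of a twist at the double points. By Riemann–Roch the sections of a twist restrict onto
every pair of functions whose values at each double point lie on one line.
-/

set_option autoImplicit false
set_option linter.unusedSectionVars false

noncomputable section

open AlgebraicCurve IsLocalRing
open FLTAgent.RR (Bd Pol)
open FLTAgent.Reduction (Val)

namespace FLTAgent.SS

variable {K : Type*} [Field K] [IsAlgClosed K] [CharZero K] {A : ValuationSubring K}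
  {F : Type*} [Field F] [Algebra K F] [RR.FnField K F]
  {Fs : Type*} [Field Fs] [Algebra (ResidueField A) Fs]

local notation "𝕜" => ResidueField A
local notation "ι'" => algebraMap K F

namespace Core

variable (C : Core K A F Fs)

/-- the trivial twist -/
def trivialRep (n : ℕ) : Rep C n where
  E := 0
  f := 1
  α := 1
  h := 1
  degree_E := map_zero _
  f_ne := one_ne_zero
  ord_f P := by
    have h : P.ord (1 : F) = 0 := by simpa using RR.ord_algebraMap P (1 : K)
    simp [h]
  α_ne _ := one_ne_zero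
  h_ne _ := one_ne_zero
  mem b := by simp [one_mem]
  red_eq b := by simp [C.red_one]

/-- pairs of functions with bounded poles -/
def P (m : ℕ) : Submodule 𝕜 (Bool → Fs) :=
  Submodule.pi Set.univ fun _ => target (k := 𝕜) C.Jbar m

theorem mem_P {m : ℕ} {a : Bool → Fs} : a ∈ C.P m ↔ ∀ b, a b ∈ target (k := 𝕜) C.Jbar m :=
  ⟨fun h b => h b trivial, fun h b _ => h b⟩

theorem target_mono {m m' : ℕ} (h : m ≤ m') :
    target (k := 𝕜) C.Jbar m ≤ target (k := 𝕜) C.Jbar m' := fun a ha =>
  mem_target.mpr fun Q => (mem_target.mp ha Q).mono (by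
    have h2 : (0 : ℤ) ≤ max (-Q.ord C.Jbar) 0 := le_max_right _ _
    have h3 : (m : ℤ) ≤ m' := by exact_mod_cast h
    nlinarith)

theorem finiteDimensional_P (m : ℕ) : FiniteDimensional 𝕜 (C.P m) := by
  obtain ⟨c, hc⟩ := C.target_bound
  haveI := (hc m).1
  exact Module.Finite.of_injective
    (LinearMap.pi fun b => ((LinearMap.proj b).comp (C.P m).subtype).codRestrict
      (target (k := 𝕜) C.Jbar m) (fun a => C.mem_P.mp a.2 b) :
      C.P m →ₗ[𝕜] (Bool → target (k := 𝕜) C.Jbar m))
    (fun a a' h => Subtype.ext (funext fun b => congrArg Subtype.val (congrFun h b)))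

end Core

namespace Data

variable (D : Data K A F Fs)

/-- restriction onto the glued pairs -/
def Surj : Prop := ∃ m0 : ℕ, ∀ m, m0 ≤ m → ∀ a ∈ D.W m,
  ∃ x ∈ riemannRochSpace (m • Pol (K := K) D.J), (∀ b, x ∈ D.G b) ∧ ∀ b, D.red b x = a b

theorem exists_value {m : ℕ} {a : Fs} (ha : a ∈ target (k := 𝕜) D.Jbar m) (b : Bool) (s : D.ι) :
    ∃ c, Val (D.pt b s) a c := by
  refine Reduction.exists_val (D.hasRes _) ((mem_target.mp ha _).mono ?_)
  have h := (RR.bd_iff_ord D.toCore.Jbar_ne_zero).mp (D.pt_fin b s)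
  rw [show max (-(D.pt b s).ord D.Jbar) 0 = 0 by omega, mul_zero]

/-- values on one branch -/
def value (m : ℕ) (b : Bool) : D.toCore.P m →ₗ[𝕜] (D.ι → 𝕜) where
  toFun a s := (D.exists_value (D.toCore.mem_P.mp a.2 b) b s).choose
  map_add' a a' := funext fun s =>
    (D.exists_value (D.toCore.mem_P.mp (a + a').2 b) b s).choose_spec.unique
      ((D.exists_value (D.toCore.mem_P.mp a.2 b) b s).choose_spec.add
        (D.exists_value (D.toCore.mem_P.mp a'.2 b) b s).choose_spec)
  map_smul' r a := funext fun s =>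
    (D.exists_value (D.toCore.mem_P.mp (r • a).2 b) b s).choose_spec.unique
      (val_smul (D.exists_value (D.toCore.mem_P.mp a.2 b) b s).choose_spec)

theorem value_spec (m : ℕ) (b : Bool) (a : D.toCore.P m) (s : D.ι) :
    Val (D.pt b s) ((a : Bool → Fs) b) (D.value m b a s) :=
  (D.exists_value (D.toCore.mem_P.mp a.2 b) b s).choose_spec

theorem exists_interp : ∃ m0 : ℕ, ∀ m, m0 ≤ m → ∀ b (c : D.ι → 𝕜),
    ∃ a ∈ target (k := 𝕜) D.Jbar m, ∀ s, Val (D.pt b s) a (c s) := by
  classical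
  haveI := D.fintype
  choose m a ha hv using fun p : Bool × D.ι => D.interp p.1 (Pi.single p.2 1)
  refine ⟨Finset.univ.sup m, fun M hM b c => ⟨∑ t, c t • a (b, t),
    sum_mem fun t _ => Submodule.smul_mem _ _ (D.toCore.target_mono
      ((Finset.le_sup (Finset.mem_univ _)).trans hM) (ha (b, t))), fun s => ?_⟩⟩
  have := val_sum (v := D.pt b s) Finset.univ (a := fun t => c t • a (b, t))
    (c := fun t => c t * (Pi.single t (1 : 𝕜) : D.ι → 𝕜) s) (fun t _ => val_smul (hv (b, t) s))
  simpa [Pi.single_apply] using this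

theorem W_le_P (m : ℕ) : D.W m ≤ D.toCore.P m := fun _ ha => D.toCore.mem_P.mpr ha.1

/-- both components vanish at the double points -/
def I (m : ℕ) : Submodule 𝕜 (Bool → Fs) where
  carrier := {a | a ∈ D.toCore.P m ∧ ∀ b s, Val (D.pt b s) (a b) 0}
  zero_mem' := ⟨zero_mem _, fun _ _ => Val.zero⟩
  add_mem' := by
    rintro a a' ⟨h, h'⟩ ⟨g, g'⟩
    exact ⟨add_mem h g, fun b s => by simpa using (h' b s).add (g' b s)⟩
  smul_mem' := by
    rintro r a ⟨h, h'⟩
    exact ⟨Submodule.smul_mem _ r h, fun b s => by simpa using val_smul (r := r) (h' b s)⟩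

variable {D} {n : ℕ} (hn : n ≠ 0) (R : Rep D.toCore n)

/-- the ratio of the values at the two branches of every double point -/
def IsJump (ζ : D.ι → 𝕜) : Prop := ∀ (m : ℕ) (x : F), x ∈ R.L m → R.Integ x →
  ∀ (s : D.ι) (c : 𝕜), Val (D.pt false s) (R.res x false) c →
    Val (D.pt true s) (R.res x true) (ζ s * c)

include hn

theorem pow_value_eq {m : ℕ} {x : F} (hx : x ∈ R.L m) (hx' : R.Integ x) {s : D.ι} {c c' : 𝕜}
    (h : Val (D.pt false s) (R.res x false) c) (h' : Val (D.pt true s) (R.res x true) c') :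
    c ^ n = c' ^ n := by
  obtain ⟨h1, h2⟩ := R.prod_spec (fun _ => x) (fun _ => hx) fun _ => hx'
  obtain ⟨e, he⟩ := D.glue (n * m) _ h1 (fun b => (h2 b).1) s
  have e1 := he false
  have e2 := he true
  rw [(h2 _).2, Finset.prod_const, Finset.card_univ, Fintype.card_fin] at e1 e2
  exact ((h.pow n).unique e1).trans ((h'.pow n).unique e2).symm

theorem T_le_P (m : ℕ) : R.T m ≤ D.toCore.P m := by
  rintro _ ⟨x, hx, hx', rfl⟩
  exact D.toCore.mem_P.mpr fun b => R.res_target hn hx hx' b

theorem trivialRep_T {m : ℕ} (hsurj : ∀ a ∈ D.W m,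
    ∃ x ∈ riemannRochSpace (m • Pol (K := K) D.J), (∀ b, x ∈ D.G b) ∧ ∀ b, D.red b x = a b) :
    (D.toCore.trivialRep n).T m = D.W m := by
  have hL : (D.toCore.trivialRep n).L m = riemannRochSpace (m • Pol (K := K) D.J) := by
    simp [Rep.L, Core.trivialRep]
  have hres : ∀ x, (D.toCore.trivialRep n).res x = fun b => D.red b x := fun x => by
    funext b; simp [Rep.res, Core.trivialRep]
  have hint : ∀ x, (D.toCore.trivialRep n).Integ x ↔ ∀ b, x ∈ D.G b := fun x => by
    simp [Rep.Integ, Core.trivialRep]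
  refine le_antisymm ?_ fun a ha => ?_
  · intro a ha
    obtain ⟨x, hx, hx', rfl⟩ := ha
    refine ⟨fun b => Rep.res_target _ hn hx hx' b, fun s => ?_⟩
    rw [hres]
    exact D.glue m x (hL ▸ hx) ((hint x).mp hx') s
  · obtain ⟨x, hx, hx', hred⟩ := hsurj a ha
    exact ⟨x, hL ▸ hx, (hint x).mpr hx', by rw [hres]; exact funext hred⟩

/-- values on the branch `false`, for sections -/
def valueT (m : ℕ) : R.T m →ₗ[𝕜] (D.ι → 𝕜) :=
  (D.value m false).comp (Submodule.inclusion (T_le_P hn R m))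

theorem value_true_eq_zero {m : ℕ} (a : R.T m) {s : D.ι} (h : valueT hn R m a s = 0) :
    Val (D.pt true s) ((a : Bool → Fs) true) 0 := by
  obtain ⟨x, hx, hx', hxa⟩ := a.2
  have hP := T_le_P hn R m a.2
  have h1 := D.value_spec m false ⟨_, hP⟩ s
  have h2 := D.value_spec m true ⟨_, hP⟩ s
  rw [show D.value m false ⟨_, hP⟩ s = 0 from h] at h1
  have h3 := pow_value_eq hn R hx hx' (by rw [hxa]; exact h1) (by rw [hxa]; exact h2)
  rw [zero_pow hn, eq_comm] at h3
  rw [pow_eq_zero_iff hn] at h3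
  rwa [h3] at h2

theorem ker_valueT_le (m : ℕ) :
    (LinearMap.ker (valueT hn R m)).map (R.T m).subtype ≤ D.I m := by
  rintro _ ⟨a, ha, rfl⟩
  refine ⟨T_le_P hn R m a.2, fun b s => ?_⟩
  have hz : valueT hn R m a s = 0 := by rw [LinearMap.mem_ker.mp ha]; rfl
  cases b
  · have h1 := D.value_spec m false ⟨_, T_le_P hn R m a.2⟩ s
    rwa [show D.value m false ⟨_, T_le_P hn R m a.2⟩ s = 0 from hz] at h1
  · exact value_true_eq_zero hn R a hz

omit hn in
theorem finrank_W {m : ℕ} (hm : ∀ b (c : D.ι → 𝕜),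
    ∃ a ∈ target (k := 𝕜) D.Jbar m, ∀ s, Val (D.pt b s) a (c s)) :
    Module.finrank 𝕜 (D.W m) = Module.finrank 𝕜 (D.ι → 𝕜) + Module.finrank 𝕜 (D.I m) := by
  haveI := D.fintype
  haveI := D.toCore.finiteDimensional_P m
  set φ := (D.value m false).comp (Submodule.inclusion (D.W_le_P m)) with hφ
  haveI : FiniteDimensional 𝕜 (D.W m) := Submodule.finiteDimensional_of_le (D.W_le_P m)
  have hsurj : LinearMap.range φ = ⊤ := by
    rw [LinearMap.range_eq_top]
    intro c
    choose a ha hv using fun b => hm b c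
    have hW : a ∈ D.W m := ⟨ha, fun s => ⟨c s, fun b => hv b s⟩⟩
    exact ⟨⟨a, hW⟩, funext fun s => (D.value_spec m false ⟨a, D.W_le_P m hW⟩ s).unique (hv false s)⟩
  have hker : (LinearMap.ker φ).map (D.W m).subtype = D.I m := by
    refine le_antisymm ?_ fun a ha => ?_
    · rintro _ ⟨a, ha, rfl⟩
      refine ⟨D.W_le_P m a.2, fun b s => ?_⟩
      obtain ⟨c, hc⟩ := a.2.2 s
      have h1 := D.value_spec m false ⟨_, D.W_le_P m a.2⟩ s
      rw [show D.value m false ⟨_, D.W_le_P m a.2⟩ s = 0 from congrFun (LinearMap.mem_ker.mp ha) s]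
        at h1
      rw [(hc false).unique h1] at hc
      exact hc b
    · have hW : a ∈ D.W m := ⟨D.toCore.mem_P.mp ha.1, fun s => ⟨0, fun b => ha.2 b s⟩⟩
      exact ⟨⟨a, hW⟩, LinearMap.mem_ker.mpr (funext fun s =>
        (D.value_spec m false ⟨a, D.W_le_P m hW⟩ s).unique (ha.2 false s)), rfl⟩
  have h := LinearMap.finrank_range_add_finrank_ker φ
  rw [hsurj, finrank_top, ← Submodule.finrank_map_subtype_eq (D.W m) (LinearMap.ker φ), hker] at h
  exact h.symm

/-- for large `m` every vanishing pair is a restriction and the values are arbitrary -/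
theorem exists_large (hS : D.Surj) : ∃ m0 : ℕ, ∀ (R : Rep D.toCore n) (m : ℕ), m0 ≤ m →
    D.I m ≤ R.T m ∧ Function.Surjective (valueT hn R m) := by
  obtain ⟨m1, h1⟩ := hS
  obtain ⟨m2, h2⟩ := D.exists_interp
  obtain ⟨m3, h3⟩ := finrank_twist D.toCore
  refine ⟨max m1 (max m2 m3), fun R m hm => ?_⟩
  haveI := D.fintype
  haveI := D.toCore.finiteDimensional_P m
  haveI : FiniteDimensional 𝕜 (D.I m) :=
    Submodule.finiteDimensional_of_le (fun a ha => ha.1 : D.I m ≤ D.toCore.P m)
  haveI := (R.finrank_T m).1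
  have e1 : Module.finrank 𝕜 (R.T m) = Module.finrank 𝕜 (D.W m) := by
    rw [← trivialRep_T hn (h1 m (by omega)), (R.finrank_T m).2, (Rep.finrank_T _ m).2, Rep.L, Rep.L,
      h3 m (by omega) R.E R.degree_E, h3 m (by omega) _ (D.toCore.trivialRep n).degree_E]
  rw [finrank_W (h2 m (by omega))] at e1
  have h4 := LinearMap.finrank_range_add_finrank_ker (valueT hn R m)
  have h5 := Submodule.finrank_mono (ker_valueT_le hn R m)
  rw [Submodule.finrank_map_subtype_eq] at h5
  have h6 := Submodule.finrank_le (LinearMap.range (valueT hn R m))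
  refine ⟨?_, LinearMap.range_eq_top.mp (Submodule.eq_top_of_finrank_eq (by omega))⟩
  have h7 := Submodule.eq_of_le_of_finrank_eq (ker_valueT_le hn R m)
    (by rw [Submodule.finrank_map_subtype_eq]; omega)
  rw [← h7]
  exact Submodule.map_subtype_le _ _

/-- the jump, and the restrictions of the sections of large twists -/
theorem exists_jump (hS : D.Surj) : ∃ m0 : ℕ, ∀ R : Rep D.toCore n, ∃ ζ : D.ι → 𝕜,
    (∀ s, ζ s ^ n = 1) ∧ IsJump R ζ ∧
    ∀ m, m0 ≤ m → ∀ a ∈ D.toCore.P m, (∀ s c, Val (D.pt false s) (a false) c →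
      Val (D.pt true s) (a true) (ζ s * c)) → a ∈ R.T m := by
  classical
  obtain ⟨m0, hm0⟩ := exists_large hn hS
  refine ⟨m0, fun R => ?_⟩
  haveI := D.fintype
  choose g hg using fun s => (hm0 R m0 le_rfl).2 (Pi.single s (1 : 𝕜))
  have hfalse : ∀ t s, Val (D.pt false s) ((g t : Bool → Fs) false)
      ((Pi.single t (1 : 𝕜) : D.ι → 𝕜) s) := fun t s => by
    have h := D.value_spec m0 false ⟨_, T_le_P hn R m0 (g t).2⟩ s
    rwa [show D.value m0 false ⟨_, T_le_P hn R m0 (g t).2⟩ s
      = (Pi.single t (1 : 𝕜) : D.ι → 𝕜) s from congrFun (hg t) s] at h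
  choose ζ hζ using fun s => D.exists_value (D.toCore.mem_P.mp (T_le_P hn R m0 (g s).2) true) true s
  have htrue : ∀ t s, t ≠ s → Val (D.pt true s) ((g t : Bool → Fs) true) 0 := fun t s hts =>
    value_true_eq_zero hn R (g t) (by rw [hg t, Pi.single_eq_of_ne hts.symm])
  have hpow : ∀ s, ζ s ^ n = 1 := fun s => by
    obtain ⟨x, hx, hx', hxg⟩ := (g s).2
    have h1 := hfalse s s
    rw [Pi.single_eq_same] at h1
    have h := pow_value_eq hn R hx hx' (by rw [hxg]; exact h1) (by rw [hxg]; exact hζ s)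
    rw [one_pow] at h
    exact h.symm
  have key : ∀ (M : ℕ), m0 ≤ M → ∀ a ∈ R.T M, ∀ s c, Val (D.pt false s) (a false) c →
      Val (D.pt true s) (a true) (ζ s * c) := by
    intro M hM a ha s c hc
    set u : Bool → Fs := c • (g s : Bool → Fs) with hu
    have hu' : u ∈ R.T M := Submodule.smul_mem _ _ (R.T_mono hM (g s).2)
    have hd : (a - u) ∈ R.T M := sub_mem ha hu'
    have h0 : valueT hn R M ⟨a - u, hd⟩ s = 0 := by
      refine (D.value_spec M false ⟨_, T_le_P hn R M hd⟩ s).unique ?_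
      have h1 := hc.sub (val_smul (r := c) (hfalse s s))
      rw [Pi.single_eq_same, mul_one, sub_self] at h1
      exact h1
    have h2 := (value_true_eq_zero hn R ⟨a - u, hd⟩ h0).add (val_smul (r := c) (hζ s))
    simpa [hu, mul_comm] using h2
  refine ⟨ζ, hpow, fun m x hx hx' s c hc => ?_, fun m hm a ha hval => ?_⟩
  · exact key (max m m0) (le_max_right _ _) _
      ⟨x, R.L_mono (le_max_left _ _) hx, hx', rfl⟩ s c hc
  · obtain ⟨⟨a', ha'⟩, hv⟩ := (hm0 R m hm).2 (D.value m false ⟨a, ha⟩)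
    have hd : a - a' ∈ D.I m := by
      refine ⟨sub_mem ha (T_le_P hn R m ha'), fun b s => ?_⟩
      have hs := D.value_spec m false ⟨a, ha⟩ s
      have hs' : Val (D.pt false s) (a' false) (D.value m false ⟨a, ha⟩ s) := by
        rw [← hv]; exact D.value_spec m false ⟨a', T_le_P hn R m ha'⟩ s
      cases b
      · simpa using hs.sub hs'
      · simpa using (hval s _ hs).sub (key m hm a' ha' s _ hs')
    simpa using add_mem ((hm0 R m hm).1 hd) ha'

end Data

end FLTAgent.SS
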