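import Fermat.Agent.SS.Count

/-! The jump is multiplicative and commutes with semilinear automorphisms. -/

set_option autoImplicit false
set_option linter.unusedSectionVars false

noncomputable section

open AlgebraicCurve IsLocalRing
open FLTAgent.RR (Bd Pol)
open FLTAgent.Reduction (Val)

namespace FLTAgent.SS

variable {K : Type*} [Field K] [IsAlgClosed K] [CharZero K] {A : ValuationSubring K}
  {F : Type*} [Field F] [Algebra K F] [RR.FnField K F]
  {Fs : Type*} [Field Fs] [Algebra (ResidueField A) Fs]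

local notation "𝕜" => ResidueField A
local notation "ι'" => algebraMap K F

namespace Rep

variable {C : Core K A F Fs} {n : ℕ}

/-- sum of two twists -/
def mul (R R' : Rep C n) : Rep C n where
  E := R.E + R'.E
  f := R.f * R'.f
  α := R.α * R'.α
  h := R.h * R'.h
  degree_E := by rw [map_add, R.degree_E, R'.degree_E, add_zero]
  f_ne := mul_ne_zero R.f_ne R'.f_ne
  ord_f P := by rw [Finsupp.add_apply, mul_add, R.ord_f, R'.ord_f, P.ord_mul R.f_ne R'.f_ne]
  α_ne b := mul_ne_zero (R.α_ne b) (R'.α_ne b)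
  h_ne b := mul_ne_zero (R.h_ne b) (R'.h_ne b)
  mem b := by
    rw [Pi.mul_apply, mul_pow, map_mul, mul_inv, mul_mul_mul_comm]
    exact mul_mem (R.mem b) (R'.mem b)
  red_eq b := by
    rw [Pi.mul_apply, mul_pow, map_mul, mul_inv, mul_mul_mul_comm,
      C.red_mul b _ (R.mem b) _ (R'.mem b), R.red_eq, R'.red_eq, Pi.mul_apply, mul_pow]

theorem red_ne (R : Rep C n) (b : Bool) : C.red b ((ι' (R.α b ^ n))⁻¹ * R.f) ≠ 0 := by
  rw [R.red_eq]; exact pow_ne_zero _ (R.h_ne b)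

/-- opposite twist -/
def inv (R : Rep C n) : Rep C n where
  E := -R.E
  f := R.f⁻¹
  α := R.α⁻¹
  h := R.h⁻¹
  degree_E := by rw [map_neg, R.degree_E, neg_zero]
  f_ne := inv_ne_zero R.f_ne
  ord_f P := by rw [Finsupp.neg_apply, mul_neg, R.ord_f, P.ord_inv]
  α_ne b := inv_ne_zero (R.α_ne b)
  h_ne b := inv_ne_zero (R.h_ne b)
  mem b := by
    rw [Pi.inv_apply, inv_pow, map_inv₀, ← mul_inv]
    exact (C.inv_mem b (R.mem b) (R.red_ne b)).1
  red_eq b := by
    rw [Pi.inv_apply, inv_pow, map_inv₀, ← mul_inv, (C.inv_mem b (R.mem b) (R.red_ne b)).2,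
      R.red_eq, Pi.inv_apply, inv_pow]

theorem ord_gJ {g : SemilinearAut K F} {gs : Fs ≃+* Fs} (hg : Compat C g gs) (P : Place K F) :
    P.ord C.J = (g⁻¹ • P).ord C.J := by
  have h := SemilinearAut.ord_smul g (g⁻¹ • P) C.J
  rwa [smul_inv_smul, hg.J_eq] at h

/-- transport by a semilinear automorphism -/
def map (R : Rep C n) {g : SemilinearAut K F} {gs : Fs ≃+* Fs} (hg : Compat C g gs) :
    Rep C n where
  E := g • R.E
  f := g • R.f
  α b := SemilinearAut.baseAut g (R.α b)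
  h b := gs (R.h b)
  degree_E := by rw [SemilinearAut.degree_smul, R.degree_E]
  f_ne := (smul_ne_zero_iff_ne g).mpr R.f_ne
  ord_f P := by
    have h := SemilinearAut.ord_smul g (g⁻¹ • P) R.f
    rw [smul_inv_smul] at h
    rw [SemilinearAut.divisor_smul_apply, R.ord_f, h]
  α_ne b := (_root_.map_ne_zero _).mpr (R.α_ne b)
  h_ne b := (_root_.map_ne_zero _).mpr (R.h_ne b)
  mem b := by
    rw [← map_pow, ← SemilinearAut.smul_algebraMap, ← smul_inv'', ← smul_mul']
    exact hg.mem b _ (R.mem b)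
  red_eq b := by
    rw [← map_pow, ← SemilinearAut.smul_algebraMap, ← smul_inv'', ← smul_mul',
      hg.red b _ (R.mem b), R.red_eq, map_pow]

end Rep

namespace Data

variable {D : Data K A F Fs} {n : ℕ} (hn : n ≠ 0)

/-- `E` is the divisor of a twist with jump `ζ` -/
def HasJump (D : Data K A F Fs) (n : ℕ) (E : Divisor K F) (ζ : D.ι → 𝕜) : Prop :=
  ∃ R : Rep D.toCore n, R.E = E ∧ IsJump R ζ

theorem isJump_congr {R R' : Rep D.toCore n} {ζ : D.ι → 𝕜} (hE : R.E = R'.E) (hα : R.α = R'.α)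
    (hh : R.h = R'.h) (h : IsJump R ζ) : IsJump R' ζ := by
  intro m x hx hx' s c hc
  have hL : x ∈ R.L m := by rw [Rep.L, hE]; exact hx
  have hI : R.Integ x := fun b => by rw [hα]; exact hx' b
  have hres : R.res x = R'.res x := funext fun b => by simp only [Rep.res, hα, hh]
  have h' := h m x hL hI s c (by rw [hres]; exact hc)
  rwa [hres] at h'

include hn

theorem exists_nonzero (hS : D.Surj) (R : Rep D.toCore n) (s : D.ι) :
    ∃ (m : ℕ) (x : F), x ∈ R.L m ∧ R.Integ x ∧ ∃ c, c ≠ 0 ∧ Val (D.pt false s) (R.res x false) c := by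
  classical
  obtain ⟨m0, hm0⟩ := exists_large hn hS
  obtain ⟨⟨a, x, hx, hx', rfl⟩, ha⟩ := (hm0 R m0 le_rfl).2 (Pi.single s (1 : 𝕜))
  refine ⟨m0, x, hx, hx', 1, one_ne_zero, ?_⟩
  have h := D.value_spec m0 false ⟨_, T_le_P hn R m0 ⟨x, hx, hx', rfl⟩⟩ s
  have e : D.value m0 false ⟨_, T_le_P hn R m0 ⟨x, hx, hx', rfl⟩⟩ s = 1 := by
    have := congrFun ha s
    rwa [Pi.single_eq_same] at this
  rwa [e] at h

theorem isJump_unique (hS : D.Surj) {R : Rep D.toCore n} {ζ ζ' : D.ι → 𝕜} (h : IsJump R ζ)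
    (h' : IsJump R ζ') : ζ = ζ' := funext fun s => by
  obtain ⟨m, x, hx, hx', c, hc, hv⟩ := exists_nonzero hn hS R s
  exact mul_right_cancel₀ hc ((h m x hx hx' s c hv).unique (h' m x hx hx' s c hv))

theorem exists_isJump (hS : D.Surj) (R : Rep D.toCore n) :
    ∃ ζ : D.ι → 𝕜, (∀ s, ζ s ^ n = 1) ∧ IsJump R ζ := by
  obtain ⟨m0, h⟩ := exists_jump hn hS
  obtain ⟨ζ, h1, h2, -⟩ := h R
  exact ⟨ζ, h1, h2⟩

theorem isJump_mul (hS : D.Surj) {R R' : Rep D.toCore n} {ζ ζ' : D.ι → 𝕜} (h : IsJump R ζ)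
    (h' : IsJump R' ζ') : IsJump (R.mul R') (ζ * ζ') := by
  obtain ⟨η, -, hη⟩ := exists_isJump hn hS (R.mul R')
  suffices η = ζ * ζ' by rwa [this] at hη
  funext s
  obtain ⟨m, x, hx, hx', c, hc, hv⟩ := exists_nonzero hn hS R s
  obtain ⟨m', y, hy, hy', c', hc', hv'⟩ := exists_nonzero hn hS R' s
  have hL : x * y ∈ (R.mul R').L (m + m') := fun P => by
    refine (RR.Bd.mul (mem_rr.mp hx P) (mem_rr.mp hy P)).mono (le_of_eq ?_)
    simp [Rep.mul, add_mul]
    ring
  have e : ∀ b, ι' ((R.mul R').α b) * (x * y) = (ι' (R.α b) * x) * (ι' (R'.α b) * y) := fun b => by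
    simp only [Rep.mul, Pi.mul_apply, map_mul]; ring
  have hI : (R.mul R').Integ (x * y) := fun b => by rw [e]; exact mul_mem (hx' b) (hy' b)
  have hres : ∀ b, (R.mul R').res (x * y) b = R.res x b * R'.res y b := fun b => by
    simp only [Rep.res]
    rw [e, D.red_mul b _ (hx' b) _ (hy' b)]
    simp only [Rep.mul, Pi.mul_apply]
    ring
  have h1 := hη _ _ hL hI s (c * c') (by rw [hres]; exact hv.mul hv')
  rw [hres] at h1
  have h2 := h1.unique ((h m x hx hx' s c hv).mul (h' m' y hy hy' s c' hv'))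
  refine mul_right_cancel₀ (mul_ne_zero hc hc') ?_
  rw [h2, Pi.mul_apply]
  ring

omit hn in
theorem isJump_trivialRep : IsJump (D.toCore.trivialRep n) 1 := by
  intro m x hx hx' s c hc
  have hres : ∀ b, (D.toCore.trivialRep n).res x b = D.red b x := fun b => by
    simp [Rep.res, Core.trivialRep]
  have hx0 : x ∈ riemannRochSpace (m • Pol (K := K) D.J) := by
    simpa [Rep.L, Core.trivialRep] using hx
  obtain ⟨e, he⟩ := D.glue m x hx0 (fun b => by
    simpa [Rep.Integ, Core.trivialRep] using hx' b) s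
  rw [hres] at hc ⊢
  rw [(he false).unique hc] at he
  simpa using he true

theorem isJump_inv (hS : D.Surj) {R : Rep D.toCore n} {ζ : D.ι → 𝕜} (h : IsJump R ζ) :
    IsJump R.inv ζ⁻¹ := by
  obtain ⟨η, hη1, hη⟩ := exists_isJump hn hS R.inv
  suffices η = ζ⁻¹ by rwa [this] at hη
  have h1 : IsJump (D.toCore.trivialRep n) (ζ * η) :=
    isJump_congr (by simp [Rep.mul, Rep.inv, Core.trivialRep])
      (funext fun b => by simp [Rep.mul, Rep.inv, Core.trivialRep, mul_inv_cancel₀ (R.α_ne b)])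
      (funext fun b => by simp [Rep.mul, Rep.inv, Core.trivialRep, mul_inv_cancel₀ (R.h_ne b)])
      (isJump_mul hn hS h hη)
  have h2 := isJump_unique hn hS h1 isJump_trivialRep
  funext s
  exact eq_inv_of_mul_eq_one_right (congrFun h2 s)

theorem isJump_map (hS : D.Surj) {R : Rep D.toCore n} {ζ : D.ι → 𝕜} (h : IsJump R ζ)
    {g : SemilinearAut K F} {gs : Fs ≃+* Fs} (hg : Compat D.toCore g gs) {χ : 𝕜 →+* 𝕜}
    (hpt : ∀ b s z c, Val (D.pt b s) z c → Val (D.pt b s) (gs z) (χ c)) :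
    IsJump (R.map hg) (fun s => χ (ζ s)) := by
  obtain ⟨η, -, hη⟩ := exists_isJump hn hS (R.map hg)
  suffices η = fun s => χ (ζ s) by rwa [this] at hη
  funext s
  obtain ⟨m, x, hx, hx', c, hc, hv⟩ := exists_nonzero hn hS R s
  have hL : g • x ∈ (R.map hg).L m := fun P => by
    show Bd P (g • x) _
    rw [RR.bd_iff]
    rcases eq_or_ne x 0 with rfl | hx0
    · left; rw [smul_zero]
    right
    have h1 := (RR.bd_iff_ord hx0).mp (mem_rr.mp hx (g⁻¹ • P))
    have h2 := SemilinearAut.ord_smul g (g⁻¹ • P) x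
    rw [smul_inv_smul] at h2
    rw [h2]
    simp only [Finsupp.add_apply, Finsupp.smul_apply, RR.Pol_apply, Rep.map,
      SemilinearAut.divisor_smul_apply, ← Rep.ord_gJ hg P] at h1 ⊢
    exact h1
  have e : ∀ b, ι' ((R.map hg).α b) * (g • x) = g • (ι' (R.α b) * x) := fun b => by
    rw [smul_mul', SemilinearAut.smul_algebraMap]; rfl
  have hI : (R.map hg).Integ (g • x) := fun b => by rw [e]; exact hg.mem b _ (hx' b)
  have hres : ∀ b, (R.map hg).res (g • x) b = gs (R.res x b) := fun b => by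
    simp only [Rep.res]
    rw [e, hg.red b _ (hx' b), map_mul]
    rfl
  have h1 := hη _ _ hL hI s (χ c) (by rw [hres]; exact hpt _ _ _ _ hv)
  rw [hres] at h1
  have h2 := h1.unique (hpt _ _ _ _ (h m x hx hx' s c hv))
  rw [map_mul] at h2
  exact mul_right_cancel₀ ((_root_.map_ne_zero χ).mpr hc) h2

theorem HasJump.add (hS : D.Surj) {E E' : Divisor K F} {ζ ζ' : D.ι → 𝕜} (h : D.HasJump n E ζ)
    (h' : D.HasJump n E' ζ') : D.HasJump n (E + E') (ζ * ζ') := by
  obtain ⟨R, rfl, hR⟩ := h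
  obtain ⟨R', rfl, hR'⟩ := h'
  exact ⟨R.mul R', rfl, isJump_mul hn hS hR hR'⟩

theorem HasJump.neg (hS : D.Surj) {E : Divisor K F} {ζ : D.ι → 𝕜} (h : D.HasJump n E ζ) :
    D.HasJump n (-E) ζ⁻¹ := by
  obtain ⟨R, rfl, hR⟩ := h
  exact ⟨R.inv, rfl, isJump_inv hn hS hR⟩

omit hn in
theorem HasJump.zero : D.HasJump n 0 1 :=
  ⟨D.toCore.trivialRep n, rfl, isJump_trivialRep⟩

theorem HasJump.nsmul (hS : D.Surj) {E : Divisor K F} {ζ : D.ι → 𝕜} (h : D.HasJump n E ζ) :
    ∀ j : ℕ, D.HasJump n (j • E) (ζ ^ j)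
  | 0 => by simpa using HasJump.zero
  | j + 1 => by rw [succ_nsmul, pow_succ]; exact (HasJump.nsmul hS h j).add hn hS h

theorem HasJump.map (hS : D.Surj) {E : Divisor K F} {ζ : D.ι → 𝕜} (h : D.HasJump n E ζ)
    {g : SemilinearAut K F} {gs : Fs ≃+* Fs} (hg : Compat D.toCore g gs) {χ : 𝕜 →+* 𝕜}
    (hpt : ∀ b s z c, Val (D.pt b s) z c → Val (D.pt b s) (gs z) (χ c)) :
    D.HasJump n (g • E) (fun s => χ (ζ s)) := by
  obtain ⟨R, rfl, hR⟩ := h
  exact ⟨R.map hg, rfl, isJump_map hn hS hR hg hpt⟩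

end Data

end FLTAgent.SS
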