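import Fermat.Agent.SS.Repr
import Fermat.Agent.Reduction.Independence

/-!
The two components of `X₀(Mq)` at `q ∤ M` as a `SS.Core`: residue maps, scales, orthogonal bases,
bounded poles.
-/

set_option autoImplicit false
set_option linter.unusedSectionVars false
set_option synthInstance.maxHeartbeats 200000
set_option linter.style.haveILetI false
set_option linter.unusedVariables false

noncomputable section

open ModularCurve AlgebraicCurve Polynomial IsLocalRing
open FLTAgent.Reduction
open FLTAgent.RR (Bd KK)

namespace FLTAgent.SS

variable {M q : ℕ} [NeZero M] [NeZero q] {A : ValuationSubring Qb} (C : Ctx A M q)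
include C

/-- functions on the special fibre without poles are constant -/
theorem exists_const_of_regular {x : FS A M} (h : ∀ Q : PS A M, Bd Q x 0) :
    ∃ c : kA A, x = algebraMap (kA A) (FS A M) c := by
  have hb : ∀ s, x ∈ regOn (kA A) (tS A M s) := fun s Q _ => h Q
  have h1 : BS A M true x := (BS_iff C).mpr (hb true)
  have halg := isAlgebraic_of_isIntegral_both (K := kA A) (t := jS A M) (x := x)
    ((BS_iff C).mpr (hb false)) h1
  have hd := IsAlgClosed.degree_eq_one_of_irreducible (kA A) (minpoly.irreducible halg.isIntegral)
  obtain ⟨c, hc⟩ := minpoly.mem_range_of_degree_eq_one (kA A) x hd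
  exact ⟨c, hc.symm⟩

set_option maxHeartbeats 1600000 in
open Classical in
theorem finrank_boundedOn_count (S : Multiset (PS A M)) :
    FiniteDimensional (kA A) (RR.boundedOn (fun _ => True) (fun Q : PS A M => (S.count Q : ℤ))) ∧
      Module.finrank (kA A) (RR.boundedOn (fun _ => True) (fun Q : PS A M => (S.count Q : ℤ)))
        ≤ Multiset.card S + 1 := by
  induction S using Multiset.induction_on with
  | empty =>
    have hle : RR.boundedOn (fun _ => True) (fun Q : PS A M => ((0 : Multiset (PS A M)).count Q : ℤ))
        ≤ (kA A) ∙ (1 : FS A M) := by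
      intro f hf
      obtain ⟨c, rfl⟩ := exists_const_of_regular C fun Q => by simpa using hf Q trivial
      exact Submodule.mem_span_singleton.mpr ⟨c, by rw [Algebra.smul_def, mul_one]⟩
    refine ⟨Submodule.finiteDimensional_of_le hle, (Submodule.finrank_mono hle).trans ?_⟩
    rw [finrank_span_singleton one_ne_zero]
    simp
  | cons v S ih =>
    obtain ⟨hfin, hrank⟩ := ih
    set V := RR.boundedOn (fun _ => True) (fun Q : PS A M => (S.count Q : ℤ)) with hV
    set V' := RR.boundedOn (fun _ => True) (fun Q : PS A M => ((v ::ₘ S).count Q : ℤ)) with hV'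
    by_cases h : V' ≤ V
    · exact ⟨Submodule.finiteDimensional_of_le h, ((Submodule.finrank_mono h).trans hrank).trans
        (by rw [Multiset.card_cons]; omega)⟩
    obtain ⟨u, hu, hu'⟩ := SetLike.not_le_iff_exists.mp h
    have hsup : V' = V ⊔ (kA A) ∙ u :=
      RR.boundedOn_step (hasRes_S C v) trivial (by simp)
        (fun w _ hw => by simp [Multiset.count_cons_of_ne hw]) hu hu'
    rw [hsup]
    refine ⟨inferInstance, (Submodule.finrank_add_le_finrank_add_finrank _ _).trans ?_⟩
    rw [Multiset.card_cons, finrank_span_singleton (K := kA A) (v := u) (by rintro rfl; exact hu' (zero_mem V))]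
    omega

theorem exists_target_bound : ∃ C' : ℕ, ∀ m,
    FiniteDimensional (kA A) (target (k := kA A) (JS M q A) m) ∧
      Module.finrank (kA A) (target (k := kA A) (JS M q A) m) ≤ C' * (m + 1) := by
  classical
  have hj := tS_ne_zero A M false
  have hT : {Q : PS A M | Q.ord (JS M q A) < 0}.Finite := by
    refine (finite_ord_S C true hj).subset fun Q hQ => ?_
    have h1 : Q.ord (tS A M false) < 0 := by
      have : Q.ord (JS M q A) = ((q + 1 : ℕ) : ℤ) * Q.ord (tS A M false) := RR.ord_pow _ _ _
      have h' : Q.ord (JS M q A) < 0 := hQ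
      rw [this] at h'
      by_contra hc
      push Not at hc
      exact absurd h' (not_lt.mpr (mul_nonneg (Int.natCast_nonneg _) hc))
    refine ⟨?_, h1.ne⟩
    rw [RR.bd_iff_ord (tS_ne_zero A M true), show tS A M true = (tS A M false)⁻¹ from rfl, Q.ord_inv]
    omega
  let S : Multiset (PS A M) :=
    ∑ Q ∈ hT.toFinset, Multiset.replicate (-Q.ord (JS M q A)).toNat Q
  have hS : ∀ Q, (S.count Q : ℤ) = max (-Q.ord (JS M q A)) 0 := by
    intro Q
    have : S.count Q = (-Q.ord (JS M q A)).toNat := by
      simp only [S, Multiset.count_sum', Multiset.count_replicate]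
      rw [Finset.sum_ite_eq']
      split_ifs with h
      · rfl
      · simp only [Set.Finite.mem_toFinset, Set.mem_ofPred_eq, not_lt] at h
        omega
    rw [this, Int.toNat_eq_max]
  refine ⟨Multiset.card S + 1, fun m => ?_⟩
  obtain ⟨hfin, hrank⟩ := finrank_boundedOn_count C (m • S)
  have heq : target (k := kA A) (JS M q A) m =
      RR.boundedOn (fun _ => True) (fun Q : PS A M => ((m • S).count Q : ℤ)) := by
    refine congrArg _ (funext fun Q => ?_)
    rw [Multiset.count_nsmul, Nat.cast_mul, hS]
  rw [heq]
  refine ⟨hfin, hrank.trans ?_⟩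
  rw [Multiset.card_nsmul]
  nlinarith

/-- the two components of the fibre at `q` -/
def fibreCore : Core Qb A (FB (M * q)) (FS A M) where
  G := GS M q A
  red := redM M q A
  red_add b x hx y hy := ((isRed_redM C hx).add (isRed_redM C hy)).eq
  red_mul b x hx y hy := ((isRed_redM C hx).mul (isRed_redM C hy)).eq
  red_one b := IsRed.one.eq
  const_mem b a := (IsRed.const a).1
  red_const b a := (IsRed.const a).eq
  exists_scale b x hx := exists_scale C b hx
  exists_basis a ha V hV := exists_orth_basis C a ha V
  J := Jfn M q
  Jbar := JS M q A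
  transc_J := transcendental_Jfn C
  transc_Jbar := transcendental_JS
  J_mem b := (isRed_J C b).1
  red_J b := (isRed_J C b).eq
  hasRes := hasRes_S C
  target_bound := exists_target_bound C
  pole_bound m x hx hG b := pole_bound C m hx hG b

end FLTAgent.SS
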