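import Mathlib

/-!
Two charts degenerating over a valuation ring: the abstract lemmas.

`F` is a vector space over the fraction field `K` of a valuation ring `A` (functions, or twisted
sections), `O` the sections integral on every component of the special fibre, `r` their residue in a
`k`-vector space `E`, `V0`, `Vinf` the generic sections on the two charts, `J` the coordinate.
-/

set_option autoImplicit false
set_option linter.unusedSectionVars false
set_option linter.style.haveILetI false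

noncomputable section

open IsLocalRing
open scoped Pointwise

namespace FLTAgent.SS

/-- The data of a two chart degeneration. -/
structure ChartPair (A K k F E : Type*) [CommRing A] [Field K] [Field k] [AddCommGroup F]
    [Module A F] [Module K F] [AddCommGroup E] [Module k E] where
  /-- residue field map -/
  pi : A →+* k
  pi_surjective : Function.Surjective pi
  /-- the coordinate on the generic fibre -/
  J : F ≃ₗ[K] F
  /-- the coordinate on the special fibre -/
  Jb : E ≃ₗ[k] E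
  /-- sections integral on every component -/
  O : Submodule A F
  /-- residue, only relevant on `O` -/
  r : F → E
  r_add : ∀ x ∈ O, ∀ y ∈ O, r (x + y) = r x + r y
  r_smul : ∀ (a : A), ∀ x ∈ O, r (a • x) = pi a • r x
  J_mem : ∀ x, J x ∈ O ↔ x ∈ O
  r_J : ∀ x ∈ O, r (J x) = Jb (r x)
  /-- sections on the first chart -/
  V0 : Submodule K F
  /-- sections on the second chart -/
  Vinf : Submodule K F
  J_V0 : ∀ x ∈ V0, J x ∈ V0
  J_symm_Vinf : ∀ x ∈ Vinf, J.symm x ∈ Vinf

namespace ChartPair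

variable {A K k F E : Type*} [CommRing A] [IsDomain A] [ValuationRing A] [Field K] [Algebra A K]
  [IsFractionRing A K] [Field k] [AddCommGroup F] [Module A F] [Module K F] [IsScalarTower A K F]
  [AddCommGroup E] [Module k E] (D : ChartPair A K k F E)

/-! ### powers of the coordinate -/

theorem pow_add_apply {R M : Type*} [Semiring R] [AddCommMonoid M] [Module R M] (e : M ≃ₗ[R] M)
    (a b : ℕ) (x : M) : (e ^ (a + b)) x = (e ^ a) ((e ^ b) x) := by
  rw [pow_add]; rfl

theorem symm_pow_add {R M : Type*} [Semiring R] [AddCommMonoid M] [Module R M] (e : M ≃ₗ[R] M)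
    (a b : ℕ) (x : M) : (e ^ (a + b)).symm ((e ^ a) x) = (e ^ b).symm x := by
  rw [LinearEquiv.symm_apply_eq, pow_add_apply, LinearEquiv.apply_symm_apply]

theorem symm_pow_succ {R M : Type*} [Semiring R] [AddCommMonoid M] [Module R M] (e : M ≃ₗ[R] M)
    (a : ℕ) (x : M) : (e ^ (a + 1)).symm x = e.symm ((e ^ a).symm x) := by
  rw [LinearEquiv.symm_apply_eq, pow_add_apply, pow_one, LinearEquiv.apply_symm_apply,
    LinearEquiv.apply_symm_apply]

theorem pow_mem (n : ℕ) (x : F) : (D.J ^ n) x ∈ D.O ↔ x ∈ D.O := by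
  induction n with
  | zero => simp
  | succ n ih => rw [pow_succ', LinearEquiv.mul_apply, D.J_mem, ih]

theorem symm_pow_mem (n : ℕ) (x : F) : (D.J ^ n).symm x ∈ D.O ↔ x ∈ D.O := by
  rw [← D.pow_mem n, LinearEquiv.apply_symm_apply]

theorem r_pow (n : ℕ) {x : F} (hx : x ∈ D.O) : D.r ((D.J ^ n) x) = (D.Jb ^ n) (D.r x) := by
  induction n with
  | zero => simp
  | succ n ih =>
    rw [pow_succ', LinearEquiv.mul_apply, D.r_J _ ((D.pow_mem n x).mpr hx), ih, pow_succ',
      LinearEquiv.mul_apply]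

theorem r_symm_pow (n : ℕ) {x : F} (hx : x ∈ D.O) :
    D.r ((D.J ^ n).symm x) = (D.Jb ^ n).symm (D.r x) := by
  rw [eq_comm, LinearEquiv.symm_apply_eq, ← D.r_pow n ((D.symm_pow_mem n x).mpr hx),
    LinearEquiv.apply_symm_apply]

theorem pow_V0 (n : ℕ) {x : F} (hx : x ∈ D.V0) : (D.J ^ n) x ∈ D.V0 := by
  induction n with
  | zero => simpa using hx
  | succ n ih => rw [pow_succ', LinearEquiv.mul_apply]; exact D.J_V0 _ ih

theorem symm_pow_Vinf (n : ℕ) {x : F} (hx : x ∈ D.Vinf) : (D.J ^ n).symm x ∈ D.Vinf := by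
  induction n with
  | zero => exact hx
  | succ n ih => rw [symm_pow_succ]; exact D.J_symm_Vinf _ ih

theorem r_zero : D.r 0 = 0 := by
  have h := D.r_smul 0 0 (zero_mem _)
  rwa [zero_smul, map_zero, zero_smul] at h

theorem r_sub {x y : F} (hx : x ∈ D.O) (hy : y ∈ D.O) : D.r (x - y) = D.r x - D.r y := by
  have h := D.r_add (x - y) (sub_mem hx hy) y hy
  rw [sub_add_cancel] at h
  rw [h, add_sub_cancel_right]

theorem r_sum {ι : Type*} (s : Finset ι) (g : ι → F) (hg : ∀ i ∈ s, g i ∈ D.O) :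
    D.r (∑ i ∈ s, g i) = ∑ i ∈ s, D.r (g i) := by
  classical
  induction s using Finset.induction_on with
  | empty => simp [D.r_zero]
  | insert a s ha ih =>
    rw [Finset.sum_insert ha, Finset.sum_insert ha, D.r_add _ (hg a (by simp)) _
      (sum_mem fun i hi => hg i (by simp [hi])), ih fun i hi => hg i (by simp [hi])]

theorem ker_pi : RingHom.ker D.pi = maximalIdeal A := by
  haveI := RingHom.ker_isMaximal_of_surjective D.pi D.pi_surjective
  exact IsLocalRing.eq_maximalIdeal inferInstance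

theorem pi_eq_zero {d : A} (hd : ¬ IsUnit d) : D.pi d = 0 := by
  have h : d ∈ RingHom.ker D.pi := by rw [D.ker_pi]; exact hd
  exact h

/-! ### the modules -/

/-- residues of the sections integral on a chart -/
def image (V : Submodule K F) : Submodule k E where
  carrier := {y | ∃ x, x ∈ D.O ∧ x ∈ V ∧ D.r x = y}
  add_mem' := by
    rintro _ _ ⟨x, hx, hx', rfl⟩ ⟨y, hy, hy', rfl⟩
    exact ⟨x + y, add_mem hx hy, add_mem hx' hy', D.r_add x hx y hy⟩
  zero_mem' := ⟨0, zero_mem _, zero_mem _, D.r_zero⟩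
  smul_mem' := by
    rintro c _ ⟨x, hx, hx', rfl⟩
    obtain ⟨a, rfl⟩ := D.pi_surjective c
    exact ⟨a • x, D.O.smul_mem a hx, by
      rw [← IsScalarTower.algebraMap_smul K a x]; exact V.smul_mem _ hx', D.r_smul a x hx⟩

/-- residues on the first chart -/
def M0 : Submodule k E := D.image D.V0

/-- residues on the second chart -/
def Minf : Submodule k E := D.image D.Vinf

/-- integral sections with pole order at most `n` -/
def L (n : ℕ) : Submodule A F where
  carrier := {x | x ∈ D.O ∧ x ∈ D.V0 ∧ (D.J ^ n).symm x ∈ D.Vinf}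
  add_mem' := by
    rintro x y ⟨a, b, c⟩ ⟨a', b', c'⟩
    exact ⟨add_mem a a', add_mem b b', by rw [map_add]; exact add_mem c c'⟩
  zero_mem' := ⟨zero_mem _, zero_mem _, by rw [map_zero]; exact zero_mem _⟩
  smul_mem' := by
    rintro a x ⟨hx, hx', hx''⟩
    refine ⟨D.O.smul_mem a hx, ?_, ?_⟩
    · rw [← IsScalarTower.algebraMap_smul K a x]; exact D.V0.smul_mem _ hx'
    · rw [← IsScalarTower.algebraMap_smul K a x, map_smul]; exact D.Vinf.smul_mem _ hx''

theorem mem_L {n : ℕ} {x : F} :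
    x ∈ D.L n ↔ x ∈ D.O ∧ x ∈ D.V0 ∧ (D.J ^ n).symm x ∈ D.Vinf := Iff.rfl

/-- the special fibre counterpart of `L` -/
def T (n : ℕ) : Submodule k E := D.M0 ⊓ D.Minf.comap ((D.Jb ^ n).symm : E →ₗ[k] E)

theorem mem_T {n : ℕ} {y : E} : y ∈ D.T n ↔ y ∈ D.M0 ∧ (D.Jb ^ n).symm y ∈ D.Minf := Iff.rfl

/-- residues of `L` -/
def RL (n : ℕ) : Submodule k E where
  carrier := {y | ∃ x ∈ D.L n, D.r x = y}
  add_mem' := by
    rintro _ _ ⟨x, hx, rfl⟩ ⟨y, hy, rfl⟩
    exact ⟨x + y, add_mem hx hy, D.r_add x hx.1 y hy.1⟩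
  zero_mem' := ⟨0, zero_mem _, D.r_zero⟩
  smul_mem' := by
    rintro c _ ⟨x, hx, rfl⟩
    obtain ⟨a, rfl⟩ := D.pi_surjective c
    exact ⟨a • x, (D.L n).smul_mem a hx, D.r_smul a x hx.1⟩

theorem RL_le_T (n : ℕ) : D.RL n ≤ D.T n := by
  rintro _ ⟨x, ⟨hx, hx', hx''⟩, rfl⟩
  exact ⟨⟨x, hx, hx', rfl⟩, ⟨_, (D.symm_pow_mem n x).mpr hx, hx'', D.r_symm_pow n hx⟩⟩

theorem L_mono {n n' : ℕ} (h : n ≤ n') : D.L n ≤ D.L n' := by
  rintro x ⟨hx, hx', hx''⟩
  refine ⟨hx, hx', ?_⟩
  obtain ⟨d, rfl⟩ := Nat.exists_eq_add_of_le h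
  rw [← LinearEquiv.apply_symm_apply (D.J ^ n) x, symm_pow_add]
  exact D.symm_pow_Vinf d hx''

theorem Jb_M0 {y : E} (hy : y ∈ D.M0) : D.Jb y ∈ D.M0 := by
  obtain ⟨x, hx, hx', rfl⟩ := hy
  exact ⟨D.J x, (D.J_mem x).mpr hx, D.J_V0 x hx', D.r_J x hx⟩

theorem Jb_symm_Minf {y : E} (hy : y ∈ D.Minf) : D.Jb.symm y ∈ D.Minf := by
  obtain ⟨x, hx, hx', rfl⟩ := hy
  have h := D.r_symm_pow 1 hx
  have hm := (D.symm_pow_mem 1 x).mpr hx
  rw [pow_one, pow_one] at h
  rw [pow_one] at hm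
  exact ⟨_, hm, D.J_symm_Vinf x hx', h⟩

theorem T_le_succ (n : ℕ) : D.T n ≤ D.T (n + 1) := fun y hy =>
  ⟨hy.1, by show (D.Jb ^ (n + 1)).symm y ∈ D.Minf; rw [symm_pow_succ]; exact D.Jb_symm_Minf hy.2⟩

theorem Jb_T {n : ℕ} {y : E} (hy : y ∈ D.T n) : D.Jb y ∈ D.T (n + 1) := by
  refine ⟨D.Jb_M0 hy.1, ?_⟩
  show (D.Jb ^ (n + 1)).symm (D.Jb y) ∈ D.Minf
  have h := symm_pow_add D.Jb 1 n y
  rw [pow_one] at h
  rw [add_comm n 1, h]
  exact hy.2

/-! ### (a) surjectivity of reduction -/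

theorem T_succ_eq {n : ℕ} [FiniteDimensional k (D.T (n + 1))] [FiniteDimensional k (D.T (n + 2))]
    [FiniteDimensional k (D.T n)]
    (hlin : Module.finrank k (D.T n) + Module.finrank k (D.T (n + 2))
      = 2 * Module.finrank k (D.T (n + 1))) :
    D.T (n + 2) = D.T (n + 1) ⊔ (D.T (n + 1)).map (D.Jb : E →ₗ[k] E) := by
  set P := (D.T (n + 1)).map (D.Jb : E →ₗ[k] E) with hP
  have hPle : P ≤ D.T (n + 2) := by
    rintro _ ⟨y, hy, rfl⟩
    exact D.Jb_T hy
  have hinf : D.T (n + 1) ⊓ P ≤ (D.T n).map (D.Jb : E →ₗ[k] E) := by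
    rintro _ ⟨h1, y, hy, rfl⟩
    refine ⟨y, ⟨hy.1, ?_⟩, rfl⟩
    have h2 : (D.Jb ^ (n + 1)).symm (D.Jb y) ∈ D.Minf := h1.2
    have h3 := symm_pow_add D.Jb 1 n y
    rw [pow_one] at h3
    rw [add_comm n 1, h3] at h2
    exact h2
  refine (Submodule.eq_of_le_of_finrank_le
    (sup_le (show D.T (n + 1) ≤ D.T (n + 2) from D.T_le_succ (n + 1)) hPle) ?_).symm
  have h4 := Submodule.finrank_sup_add_finrank_inf_eq (D.T (n + 1)) P
  have h5 := Submodule.finrank_mono hinf
  rw [LinearEquiv.finrank_map_eq] at h5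
  have h6 : Module.finrank k P = Module.finrank k (D.T (n + 1)) := by
    rw [hP, LinearEquiv.finrank_map_eq]
  omega

/-- (a): for `n` large reduction maps `L n` onto `T n`. -/
theorem exists_RL_eq_T (m : ℕ) (hfin : ∀ n, m ≤ n → FiniteDimensional k (D.T n))
    (hlin : ∀ n, m ≤ n → Module.finrank k (D.T n) + Module.finrank k (D.T (n + 2))
      = 2 * Module.finrank k (D.T (n + 1)))
    (hexh0 : ∀ x ∈ D.O, x ∈ D.V0 → ∃ e : ℕ, (D.J ^ e).symm x ∈ D.Vinf)
    (hexhinf : ∀ x ∈ D.O, x ∈ D.Vinf → ∃ e : ℕ, (D.J ^ e) x ∈ D.V0) :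
    ∃ n0, ∀ n, n0 ≤ n → D.RL n = D.T n := by
  classical
  set m1 := m + 1 with hm1
  haveI := hfin m1 (by omega)
  have hgen : ∀ d, D.T (m1 + d) ≤ Submodule.span k
      {y | ∃ i ≤ d, ∃ x ∈ D.T m1, (D.Jb ^ i) x = y} := by
    intro d
    induction d with
    | zero => exact fun x hx => Submodule.subset_span ⟨0, le_rfl, x, hx, by simp⟩
    | succ d ih =>
      haveI := hfin (m + d) (by omega)
      haveI := hfin (m + d + 1) (by omega)
      haveI := hfin (m + d + 2) (by omega)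
      have h := D.T_succ_eq (hlin (m + d) (by omega))
      rw [show m + d + 2 = m1 + (d + 1) by omega, show m + d + 1 = m1 + d by omega] at h
      rw [h]
      refine sup_le (ih.trans (Submodule.span_mono ?_)) ((Submodule.map_mono ih).trans ?_)
      · rintro y ⟨i, hi, x, hx, rfl⟩
        exact ⟨i, hi.trans d.le_succ, x, hx, rfl⟩
      · rw [Submodule.map_span, Submodule.span_le]
        rintro _ ⟨_, ⟨i, hi, x, hx, rfl⟩, rfl⟩
        exact Submodule.subset_span ⟨i + 1, by omega, x, hx, by rw [pow_succ']; rfl⟩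
  have hkey : ∀ x ∈ D.T m1, ∃ N, ∀ d, N ≤ d → ∀ i ≤ d, (D.Jb ^ i) x ∈ D.RL (m1 + d) := by
    intro x hx
    obtain ⟨u, hu, hu', hux⟩ := hx.1
    obtain ⟨v, hv, hv', hvx⟩ := hx.2
    obtain ⟨e0, he0⟩ := hexh0 u hu hu'
    obtain ⟨e1, he1⟩ := hexhinf v hv hv'
    refine ⟨e0 + e1, fun d hd i hi => ?_⟩
    by_cases hcase : i + e0 ≤ m1 + d
    · refine ⟨(D.J ^ i) u, ⟨(D.pow_mem i u).mpr hu, D.pow_V0 i hu', ?_⟩,
        by rw [D.r_pow i hu, hux]⟩
      obtain ⟨s, hs⟩ := Nat.exists_eq_add_of_le hcase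
      rw [hs, add_assoc, symm_pow_add, ← LinearEquiv.apply_symm_apply (D.J ^ e0) u, symm_pow_add]
      exact D.symm_pow_Vinf s he0
    · refine ⟨(D.J ^ (i + m1)) v, ⟨(D.pow_mem _ v).mpr hv, ?_, ?_⟩, ?_⟩
      · obtain ⟨s, hs⟩ := Nat.exists_eq_add_of_le (show e1 ≤ i + m1 by omega)
        rw [hs, add_comm e1 s, pow_add_apply]
        exact D.pow_V0 s he1
      · obtain ⟨s, hs⟩ := Nat.exists_eq_add_of_le (show i + m1 ≤ m1 + d by omega)
        rw [hs, symm_pow_add]
        exact D.symm_pow_Vinf s hv'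
      · rw [D.r_pow _ hv, hvx, pow_add_apply]
        exact congrArg _ (LinearEquiv.apply_symm_apply _ _)
  obtain ⟨G, hG⟩ := (Submodule.fg_iff_finiteDimensional (D.T m1)).mpr inferInstance
  have hGm : ∀ x : G, (x : E) ∈ D.T m1 := fun x => hG ▸ Submodule.subset_span x.2
  choose N hN using fun x : G => hkey x (hGm x)
  refine ⟨m1 + Finset.univ.sup N, fun n hn => le_antisymm (D.RL_le_T n) ?_⟩
  obtain ⟨d, rfl⟩ := Nat.exists_eq_add_of_le (show m1 ≤ n by omega)
  refine (hgen d).trans (Submodule.span_le.mpr ?_)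
  rintro _ ⟨i, hi, x, hx, rfl⟩
  have hle : D.T m1 ≤ (D.RL (m1 + d)).comap ((D.Jb ^ i : E ≃ₗ[k] E) : E →ₗ[k] E) := by
    rw [← hG, Submodule.span_le]
    intro y hy
    have hNy : N ⟨y, hy⟩ ≤ Finset.univ.sup N := Finset.le_sup (Finset.mem_univ _)
    exact hN ⟨y, hy⟩ d (by omega) i hi
  exact hle hx

/-- reduction is injective modulo the maximal ideal -/
def KerRed (n : ℕ) : Prop := ∀ x ∈ D.L n, D.r x = 0 → x ∈ (maximalIdeal A) • D.L n

/-- the rank of `L n` is the dimension of `T n` -/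
theorem finrank_T_eq {n : ℕ} (hT : D.RL n = D.T n) (hker : D.KerRed n) [Module.Free A (D.L n)]
    [Module.Finite A (D.L n)] :
    Module.finrank k (D.T n) = Module.finrank A (D.L n) := by
  classical
  let b := Module.Free.chooseBasis A (D.L n)
  have hli : LinearIndependent k (fun i => D.r (b i : F)) := by
    rw [Fintype.linearIndependent_iff]
    intro g hg i
    choose a ha using fun j => D.pi_surjective (g j)
    have hx : D.r ((∑ j, a j • b j : D.L n) : F) = 0 := by
      rw [Submodule.coe_sum]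
      simp only [Submodule.coe_smul]
      rw [D.r_sum _ (fun j => a j • (b j : F)) (fun j _ => D.O.smul_mem _ (b j).2.1)]
      rw [← hg]
      exact Finset.sum_congr rfl fun j _ => by rw [D.r_smul _ _ (b j).2.1, ha]
    have h := hker _ (∑ j, a j • b j : D.L n).2 hx
    have h2 : ((∑ j, a j • b j : D.L n) : F)
        ∈ (maximalIdeal A • (⊤ : Submodule A (D.L n))).map (D.L n).subtype := by
      rwa [Submodule.map_smul'', Submodule.map_subtype_top]
    obtain ⟨z, hz, hz'⟩ := h2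
    have hrep : ∀ z ∈ maximalIdeal A • (⊤ : Submodule A (D.L n)),
        b.repr z i ∈ maximalIdeal A := by
      intro z hz
      refine Submodule.smul_induction_on hz (fun c hc y _ => ?_) (fun u v hu hv => ?_)
      · rw [map_smul, Finsupp.smul_apply, smul_eq_mul]
        exact Ideal.mul_mem_right _ _ hc
      · rw [map_add, Finsupp.add_apply]
        exact add_mem hu hv
    have hi := hrep z hz
    have hzz : z = ∑ j, a j • b j := Subtype.ext hz'
    rw [hzz, b.repr_sum_self] at hi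
    rw [← ha i]
    exact D.pi_eq_zero hi
  have hspan : Submodule.span k (Set.range fun i => D.r (b i : F)) = D.T n := by
    rw [← hT]
    refine le_antisymm (Submodule.span_le.mpr ?_) ?_
    · rintro _ ⟨i, rfl⟩
      exact ⟨_, (b i).2, rfl⟩
    · rintro _ ⟨x, hx, rfl⟩
      have hsum : x = ∑ i, b.repr ⟨x, hx⟩ i • (b i : F) := by
        have h0 : ((∑ i, b.repr ⟨x, hx⟩ i • b i : D.L n) : F) = x :=
          congrArg Subtype.val (b.sum_repr ⟨x, hx⟩)
        simp only [Submodule.coe_sum, Submodule.coe_smul] at h0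
        exact h0.symm
      rw [hsum, D.r_sum _ _ (fun j _ => D.O.smul_mem _ (b j).2.1)]
      refine Submodule.sum_mem _ fun j _ => ?_
      rw [D.r_smul _ _ (b j).2.1]
      exact Submodule.smul_mem _ _ (Submodule.subset_span ⟨j, rfl⟩)
  rw [← hspan, finrank_span_eq_card hli, Module.finrank_eq_card_chooseBasisIndex]

/-! ### (b) saturation -/

theorem exists_dvd_all {ι : Type*} (a : ι → A) (s : Finset ι) (hs : s.Nonempty) :
    ∃ i ∈ s, ∀ j ∈ s, a i ∣ a j := by
  classical
  induction hs using Finset.Nonempty.cons_induction with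
  | singleton i => exact ⟨i, by simp, by simp⟩
  | cons i s hi hs ih =>
    obtain ⟨j, hj, hj'⟩ := ih
    rcases ValuationRing.dvd_total (a i) (a j) with h | h
    · exact ⟨i, by simp, fun l hl => by
        rcases Finset.mem_cons.mp hl with rfl | hl
        · exact dvd_rfl
        · exact h.trans (hj' l hl)⟩
    · exact ⟨j, by simp [hj], fun l hl => by
        rcases Finset.mem_cons.mp hl with rfl | hl
        · exact h
        · exact hj' l hl⟩

/-- (b): an element of `L n'` congruent modulo `c` to a section of `Jⁿ` times the second chart lies in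
`L n + c L n'`. -/
theorem saturation {n n' : ℕ} (hn : n ≤ n') (hT : D.RL n = D.T n) (hker : D.KerRed n')
    (hfg : (D.L n').FG) {c : A} {u w : F} (hu : u ∈ D.L n') (hw : w ∈ D.O)
    (h : (D.J ^ n).symm (u - c • w) ∈ D.Vinf) :
    ∃ v ∈ D.L n, ∃ z ∈ D.L n', u = v + c • z := by
  classical
  rcases eq_or_ne c 0 with rfl | hc
  · rw [zero_smul, sub_zero] at h
    exact ⟨u, ⟨hu.1, hu.2.1, h⟩, 0, zero_mem _, by simp⟩
  obtain ⟨G, hG⟩ := hfg
  have hGL : ∀ g ∈ G, g ∈ D.L n' := fun g hg => hG ▸ Submodule.subset_span hg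
  let q : E →ₗ[k] E ⧸ D.T n := (D.T n).mkQ
  obtain ⟨b, hbt, hbspan, hbli⟩ := exists_linearIndependent k ((fun g => q (D.r g)) '' (G : Set F))
  haveI : Fintype b := (((G.finite_toSet).image _).subset hbt).fintype
  choose l hlG hl using fun y : b => hbt y.2
  replace hl : ∀ y : b, q (D.r (l y)) = (y : E ⧸ D.T n) := hl
  have hlL : ∀ y : b, l y ∈ D.L n' := fun y => hGL _ (hlG y)
  have hcomb : ∀ a : b → A, (∑ y, a y • l y) ∈ D.L n' ∧
      q (D.r (∑ y, a y • l y)) = ∑ y, D.pi (a y) • (y : E ⧸ D.T n) := fun a => by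
    refine ⟨sum_mem fun y _ => (D.L n').smul_mem _ (hlL y), ?_⟩
    rw [D.r_sum _ _ (fun y _ => D.O.smul_mem _ (hlL y).1), map_sum]
    exact Finset.sum_congr rfl fun y _ => by rw [D.r_smul _ _ (hlL y).1, map_smul, hl]
  set S := Submodule.span A (Set.range l) with hS
  have hbig : D.L n' ≤ D.L n ⊔ S := by
    refine Submodule.le_of_le_smul_of_le_jacobson_bot (I := maximalIdeal A) ⟨G, hG⟩
      (IsLocalRing.jacobson_eq_maximalIdeal ⊥ bot_ne_top).ge fun x hx => ?_
    have hxb : q (D.r x) ∈ Submodule.span k b := by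
      rw [hbspan]
      have hx' : x ∈ Submodule.span A (G : Set F) := hG ▸ hx
      obtain ⟨f, -, rfl⟩ := Submodule.mem_span_finset.mp hx'
      rw [D.r_sum _ _ (fun g hg => D.O.smul_mem _ (hGL g hg).1), map_sum]
      refine Submodule.sum_mem _ fun g hg => ?_
      rw [D.r_smul _ _ (hGL g hg).1, map_smul]
      exact Submodule.smul_mem _ _ (Submodule.subset_span ⟨g, hg, rfl⟩)
    rw [show Submodule.span k b = Submodule.span k (Set.range ((↑) : b → E ⧸ D.T n)) by
      rw [Subtype.range_coe]] at hxb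
    obtain ⟨cy, hcy⟩ := (Submodule.mem_span_range_iff_exists_fun k).mp hxb
    choose a ha using fun y => D.pi_surjective (cy y)
    obtain ⟨hs1, hs2⟩ := hcomb a
    have hmem : D.r (x - ∑ y, a y • l y) ∈ D.T n := by
      rw [← Submodule.Quotient.mk_eq_zero, ← Submodule.mkQ_apply]
      show q _ = 0
      rw [D.r_sub hx.1 hs1.1, map_sub, hs2, sub_eq_zero, ← hcy]
      simp only [ha]
    obtain ⟨v, hv, hvr⟩ := hT.ge hmem
    have hv' := D.L_mono hn hv
    have hk := hker (x - ∑ y, a y • l y - v) (sub_mem (sub_mem hx hs1) hv') (by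
      rw [D.r_sub (sub_mem hx.1 hs1.1) hv'.1, hvr, sub_self])
    have hxe : x = (v + ∑ y, a y • l y) + (x - ∑ y, a y • l y - v) := by abel
    rw [hxe]
    refine add_mem (Submodule.mem_sup_left (add_mem (Submodule.mem_sup_left hv)
      (Submodule.mem_sup_right ?_))) (Submodule.mem_sup_right hk)
    exact sum_mem fun y _ => Submodule.smul_mem _ _ (Submodule.subset_span ⟨y, rfl⟩)
  obtain ⟨v, hv, s, hs, hus⟩ := Submodule.mem_sup.mp (hbig hu)
  obtain ⟨a, rfl⟩ := (Submodule.mem_span_range_iff_exists_fun A).mp hs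
  by_cases hall : ∀ y, c ∣ a y
  · choose a' ha' using hall
    refine ⟨v, hv, ∑ y, a' y • l y, (hcomb a').1, ?_⟩
    rw [← hus, Finset.smul_sum]
    exact congrArg _ (Finset.sum_congr rfl fun y _ => by rw [ha', mul_smul])
  exfalso
  push Not at hall
  obtain ⟨y1, hy1⟩ := hall
  obtain ⟨y0, -, hy0⟩ := exists_dvd_all a Finset.univ ⟨y1, Finset.mem_univ _⟩
  have hcg : ¬ c ∣ a y0 := fun h' => hy1 (h'.trans (hy0 y1 (Finset.mem_univ _)))
  obtain ⟨d, hd⟩ := (ValuationRing.dvd_total c (a y0)).resolve_left hcg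
  have hdu : ¬ IsUnit d := fun hdu => hcg (by
    obtain ⟨d, rfl⟩ := hdu
    exact ⟨↑d⁻¹, by rw [hd, mul_assoc, Units.mul_inv, mul_one]⟩)
  have hg0 : a y0 ≠ 0 := fun h0 => hc (by rw [hd, h0, zero_mul])
  choose e he using fun y => hy0 y (Finset.mem_univ y)
  have he0 : e y0 = 1 := mul_left_cancel₀ hg0 (by rw [← he y0, mul_one])
  obtain ⟨he1, he2⟩ := hcomb e
  set q' := ∑ y, e y • l y with hq'
  have hsum : ∑ y, a y • l y = a y0 • q' := by
    rw [hq', Finset.smul_sum]
    exact Finset.sum_congr rfl fun y _ => by rw [← mul_smul, ← he y]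
  have hzO : q' - d • w ∈ D.O := sub_mem he1.1 (D.O.smul_mem d hw)
  have hzV : (D.J ^ n).symm (q' - d • w) ∈ D.Vinf := by
    have h' : u - c • w = v + a y0 • (q' - d • w) := by
      rw [← hus, hsum, smul_sub, ← mul_smul, ← hd]; abel
    rw [h', map_add] at h
    have h2 := sub_mem h hv.2.2
    rw [add_sub_cancel_left, ← IsScalarTower.algebraMap_smul K, map_smul] at h2
    have hne : algebraMap A K (a y0) ≠ 0 := fun h0 => hg0 (IsFractionRing.injective A K (by simpa using h0))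
    have h3 := D.Vinf.smul_mem (algebraMap A K (a y0))⁻¹ h2
    rwa [inv_smul_smul₀ hne] at h3
  have hrz : D.r (q' - d • w) = D.r q' := by
    rw [D.r_sub he1.1 (D.O.smul_mem d hw), D.r_smul d w hw, D.pi_eq_zero hdu, zero_smul, sub_zero]
  have hT' : D.r q' ∈ D.T n := ⟨⟨q', he1.1, he1.2.1, rfl⟩,
    ⟨_, (D.symm_pow_mem n _).mpr hzO, hzV, by rw [D.r_symm_pow n hzO, hrz]; rfl⟩⟩
  have h0 : q (D.r q') = 0 := (Submodule.Quotient.mk_eq_zero _).mpr hT'
  rw [he2] at h0
  have h1 := Fintype.linearIndependent_iff.mp hbli (fun y => D.pi (e y)) h0 y0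
  simp [he0] at h1

end ChartPair

end FLTAgent.SS
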