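import Fermat.Agent.SS.Degeneration

/-!
Codimension of the special fibre modules inside larger ones.
-/

set_option autoImplicit false
set_option linter.unusedSectionVars false
set_option linter.style.haveILetI false

noncomputable section

namespace FLTAgent.SS.ChartPair

variable {A K k F E : Type*} [CommRing A] [IsDomain A] [ValuationRing A] [Field K] [Algebra A K]
  [IsFractionRing A K] [Field k] [AddCommGroup F] [Module A F] [Module K F] [IsScalarTower A K F]
  [AddCommGroup E] [Module k E] (D : ChartPair A K k F E) (N0 Ninf : Submodule k E)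

/-- `T` for a pair of larger modules -/
def Tbig (n : ℕ) : Submodule k E := N0 ⊓ Ninf.comap ((D.Jb ^ n).symm : E →ₗ[k] E)

/-- `Tbig n → N0/M0 × Ninf/Minf` -/
def defect (n : ℕ) : D.Tbig N0 Ninf n →ₗ[k]
    (N0 ⧸ D.M0.comap N0.subtype) × (Ninf ⧸ D.Minf.comap Ninf.subtype) :=
  LinearMap.prod
    ((D.M0.comap N0.subtype).mkQ ∘ₗ
      ((D.Tbig N0 Ninf n).subtype.codRestrict N0 fun y => y.2.1))
    ((D.Minf.comap Ninf.subtype).mkQ ∘ₗ
      ((((D.Jb ^ n).symm : E →ₗ[k] E) ∘ₗ (D.Tbig N0 Ninf n).subtype).codRestrict Ninf fun y => y.2.2))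

theorem ker_defect (h0 : D.M0 ≤ N0) (hinf : D.Minf ≤ Ninf) (n : ℕ) :
    (LinearMap.ker (D.defect N0 Ninf n)).map (D.Tbig N0 Ninf n).subtype = D.T n := by
  ext y
  constructor
  · rintro ⟨z, hz, rfl⟩
    rw [SetLike.mem_coe, LinearMap.mem_ker, defect, LinearMap.prod_apply, Prod.mk_eq_zero] at hz
    refine ⟨?_, ?_⟩
    · exact (Submodule.Quotient.mk_eq_zero (D.M0.comap N0.subtype)).mp hz.1
    · exact (Submodule.Quotient.mk_eq_zero (D.Minf.comap Ninf.subtype)).mp hz.2
  · intro hy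
    refine ⟨⟨y, h0 hy.1, hinf hy.2⟩, ?_, rfl⟩
    rw [SetLike.mem_coe, LinearMap.mem_ker, defect, LinearMap.prod_apply, Prod.mk_eq_zero]
    exact ⟨(Submodule.Quotient.mk_eq_zero _).mpr hy.1, (Submodule.Quotient.mk_eq_zero _).mpr hy.2⟩

/-- eventually the defect map is onto, so the codimension of `T n` is constant -/
theorem exists_finrank_T_add (h0 : D.M0 ≤ N0) (hinf : D.Minf ≤ Ninf)
    [FiniteDimensional k (N0 ⧸ D.M0.comap N0.subtype)]
    [FiniteDimensional k (Ninf ⧸ D.Minf.comap Ninf.subtype)]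
    (m : ℕ) (hfin : ∀ n, m ≤ n → FiniteDimensional k (D.Tbig N0 Ninf n))
    (hexh0 : ∀ x ∈ N0, ∃ e : ℕ, (D.Jb ^ e).symm x ∈ D.Minf)
    (hexhinf : ∀ x ∈ Ninf, ∃ e : ℕ, (D.Jb ^ e) x ∈ D.M0) :
    ∃ n1, ∀ n, n1 ≤ n → FiniteDimensional k (D.T n) ∧
      Module.finrank k (D.T n) + Module.finrank k (N0 ⧸ D.M0.comap N0.subtype)
          + Module.finrank k (Ninf ⧸ D.Minf.comap Ninf.subtype)
        = Module.finrank k (D.Tbig N0 Ninf n) := by
  classical
  have hM : ∀ e d, ∀ y, (D.Jb ^ e).symm y ∈ D.Minf → (D.Jb ^ (e + d)).symm y ∈ D.Minf := by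
    intro e d y hy
    induction d with
    | zero => exact hy
    | succ d ih => rw [← add_assoc, symm_pow_succ]; exact D.Jb_symm_Minf ih
  have hM' : ∀ e d, ∀ y, (D.Jb ^ e) y ∈ D.M0 → (D.Jb ^ (e + d)) y ∈ D.M0 := by
    intro e d y hy
    induction d with
    | zero => exact hy
    | succ d ih => rw [← add_assoc, pow_succ', LinearEquiv.mul_apply]; exact D.Jb_M0 ih
  set b := Module.finBasis k (N0 ⧸ D.M0.comap N0.subtype)
  set c := Module.finBasis k (Ninf ⧸ D.Minf.comap Ninf.subtype)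
  choose x hx using fun i => Submodule.mkQ_surjective _ (b i)
  choose y hy using fun i => Submodule.mkQ_surjective _ (c i)
  choose e he using fun i => hexh0 (x i) (x i).2
  choose e' he' using fun i => hexhinf (y i) (y i).2
  refine ⟨max m (max (Finset.univ.sup e) (Finset.univ.sup e')), fun n hn => ?_⟩
  haveI := hfin n (by omega)
  have hle : D.T n ≤ D.Tbig N0 Ninf n := fun z hz => ⟨h0 hz.1, hinf hz.2⟩
  refine ⟨Submodule.finiteDimensional_of_le hle, ?_⟩
  have hb : ∀ i, ((b i, 0) : _ × _) ∈ LinearMap.range (D.defect N0 Ninf n) := by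
    intro i
    obtain ⟨d, hd⟩ := Nat.exists_eq_add_of_le
      (show e i ≤ n by have := Finset.le_sup (f := e) (Finset.mem_univ i); omega)
    have h1 : (D.Jb ^ n).symm (x i : E) ∈ D.Minf := hd ▸ hM _ d _ (he i)
    refine ⟨⟨(x i : E), (x i).2, hinf h1⟩, Prod.ext ?_ ?_⟩
    · exact hx i
    · exact (Submodule.Quotient.mk_eq_zero _).mpr h1
  have hc : ∀ i, ((0, c i) : _ × _) ∈ LinearMap.range (D.defect N0 Ninf n) := by
    intro i
    obtain ⟨d, hd⟩ := Nat.exists_eq_add_of_le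
      (show e' i ≤ n by have := Finset.le_sup (f := e') (Finset.mem_univ i); omega)
    have h1 : (D.Jb ^ n) (y i : E) ∈ D.M0 := hd ▸ hM' _ d _ (he' i)
    refine ⟨⟨(D.Jb ^ n) (y i : E), h0 h1, ?_⟩, Prod.ext ?_ ?_⟩
    · show (D.Jb ^ n).symm ((D.Jb ^ n) (y i : E)) ∈ Ninf
      rw [LinearEquiv.symm_apply_apply]
      exact (y i).2
    · exact (Submodule.Quotient.mk_eq_zero _).mpr h1
    · refine Eq.trans ?_ (hy i)
      exact congrArg Submodule.Quotient.mk (Subtype.ext (LinearEquiv.symm_apply_apply _ _))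
  have hsurj : LinearMap.range (D.defect N0 Ninf n) = ⊤ := by
    rw [eq_top_iff, ← (b.prod c).span_eq, Submodule.span_le]
    rintro _ ⟨i | i, rfl⟩
    · simpa [Prod.ext_iff] using hb i
    · simpa [Prod.ext_iff] using hc i
  have h1 := LinearMap.finrank_range_add_finrank_ker (D.defect N0 Ninf n)
  rw [hsurj, finrank_top, Module.finrank_prod,
    ← Submodule.finrank_map_subtype_eq, D.ker_defect N0 Ninf h0 hinf n] at h1
  omega

end FLTAgent.SS.ChartPair
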