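import Fermat.Agent.SS.Chart

/-!
The double points: the pairs of restrictions of a chart are exactly the pairs of regular functions
with equal values at the two branches of finitely many points.
-/

set_option autoImplicit false
set_option linter.unusedSectionVars false
set_option synthInstance.maxHeartbeats 200000
set_option linter.style.haveILetI false
set_option maxHeartbeats 1600000

noncomputable section

open ModularCurve AlgebraicCurve Polynomial IsLocalRing
open FLTAgent.Reduction
open FLTAgent.RR (Bd KK)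

namespace FLTAgent.SS

variable {M q : ℕ} [NeZero M] [NeZero q] {A : ValuationSubring Qb} (C : Ctx A M q)
include C

/-- a function regular at `v` times a suitable regular function not vanishing at `v` is regular -/
theorem exists_denom {s : Bool} {v : PS A M} (hv : Bd v (tS A M s) 0) {h : FS A M} (hh : Bd v h 0) :
    ∃ r ∈ regOn (kA A) (tS A M s), ¬ Bd v r (-1) ∧ r * h ∈ regOn (kA A) (tS A M s) := by
  classical
  haveI := finite_tS C s
  haveI := separable_tS C s
  rcases eq_or_ne h 0 with rfl | h0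
  · refine ⟨1, one_mem _, ?_, by rw [mul_zero]; exact zero_mem _⟩
    rw [RR.bd_iff_ord one_ne_zero, v.ord_one]; omega
  have hfin : {w : PS A M | Bd w (tS A M s) 0 ∧ ¬ Bd w h 0}.Finite :=
    (finite_ord_S C s h0).subset fun w hw => ⟨hw.1, fun h1 => hw.2 ((bd_zero_iff h0).mpr h1.ge)⟩
  set T := hfin.toFinset with hT
  have hne : ∀ w : T, (w : PS A M) ≠ v := fun w e =>
    ((hfin.mem_toFinset).mp w.2).2 (e ▸ hh)
  choose g hg hgw hg0 hgv using fun w : T =>
    exists_separate (transcendental_tS A M s) ((hfin.mem_toFinset).mp w.2).1 hv (hne w)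
  let n : T → ℕ := fun w => (-(w : PS A M).ord h).toNat
  refine ⟨∏ w, g w ^ n w, prod_mem fun w _ => pow_mem (hg w) _, ?_, fun u hu => ?_⟩
  · rw [RR.bd_iff_ord (Finset.prod_ne_zero_iff.mpr fun w _ => pow_ne_zero _ (hg0 w)),
      RR.ord_prod _ _ _ fun w _ => pow_ne_zero _ (hg0 w)]
    simp only [RR.ord_pow, hgv, mul_zero, Finset.sum_const_zero]
    omega
  · by_cases hb : Bd u h 0
    · simpa using ((prod_mem fun w _ => pow_mem (hg w) (n w) :
        ∏ w, g w ^ n w ∈ regOn (kA A) (tS A M s)) u hu).mul hb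
    · have hu' : u ∈ T := hfin.mem_toFinset.mpr ⟨hu, hb⟩
      rw [← Finset.prod_erase_mul _ _ (Finset.mem_univ (⟨u, hu'⟩ : T))]
      have h1 : Bd u (∏ w ∈ Finset.univ.erase (⟨u, hu'⟩ : T), g w ^ n w) 0 :=
        (prod_mem fun w _ => pow_mem (hg w) (n w) :
          ∏ w ∈ Finset.univ.erase (⟨u, hu'⟩ : T), g w ^ n w ∈ regOn (kA A) (tS A M s)) u hu
      have h2 := (hgw ⟨u, hu'⟩).pow (n ⟨u, hu'⟩)
      refine ((h1.mul h2).mul (RR.bd_self (v := u) (f := h))).mono ?_
      have := Int.self_le_toNat (-u.ord h)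
      simp only [n]
      linarith

/-! ### the points -/

omit C in
variable (M q A) in
/-- where all the functions of a chart vanishing on the second component vanish -/
def Vset (s : Bool) : Set (PS A M) :=
  {t | Bd t (tS A M s) 0 ∧ ∀ f, InR M q A s f 0 → Bd t f (-1)}

theorem inR_tS (s : Bool) : InR M q A s (tS A M s - tS A M s ^ (q * q)) 0 := by
  have h := inR_sub_Fr_Fr C (self_mem_regOn (K := kA A) (tS A M s))
  rwa [Fr_tS C, map_pow, Fr_tS C, ← pow_mul] at h

theorem tS_sub_pow_ne_zero (s : Bool) : tS A M s - tS A M s ^ (q * q) ≠ 0 := by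
  intro h
  have h1 : Polynomial.aeval (tS A M s) (Polynomial.X - Polynomial.X ^ (q * q) : (kA A)[X]) = 0 := by
    rw [map_sub, map_pow, aeval_X]; exact h
  have h3 := congrArg (fun p : (kA A)[X] => p.coeff 1)
    (transcendental_iff.mp (transcendental_tS A M s) _ h1)
  simp only [coeff_sub, coeff_X_one, coeff_X_pow, coeff_zero] at h3
  rw [if_neg (by have := C.prime.two_le; nlinarith)] at h3
  simp at h3

theorem finite_Vset (s : Bool) : (Vset M q A s).Finite := by
  refine (finite_ord_S C s (tS_sub_pow_ne_zero C s)).subset fun t ht => ⟨ht.1, ?_⟩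
  have := (RR.bd_iff_ord (tS_sub_pow_ne_zero C s)).mp (ht.2 _ (inR_tS C s))
  omega

theorem exists_unif_inR {s : Bool} {t : PS A M} (ht : t ∈ Vset M q A s) :
    ∃ f, InR M q A s f 0 ∧ f ≠ 0 ∧ t.ord f = 1 := by
  haveI := finite_tS C s
  haveI := separable_tS C s
  obtain ⟨g, hg, hg0, hg1⟩ := exists_unif (transcendental_tS A M s) ht.1
  have hR := inR_sub_Fr_Fr C hg
  have hf := ht.2 _ hR
  have hgb : Bd t g (-1) := RR.bd_iff.mpr (Or.inr (by omega))
  obtain ⟨h, hh⟩ := exists_Fr_eq_pow C g
  obtain ⟨h', hh'⟩ := exists_Fr_eq_pow C h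
  have hFF : Fr C (Fr C g) = h' ^ (q * q) := by rw [hh, map_pow, hh', pow_mul]
  have hFb : Bd t (Fr C (Fr C g)) (-1) := by
    have := hgb.sub hf
    rwa [sub_sub_cancel] at this
  have hF2 : Bd t (Fr C (Fr C g)) (-2) := by
    rcases eq_or_ne h' 0 with h0 | h0
    · rw [hFF, h0, zero_pow (by have := C.prime.pos; positivity)]; exact RR.Bd.zero
    have hq := C.prime.two_le
    rw [hFF, RR.bd_iff_ord (pow_ne_zero _ h0), RR.ord_pow] at hFb ⊢
    have h4 : (4 : ℤ) ≤ ((q * q : ℕ) : ℤ) := by exact_mod_cast Nat.mul_le_mul hq hq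
    have hpos : 1 ≤ t.ord h' := by
      by_contra hc
      have h5 := mul_nonpos_of_nonneg_of_nonpos (by omega : (0 : ℤ) ≤ ((q * q : ℕ) : ℤ))
        (by omega : t.ord h' ≤ 0)
      omega
    nlinarith
  have hnb : ¬ Bd t (g - Fr C (Fr C g)) (-1 - 1) := by
    intro hc
    have h2 := hc.add (by simpa using hF2 : Bd t (Fr C (Fr C g)) (-1 - 1))
    rw [sub_add_cancel, RR.bd_iff_ord hg0] at h2
    omega
  obtain ⟨hf0, hf1⟩ := RR.ord_eq_of_bd hf hnb
  exact ⟨_, hR, hf0, by rw [hf1]; norm_num⟩

/-- a regular function vanishing at the points comes from the chart -/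
theorem inR_of_vanish {s : Bool} {f : FS A M} (hf : f ∈ regOn (kA A) (tS A M s))
    (h : ∀ t ∈ Vset M q A s, Bd t f (-1)) : InR M q A s f 0 := by
  haveI := finite_tS C s
  haveI := separable_tS C s
  let I : Ideal (regOn (kA A) (tS A M s)) :=
    { carrier := {r | InR M q A s ((r : FS A M) * f) 0}
      add_mem' := fun {a b} ha hb => by
        have := ha.add hb
        simp only [add_zero, ← add_mul] at this
        exact this
      zero_mem' := by simpa using InR.zero (M := M) (q := q) (A := A) (s := s)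
      smul_mem' := fun c a ha => by
        have := (inR_Fr C c.2).mul ha
        simp only [mul_zero, ← mul_assoc] at this
        exact this }
  by_cases hI : I = ⊤
  · have h1 : (1 : regOn (kA A) (tS A M s)) ∈ I := hI ▸ Submodule.mem_top
    simpa [I] using h1
  exfalso
  obtain ⟨v, hv, hvan⟩ := exists_place_of_ideal (transcendental_tS A M s) I hI
  have hvV : v ∈ Vset M q A s := ⟨hv, fun g hg => hvan ⟨g, (InR.regular C hg).1⟩ (by
    show InR M q A s (g * f) 0
    simpa using hg.mul (inR_Fr C hf))⟩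
  obtain ⟨g, hg, hg0, hg1⟩ := exists_unif_inR C hvV
  have hfg : Bd v (f / g) 0 := (RR.bd_div_iff hg0).mpr (by rw [hg1]; exact h v hvV)
  obtain ⟨r, hr, hrv, hrh⟩ := exists_denom C hv hfg
  refine hrv (hvan ⟨r, hr⟩ ?_)
  show InR M q A s (r * f) 0
  have := (inR_Fr C hrh).mul hg
  rwa [mul_zero, mul_assoc, div_mul_cancel₀ _ hg0] at this

/-- equality of values at the branches characterises the pairs -/
theorem inR_of_vanish_sub {s : Bool} {f g : FS A M} (hf : f ∈ regOn (kA A) (tS A M s))
    (hg : g ∈ regOn (kA A) (tS A M s)) (h : ∀ t ∈ Vset M q A s, Bd t (g - Fr C f) (-1)) :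
    InR M q A s f g := by
  have := (inR_Fr C hf).add
    (InR.swap C (inR_of_vanish C (sub_mem hg (Fr_mem_regOn C hf)) h))
  simpa using this

theorem vanish_of_inR {s : Bool} {f g : FS A M} (h : InR M q A s f g) :
    ∀ t ∈ Vset M q A s, Bd t (g - Fr C f) (-1) := by
  intro t ht
  have := InR.swap C (h.sub (inR_Fr C (InR.regular C h).1))
  rw [sub_self] at this
  exact ht.2 _ this

theorem exists_val_of_regOn {s : Bool} {t : PS A M} (ht : Bd t (tS A M s) 0) {f : FS A M}
    (hf : f ∈ regOn (kA A) (tS A M s)) : ∃ c, Val t f c :=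
  val_exists_S C (hf t ht)

/-! ### the other branch -/

theorem exists_branch {t : PS A M} (ht : Bd t (tS A M false) 0) :
    ∃ u : PS A M, Bd u (tS A M false) 0 ∧
      ∀ f ∈ regOn (kA A) (tS A M false), ∀ c, Val t (Fr C f) c → Val u f c := by
  haveI := finite_tS C false
  haveI := separable_tS C false
  let I : Ideal (regOn (kA A) (tS A M false)) :=
    { carrier := {f | Bd t (Fr C (f : FS A M)) (-1)}
      add_mem' := fun {a b} ha hb => by
        show Bd t (Fr C (((a + b : regOn (kA A) (tS A M false)) : FS A M))) (-1)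
        rw [AddMemClass.coe_add, map_add]; exact ha.add hb
      zero_mem' := by
        show Bd t (Fr C (((0 : regOn (kA A) (tS A M false)) : FS A M))) (-1)
        rw [ZeroMemClass.coe_zero, map_zero]; exact RR.Bd.zero
      smul_mem' := fun c a ha => by
        show Bd t (Fr C (((c • a : regOn (kA A) (tS A M false)) : FS A M))) (-1)
        rw [smul_eq_mul, MulMemClass.coe_mul, map_mul]
        simpa using (Fr_mem_regOn C c.2 t ht).mul ha }
  have hI : I ≠ ⊤ := by
    intro h
    have h1 : Bd t (Fr C ((1 : regOn (kA A) (tS A M false)) : FS A M)) (-1) :=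
      (h ▸ Submodule.mem_top : (1 : regOn (kA A) (tS A M false)) ∈ I)
    rw [OneMemClass.coe_one, map_one, RR.bd_iff_ord one_ne_zero, t.ord_one] at h1
    omega
  obtain ⟨u, hu, hvan⟩ := exists_place_of_ideal (transcendental_tS A M false) I hI
  refine ⟨u, hu, fun f hf c hc => ?_⟩
  refine hvan ⟨f - algebraMap (kA A) (FS A M) c, sub_mem hf (algebraMap_mem _ c)⟩ ?_
  show Bd t (Fr C (f - algebraMap (kA A) (FS A M) c)) (-1)
  rw [map_sub, AlgHom.commutes]
  exact hc

/-- the second branch through a point -/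
def branch (t : {t : PS A M // Bd t (tS A M false) 0}) : PS A M := (exists_branch C t.2).choose

theorem branch_fin (t : {t : PS A M // Bd t (tS A M false) 0}) :
    Bd (branch C t) (tS A M false) 0 := (exists_branch C t.2).choose_spec.1

theorem val_branch (t : {t : PS A M // Bd t (tS A M false) 0}) {f : FS A M}
    (hf : f ∈ regOn (kA A) (tS A M false)) {c : kA A} (hc : Val (t : PS A M) (Fr C f) c) :
    Val (branch C t) f c := (exists_branch C t.2).choose_spec.2 f hf c hc

/-- `Fr ∘ Fr` fixes values at the points -/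
theorem val_Fr_Fr {t : PS A M} (ht : t ∈ Vset M q A false) {f : FS A M}
    (hf : f ∈ regOn (kA A) (tS A M false)) {c : kA A} (hc : Val t f c) :
    Val t (Fr C (Fr C f)) c := by
  have h := ht.2 _ (inR_sub_Fr_Fr C hf)
  obtain ⟨d, hd⟩ := exists_val_of_regOn C ht.1 (Fr_mem_regOn C (Fr_mem_regOn C hf))
  have h0 : Val t (f - Fr C (Fr C f)) 0 := by rw [Val, map_zero, sub_zero]; exact h
  rwa [sub_eq_zero.mp ((hc.sub hd).unique h0)]

theorem val_Fr_Fr_branch (t : {t : PS A M // Bd t (tS A M false) 0})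
    (ht : (t : PS A M) ∈ Vset M q A false) {f : FS A M}
    (hf : f ∈ regOn (kA A) (tS A M false)) {c : kA A} (hc : Val (branch C t) f c) :
    Val (branch C t) (Fr C (Fr C f)) c := by
  obtain ⟨d, hd⟩ := exists_val_of_regOn C t.2 (Fr_mem_regOn C hf)
  obtain rfl := (val_branch C t hf hd).unique hc
  exact val_branch C t (Fr_mem_regOn C (Fr_mem_regOn C hf))
    (val_Fr_Fr C ht (Fr_mem_regOn C hf) hd)

theorem branch_injective (t t' : {t : PS A M // Bd t (tS A M false) 0})
    (ht : (t : PS A M) ∈ Vset M q A false) (ht' : (t' : PS A M) ∈ Vset M q A false)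
    (h : branch C t = branch C t') : t = t' := by
  haveI := finite_tS C false
  haveI := separable_tS C false
  by_contra hne
  obtain ⟨g, hg, hgv, hg0, hgw⟩ := exists_separate (transcendental_tS A M false) t.2 t'.2
    (fun e => hne (Subtype.ext e))
  have h1 : Val (t : PS A M) g 0 := by rw [Val, map_zero, sub_zero]; exact hgv
  obtain ⟨c, hc⟩ := exists_val_of_regOn C t'.2 hg
  have hFg := Fr_mem_regOn C hg
  have e1 := val_branch C t hFg (val_Fr_Fr C ht hg h1)
  have e2 := val_branch C t' hFg (val_Fr_Fr C ht' hg hc)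
  rw [← h] at e2
  obtain rfl := e1.unique e2
  have := hc.ord_pos hg0
  omega

/-! ### the chart at infinity -/

theorem Vset_true_subset {t : PS A M} (ht : t ∈ Vset M q A true) :
    t ∈ Vset M q A false ∧ t.ord (jS A M) = 0 := by
  have hj : jS A M ≠ 0 := tS_ne_zero A M false
  have hle : t.ord (jS A M) ≤ 0 := (bd_zero_inv_iff hj).mp ht.1
  have hzero : t.ord (jS A M) = 0 := by
    rcases eq_or_lt_of_le hle with h | hneg
    · exact h
    exfalso
    have hb := ht.2 _ (inR_cusp C)
    have hz := zbar_ne_zero C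
    rw [RR.bd_iff_ord (mul_ne_zero (pow_ne_zero _ hz) (pow_ne_zero _ (inv_ne_zero JS_ne_zero))),
      t.ord_mul (pow_ne_zero _ hz) (pow_ne_zero _ (inv_ne_zero JS_ne_zero)), RR.ord_pow,
      RR.ord_pow, t.ord_inv, JS, RR.ord_pow] at hb
    have hq : (2 : ℤ) ≤ (q : ℤ) := by exact_mod_cast C.prime.two_le
    have hzo : t.ord (zbar M q A) = ((q * q : ℕ) : ℤ) * t.ord (jS A M) := by
      have hjj : t.ord (jS A M ^ (q * q)) < t.ord (jS A M) := by
        rw [RR.ord_pow]; push_cast
        have h4 : (0 : ℤ) < (q : ℤ) * q - 1 := by nlinarith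
        nlinarith [mul_neg_of_pos_of_neg h4 hneg]
      have h1 : Bd t (zbar M q A) (-t.ord (jS A M ^ (q * q))) :=
        ((RR.bd_self (v := t) (f := jS A M)).mono (by omega)).sub RR.bd_self
      have h2 : ¬ Bd t (zbar M q A) (-t.ord (jS A M ^ (q * q)) - 1) := by
        intro hc
        have h3 := ((RR.bd_self (v := t) (f := jS A M)).mono
          (by omega : -t.ord (jS A M) ≤ -t.ord (jS A M ^ (q * q)) - 1)).sub hc
        rw [zbar, sub_sub_cancel, RR.bd_iff_ord (pow_ne_zero _ hj)] at h3
        omega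
      rw [(RR.ord_eq_of_bd h1 h2).2, neg_neg, RR.ord_pow]
    rw [hzo] at hb
    push_cast at hb
    linarith
  refine ⟨⟨(bd_zero_iff hj).mpr hzero.ge, fun f hf => ?_⟩, hzero⟩
  obtain ⟨x, hx, hxf, hxg⟩ := hf
  obtain ⟨a, ha⟩ := exists_pow_mul_mem (K := Qb) (t := tJ M q true) (y := x)
    (inv_ne_zero (Jfn_ne_zero C))
    (fun hx0 => (RR.finite_ord_ne (K := Qb) hx0).subset fun v hv => hv.2)
    (show x ∈ regOn Qb (Jfn M q)⁻¹⁻¹ by rw [inv_inv]; exact hx)
  have hR : InR M q A true (((JS M q A)⁻¹) ^ a * f) 0 :=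
    ⟨_, ha, ((IsRed.inv_tJ C).pow a).mul hxf, by
      have h := ((IsRed.inv_tJ C (b := true)).pow a).mul hxg
      rw [mul_zero] at h
      exact h⟩
  have hb := ht.2 _ hR
  rw [mul_comm, RR.bd_mul_iff (pow_ne_zero _ (inv_ne_zero JS_ne_zero)), RR.ord_pow, t.ord_inv, JS,
    RR.ord_pow, hzero] at hb
  simpa using hb

/-- the branch rule for the chart at infinity -/
theorem val_branch_true (t : {t : PS A M // Bd t (tS A M false) 0})
    (hj : (t : PS A M).ord (jS A M) = 0) {f : FS A M} (hf : f ∈ regOn (kA A) (tS A M true))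
    {c : kA A} (hc : Val (t : PS A M) (Fr C f) c) : Val (branch C t) f c := by
  have hj0 := tS_ne_zero A M false
  obtain ⟨n, hn⟩ := exists_pow_mul_mem (K := kA A) (t := tS A M false) (y := f) hj0
    (fun h0 => finite_ord_S C false h0) hf
  obtain ⟨d, hd⟩ := exists_val_of_regOn C t.2 (self_mem_regOn (K := kA A) (tS A M false))
  have hd0 : d ≠ 0 := by
    rintro rfl
    have := hd.ord_pos hj0
    change 1 ≤ (t : PS A M).ord (jS A M) at this
    omega
  have h1 : Val (branch C t) (tS A M false) (d ^ q) := val_branch C t (self_mem_regOn _) (by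
    rw [Fr_tS C]; exact hd.pow q)
  have h2 : Val (branch C t) (tS A M false ^ n * f) ((d ^ q) ^ n * c) := val_branch C t hn (by
    rw [map_mul, map_pow, Fr_tS C]; exact ((hd.pow q).pow n).mul hc)
  have h3 := ((h1.pow n).inv (pow_ne_zero _ (pow_ne_zero _ hd0))).mul h2
  rwa [inv_mul_cancel_left₀ (pow_ne_zero _ hj0),
    inv_mul_cancel_left₀ (pow_ne_zero _ (pow_ne_zero _ hd0))] at h3

theorem ord_jS_branch (t : {t : PS A M // Bd t (tS A M false) 0})
    (hj : (t : PS A M).ord (jS A M) = 0) : (branch C t).ord (jS A M) = 0 := by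
  obtain ⟨d, hd⟩ := exists_val_of_regOn C t.2 (self_mem_regOn (K := kA A) (tS A M false))
  have hd0 : d ≠ 0 := by
    rintro rfl
    have := hd.ord_pos (tS_ne_zero A M false)
    change 1 ≤ (t : PS A M).ord (jS A M) at this
    omega
  exact ((val_branch C t (self_mem_regOn _) (by rw [Fr_tS C]; exact hd.pow q) :
    Val (branch C t) (tS A M false) (d ^ q)).ord_eq_zero (pow_ne_zero _ hd0)).2

end FLTAgent.SS
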