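import Fermat.Agent.SS.Saturate

/-! Newton iteration for the equation `x ^ n * f = 1` among the sections of a twist. -/

set_option autoImplicit false
set_option linter.unusedSectionVars false

noncomputable section

open AlgebraicCurve IsLocalRing
open FLTAgent.RR (Bd Pol)
open FLTAgent.Reduction (Val)

namespace FLTAgent.SS

variable {K : Type*} [Field K] [IsAlgClosed K] [CharZero K] {A : ValuationSubring K}
  {F : Type*} [Field F] [Algebra K F] [RR.FnField K F]
  {Fs : Type*} [Field Fs] [Algebra (ResidueField A) Fs]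

local notation "𝕜" => ResidueField A
local notation "ι'" => algebraMap K F

theorem exists_one_sub_pow {R : Type*} [CommRing R] (S : Subring R) {s t : R} (hs : s ∈ S)
    (ht : t ∈ S) : ∀ n : ℕ, ∃ r ∈ S, (1 - s * t) ^ n = 1 - n * s * t + t ^ 2 * r
  | 0 => ⟨0, S.zero_mem, by simp⟩
  | n + 1 => by
    obtain ⟨r, hr, h⟩ := exists_one_sub_pow S hs ht n
    refine ⟨r - r * s * t + n * s ^ 2, S.add_mem (S.sub_mem hr (S.mul_mem (S.mul_mem hr hs) ht))
      (S.mul_mem (natCast_mem S n) (S.pow_mem hs 2)), ?_⟩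
    rw [pow_succ, h]
    push_cast
    ring

/-- `n` is invertible in `A` -/
theorem inv_natCast_mem {n : ℕ} (hn : (n : 𝕜) ≠ 0) : ((n : K))⁻¹ ∈ A := by
  have h : IsUnit (n : A) := (IsLocalRing.residue_ne_zero_iff_isUnit _).mp (by
    rwa [map_natCast])
  obtain ⟨u, hu⟩ := h.exists_left_inv
  have h1 : (u : K) * (n : K) = 1 := by
    have := congrArg Subtype.val hu
    simpa using this
  rw [← eq_inv_of_mul_eq_one_left h1]
  exact u.2

namespace Rep

variable {C : Core K A F Fs} {n : ℕ} (R : Rep C n)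

/-- `x ^ n * f ≡ 1` modulo `c`, with restriction one -/
def Near (c : A) (x : F) : Prop :=
  R.Integ x ∧ R.res x = 1 ∧ ∃ z, (∀ b, z ∈ C.G b) ∧ x ^ n * R.f = 1 + ι' (c : K) * z

theorem pow_mul_eq (b : Bool) (x : F) :
    x ^ n * R.f = (ι' (R.α b) * x) ^ n * ((ι' (R.α b ^ n))⁻¹ * R.f) := by
  rw [mul_pow, map_pow]
  have : ι' (R.α b) ^ n ≠ 0 := pow_ne_zero _ ((_root_.map_ne_zero _).mpr (R.α_ne b))
  field_simp

/-- one Newton step -/
theorem near_step (hn : (n : 𝕜) ≠ 0) {c : A} (hc : c ∈ maximalIdeal A) {x : F} {z : F}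
    (hz : ∀ b, z ∈ C.G b) (hx : R.Integ x) (hres : R.res x = 1)
    (he : x ^ n * R.f = 1 + ι' (c : K) * z) :
    R.Near (c ^ 2) (x * (1 - ι' ((n : K)⁻¹) * (ι' (c : K) * z))) := by
  set s := ι' ((n : K)⁻¹) with hs
  set t := ι' (c : K) * z with ht
  have hsG : ∀ b, s ∈ C.G b := fun b => C.const_mem b ⟨_, inv_natCast_mem hn⟩
  have htG : ∀ b, t ∈ C.G b := fun b => C.const_mul_mem b c.2 (hz b)
  obtain ⟨r, hr, hpow⟩ := exists_one_sub_pow (C.G false ⊓ C.G true) (s := s) (t := t)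
    ⟨hsG false, hsG true⟩ ⟨htG false, htG true⟩ n
  have hrG : ∀ b, r ∈ C.G b := fun b => by cases b; exacts [hr.1, hr.2]
  have hns : (n : F) * s = 1 := by
    rw [hs, ← map_natCast (algebraMap K F), ← map_mul, mul_inv_cancel₀, map_one]
    intro h0
    exact hn (by simp [Nat.cast_eq_zero.mp h0])
  refine ⟨fun b => ?_, ?_, z ^ 2 * (-1 + r + t * r), fun b => ?_, ?_⟩
  · rw [← mul_assoc]
    exact mul_mem (hx b) (sub_mem (one_mem _) (mul_mem (hsG b) (htG b)))
  · funext b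
    have h0 : C.red b (1 - s * t) = 1 := by
      rw [C.red_sub b (one_mem _) (mul_mem (hsG b) (htG b)), C.red_one,
        C.red_mul b _ (hsG b) _ (htG b), ht, C.red_const_mul b c (hz b),
        Core.residue_eq_zero hc, zero_smul, mul_zero, sub_zero]
    show C.red b (ι' (R.α b) * (x * (1 - s * t))) * R.h b = 1
    rw [← mul_assoc (ι' (R.α b)), C.red_mul b _ (hx b) _ (sub_mem (one_mem _) (mul_mem (hsG b) (htG b))),
      h0, mul_one]
    exact congrFun hres b
  · exact mul_mem (pow_mem (hz b) 2)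
      (add_mem (add_mem (neg_mem (one_mem _)) (hrG b)) (mul_mem (htG b) (hrG b)))
  · rw [mul_pow, mul_right_comm, he, hpow, hns, one_mul, SubmonoidClass.coe_pow, map_pow]
    rw [ht]
    ring

theorem near_sub (hn : (n : 𝕜) ≠ 0) {c : A} (hc : c ≠ 0) {x y : F} (hx : R.Near c x)
    (hy : R.Near c y) : ∃ w, R.Integ w ∧ x - y = ι' (c : K) * w := by
  obtain ⟨hxI, hxr, z, hz, hze⟩ := hx
  obtain ⟨hyI, hyr, z', hz', hze'⟩ := hy
  have hcK : ι' (c : K) ≠ 0 := (_root_.map_ne_zero _).mpr fun h => hc (Subtype.ext h)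
  refine ⟨(ι' (c : K))⁻¹ * (x - y), fun b => ?_, by rw [← mul_assoc, mul_inv_cancel₀ hcK, one_mul]⟩
  set u := ι' (R.α b) * x
  set v := ι' (R.α b) * y
  set U := (ι' (R.α b ^ n))⁻¹ * R.f
  set S := ∑ i ∈ Finset.range n, u ^ i * v ^ (n - 1 - i) with hS
  have hS' : S ∈ C.G b := sum_mem fun i _ => mul_mem (pow_mem (hxI b) i) (pow_mem (hyI b) _)
  have hru : C.red b u * R.h b = 1 := congrFun hxr b
  have hrv : C.red b v * R.h b = 1 := congrFun hyr b
  have heq : C.red b u = C.red b v := mul_right_cancel₀ (R.h_ne b) (hru.trans hrv.symm)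
  have hu0 : C.red b v ≠ 0 := fun h0 => by rw [h0, zero_mul] at hrv; exact zero_ne_one hrv
  have hSr : C.red b S = (n : Fs) * C.red b v ^ (n - 1) := by
    rw [hS, C.red_sum b _ _ fun i _ => mul_mem (pow_mem (hxI b) i) (pow_mem (hyI b) _)]
    rw [Finset.sum_congr rfl fun i (hi : i ∈ Finset.range n) => by
      rw [C.red_mul b _ (pow_mem (hxI b) i) _ (pow_mem (hyI b) _), C.red_pow b (hxI b),
        C.red_pow b (hyI b), heq, ← pow_add,
        show i + (n - 1 - i) = n - 1 by rw [Finset.mem_range] at hi; omega]]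
    rw [Finset.sum_const, Finset.card_range, nsmul_eq_mul]
  have hnF : (n : Fs) ≠ 0 := by
    rw [← map_natCast (algebraMap 𝕜 Fs)]; exact (_root_.map_ne_zero _).mpr hn
  have hSU : C.red b (S * U) ≠ 0 := by
    rw [C.red_mul b _ hS' _ (R.mem b), hSr]
    exact mul_ne_zero (mul_ne_zero hnF (pow_ne_zero _ hu0)) (R.red_ne b)
  have key : (u - v) * (S * U) = ι' (c : K) * (z - z') := by
    rw [← mul_assoc, hS, mul_comm (u - v), geom_sum₂_mul, sub_mul,
      ← R.pow_mul_eq b x, ← R.pow_mul_eq b y, hze, hze']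
    ring
  have hSU0 : S * U ≠ 0 := fun h => hSU (by rw [h, C.red_zero])
  have e : ι' (R.α b) * ((ι' (c : K))⁻¹ * (x - y)) = (z - z') * (S * U)⁻¹ := by
    rw [eq_mul_inv_iff_mul_eq₀ hSU0]
    calc ι' (R.α b) * ((ι' (c : K))⁻¹ * (x - y)) * (S * U)
        = (ι' (c : K))⁻¹ * ((u - v) * (S * U)) := by ring
      _ = z - z' := by rw [key, ← mul_assoc, inv_mul_cancel₀ hcK, one_mul]
  rw [e]
  exact mul_mem (sub_mem (hz b) (hz' b)) (C.inv_mem b (mul_mem hS' (R.mem b)) hSU).1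

theorem near_of_sub {c : A} (hc : c ∈ maximalIdeal A) {v u z : F} (hu : R.Near c u) (hv : R.Integ v)
    (hz : R.Integ z) (he : u = v + ι' (c : K) * z) : R.Near c v := by
  obtain ⟨huI, hur, w, hw, hwe⟩ := hu
  refine ⟨hv, ?_, ?_⟩
  · rw [← hur, he, R.res_add hv (Integ.const_mul R c.2 hz), R.res_const_mul c hz,
      Core.residue_eq_zero hc, zero_smul, add_zero]
  rcases eq_or_ne c 0 with rfl | hc0
  · refine ⟨w, hw, ?_⟩
    rw [ZeroMemClass.coe_zero, map_zero, zero_mul, add_zero] at he hwe ⊢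
    rw [← he]; exact hwe
  have hcK : ι' (c : K) ≠ 0 := (_root_.map_ne_zero _).mpr fun h => hc0 (Subtype.ext h)
  refine ⟨(ι' (c : K))⁻¹ * (v ^ n * R.f - 1), fun b => ?_,
    by rw [← mul_assoc, mul_inv_cancel₀ hcK, one_mul, add_sub_cancel]⟩
  set S := ∑ i ∈ Finset.range n, (ι' (R.α b) * v) ^ i * (ι' (R.α b) * u) ^ (n - 1 - i) with hS
  have hS' : S ∈ C.G b := sum_mem fun i _ => mul_mem (pow_mem (hv b) i) (pow_mem (huI b) _)
  have e : (ι' (c : K))⁻¹ * (v ^ n * R.f - 1)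
      = w - (ι' (R.α b) * z) * S * ((ι' (R.α b ^ n))⁻¹ * R.f) := by
    rw [inv_mul_eq_iff_eq_mul₀ hcK]
    have h1 := geom_sum₂_mul (ι' (R.α b) * v) (ι' (R.α b) * u) n
    rw [← hS, show ι' (R.α b) * v - ι' (R.α b) * u = -(ι' (c : K) * (ι' (R.α b) * z)) by
      rw [he]; ring] at h1
    have h2 := congrArg (fun a => a * ((ι' (R.α b ^ n))⁻¹ * R.f)) h1
    simp only [sub_mul, ← R.pow_mul_eq b] at h2
    rw [hwe] at h2
    linear_combination -h2
  rw [e]
  exact sub_mem (hw b) (mul_mem (mul_mem (hz b) hS') (R.mem b))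

end Rep

namespace Data

variable {D : Data K A F Fs} {n : ℕ}

/-- an improved pair of approximate solutions -/
theorem newton (hn : (n : 𝕜) ≠ 0) {R : Rep D.toCore n} {ζ : D.ι → 𝕜} (hζ : IsJump R ζ) {m : ℕ}
    (hm : ∀ a ∈ D.toCore.P m, (∀ s c, Val (D.pt false s) (a false) c →
      Val (D.pt true s) (a true) (ζ s * c)) → a ∈ R.T m)
    {c : A} (hc : c ∈ maximalIdeal A) (hc0 : c ≠ 0) {x y : F} (hxL : x ∈ R.L m) (hx : R.Near c x)
    (hyI : R.OnInf y) (hy : R.Near c y) :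
    ∃ x' y', x' ∈ R.L m ∧ R.Near (c ^ 2) x' ∧ R.OnInf y' ∧ R.Near (c ^ 2) y' := by
  have hn0 : n ≠ 0 := fun h => hn (by simp [h])
  obtain ⟨hx1, hx2, z, hz, hze⟩ := hx
  obtain ⟨hy1, hy2, z', hz', hze'⟩ := hy
  have hX := R.near_step hn hc hz hx1 hx2 hze
  have hY := R.near_step hn hc hz' hy1 hy2 hze'
  set X := x * (1 - ι' ((n : K)⁻¹) * (ι' (c : K) * z)) with hXd
  set Y := y * (1 - ι' ((n : K)⁻¹) * (ι' (c : K) * z')) with hYd
  have hXL : X ∈ R.L (m + n * m) := by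
    have h1 : x ^ n * R.f ∈ riemannRochSpace ((n * m) • Pol (K := K) D.J) := by
      have := (R.prod_spec (fun _ => x) (fun _ => hxL) fun _ => hx1).1
      simpa using this
    intro P
    show Bd P X _
    have hs : Bd P (1 - ι' ((n : K)⁻¹) * (ι' (c : K) * z)) ((n * m : ℕ) * max (-P.ord D.J) 0) := by
      rw [show ι' (c : K) * z = x ^ n * R.f - 1 by rw [hze]; ring]
      have h0 : (0 : ℤ) ≤ (n * m : ℕ) * max (-P.ord D.J) 0 :=
        mul_nonneg (Int.natCast_nonneg _) (le_max_right _ _)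
      have hone : Bd P (1 : F) ((n * m : ℕ) * max (-P.ord D.J) 0) := by
        have := (RR.Bd.of_algebraMap (v := P) (1 : K)).mono h0
        rwa [map_one] at this
      refine hone.sub ?_
      rw [← Algebra.smul_def]
      refine RR.Bd.smul (RR.Bd.sub ?_ hone) _
      have := mem_rr.mp h1 P
      rw [Finsupp.smul_apply, RR.Pol_apply, nsmul_eq_mul] at this
      exact this
    refine ((mem_rr.mp hxL P).mul hs).mono (le_of_eq ?_)
    simp [RR.Pol_apply]
    ring
  have hYI : R.OnInf Y := by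
    intro P hP
    have h1 : Bd P (y ^ n * R.f) 0 := by
      have h := ((hyI P hP).pow n).mul (mem_rr.mp R.f_rr P)
      refine h.mono (le_of_eq ?_)
      simp
    have hs : Bd P (1 - ι' ((n : K)⁻¹) * (ι' (c : K) * z')) 0 := by
      rw [show ι' (c : K) * z' = y ^ n * R.f - 1 by rw [hze']; ring]
      have hone : Bd P (1 : F) 0 := by
        have := RR.Bd.of_algebraMap (v := P) (1 : K)
        rwa [map_one] at this
      refine hone.sub ?_
      rw [← Algebra.smul_def]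
      exact RR.Bd.smul (h1.sub hone) _
    have := (hyI P hP).mul hs
    rwa [add_zero] at this
  have hc2 : c ^ 2 ∈ maximalIdeal A := Ideal.pow_mem_of_mem _ hc 2 two_pos
  obtain ⟨w, hw, hwe⟩ := R.near_sub hn (pow_ne_zero 2 hc0) hX hY
  have hYI' : R.OnInf ((D.J ^ m)⁻¹ * (X - ι' ((c ^ 2 : A) : K) * w)) := by
    rw [← hwe, sub_sub_cancel]
    have h := R.pair.symm_pow_Vinf m (x := Y) hYI
    rw [R.pair_symm_pow_apply] at h
    exact h
  obtain ⟨v, z2, hv, hvI, -, hz2, hXv⟩ :=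
    saturate hn0 hζ (Nat.le_add_right m (n * m)) hm hXL hX.1 hw hYI'
  exact ⟨v, Y, hv, R.near_of_sub hc2 hX hvI hz2 hXv, hYI, hY⟩

end Data

end FLTAgent.SS
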