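import Fermat.Agent.SS.Jump
import Fermat.Agent.SS.Degeneration

/-! The twisted sections as a two chart degeneration, and saturation. -/

set_option autoImplicit false
set_option linter.unusedSectionVars false
set_option linter.unusedVariables false

noncomputable section

open AlgebraicCurve IsLocalRing
open FLTAgent.RR (Bd Pol)
open FLTAgent.Reduction (Val)

namespace FLTAgent.SS

variable {K : Type*} [Field K] [IsAlgClosed K] [CharZero K] {A : ValuationSubring K}
  {F : Type*} [Field F] [Algebra K F] [RR.FnField K F]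
  {Fs : Type*} [Field Fs] [Algebra (ResidueField A) Fs]

local notation "𝕜" => ResidueField A
local notation "ι'" => algebraMap K F

theorem abs_le_sum {α : Type*} (s : Finset α) (g : α → ℤ) {a : α} (ha : a ∈ s) :
    g a ≤ ((s.sum fun x => (g x).natAbs : ℕ) : ℤ) := by
  refine (Int.le_natAbs).trans ?_
  exact_mod_cast Finset.single_le_sum (f := fun x => (g x).natAbs) (fun x _ => Nat.zero_le _) ha

namespace Rep

variable {C : Core K A F Fs} {n : ℕ} (R : Rep C n)

/-- bounded where `J` has no pole -/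
def OnFin (x : F) : Prop := ∀ P : Place K F, 0 ≤ P.ord C.J → Bd P x (R.E P)

/-- bounded where `J` has no zero -/
def OnInf (x : F) : Prop := ∀ P : Place K F, P.ord C.J ≤ 0 → Bd P x (R.E P)

theorem mem_L_iff {m : ℕ} {x : F} : x ∈ R.L m ↔ R.OnFin x ∧ R.OnInf ((C.J ^ m)⁻¹ * x) := by
  have hJ : (C.J ^ m)⁻¹ ≠ 0 := inv_ne_zero (pow_ne_zero _ C.J_ne_zero)
  have hord : ∀ P : Place K F, P.ord (C.J ^ m)⁻¹ = -((m : ℤ) * P.ord C.J) := fun P => by
    rw [P.ord_inv, RR.ord_pow]
  have hiff : ∀ P : Place K F,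
      Bd P ((C.J ^ m)⁻¹ * x) (R.E P) ↔ Bd P x (R.E P - (m : ℤ) * P.ord C.J) := fun P => by
    rw [mul_comm, RR.bd_mul_iff hJ, hord, sub_eq_add_neg]
  have hval : ∀ P : Place K F, (m • Pol (K := K) C.J + R.E) P
      = (m : ℤ) * max (-P.ord C.J) 0 + R.E P := fun P => by
    simp [RR.Pol_apply]
  constructor
  · intro h
    refine ⟨fun P hP => ?_, fun P hP => (hiff P).mpr ?_⟩
    · have := mem_rr.mp h P
      rwa [hval, max_eq_right (by omega), mul_zero, zero_add] at this
    · have := mem_rr.mp h P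
      rw [hval, max_eq_left (by omega)] at this
      rwa [show R.E P - (m : ℤ) * P.ord C.J = (m : ℤ) * -P.ord C.J + R.E P by ring]
  · rintro ⟨h1, h2⟩ P
    show Bd P x _
    rw [hval]
    rcases le_or_gt 0 (P.ord C.J) with hP | hP
    · rw [max_eq_right (by omega), mul_zero, zero_add]
      exact h1 P hP
    · rw [max_eq_left (by omega)]
      have := (hiff P).mp (h2 P hP.le)
      rwa [show R.E P - (m : ℤ) * P.ord C.J = (m : ℤ) * -P.ord C.J + R.E P by ring] at this

theorem exists_L_of_onFin {x : F} (h : R.OnFin x) : ∃ m, x ∈ R.L m := by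
  refine ⟨(Pol (K := K) C.J).support.sum fun P => (-(P.ord x) - R.E P).natAbs,
    R.mem_L_iff.mpr ⟨h, fun P hP => ?_⟩⟩
  set m := (Pol (K := K) C.J).support.sum fun P => (-(P.ord x) - R.E P).natAbs
  rcases eq_or_ne x 0 with rfl | hx
  · rw [mul_zero]; exact RR.Bd.zero
  rw [RR.bd_iff_ord (mul_ne_zero (inv_ne_zero (pow_ne_zero _ C.J_ne_zero)) hx),
    P.ord_mul (inv_ne_zero (pow_ne_zero _ C.J_ne_zero)) hx, P.ord_inv, RR.ord_pow]
  rcases eq_or_lt_of_le hP with hP0 | hP0
  · have := (RR.bd_iff_ord hx).mp (h P (le_of_eq hP0.symm))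
    rw [hP0]; omega
  · have hs : P ∈ (Pol (K := K) C.J).support := by
      rw [Finsupp.mem_support_iff, RR.Pol_apply]; omega
    have hm := abs_le_sum _ (fun P => -(P.ord x) - R.E P) hs
    have : (m : ℤ) * 1 ≤ (m : ℤ) * -P.ord C.J :=
      mul_le_mul_of_nonneg_left (by omega) (Int.natCast_nonneg m)
    rw [mul_neg] at this
    omega

theorem exists_L_of_onInf {y : F} (h : R.OnInf y) : ∃ m, C.J ^ m * y ∈ R.L m := by
  refine ⟨(Pol (K := K) C.J⁻¹).support.sum fun P => (-(P.ord y) - R.E P).natAbs,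
    R.mem_L_iff.mpr ⟨fun P hP => ?_, ?_⟩⟩
  · set m := (Pol (K := K) C.J⁻¹).support.sum fun P => (-(P.ord y) - R.E P).natAbs
    rcases eq_or_ne y 0 with rfl | hy
    · rw [mul_zero]; exact RR.Bd.zero
    rw [RR.bd_iff_ord (mul_ne_zero (pow_ne_zero _ C.J_ne_zero) hy),
      P.ord_mul (pow_ne_zero _ C.J_ne_zero) hy, RR.ord_pow]
    rcases eq_or_lt_of_le hP with hP0 | hP0
    · have := (RR.bd_iff_ord hy).mp (h P (le_of_eq hP0.symm))
      rw [← hP0]; omega
    · have hs : P ∈ (Pol (K := K) C.J⁻¹).support := by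
        rw [Finsupp.mem_support_iff, RR.Pol_apply, P.ord_inv]; omega
      have hm := abs_le_sum _ (fun P => -(P.ord y) - R.E P) hs
      have : (m : ℤ) * 1 ≤ (m : ℤ) * P.ord C.J :=
        mul_le_mul_of_nonneg_left (by omega) (Int.natCast_nonneg m)
      omega
  · intro P hP
    rw [← mul_assoc, inv_mul_cancel₀ (pow_ne_zero _ C.J_ne_zero), one_mul]
    exact h P hP

/-- the integral sections as a module -/
def integSub : Submodule A F where
  carrier := {x | R.Integ x}
  zero_mem' := Integ.zero R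
  add_mem' := fun hx hy => hx.add R hy
  smul_mem' := fun a x hx => by
    show R.Integ (a • x)
    rw [show a • x = ι' (a : K) * x from by rw [← Algebra.smul_def]; rfl]
    exact Integ.const_mul R a.2 hx

theorem J_mem_integ {x : F} : R.Integ (C.J * x) ↔ R.Integ x := by
  refine ⟨fun h b => ?_, fun h b => by rw [mul_left_comm]; exact mul_mem (C.J_mem b) (h b)⟩
  have := mul_mem (C.J_inv_mem b).1 (h b)
  rwa [mul_left_comm (ι' (R.α b)), ← mul_assoc, inv_mul_cancel₀ C.J_ne_zero, one_mul] at this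

theorem res_J_mul {x : F} (hx : R.Integ x) : R.res (C.J * x) = fun b => C.Jbar * R.res x b := by
  funext b
  simp only [Rep.res]
  rw [mul_left_comm, C.red_mul b _ (C.J_mem b) _ (hx b), C.red_J, mul_assoc]

theorem res_smul_A (a : A) {x : F} (hx : R.Integ x) : R.res (a • x) = residue A a • R.res x := by
  rw [show a • x = ι' (a : K) * x from by rw [← Algebra.smul_def]; rfl]
  exact R.res_const_mul a hx

/-- multiplication by the coordinate -/
def mulJ : F ≃ₗ[K] F where
  toFun x := C.J * x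
  invFun x := C.J⁻¹ * x
  map_add' x y := mul_add _ _ _
  map_smul' c x := by simp [Algebra.smul_def, mul_left_comm]
  left_inv x := by simp [← mul_assoc, C.J_ne_zero]
  right_inv x := by simp [← mul_assoc, C.J_ne_zero]

/-- multiplication by the coordinate of the components -/
def mulJbar : (Bool → Fs) ≃ₗ[𝕜] (Bool → Fs) where
  toFun a b := C.Jbar * a b
  invFun a b := C.Jbar⁻¹ * a b
  map_add' x y := funext fun b => mul_add _ _ _
  map_smul' c x := funext fun b => by simp
  left_inv x := funext fun b => by simp [← mul_assoc, C.Jbar_ne_zero]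
  right_inv x := funext fun b => by simp [← mul_assoc, C.Jbar_ne_zero]

/-- the degeneration of the twisted sections -/
def pair : ChartPair A K 𝕜 F (Bool → Fs) where
  pi := residue A
  pi_surjective := residue_surjective
  J := mulJ (C := C)
  Jb := mulJbar (C := C)
  O := R.integSub
  r := R.res
  r_add := fun x hx y hy => R.res_add hx hy
  r_smul := fun a x hx => R.res_smul_A a hx
  J_mem := fun x => R.J_mem_integ
  r_J := fun x hx => R.res_J_mul hx
  V0 :=
    { carrier := {x | R.OnFin x}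
      zero_mem' := fun P _ => RR.Bd.zero
      add_mem' := fun hx hy P hP => (hx P hP).add (hy P hP)
      smul_mem' := fun c x hx P hP => (hx P hP).smul c }
  Vinf :=
    { carrier := {x | R.OnInf x}
      zero_mem' := fun P _ => RR.Bd.zero
      add_mem' := fun hx hy P hP => (hx P hP).add (hy P hP)
      smul_mem' := fun c x hx P hP => (hx P hP).smul c }
  J_V0 := fun x hx P hP => by
    show Bd P (C.J * x) _
    have hJ : Bd P C.J 0 := (RR.bd_iff_ord C.J_ne_zero).mpr (by omega)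
    simpa using hJ.mul (hx P hP)
  J_symm_Vinf := fun x hx P hP => by
    show Bd P (C.J⁻¹ * x) _
    have hJ : Bd P C.J⁻¹ 0 := (RR.bd_iff_ord (inv_ne_zero C.J_ne_zero)).mpr (by rw [P.ord_inv]; omega)
    simpa using hJ.mul (hx P hP)

theorem pair_pow_apply (m : ℕ) (x : F) : (R.pair.J ^ m) x = C.J ^ m * x := by
  induction m with
  | zero => simp
  | succ m ih =>
    rw [pow_succ', LinearEquiv.mul_apply, ih, pow_succ', mul_assoc]
    rfl

theorem pair_symm_pow_apply (m : ℕ) (x : F) : (R.pair.J ^ m).symm x = (C.J ^ m)⁻¹ * x := by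
  rw [LinearEquiv.symm_apply_eq, pair_pow_apply, ← mul_assoc,
    mul_inv_cancel₀ (pow_ne_zero _ C.J_ne_zero), one_mul]

theorem pairb_pow_apply (m : ℕ) (a : Bool → Fs) :
    (R.pair.Jb ^ m) a = fun b => C.Jbar ^ m * a b := by
  induction m with
  | zero => simp
  | succ m ih =>
    rw [pow_succ', LinearEquiv.mul_apply, ih]
    funext b
    rw [pow_succ', mul_assoc]
    rfl

theorem mem_pair_L {m : ℕ} {x : F} : x ∈ R.pair.L m ↔ R.Integ x ∧ x ∈ R.L m := by
  rw [ChartPair.mem_L, pair_symm_pow_apply, R.mem_L_iff]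
  rfl

theorem pair_L_fg (m : ℕ) : (R.pair.L m).FG ∧ R.pair.KerRed m := by
  classical
  obtain ⟨d, v, hv, -, hli, hrep⟩ := R.exists_basis_L m
  have hvL : ∀ i, v i ∈ R.pair.L m := fun i => R.mem_pair_L.mpr ⟨(hv i).2, (hv i).1⟩
  have hsmul : ∀ (a : A) (y : F), a • y = ι' (a : K) * y := fun a y => by
    rw [← Algebra.smul_def]; rfl
  refine ⟨⟨Finset.univ.image v, le_antisymm (Submodule.span_le.mpr ?_) fun x hx => ?_⟩,
    fun x hx hx0 => ?_⟩
  · intro y hy
    rw [Finset.coe_image, Finset.coe_univ, Set.image_univ] at hy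
    obtain ⟨i, rfl⟩ := hy
    exact hvL i
  · obtain ⟨h1, h2⟩ := R.mem_pair_L.mp hx
    obtain ⟨c, rfl⟩ := hrep x h2 h1
    refine sum_mem fun i _ => ?_
    rw [← hsmul]
    exact Submodule.smul_mem _ _ (Submodule.subset_span (by simp))
  · obtain ⟨h1, h2⟩ := R.mem_pair_L.mp hx
    obtain ⟨c, rfl⟩ := hrep x h2 h1
    replace hx0 : R.res (∑ i, ι' (c i : K) * v i) = 0 := hx0
    rw [R.res_sum _ _ fun i _ => Integ.const_mul R (c i).2 (hv i).2] at hx0
    have hz := Fintype.linearIndependent_iff.mp hli (fun i => residue A (c i)) (by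
      rw [← hx0]
      exact Finset.sum_congr rfl fun i _ => (R.res_const_mul (c i) (hv i).2).symm)
    refine sum_mem fun i _ => ?_
    rw [← hsmul]
    exact Submodule.smul_mem_smul ((IsLocalRing.residue_eq_zero_iff _).mp (hz i)) (hvL i)

end Rep

namespace Data

variable {D : Data K A F Fs} {n : ℕ}

/-- in the large twists the chart images cut out the restrictions -/
theorem pair_RL_eq_T (hn : n ≠ 0) {R : Rep D.toCore n} {ζ : D.ι → 𝕜} (hζ : IsJump R ζ) {m : ℕ}
    (hm : ∀ a ∈ D.toCore.P m, (∀ s c, Val (D.pt false s) (a false) c →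
      Val (D.pt true s) (a true) (ζ s * c)) → a ∈ R.T m) :
    R.pair.RL m = R.pair.T m := by
  refine le_antisymm (R.pair.RL_le_T m) fun a ha => ?_
  obtain ⟨⟨x, hxI, hx0, hxa⟩, y, hyI, hy0, hya⟩ := ha
  replace hxa : R.res x = a := hxa
  replace hya : R.res y = (R.pair.Jb ^ m).symm a := hya
  obtain ⟨m1, hm1⟩ := R.exists_L_of_onFin hx0
  obtain ⟨m2, hm2⟩ := R.exists_L_of_onInf hy0
  have hI2 : R.Integ (D.J ^ m2 * y) := by
    rw [← R.pair_pow_apply m2 y]
    exact (R.pair.pow_mem m2 y).mpr hyI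
  have hres2 : ∀ b, R.res (D.J ^ m2 * y) b = D.Jbar ^ m2 * R.res y b := fun b => by
    have h := R.pair.r_pow m2 hyI
    rw [R.pair_pow_apply, R.pairb_pow_apply] at h
    exact congrFun h b
  have hya' : ∀ b, D.Jbar ^ m * R.res y b = a b := fun b => by
    have h : (R.pair.Jb ^ m) (R.res y) = a := by rw [hya, LinearEquiv.apply_symm_apply]
    rw [R.pairb_pow_apply] at h
    exact congrFun h b
  have hP : a ∈ D.toCore.P m := D.toCore.mem_P.mpr fun b => mem_target.mpr fun Q => by
    have hJ0 := D.toCore.Jbar_ne_zero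
    have h1 := mem_target.mp (R.res_target hn hm1 hxI b) Q
    rw [hxa] at h1
    rcases le_or_gt 0 (Q.ord D.Jbar) with hQ | hQ
    · rw [max_eq_right (by omega), mul_zero] at h1 ⊢
      exact h1
    · have h2 := mem_target.mp (R.res_target hn hm2 hI2 b) Q
      rw [hres2] at h2
      rw [max_eq_left (by omega)] at h2 ⊢
      rw [← hya' b]
      rcases eq_or_ne (R.res y b) 0 with h0 | h0
      · rw [h0, mul_zero]; exact RR.Bd.zero
      rw [RR.bd_iff_ord (mul_ne_zero (pow_ne_zero _ hJ0) h0),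
        Q.ord_mul (pow_ne_zero _ hJ0) h0, RR.ord_pow] at h2 ⊢
      have e : ∀ k : ℕ, (k : ℤ) * -Q.ord D.Jbar = -((k : ℤ) * Q.ord D.Jbar) := fun k => mul_neg _ _
      rw [e] at h2 ⊢
      omega
  obtain ⟨z, hz, hzI, hza⟩ := hm a hP fun s c hc => by
    have h := hζ m1 x hm1 hxI s c (by rw [hxa]; exact hc)
    rwa [hxa] at h
  exact ⟨z, R.mem_pair_L.mpr ⟨hzI, hz⟩, hza⟩

/-- saturation of the sections of a large twist -/
theorem saturate (hn : n ≠ 0) {R : Rep D.toCore n} {ζ : D.ι → 𝕜} (hζ : IsJump R ζ) {m m' : ℕ}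
    (hmm : m ≤ m') (hm : ∀ a ∈ D.toCore.P m, (∀ s c, Val (D.pt false s) (a false) c →
      Val (D.pt true s) (a true) (ζ s * c)) → a ∈ R.T m) {c : A} {u w : F}
    (hu : u ∈ R.L m') (hu' : R.Integ u) (hw : R.Integ w)
    (h : R.OnInf ((D.J ^ m)⁻¹ * (u - ι' (c : K) * w))) :
    ∃ v z : F, v ∈ R.L m ∧ R.Integ v ∧ z ∈ R.L m' ∧ R.Integ z ∧ u = v + ι' (c : K) * z := by
  have hsmul : ∀ (a : A) (y : F), a • y = ι' (a : K) * y := fun a y => by
    rw [← Algebra.smul_def]; rfl
  obtain ⟨hfg, hker⟩ := R.pair_L_fg m'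
  obtain ⟨v, hv, z, hz, huz⟩ := R.pair.saturation hmm (pair_RL_eq_T hn hζ hm) hker hfg
    (c := c) (u := u) (w := w) (R.mem_pair_L.mpr ⟨hu', hu⟩) hw
    (by rw [hsmul, R.pair_symm_pow_apply]; exact h)
  obtain ⟨hv1, hv2⟩ := R.mem_pair_L.mp hv
  obtain ⟨hz1, hz2⟩ := R.mem_pair_L.mp hz
  exact ⟨v, z, hv2, hv1, hz2, hz1, by rw [← hsmul]; exact huz⟩

end Data

end FLTAgent.SS
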