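import Fermat.Agent.SS.Injective

/-! The toric classes of order `n` and the semilinear automorphisms acting on them. -/

set_option autoImplicit false
set_option linter.unusedSectionVars false

noncomputable section

open AlgebraicCurve IsLocalRing
open FLTAgent.RR (Bd Pol)
open FLTAgent.Reduction (Val)

namespace FLTAgent.SS

variable {K : Type*} [Field K] [IsAlgClosed K] [CharZero K] {A : ValuationSubring K}
  {F : Type*} [Field F] [Algebra K F] [RR.FnField K F]
  {Fs : Type*} [Field Fs] [Algebra (ResidueField A) Fs]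

local notation "𝕜" => ResidueField A
local notation "ι'" => algebraMap K F

namespace Data

variable (D : Data K A F Fs)

/-- classes represented by twists with a jump -/
def Toric (n : ℕ) (y : Pic0 K F) : Prop :=
  ∃ (E : Divisor.degZero (K := K) (F := F)) (ζ : D.ι → 𝕜),
    Pic0.mk E = y ∧ (∀ s, ζ s ^ n = 1) ∧ D.HasJump n (E : Divisor K F) ζ

variable {D} {n : ℕ}

/-- a semilinear automorphism acting by `Q`-th powers on the constants acts by `Q` on toric classes -/
theorem Toric.smul_eq (hS : D.Surj) (hA : Arch A) (hn : (n : 𝕜) ≠ 0) {y : Pic0 K F}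
    (hy : D.Toric n y) {g : SemilinearAut K F} {gs : Fs ≃+* Fs} (hg : Compat D.toCore g gs)
    {χ : 𝕜 →+* 𝕜} (hpt : ∀ b s z c, Val (D.pt b s) z c → Val (D.pt b s) (gs z) (χ c)) (Q : ℕ)
    (hQ : ∀ ζ : 𝕜, ζ ^ n = 1 → χ ζ = ζ ^ Q) : g • y = Q • y := by
  have hn0 : n ≠ 0 := fun h => hn (by simp [h])
  obtain ⟨E, ζ, rfl, hζ, hJ⟩ := hy
  have h1 := (hJ.map hn0 hS hg hpt).add hn0 hS ((hJ.nsmul hn0 hS Q).neg hn0 hS)
  have e : (fun s => χ (ζ s)) * (ζ ^ Q)⁻¹ = 1 := funext fun s => by
    rw [Pi.mul_apply, Pi.inv_apply, Pi.pow_apply, Pi.one_apply, hQ _ (hζ s), mul_inv_cancel₀]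
    exact pow_ne_zero _ fun h0 => by
      have := hζ s
      rw [h0, zero_pow hn0] at this
      exact zero_ne_one this
  rw [e] at h1
  obtain ⟨x, hx, hdiv⟩ := principal_of_jump_one hS hA hn h1
  rw [SemilinearAut.pic0_smul_mk, ← sub_eq_zero]
  have hmk : Q • Pic0.mk E = Pic0.mk (Q • E) :=
    (map_nsmul (QuotientAddGroup.mk' _) Q E).symm
  rw [hmk]
  show (QuotientAddGroup.mk' _) (SemilinearAut.degZeroSMulHom g E) - (QuotientAddGroup.mk' _) (Q • E) = 0
  rw [← map_sub, QuotientAddGroup.mk'_apply, QuotientAddGroup.eq_zero_iff,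
    AddSubgroup.mem_addSubgroupOf]
  refine ⟨x, hx, fun P => ?_⟩
  rw [← hdiv P, sub_eq_add_neg]
  simp [SemilinearAut.coe_degZeroSMulHom]

/-- when the residues of the units differ by `n`-th powers, `g • y - y` is toric -/
theorem toric_smul_sub (hS : D.Surj) (hn : n ≠ 0) {y : Pic0 K F} (hy : n • y = 0)
    {g : SemilinearAut K F} {gs : Fs ≃+* Fs} (hg : Compat D.toCore g gs)
    (H : ∀ (E : Divisor.degZero (K := K) (F := F)) (f : F), Pic0.mk E = y → f ≠ 0 →
      (∀ P : Place K F, (n : ℤ) * (E : Divisor K F) P = P.ord f) → ∀ (b : Bool) (c : K), c ≠ 0 →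
      ι' c * f ∈ D.G b → D.red b (ι' c * f) ≠ 0 →
      ∃ h : Fs, h ≠ 0 ∧ gs (D.red b (ι' c * f)) = D.red b (ι' c * f) * h ^ n) :
    D.Toric n (g • y - y) := by
  obtain ⟨E, rfl⟩ := Pic0.mk_surjective y
  have hp : (n • E : Divisor.degZero (K := K) (F := F)).1 ∈ Divisor.principal (K := K) (F := F) := by
    have h : (QuotientAddGroup.mk' _) (n • E) = (0 : Pic0 K F) := by
      rw [map_nsmul]; exact hy
    rwa [QuotientAddGroup.mk'_apply, QuotientAddGroup.eq_zero_iff, AddSubgroup.mem_addSubgroupOf]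
      at h
  obtain ⟨f, hf, hfE⟩ := hp
  have hord : ∀ P : Place K F, (n : ℤ) * (E : Divisor K F) P = P.ord f := fun P => by
    rw [← hfE P]; simp
  choose c hc hu hur using fun b => D.exists_scale b f hf
  choose h hh hgh using fun b => H E f rfl hf hord b (c b) (hc b) (hu b) (hur b)
  choose α hα using fun b =>
    IsAlgClosed.exists_pow_nat_eq (c b / SemilinearAut.baseAut g (c b)) (Nat.pos_of_ne_zero hn)
  have hgc : ∀ b, SemilinearAut.baseAut g (c b) ≠ 0 := fun b => (_root_.map_ne_zero _).mpr (hc b)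
  have hgf : g • f ≠ 0 := (smul_ne_zero_iff_ne g).mpr hf
  have hq : ∀ b, (ι' (α b ^ n))⁻¹ * (g • f / f) = (g • (ι' (c b) * f)) * (ι' (c b) * f)⁻¹ := by
    intro b
    rw [hα, map_div₀, inv_div, smul_mul', SemilinearAut.smul_algebraMap, mul_inv,
      div_eq_mul_inv, div_eq_mul_inv]
    ring
  let R : Rep D.toCore n :=
    { E := g • (E : Divisor K F) - (E : Divisor K F)
      f := g • f / f
      α := α
      h := h
      degree_E := by
        rw [map_sub, SemilinearAut.degree_smul, sub_self]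
      f_ne := div_ne_zero hgf hf
      ord_f := fun P => by
        have h1 := SemilinearAut.ord_smul g (g⁻¹ • P) f
        rw [smul_inv_smul] at h1
        rw [div_eq_mul_inv, P.ord_mul hgf (inv_ne_zero hf), P.ord_inv, h1, ← hord, ← hord P,
          Finsupp.sub_apply, SemilinearAut.divisor_smul_apply]
        ring
      α_ne := fun b h0 => by
        have := hα b
        rw [h0, zero_pow hn, eq_comm, div_eq_zero_iff] at this
        exact this.elim (hc b) (hgc b)
      h_ne := hh
      mem := fun b => by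
        rw [hq b]
        exact mul_mem (hg.mem b _ (hu b)) (D.toCore.inv_mem b (hu b) (hur b)).1
      red_eq := fun b => by
        rw [hq b, D.red_mul b _ (hg.mem b _ (hu b)) _ (D.toCore.inv_mem b (hu b) (hur b)).1,
          hg.red b _ (hu b), (D.toCore.inv_mem b (hu b) (hur b)).2, hgh b]
        field_simp [hur b] }
  obtain ⟨ζ, hζ1, hζ⟩ := exists_isJump hn hS R
  refine ⟨SemilinearAut.degZeroSMulHom g E - E, ζ, ?_, hζ1, R, by simp [R], hζ⟩
  rw [SemilinearAut.pic0_smul_mk]
  rfl

end Data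

end FLTAgent.SS
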