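import Fermat.Agent.SS.Basic

/-! Sections of a twist of `m·poles J` by a divisor of finite order, and their restrictions. -/

set_option autoImplicit false
set_option linter.unusedSectionVars false

noncomputable section

open AlgebraicCurve IsLocalRing
open FLTAgent.RR (Bd Pol)
open FLTAgent.Reduction (Val)

namespace FLTAgent.SS

variable {K : Type*} [Field K] [IsAlgClosed K] [CharZero K] {A : ValuationSubring K}
  {F : Type*} [Field F] [Algebra K F] [RR.FnField K F]
  {Fs : Type*} [Field Fs] [Algebra (ResidueField A) Fs]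

local notation "𝕜" => ResidueField A
local notation "ι'" => algebraMap K F

theorem mem_rr {D : Divisor K F} {x : F} :
    x ∈ riemannRochSpace D ↔ ∀ P : Place K F, Bd P x (D P) := Iff.rfl

theorem rr_prod {σ : Type*} (s : Finset σ) (x : σ → F) (D : σ → Divisor K F)
    (h : ∀ i ∈ s, x i ∈ riemannRochSpace (D i)) :
    (∏ i ∈ s, x i) ∈ riemannRochSpace (∑ i ∈ s, D i) := by
  classical
  induction s using Finset.induction with
  | empty =>
    rw [Finset.prod_empty, Finset.sum_empty, mem_rr]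
    intro P
    have := RR.Bd.of_algebraMap (v := P) (1 : K)
    simpa using this
  | insert a s ha ih =>
    rw [Finset.prod_insert ha, Finset.sum_insert ha, mem_rr]
    intro P
    rw [Finsupp.add_apply]
    exact RR.Bd.mul (mem_rr.mp (h a (by simp)) P) (mem_rr.mp (ih fun i hi => h i (by simp [hi])) P)

namespace Rep

variable {C : Core K A F Fs} {n : ℕ} (R : Rep C n)

/-- sections of `m·poles J + E` -/
def L (m : ℕ) : Submodule K F := riemannRochSpace (m • Pol (K := K) C.J + R.E)

/-- integral on both components, in the scales of `R` -/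
def Integ (x : F) : Prop := ∀ b, ι' (R.α b) * x ∈ C.G b

/-- restriction to the two components -/
def res (x : F) : Bool → Fs := fun b => C.red b (ι' (R.α b) * x) * R.h b

theorem Integ.add {x y : F} (hx : R.Integ x) (hy : R.Integ y) : R.Integ (x + y) := fun b => by
  rw [mul_add]; exact add_mem (hx b) (hy b)

theorem Integ.zero : R.Integ 0 := fun b => by rw [mul_zero]; exact zero_mem _

theorem Integ.sum {σ : Type*} (s : Finset σ) (x : σ → F) (h : ∀ i ∈ s, R.Integ (x i)) :
    R.Integ (∑ i ∈ s, x i) := fun b => by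
  rw [Finset.mul_sum]; exact sum_mem fun i hi => h i hi b

theorem Integ.const_mul {a : K} (ha : a ∈ A) {x : F} (hx : R.Integ x) : R.Integ (ι' a * x) :=
  fun b => by
    rw [mul_left_comm]; exact C.const_mul_mem b ha (hx b)

theorem res_zero : R.res 0 = 0 := funext fun b => by simp [res, C.red_zero]

theorem res_add {x y : F} (hx : R.Integ x) (hy : R.Integ y) :
    R.res (x + y) = R.res x + R.res y := funext fun b => by
  simp [res, mul_add, C.red_add b _ (hx b) _ (hy b), add_mul]

theorem res_const_mul (a : A) {x : F} (hx : R.Integ x) :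
    R.res (ι' (a : K) * x) = residue A a • R.res x := funext fun b => by
  simp only [res, Pi.smul_apply]
  rw [mul_left_comm, C.red_const_mul b a (hx b), smul_mul_assoc]

theorem res_sum {σ : Type*} (s : Finset σ) (x : σ → F) (h : ∀ i ∈ s, R.Integ (x i)) :
    R.res (∑ i ∈ s, x i) = ∑ i ∈ s, R.res (x i) := funext fun b => by
  simp only [res, Finset.sum_apply]
  rw [Finset.mul_sum, C.red_sum b _ _ (fun i hi => h i hi b), Finset.sum_mul]

/-- restrictions of the integral sections -/
def T (m : ℕ) : Submodule 𝕜 (Bool → Fs) where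
  carrier := {a | ∃ x ∈ R.L m, R.Integ x ∧ R.res x = a}
  zero_mem' := ⟨0, zero_mem _, Integ.zero R, R.res_zero⟩
  add_mem' := by
    rintro _ _ ⟨x, hx, hx', rfl⟩ ⟨y, hy, hy', rfl⟩
    exact ⟨x + y, add_mem hx hy, hx'.add R hy', R.res_add hx' hy'⟩
  smul_mem' := by
    rintro c _ ⟨x, hx, hx', rfl⟩
    obtain ⟨a, rfl⟩ := residue_surjective c
    exact ⟨ι' (a : K) * x, by rw [← Algebra.smul_def]; exact (R.L m).smul_mem _ hx,
      Integ.const_mul R a.2 hx', R.res_const_mul a hx'⟩

theorem L_mono {m m' : ℕ} (h : m ≤ m') : R.L m ≤ R.L m' := fun x hx P => by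
  refine (mem_rr.mp hx P).mono ?_
  simp only [Finsupp.add_apply, Finsupp.smul_apply, RR.Pol_apply, nsmul_eq_mul]
  have h2 : (0 : ℤ) ≤ max (-P.ord C.J) 0 := le_max_right _ _
  have h3 : (m : ℤ) ≤ m' := by exact_mod_cast h
  nlinarith

theorem T_mono {m m' : ℕ} (h : m ≤ m') : R.T m ≤ R.T m' := by
  rintro _ ⟨x, hx, hx', rfl⟩
  exact ⟨x, R.L_mono h hx, hx', rfl⟩

theorem finiteDimensional_L (m : ℕ) : FiniteDimensional K (R.L m) := RR.finiteDimensional_rr _

/-- an orthogonal basis of the sections -/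
theorem exists_basis_L (m : ℕ) : ∃ (d : ℕ) (v : Fin d → F), (∀ i, v i ∈ R.L m ∧ R.Integ (v i)) ∧
    Module.finrank K (R.L m) = d ∧ LinearIndependent 𝕜 (fun i => R.res (v i)) ∧
    ∀ x ∈ R.L m, R.Integ x → ∃ c : Fin d → A, x = ∑ i, ι' (c i : K) * v i := by
  classical
  obtain ⟨d, v, hspan, hint, hli⟩ :=
    C.exists_basis R.α R.α_ne (R.L m) (R.finiteDimensional_L m)
  have hmem : ∀ i, v i ∈ R.L m := fun i => hspan ▸ Submodule.subset_span ⟨i, rfl⟩
  refine ⟨d, v, fun i => ⟨hmem i, fun b => hint b i⟩, ?_,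
    Core.linearIndependent_residue_mul R.h_ne hli, fun x hx hx' => ?_⟩
  · rw [← hspan, finrank_span_eq_card (C.linearIndependent_of_red hint hli), Fintype.card_fin]
  · rw [← hspan, Submodule.mem_span_range_iff_exists_fun] at hx
    obtain ⟨c, rfl⟩ := hx
    simp only [Algebra.smul_def] at hx' ⊢
    exact ⟨fun i => ⟨c i, C.coeff_mem hint hli hx' i⟩, rfl⟩

theorem finrank_T (m : ℕ) : FiniteDimensional 𝕜 (R.T m) ∧
    Module.finrank 𝕜 (R.T m) = Module.finrank K (R.L m) := by
  obtain ⟨d, v, hv, hd, hli, hrep⟩ := R.exists_basis_L m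
  have hT : R.T m = Submodule.span 𝕜 (Set.range fun i => R.res (v i)) := by
    refine le_antisymm ?_ (Submodule.span_le.mpr ?_)
    · rintro _ ⟨x, hx, hx', rfl⟩
      obtain ⟨c, rfl⟩ := hrep x hx hx'
      rw [R.res_sum _ _ fun i _ => Integ.const_mul R (c i).2 (hv i).2]
      refine sum_mem fun i _ => ?_
      rw [R.res_const_mul (c i) (hv i).2]
      exact Submodule.smul_mem _ _ (Submodule.subset_span ⟨i, rfl⟩)
    · rintro _ ⟨i, rfl⟩
      exact ⟨v i, (hv i).1, (hv i).2, rfl⟩
  rw [hT, hd, finrank_span_eq_card hli, Fintype.card_fin]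
  exact ⟨FiniteDimensional.span_of_finite 𝕜 (Set.finite_range _), rfl⟩

theorem f_rr : R.f ∈ riemannRochSpace (-((n : ℤ) • R.E)) := fun P => by
  show Bd P R.f _
  rw [RR.bd_iff]
  right
  rw [Finsupp.neg_apply, Finsupp.smul_apply, smul_eq_mul, R.ord_f]
  omega

/-- a product of `n` sections, trivialised by `f` -/
theorem prod_spec {m : ℕ} (x : Fin n → F) (hx : ∀ i, x i ∈ R.L m) (hx' : ∀ i, R.Integ (x i)) :
    (∏ i, x i) * R.f ∈ riemannRochSpace ((n * m) • Pol (K := K) C.J) ∧
      ∀ b, (∏ i, x i) * R.f ∈ C.G b ∧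
        C.red b ((∏ i, x i) * R.f) = ∏ i, R.res (x i) b := by
  refine ⟨fun P => ?_, fun b => ?_⟩
  · have h1 := rr_prod Finset.univ x (fun _ => m • Pol (K := K) C.J + R.E) (fun i _ => hx i)
    have h2 := RR.Bd.mul (mem_rr.mp h1 P) (mem_rr.mp R.f_rr P)
    refine h2.mono (le_of_eq ?_)
    simp [mul_comm, mul_assoc]
  · have e : (∏ i, x i) * R.f
        = (∏ i, (ι' (R.α b) * x i)) * ((ι' (R.α b ^ n))⁻¹ * R.f) := by
      rw [Finset.prod_mul_distrib, Finset.prod_const, Finset.card_univ, Fintype.card_fin, map_pow]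
      have : ι' (R.α b) ^ n ≠ 0 := pow_ne_zero _ ((_root_.map_ne_zero _).mpr (R.α_ne b))
      field_simp
    have hP : (∏ i, ι' (R.α b) * x i) ∈ C.G b := prod_mem fun i _ => hx' i b
    rw [e]
    refine ⟨mul_mem hP (R.mem b), ?_⟩
    rw [C.red_mul b _ hP _ (R.mem b), C.red_prod b _ _ fun i _ => hx' i b, R.red_eq b]
    simp only [res, Finset.prod_mul_distrib, Finset.prod_const, Finset.card_univ, Fintype.card_fin]

theorem res_target (hn : n ≠ 0) {m : ℕ} {x : F} (hx : x ∈ R.L m) (hx' : R.Integ x) (b : Bool) :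
    R.res x b ∈ target (k := 𝕜) C.Jbar m := by
  obtain ⟨h1, h2⟩ := R.prod_spec (fun _ => x) (fun _ => hx) fun _ => hx'
  have h3 := C.pole_bound (n * m) _ h1 (fun b => (h2 b).1) b
  rw [(h2 b).2, Finset.prod_const, Finset.card_univ, Fintype.card_fin, mem_target] at h3
  rw [mem_target]
  intro Q
  refine Core.bd_pow_iff hn ?_
  have h4 := h3 Q
  rwa [Nat.cast_mul, mul_assoc] at h4

end Rep

/-- two large twists of degree zero have spaces of the same dimension -/
theorem finrank_twist (C : Core K A F Fs) : ∃ m0 : ℕ, ∀ m, m0 ≤ m → ∀ E : Divisor K F,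
    Divisor.degree E = 0 →
    Module.finrank K (riemannRochSpace (m • Pol (K := K) C.J + E))
      = Module.finrank K (riemannRochSpace (m • Pol (K := K) C.J)) := by
  set hx := C.transc_J
  refine ⟨2 * RR.genusX hx, fun m hm E hE => ?_⟩
  have hpos := RR.ndeg_pos hx
  have key : ∀ D : Divisor K F, Divisor.degree D = (m : ℤ) * RR.ndeg K C.J →
      (RR.ell D : ℤ) = Divisor.degree D + 1 - RR.genusX hx := by
    intro D hD
    have h := RR.rr hx D
    have hneg : Divisor.degree (RR.Kd hx - D) < 0 := by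
      rw [map_sub, RR.degree_Kd, hD]
      nlinarith
    rw [RR.ell_of_degree_neg hneg] at h
    simpa using h
  have d1 : Divisor.degree (m • Pol (K := K) C.J) = (m : ℤ) * RR.ndeg K C.J := by
    rw [map_nsmul, RR.degree_Pol hx, nsmul_eq_mul]
  have d2 : Divisor.degree (m • Pol (K := K) C.J + E) = (m : ℤ) * RR.ndeg K C.J := by
    rw [map_add, d1, hE, add_zero]
  have h1 := key _ d1
  have h2 := key _ d2
  rw [d1] at h1
  rw [d2, ← h1] at h2
  exact_mod_cast h2

end FLTAgent.SS
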